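import Mathlib

/-!
GATE-B / B3-TOP (helper95): **the exported package of B3 AUT-COH**, pinned as Lean structures so that
B4-DATUM / B7 / B8 / B9 / (UNIT) can be written against it in hypothesis form.  Mathlib only.

* `mono D a`            : the monomial operator `∏ᵢ (D i)^(a i)` of commuting endomorphisms `D i`.
* `FreeLevel O 𝕋 M0 act0 k N` : ONE Taylor–Wiles level over a base module `M0`
  (`M0 = H¹(Γ, O)_𝔪` at `Q = ∅`, an `O`-module with an action `act0` of a commutative `O`-algebra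
  `𝕋` of Hecke symbols): a module `M` (`= H¹(Γ ∩ Γ_H(Q), O)_{𝔪_Q}`) with
  - `k` commuting diamond generators `D i` of orders dividing `N i` (`= p^n`),
  - the `𝕋`-action `act` commuting with the diamonds,
  - **Δ_Q-freeness in basis form**: `e : Fin d → M` and the monomials `mono D a (e j)`,
    `a i < N i`, form an `O`-basis of `M`  (`M ≃ O[Δ_Q]^d`, `Δ_Q = ∏ ℤ/N i`),
  - **coinvariants**: `π : M → M0` onto, `ker π = ∑ᵢ (D i - 1) M`, Hecke-equivariant, and the
    `π (e j)` are an `O`-basis of `M0` (so `d = rank_O M0` does not depend on `Q`).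
* `TWLevelData` : the two levels `M¹_Q` (over `M¹_∅`) and `M^χ_Q` (over `M^χ_∅`) of CASE B together
  with the Hecke- and diamond-equivariant isomorphism `M¹_Q/ϖ ≃ M^χ_Q/ϖ`.
* `FreeLevel.trivial` : the level `k = 0` (sanity instance).
-/

set_option autoImplicit false

namespace Fermat.Agent.GB.B3.TWLevel

open Module
open scoped Pointwise

/-- the monomial operator `∏ᵢ (D i)^(a i)` (in the order of `Fin k`) -/
def mono {O M : Type*} [CommRing O] [AddCommGroup M] [Module O M] {k : ℕ}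
    (D : Fin k → Module.End O M) (a : Fin k → ℕ) : Module.End O M :=
  (List.ofFn fun i => D i ^ a i).prod

/-- **One Taylor–Wiles level** over the base module `M0`. -/
structure FreeLevel (O : Type) [CommRing O] (𝕋 : Type) [CommRing 𝕋] [Algebra O 𝕋]
    (M0 : Type) [AddCommGroup M0] [Module O M0] (act0 : 𝕋 →ₐ[O] Module.End O M0)
    (k : ℕ) (N : Fin k → ℕ) : Type 1 where
  /-- the module `M_Q` -/
  M : Type
  [instAddCommGroup : AddCommGroup M]
  [instModule : Module O M]
  /-- the Hecke action -/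
  act : 𝕋 →ₐ[O] Module.End O M
  /-- the diamond generators -/
  D : Fin k → Module.End O M
  D_pow : ∀ i, D i ^ N i = 1
  D_comm : ∀ i j, D i * D j = D j * D i
  act_D : ∀ t i, act t * D i = D i * act t
  /-- the rank over `O[Δ_Q]` -/
  d : ℕ
  /-- an `O[Δ_Q]`-basis -/
  e : Fin d → M
  /-- Δ_Q-freeness, basis form -/
  basis : Basis ((∀ i : Fin k, Fin (N i)) × Fin d) O M
  basis_eq : ∀ a j, basis (a, j) = mono D (fun i => (a i : ℕ)) (e j)
  /-- the projection onto the coinvariants -/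
  π : M →ₗ[O] M0
  π_surjective : Function.Surjective π
  ker_π : ∀ x, π x = 0 ↔ x ∈ ⨆ i, LinearMap.range (D i - 1)
  π_act : ∀ t x, π (act t x) = act0 t (π x)
  /-- the images of the `e j` are an `O`-basis of the base module -/
  basis0 : Basis (Fin d) O M0
  basis0_eq : ∀ j, basis0 j = π (e j)

attribute [instance] FreeLevel.instAddCommGroup FreeLevel.instModule

/-- **The B3 package of CASE B at one Taylor–Wiles set**: the levels `M¹_Q`, `M^χ_Q` and the
equivariant isomorphism of their reductions modulo `ϖ`. -/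
structure TWLevelData (O : Type) [CommRing O] (ϖ : O) (𝕋 : Type) [CommRing 𝕋] [Algebra O 𝕋]
    (M0 : Type) [AddCommGroup M0] [Module O M0] (act0 : 𝕋 →ₐ[O] Module.End O M0)
    (M0χ : Type) [AddCommGroup M0χ] [Module O M0χ] (act0χ : 𝕋 →ₐ[O] Module.End O M0χ)
    (k : ℕ) (N : Fin k → ℕ) : Type 1 where
  /-- `M¹_Q` -/
  L1 : FreeLevel O 𝕋 M0 act0 k N
  /-- `M^χ_Q` -/
  Lχ : FreeLevel O 𝕋 M0χ act0χ k N
  /-- `M¹_Q / ϖ ≃ M^χ_Q / ϖ` -/
  U : (L1.M ⧸ (ϖ • ⊤ : Submodule O L1.M)) ≃ₗ[O] (Lχ.M ⧸ (ϖ • ⊤ : Submodule O Lχ.M))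
  U_act : ∀ (t : 𝕋) (x : L1.M) (y : Lχ.M),
    U (Submodule.Quotient.mk x) = Submodule.Quotient.mk y →
      U (Submodule.Quotient.mk (L1.act t x)) = Submodule.Quotient.mk (Lχ.act t y)
  U_D : ∀ (i : Fin k) (x : L1.M) (y : Lχ.M),
    U (Submodule.Quotient.mk x) = Submodule.Quotient.mk y →
      U (Submodule.Quotient.mk (L1.D i x)) = Submodule.Quotient.mk (Lχ.D i y)

/-! ### sanity instance: `k = 0` -/

/-- the level `Q = ∅` -/
noncomputable def FreeLevel.trivial (O : Type) [CommRing O] (𝕋 : Type) [CommRing 𝕋] [Algebra O 𝕋]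
    (M0 : Type) [AddCommGroup M0] [Module O M0] (act0 : 𝕋 →ₐ[O] Module.End O M0)
    {d : ℕ} (b0 : Basis (Fin d) O M0) :
    FreeLevel O 𝕋 M0 act0 0 Fin.elim0 where
  M := M0
  act := act0
  D := Fin.elim0
  D_pow := fun i => i.elim0
  D_comm := fun i => i.elim0
  act_D := fun _ i => i.elim0
  d := d
  e := b0
  basis := b0.reindex (Equiv.uniqueProd (Fin d) (∀ i : Fin 0, Fin (Fin.elim0 i))).symm
  basis_eq := by
    intro a j
    simp [mono]
  π := LinearMap.id
  π_surjective := Function.surjective_id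
  ker_π := by
    intro x
    rw [iSup_of_empty, Submodule.mem_bot]
    rfl
  π_act := fun _ _ => rfl
  basis0 := b0
  basis0_eq := fun _ => rfl

end Fermat.Agent.GB.B3.TWLevel
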