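import Mathlib

/-!
GATE-B / B3 (helper95): **homomorphisms of a finitely generated group into a torsion-free abelian
group are integral combinations**: `φ = ∑ᵢ φᵢ • aᵢ` with `φᵢ : Γ → ℤ` and `aᵢ ∈ A` ℤ-linearly
independent (the value group `φ(Γ)` is finitely generated and torsion free, hence free).
Used to transfer statements about `Hom(Γ, ℤ)` (the Manin `B`-model) to `Hom(Γ, O)`.
Mathlib only.
-/

set_option autoImplicit false
set_option linter.style.haveILetI false

namespace Fermat.Agent.GB.B3.HomBase

open Module

/-- `n ↦ n • a` -/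
def smulHom {A : Type*} [AddCommGroup A] (a : A) : ℤ →+ A where
  toFun n := n • a
  map_zero' := zero_smul _ _
  map_add' _ _ := add_smul _ _ _

@[simp] theorem smulHom_apply {A : Type*} [AddCommGroup A] (a : A) (n : ℤ) :
    smulHom a n = n • a := rfl

variable {Γ : Type*} [Group Γ] {A : Type*} [AddCommGroup A]

/-- **Value-group decomposition.** -/
theorem exists_decomp [Group.FG Γ] [Module.IsTorsionFree ℤ A] (φ : Additive Γ →+ A) :
    ∃ (n : ℕ) (a : Fin n → A) (φi : Fin n → (Additive Γ →+ ℤ)),
      LinearIndependent ℤ a ∧ φ = ∑ i, (smulHom (a i)).comp (φi i) := by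
  classical
  obtain ⟨S, hS, hSfin⟩ := Group.fg_iff.mp (inferInstance : Group.FG Γ)
  -- the value module
  set V : Submodule ℤ A := Submodule.span ℤ ((fun g : Γ => φ (Additive.ofMul g)) '' S) with hV
  have hVfg : V.FG := Submodule.fg_span (hSfin.image _)
  haveI : Module.Finite ℤ V := Module.Finite.iff_fg.mpr hVfg
  haveI : Module.IsTorsionFree ℤ V := inferInstance
  -- all values lie in `V`
  have hmem : ∀ g : Γ, φ (Additive.ofMul g) ∈ V := by
    intro g
    have hg : g ∈ Subgroup.closure S := by rw [hS]; exact Subgroup.mem_top g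
    induction hg using Subgroup.closure_induction with
    | mem x hx => exact Submodule.subset_span ⟨x, hx, rfl⟩
    | one => rw [ofMul_one, map_zero]; exact V.zero_mem
    | mul x y _ _ hx hy => rw [ofMul_mul, map_add]; exact V.add_mem hx hy
    | inv x _ hx => rw [ofMul_inv, map_neg]; exact V.neg_mem hx
  obtain ⟨n, b⟩ : Σ n, Basis (Fin n) ℤ V := Module.basisOfFiniteTypeTorsionFree'
  -- the corestricted hom
  let φ' : Additive Γ →+ V :=
    { toFun := fun g => ⟨φ g, hmem (Additive.toMul g)⟩
      map_zero' := Subtype.ext (map_zero φ)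
      map_add' := fun g h => Subtype.ext (map_add φ g h) }
  refine ⟨n, fun i => (b i : A), fun i => (b.coord i).toAddMonoidHom.comp φ', ?_, ?_⟩
  · have := b.linearIndependent.map' V.subtype (Submodule.ker_subtype V)
    exact this
  · refine AddMonoidHom.ext fun g => ?_
    rw [AddMonoidHom.finsetSum_apply]
    have h1 := b.sum_repr (φ' g)
    have h2 := congrArg Subtype.val h1
    rw [Submodule.coe_sum] at h2
    show φ g = _
    rw [show φ g = ((φ' g : V) : A) from rfl, ← h2]
    refine Finset.sum_congr rfl fun i _ => ?_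
    rw [Submodule.coe_smul]
    rfl

end Fermat.Agent.GB.B3.HomBase
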