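import Mathlib
import Fermat.Agent.GM.B.System

/-!
# GATE-B / B3-EIS (helper46): Eisenstein classes for an arbitrary coset system

Abstract form of `GM/EisClass/CohTEis` on `GM/B/System.CosetSys`: let `S` be a coset system from
`Γ` to itself (a Hecke operator), `χ : Γ →* D` a homomorphism to a commutative group (e.g.
`d mod r` followed by the projection to `Δ_r`), and suppose the cocycle of `S` is `χ`-constant up
to a coboundary: `χ (c g i) * δ (σ g i) = χ g * δ i`.  Then every homomorphism `φ : Γ → A` killing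
`ker χ` satisfies `S.op φ = card ι • φ` (for `T_ℓ`: eigenvalue `ℓ + 1`).

* `op_eq_card_nsmul_of_coboundary` : the general (telescoping) form, `δ` arbitrary;
* `op_eq_card_nsmul_of_const` : the form for `χ`-constant systems (`χ (c g i) = χ g`), i.e. the
  systems that restrict to `ker χ`;
* `op_sub_card_nsmul_mem` / `exists_op_sub_card_nsmul_eq_nsmul` : the consumer form of helper95's
  freeness criterion: if `ψ : Γ → A` takes values in `q • A` on `ker χ` then
  `S.op ψ - card ι • ψ` takes values in `q • A`, and equals `q • ψ'` if `A` has no `q`-torsion.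
-/

set_option autoImplicit false

namespace Fermat.Agent.GB.B3.Eis

open Fermat.Agent.GM.B

variable {H G : Type*} [Group H] [Group G] {emb : H →* G} {Γ : Subgroup H}

section Lists

variable {A : Type*} [AddCommGroup A]

theorem phi_list_prod (φ : Additive Γ →+ A) (l : List Γ) :
    φ (Additive.ofMul l.prod) = (l.map fun x => φ (Additive.ofMul x)).sum := by
  induction l with
  | nil => simp
  | cons a l ih => rw [List.prod_cons, ofMul_mul, map_add, ih, List.map_cons, List.sum_cons]

/-- a homomorphism killing `ker χ` kills every product whose `χ`-values multiply to one -/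
theorem phi_sum_eq_zero {D : Type*} [CommGroup D] (χ : Γ →* D) (φ : Additive Γ →+ A)
    (hφ : ∀ g : Γ, χ g = 1 → φ (Additive.ofMul g) = 0) {ι : Type*} [Fintype ι] (γ : ι → Γ)
    (hγ : ∏ i, χ (γ i) = 1) : ∑ i, φ (Additive.ofMul (γ i)) = 0 := by
  classical
  have h1 : φ (Additive.ofMul ((Finset.univ : Finset ι).toList.map γ).prod)
      = ∑ i, φ (Additive.ofMul (γ i)) := by
    rw [phi_list_prod, List.map_map]
    exact Finset.sum_map_toList (Finset.univ : Finset ι) (fun i => φ (Additive.ofMul (γ i)))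
  have h2 : χ ((Finset.univ : Finset ι).toList.map γ).prod = 1 := by
    rw [map_list_prod, List.map_map, ← hγ]
    exact Finset.prod_map_toList (Finset.univ : Finset ι) (fun i => χ (γ i))
  rw [← h1]
  exact hφ _ h2

end Lists

section Main

variable (S : CosetSys emb Γ Γ) {D : Type*} [CommGroup D] (χ : Γ →* D)
  {A : Type*} [AddCommGroup A]

/-- **Eisenstein classes, telescoping form.**  If `χ (c g i) * δ (σ g i) = χ g * δ i` then every
homomorphism killing `ker χ` is an eigenvector of `S.op` with eigenvalue `card ι`. -/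
theorem op_eq_card_nsmul_of_coboundary (δ : S.ι → D)
    (hδ : ∀ (g : Γ) (i : S.ι), χ (S.c g i) * δ (S.σ g i) = χ g * δ i)
    (φ : Additive Γ →+ A) (hφ : ∀ g : Γ, χ g = 1 → φ (Additive.ofMul g) = 0) :
    S.op A φ = Fintype.card S.ι • φ := by
  refine AddMonoidHom.ext fun g => ?_
  obtain ⟨g, rfl⟩ : ∃ g' : Γ, Additive.ofMul g' = g := ⟨Additive.toMul g, rfl⟩
  rw [CosetSys.op_apply, AddMonoidHom.smul_apply]
  have hprod : ∏ i, χ (S.c g i * g⁻¹) = 1 := by
    have h1 : ∀ i, χ (S.c g i * g⁻¹) = δ i * (δ (S.σ g i))⁻¹ := by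
      intro i
      rw [map_mul, map_inv, eq_mul_inv_iff_mul_eq, mul_assoc, mul_comm (χ g)⁻¹, ← mul_assoc,
        hδ g i, mul_comm (χ g), mul_assoc, mul_inv_cancel, mul_one]
    simp_rw [h1]
    rw [Finset.prod_mul_distrib, Finset.prod_inv_distrib,
      Equiv.prod_comp (S.σ g) (fun i => δ i), mul_inv_cancel]
  have h0 := phi_sum_eq_zero χ φ hφ (fun i => S.c g i * g⁻¹) hprod
  simp_rw [ofMul_mul, ofMul_inv, map_add, map_neg] at h0
  rw [Finset.sum_add_distrib, Finset.sum_neg_distrib, Finset.sum_const, Finset.card_univ,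
    add_neg_eq_zero] at h0
  exact h0

/-- **Eisenstein classes for a `χ`-constant system** (`χ (c g i) = χ g`, i.e. a system which
restricts to `ker χ`). -/
theorem op_eq_card_nsmul_of_const (hχ : ∀ (g : Γ) (i : S.ι), χ (S.c g i) = χ g)
    (φ : Additive Γ →+ A) (hφ : ∀ g : Γ, χ g = 1 → φ (Additive.ofMul g) = 0) :
    S.op A φ = Fintype.card S.ι • φ :=
  op_eq_card_nsmul_of_coboundary S χ (fun _ => 1)
    (fun g i => by rw [mul_one, mul_one, hχ]) φ hφ

/-- **consumer form, pointwise**: if `ψ` takes values in `q • A` on `ker χ`, then so does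
`S.op ψ - card ι • ψ` everywhere. -/
theorem op_sub_card_nsmul_mem (δ : S.ι → D)
    (hδ : ∀ (g : Γ) (i : S.ι), χ (S.c g i) * δ (S.σ g i) = χ g * δ i) (q : ℕ)
    (ψ : Additive Γ →+ A) (hψ : ∀ g : Γ, χ g = 1 → ∃ a : A, ψ (Additive.ofMul g) = q • a)
    (g : Γ) : ∃ a : A, (S.op A ψ - Fintype.card S.ι • ψ) (Additive.ofMul g) = q • a := by
  let Q : AddSubgroup A := (nsmulAddMonoidHom (α := A) q).range
  let f : A →+ A ⧸ Q := QuotientAddGroup.mk' Q
  have hmem : ∀ x : A, f x = 0 ↔ ∃ a : A, x = q • a := by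
    intro x
    rw [show f x = (x : A ⧸ Q) from rfl, QuotientAddGroup.eq_zero_iff]
    constructor
    · rintro ⟨a, ha⟩
      exact ⟨a, ha.symm⟩
    · rintro ⟨a, ha⟩
      exact ⟨a, ha.symm⟩
  have hkill : ∀ g : Γ, χ g = 1 → (f.comp ψ) (Additive.ofMul g) = 0 := by
    intro g hg
    rw [AddMonoidHom.comp_apply]
    exact (hmem _).mpr (hψ g hg)
  have h1 := op_eq_card_nsmul_of_coboundary S χ δ hδ (f.comp ψ) hkill
  rw [CosetSys.op_comp_hom] at h1
  refine (hmem _).mp ?_
  have h2 := DFunLike.congr_fun h1 (Additive.ofMul g)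
  rw [AddMonoidHom.comp_apply, AddMonoidHom.smul_apply, AddMonoidHom.comp_apply] at h2
  rw [AddMonoidHom.sub_apply, AddMonoidHom.smul_apply, map_sub, map_nsmul, h2, sub_self]

/-- **consumer form, as a homomorphism**: if moreover `A` has no `q`-torsion, then
`S.op ψ - card ι • ψ = q • ψ'` for a homomorphism `ψ'`. -/
theorem exists_op_sub_card_nsmul_eq_nsmul (δ : S.ι → D)
    (hδ : ∀ (g : Γ) (i : S.ι), χ (S.c g i) * δ (S.σ g i) = χ g * δ i) (q : ℕ)
    (hA : ∀ a : A, q • a = 0 → a = 0)
    (ψ : Additive Γ →+ A) (hψ : ∀ g : Γ, χ g = 1 → ∃ a : A, ψ (Additive.ofMul g) = q • a) :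
    ∃ ψ' : Additive Γ →+ A, S.op A ψ - Fintype.card S.ι • ψ = q • ψ' := by
  have hinj : ∀ a b : A, q • a = q • b → a = b := by
    intro a b hab
    have := hA (a - b) (by rw [smul_sub, hab, sub_self])
    exact sub_eq_zero.mp this
  have hex := op_sub_card_nsmul_mem S χ δ hδ q ψ hψ
  choose v hv using hex
  refine ⟨AddMonoidHom.mk' (fun g => v (Additive.toMul g)) ?_, ?_⟩
  · intro g h
    apply hinj
    rw [smul_add, ← hv, ← hv, ← hv]
    exact map_add _ g h
  · refine AddMonoidHom.ext fun g => ?_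
    obtain ⟨g, rfl⟩ : ∃ g' : Γ, Additive.ofMul g' = g := ⟨Additive.toMul g, rfl⟩
    rw [hv g]
    rfl

end Main

end Fermat.Agent.GB.B3.Eis
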