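import Mathlib

/-
GATE-B / B3 AUT-COH, node GB-B3-ALG (helper95).  Mathlib only.

**Δ-freeness for one cyclic step, abstractly.**

`O` a domain with a principal maximal ideal `(ϖ)` containing the prime `p` (a DVR), `q = p^n`.

* `finrank_eq_mul_finrank_ker` : a nilpotent endomorphism `x` of a finite-dimensional space with
  `x^q = 0` and `ker x = range x^(q-1)` has `dim V = q · dim ker x`.
* `finrank_eq_mul_finrank_ker_baseChange` : **Tate-vanishing criterion (rank form)** — `P` finite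
  free over `O`, `D^q = 1`, `ker (D-1) = N P`, `ker N = (D-1) P` (`N = ∑ D^i`)
  ⟹ `rank_O P = q · dim_k ker (D̄ - 1)`.  (No Tate cohomology, no Krull–Schmidt.)
* `CycStep O L L0 q` : the binder package of one cyclic step `Γ_H ◁ Γ`, `Γ/Γ_H = ⟨D⟩` of order `q`
  (`L = Hom(Γ_H,O)`, `L0 = Hom(Γ,O)`): `res`, `cores`, `D`, `res ∘ cores = N`, `cores ∘ res = q`,
  `cores` ONTO with KERNEL `(D-1)L` (the model input), ONE Hecke-type operator `t`, `t0` commuting
  with everything and Eisenstein on the classes dying on `Γ_H` mod `q` (`eis`).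
* `CycStep.Summand` : a stable decomposition `L = P ⊕ P'`, `L0 = P0 ⊕ P0'` with `t` bijective on `P`
  (`P` = the localisation at a non-Eisenstein maximal ideal).
* `CycStep.Summand.cores_surjOn`, `ker_cores_on` : `cores : P/(D-1)P ≃ P0`;
  `tate_zero`, `tate_neg_one` : `Ĥ⁰(⟨D⟩,P) = Ĥ⁻¹(⟨D⟩,P) = 0`;
* `CycStep.Summand.finrank_eq` : `rank_O P = p^n · rank_O P0`;
* `CycStep.Summand.exists_basis` : **if `w m ∈ P` lift an `O`-basis of `P0`, the `D^a (w m)`
  (`a < p^n`) are an `O`-basis of `P`** — `P` is free over `O[X]/(X^(p^n) - 1)` on the `w m`.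
  Iterating over the Taylor–Wiles primes gives the `O[Δ_Q]`-basis `{δ · v_i}`.
-/

set_option autoImplicit false
set_option linter.unusedSectionVars false
set_option linter.style.haveILetI false

namespace Fermat.Agent.GB.B3.FreeCyclic

open Module

section Nilpotent

variable {k V : Type*} [Field k] [AddCommGroup V] [Module k V] [FiniteDimensional k V]

/-- rank–nullity for the restriction of `x` to a subspace containing `ker x` -/
theorem finrank_map_add_finrank_ker_of_le (x : V →ₗ[k] V) (W : Submodule k V)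
    (hW : LinearMap.ker x ≤ W) :
    finrank k (W.map x) + finrank k (LinearMap.ker x) = finrank k W := by
  have h := (x.domRestrict W).finrank_range_add_finrank_ker
  have h1 : LinearMap.range (x.domRestrict W) = W.map x := by
    ext v
    simp [Submodule.mem_map]
  have h2 : finrank k (LinearMap.ker (x.domRestrict W)) = finrank k (LinearMap.ker x) := by
    have e : LinearMap.ker (x.domRestrict W) ≃ₗ[k] LinearMap.ker x :=
      { toFun := fun v => ⟨(v : W), by
          have := v.2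
          rw [LinearMap.mem_ker, LinearMap.domRestrict_apply] at this
          exact this⟩
        map_add' := fun a b => rfl
        map_smul' := fun r a => rfl
        invFun := fun v => ⟨⟨(v : V), hW v.2⟩, by
          rw [LinearMap.mem_ker, LinearMap.domRestrict_apply]
          exact v.2⟩
        left_inv := fun v => rfl
        right_inv := fun v => rfl }
    exact e.finrank_eq
  rw [h1, h2] at h
  exact h

/-- **Nilpotent counting.** If `x ^ q = 0` and `ker x = range (x ^ (q-1))`, then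
`dim V = q * dim (ker x)`. -/
theorem finrank_eq_mul_finrank_ker (x : V →ₗ[k] V) (q : ℕ) (hq : 0 < q) (hx : x ^ q = 0)
    (hker : ∀ v, x v = 0 → ∃ w, v = (x ^ (q - 1)) w) :
    finrank k V = q * finrank k (LinearMap.ker x) := by
  -- `a j = dim range (x^j)`
  have hle : ∀ j, j ≤ q - 1 → LinearMap.ker x ≤ LinearMap.range (x ^ j) := by
    intro j hj v hv
    obtain ⟨w, rfl⟩ := hker v hv
    refine ⟨(x ^ (q - 1 - j)) w, ?_⟩
    rw [← Module.End.mul_apply, ← pow_add]
    congr 2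
    omega
  have hstep : ∀ j, j ≤ q - 1 →
      finrank k (LinearMap.range (x ^ (j + 1))) + finrank k (LinearMap.ker x)
        = finrank k (LinearMap.range (x ^ j)) := by
    intro j hj
    have h := finrank_map_add_finrank_ker_of_le x (LinearMap.range (x ^ j)) (hle j hj)
    have hm : (LinearMap.range (x ^ j)).map x = LinearMap.range (x ^ (j + 1)) := by
      rw [pow_succ', Module.End.mul_eq_comp, LinearMap.range_comp]
    rw [hm] at h
    exact h
  have hind : ∀ j, j ≤ q →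
      finrank k (LinearMap.range (x ^ j)) + j * finrank k (LinearMap.ker x) = finrank k V := by
    intro j
    induction j with
    | zero =>
      intro _
      rw [pow_zero, zero_mul, add_zero]
      have : LinearMap.range (1 : V →ₗ[k] V) = ⊤ := LinearMap.range_id
      rw [this, finrank_top]
    | succ j ih =>
      intro hj
      have h1 := ih (by omega)
      have h2 := hstep j (by omega)
      rw [← h1, ← h2]
      ring
  have h := hind q le_rfl
  rw [hx] at h
  have h0 : finrank k (LinearMap.range (0 : V →ₗ[k] V)) = 0 := by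
    rw [LinearMap.range_zero, finrank_bot]
  rw [h0, zero_add] at h
  exact h.symm

end Nilpotent


open TensorProduct Polynomial

section Poly

variable {k : Type*} [Field k] (p : ℕ) [hp : Fact p.Prime] [CharP k p]

theorem X_sub_one_pow_char_pow (n : ℕ) :
    ((X : k[X]) - 1) ^ (p ^ n) = X ^ (p ^ n) - 1 := by
  rw [sub_pow_char_pow, one_pow]

theorem geom_sum_eq_X_sub_one_pow (n : ℕ) :
    ∑ i ∈ Finset.range (p ^ n), (X : k[X]) ^ i = (X - 1) ^ (p ^ n - 1) := by
  have h1 : ((X : k[X]) - 1) * ∑ i ∈ Finset.range (p ^ n), (X : k[X]) ^ i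
      = (X - 1) * (X - 1) ^ (p ^ n - 1) := by
    rw [mul_geom_sum, ← pow_succ', Nat.sub_add_cancel (Nat.one_le_pow _ _ hp.out.pos),
      X_sub_one_pow_char_pow]
  have h2 : ((X : k[X]) - 1) ≠ 0 := by
    have := X_sub_C_ne_zero (1 : k)
    simpa using this
  exact mul_left_cancel₀ h2 h1

end Poly

section Tensor

variable {O : Type*} [CommRing O]
variable {P : Type*} [AddCommGroup P] [Module O P]

theorem exists_eq_one_tmul (I : Ideal O) (z : (O ⧸ I) ⊗[O] P) :
    ∃ v : P, z = (1 : O ⧸ I) ⊗ₜ[O] v := by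
  induction z using TensorProduct.induction_on with
  | zero => exact ⟨0, by simp⟩
  | tmul c v =>
    obtain ⟨c, rfl⟩ := Ideal.Quotient.mk_surjective c
    refine ⟨c • v, ?_⟩
    rw [TensorProduct.tmul_smul, TensorProduct.smul_tmul']
    congr 1
    rw [Algebra.smul_def, mul_one]
    rfl
  | add a b ha hb =>
    obtain ⟨v, rfl⟩ := ha
    obtain ⟨w, rfl⟩ := hb
    exact ⟨v + w, by rw [TensorProduct.tmul_add]⟩

theorem exists_eq_smul_of_one_tmul_eq_zero (ϖ : O) (v : P)
    (h : (1 : O ⧸ Ideal.span {ϖ}) ⊗ₜ[O] v = 0) : ∃ w : P, v = ϖ • w := by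
  have h1 : TensorProduct.quotTensorEquivQuotSMul P (Ideal.span {ϖ})
      ((1 : O ⧸ Ideal.span {ϖ}) ⊗ₜ[O] v) = 0 := by rw [h, map_zero]
  rw [TensorProduct.quotTensorEquivQuotSMul_mk_one_tmul, Submodule.Quotient.mk_eq_zero,
    Submodule.ideal_span_singleton_smul] at h1
  obtain ⟨w, -, hw⟩ := h1
  exact ⟨w, hw.symm⟩

theorem one_tmul_smul_eq_zero (ϖ : O) (w : P) :
    (1 : O ⧸ Ideal.span {ϖ}) ⊗ₜ[O] (ϖ • w) = 0 := by
  rw [TensorProduct.tmul_smul, TensorProduct.smul_tmul']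
  have : ϖ • (1 : O ⧸ Ideal.span {ϖ}) = 0 := by
    rw [Algebra.smul_def, mul_one]
    exact Ideal.Quotient.eq_zero_iff_mem.mpr (Ideal.mem_span_singleton_self ϖ)
  rw [this, TensorProduct.zero_tmul]

end Tensor

section Tate

variable {O : Type*} [CommRing O] [IsDomain O]
variable {P : Type*} [AddCommGroup P] [Module O P] [Module.Free O P] [Module.Finite O P]

/-- **Tate-vanishing criterion, rank form.**  `(ϖ)` a maximal ideal of the domain `O` containing
the prime `p`, `P` a finite free `O`-module, `D` an automorphism with `D ^ (p^n) = 1`,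
`N = ∑ D^i`.  If `ker (D - 1) = N P` and `ker N = (D - 1) P` then
`rank_O P = p^n · dim_k ker (D̄ - 1)`. -/
theorem finrank_eq_mul_finrank_ker_baseChange (ϖ : O) (hϖ0 : ϖ ≠ 0)
    [hmax : (Ideal.span {ϖ}).IsMaximal]
    (p n : ℕ) (hp : p.Prime) (hpϖ : (p : O) ∈ Ideal.span {ϖ})
    (D : P →ₗ[O] P) (hD : D ^ (p ^ n) = 1)
    (ha : ∀ x, D x = x → ∃ y, x = ∑ i ∈ Finset.range (p ^ n), (D ^ i) y)
    (hb : ∀ x, ∑ i ∈ Finset.range (p ^ n), (D ^ i) x = 0 → ∃ y, x = D y - y) :
    letI : Field (O ⧸ Ideal.span {ϖ}) := Ideal.Quotient.field _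
    finrank O P = p ^ n * finrank (O ⧸ Ideal.span {ϖ})
      (LinearMap.ker ((D - 1).baseChange (O ⧸ Ideal.span {ϖ}))) := by
  letI : Field (O ⧸ Ideal.span {ϖ}) := Ideal.Quotient.field _
  have : Fact p.Prime := ⟨hp⟩
  have hp0 : ((p : ℕ) : O ⧸ Ideal.span {ϖ}) = 0 := by
    rw [← map_natCast (Ideal.Quotient.mk (Ideal.span {ϖ})) p]
    exact Ideal.Quotient.eq_zero_iff_mem.mpr hpϖ
  have : CharP (O ⧸ Ideal.span {ϖ}) p := (CharP.charP_iff_prime_eq_zero hp).mpr hp0
  have hqpos : 0 < p ^ n := Nat.pos_of_ne_zero (pow_ne_zero _ hp.ne_zero)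
  set Db : Module.End (O ⧸ Ideal.span {ϖ}) ((O ⧸ Ideal.span {ϖ}) ⊗[O] P) :=
    Module.End.baseChangeHom O (O ⧸ Ideal.span {ϖ}) P D with hDb
  have hx : (D - 1).baseChange (O ⧸ Ideal.span {ϖ}) = Db - 1 := by
    rw [LinearMap.baseChange_sub]
    congr 1
    exact LinearMap.baseChange_one _ _
  have hDbq : Db ^ (p ^ n) = 1 := by
    rw [hDb, ← map_pow, hD, map_one]
  have hxq : (Db - 1) ^ (p ^ n) = 0 := by
    have h := congrArg (Polynomial.aeval (R := O ⧸ Ideal.span {ϖ}) Db)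
      (X_sub_one_pow_char_pow (k := O ⧸ Ideal.span {ϖ}) p n)
    simp only [map_pow, map_sub, aeval_X, map_one] at h
    rw [h, hDbq, sub_self]
  have hN : ∑ i ∈ Finset.range (p ^ n), Db ^ i = (Db - 1) ^ (p ^ n - 1) := by
    have h := congrArg (Polynomial.aeval (R := O ⧸ Ideal.span {ϖ}) Db)
      (geom_sum_eq_X_sub_one_pow (k := O ⧸ Ideal.span {ϖ}) p n)
    simpa only [map_sum, map_pow, map_sub, aeval_X, map_one] using h
  have hNb : ∀ y : P, (∑ i ∈ Finset.range (p ^ n), Db ^ i) ((1 : O ⧸ Ideal.span {ϖ}) ⊗ₜ[O] y)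
      = (1 : O ⧸ Ideal.span {ϖ}) ⊗ₜ[O] (∑ i ∈ Finset.range (p ^ n), (D ^ i) y) := by
    intro y
    rw [LinearMap.sum_apply, TensorProduct.tmul_sum]
    refine Finset.sum_congr rfl fun i _ => ?_
    rw [hDb, ← map_pow]
    exact LinearMap.baseChange_tmul _ _ _
  have hmain := finrank_eq_mul_finrank_ker (k := O ⧸ Ideal.span {ϖ})
    (V := (O ⧸ Ideal.span {ϖ}) ⊗[O] P) (Db - 1) (p ^ n) hqpos hxq ?_
  · rw [hx, ← hmain]
    exact (Module.finrank_baseChange (R := O ⧸ Ideal.span {ϖ}) (S := O) (M' := P)).symm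
  · intro z hz
    obtain ⟨v, rfl⟩ := exists_eq_one_tmul (Ideal.span {ϖ}) z
    have h1 : (1 : O ⧸ Ideal.span {ϖ}) ⊗ₜ[O] ((D - 1) v) = 0 := by
      rw [← hz, ← hx]
      exact (LinearMap.baseChange_tmul _ _ _).symm
    obtain ⟨w, hw⟩ := exists_eq_smul_of_one_tmul_eq_zero ϖ _ h1
    -- `N w = 0`
    have hNv : ∑ i ∈ Finset.range (p ^ n), (D ^ i) ((D - 1) v) = 0 := by
      have h2 : (∑ i ∈ Finset.range (p ^ n), D ^ i) * (D - 1) = D ^ (p ^ n) - 1 :=
        geom_sum_mul D (p ^ n)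
      have h3 := congrArg (fun f : Module.End O P => f v) h2
      simp only [Module.End.mul_apply, LinearMap.sum_apply] at h3
      rw [h3, hD, sub_self, LinearMap.zero_apply]
    have hNw : ∑ i ∈ Finset.range (p ^ n), (D ^ i) w = 0 := by
      rw [hw] at hNv
      simp only [map_smul] at hNv
      rw [← Finset.smul_sum] at hNv
      exact (smul_eq_zero.mp hNv).resolve_left hϖ0
    obtain ⟨w', hw'⟩ := hb w hNw
    have hfix : D (v - ϖ • w') = v - ϖ • w' := by
      have h5 : (D - 1) v = ϖ • (D w' - w') := by rw [← hw', hw]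
      simp only [LinearMap.sub_apply, Module.End.one_apply] at h5
      rw [map_sub, map_smul]
      rw [smul_sub] at h5
      have h4 : D v = v + (ϖ • D w' - ϖ • w') := by rw [← h5]; abel
      rw [h4]; abel
    obtain ⟨y, hy⟩ := ha _ hfix
    refine ⟨(1 : O ⧸ Ideal.span {ϖ}) ⊗ₜ[O] y, ?_⟩
    rw [← hN, hNb, ← hy, TensorProduct.tmul_sub, one_tmul_smul_eq_zero, sub_zero]


omit [IsDomain O] [Module.Free O P] [Module.Finite O P] in
/-- `(D - 1)^(p^n)` maps into `ϖ P` when `D^(p^n) = 1` and `p ∈ (ϖ)`. -/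
theorem exists_sub_one_pow_eq_smul (ϖ : O) [hmax : (Ideal.span {ϖ}).IsMaximal]
    (p n : ℕ) (hp : p.Prime) (hpϖ : (p : O) ∈ Ideal.span {ϖ})
    (D : P →ₗ[O] P) (hD : D ^ (p ^ n) = 1) (x : P) :
    ∃ w : P, ((D - 1) ^ (p ^ n)) x = ϖ • w := by
  letI : Field (O ⧸ Ideal.span {ϖ}) := Ideal.Quotient.field _
  have : Fact p.Prime := ⟨hp⟩
  have hp0 : ((p : ℕ) : O ⧸ Ideal.span {ϖ}) = 0 := by
    rw [← map_natCast (Ideal.Quotient.mk (Ideal.span {ϖ})) p]
    exact Ideal.Quotient.eq_zero_iff_mem.mpr hpϖ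
  have : CharP (O ⧸ Ideal.span {ϖ}) p := (CharP.charP_iff_prime_eq_zero hp).mpr hp0
  apply exists_eq_smul_of_one_tmul_eq_zero ϖ
  set Db : Module.End (O ⧸ Ideal.span {ϖ}) ((O ⧸ Ideal.span {ϖ}) ⊗[O] P) :=
    Module.End.baseChangeHom O (O ⧸ Ideal.span {ϖ}) P D with hDb
  have hDbq : Db ^ (p ^ n) = 1 := by
    rw [hDb, ← map_pow, hD, map_one]
  have hxq : (Db - 1) ^ (p ^ n) = 0 := by
    have h := congrArg (Polynomial.aeval (R := O ⧸ Ideal.span {ϖ}) Db)
      (X_sub_one_pow_char_pow (k := O ⧸ Ideal.span {ϖ}) p n)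
    simp only [map_pow, map_sub, aeval_X, map_one] at h
    rw [h, hDbq, sub_self]
  have h1 : (Module.End.baseChangeHom O (O ⧸ Ideal.span {ϖ}) P ((D - 1) ^ (p ^ n)))
      ((1 : O ⧸ Ideal.span {ϖ}) ⊗ₜ[O] x) = (1 : O ⧸ Ideal.span {ϖ}) ⊗ₜ[O] (((D - 1) ^ (p ^ n)) x) :=
    LinearMap.baseChange_tmul _ _ _
  rw [← h1, map_pow, map_sub, map_one, ← hDb, hxq, LinearMap.zero_apply]

end Tate

section OneStep

variable {O : Type*} [CommRing O] [IsDomain O] [IsPrincipalIdealRing O]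
variable {L L0 : Type*} [AddCommGroup L] [Module O L] [Module.Free O L] [Module.Finite O L]
  [AddCommGroup L0] [Module O L0] [Module.Free O L0] [Module.Finite O L0]

/-- The data of one cyclic step `Γ_H ◁ Γ`, `Γ/Γ_H = ⟨D⟩` of order `q`:
`L = Hom(Γ_H, O)`, `L0 = Hom(Γ, O)`, restriction, corestriction, the conjugation `D`, and ONE
Hecke-type operator `t` (on `L`), `t0` (on `L0`), "Eisenstein" on the classes which die on `Γ_H`
modulo `q`. -/
structure CycStep (O L L0 : Type*) [CommRing O] [AddCommGroup L] [Module O L]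
    [AddCommGroup L0] [Module O L0] (q : ℕ) where
  D : L →ₗ[O] L
  res : L0 →ₗ[O] L
  cores : L →ₗ[O] L0
  t : L →ₗ[O] L
  t0 : L0 →ₗ[O] L0
  D_pow : D ^ q = 1
  res_cores : ∀ x, res (cores x) = ∑ i ∈ Finset.range q, (D ^ i) x
  cores_res : ∀ y, cores (res y) = (q : O) • y
  cores_surj : Function.Surjective cores
  ker_cores : ∀ x, cores x = 0 → ∃ y, x = D y - y
  t_D : ∀ x, t (D x) = D (t x)
  res_t0 : ∀ y, res (t0 y) = t (res y)
  cores_t : ∀ x, cores (t x) = t0 (cores x)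
  eis : ∀ ψ : L0, (∃ z, res ψ = (q : O) • z) → ∃ ψ', t0 ψ = (q : O) • ψ'

/-- A decomposition `L = P ⊕ P'`, `L0 = P0 ⊕ P0'` respected by everything, with `t` bijective
on `P` ("`P` = the non-Eisenstein part"). -/
structure CycStep.Summand {q : ℕ} (S : CycStep O L L0 q) where
  P : Submodule O L
  P' : Submodule O L
  P0 : Submodule O L0
  P0' : Submodule O L0
  compl : IsCompl P P'
  compl0 : IsCompl P0 P0'
  D_P : ∀ x ∈ P, S.D x ∈ P
  D_P' : ∀ x ∈ P', S.D x ∈ P'
  cores_P : ∀ x ∈ P, S.cores x ∈ P0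
  cores_P' : ∀ x ∈ P', S.cores x ∈ P0'
  t_P : ∀ x ∈ P, S.t x ∈ P
  t_inj : ∀ x ∈ P, S.t x = 0 → x = 0
  t_surj : ∀ x ∈ P, ∃ y ∈ P, S.t y = x

namespace CycStep

variable {q : ℕ} (S : CycStep O L L0 q)

theorem res_injective (hq : (q : O) ≠ 0) : Function.Injective S.res := by
  intro y y' h
  have h1 := congrArg S.cores h
  rw [S.cores_res, S.cores_res] at h1
  exact smul_right_injective L0 hq h1

theorem cores_D (hq : (q : O) ≠ 0) (x : L) : S.cores (S.D x) = S.cores x := by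
  apply S.res_injective hq
  rw [S.res_cores, S.res_cores]
  -- `N D = N`
  have h : ∀ i, (S.D ^ i) (S.D x) = (S.D ^ (i + 1)) x := by
    intro i
    rw [pow_succ, Module.End.mul_apply]
  simp only [h]
  have e1 := Finset.sum_range_succ' (fun i => (S.D ^ i) x) q
  have e2 := Finset.sum_range_succ (fun i => (S.D ^ i) x) q
  rw [e1] at e2
  simp only [pow_zero, Module.End.one_apply, S.D_pow] at e2
  exact add_right_cancel e2

/-- the norm operator -/
def norm : L →ₗ[O] L := ∑ i ∈ Finset.range q, S.D ^ i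

theorem norm_apply (x : L) : S.norm x = ∑ i ∈ Finset.range q, (S.D ^ i) x := by
  simp [norm, LinearMap.sum_apply]

theorem res_cores' (x : L) : S.res (S.cores x) = S.norm x := by
  rw [S.res_cores, norm_apply]

theorem D_res (hq : (q : O) ≠ 0) (y : L0) : S.D (S.res y) = S.res y := by
  obtain ⟨x, rfl⟩ := S.cores_surj y
  rw [S.res_cores]
  rw [map_sum]
  have h : ∀ i, S.D ((S.D ^ i) x) = (S.D ^ (i + 1)) x := by
    intro i
    rw [pow_succ', Module.End.mul_apply]
  simp only [h]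
  have e1 := Finset.sum_range_succ' (fun i => (S.D ^ i) x) q
  have e2 := Finset.sum_range_succ (fun i => (S.D ^ i) x) q
  rw [e1] at e2
  simp only [pow_zero, Module.End.one_apply, S.D_pow] at e2
  exact add_right_cancel e2


namespace Summand

variable {S} (Z : S.Summand)

theorem exists_decomp (x : L) : ∃ a ∈ Z.P, ∃ b ∈ Z.P', x = a + b := by
  have h : x ∈ Z.P ⊔ Z.P' := by rw [Z.compl.sup_eq_top]; exact Submodule.mem_top
  obtain ⟨a, ha, b, hb, hab⟩ := Submodule.mem_sup.mp h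
  exact ⟨a, ha, b, hb, hab.symm⟩

theorem eq_zero_of_mem_of_mem {b : L} (hb : b ∈ Z.P) (hb' : b ∈ Z.P') : b = 0 := by
  have h : b ∈ Z.P ⊓ Z.P' := Submodule.mem_inf.mpr ⟨hb, hb'⟩
  rw [Z.compl.inf_eq_bot] at h
  exact (Submodule.mem_bot O).mp h

theorem exists_decomp0 (x : L0) : ∃ a ∈ Z.P0, ∃ b ∈ Z.P0', x = a + b := by
  have h : x ∈ Z.P0 ⊔ Z.P0' := by rw [Z.compl0.sup_eq_top]; exact Submodule.mem_top
  obtain ⟨a, ha, b, hb, hab⟩ := Submodule.mem_sup.mp h
  exact ⟨a, ha, b, hb, hab.symm⟩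

theorem eq_zero_of_mem_of_mem0 {b : L0} (hb : b ∈ Z.P0) (hb' : b ∈ Z.P0') : b = 0 := by
  have h : b ∈ Z.P0 ⊓ Z.P0' := Submodule.mem_inf.mpr ⟨hb, hb'⟩
  rw [Z.compl0.inf_eq_bot] at h
  exact (Submodule.mem_bot O).mp h

theorem Dpow_P (i : ℕ) : ∀ x ∈ Z.P, (S.D ^ i) x ∈ Z.P := by
  induction i with
  | zero => intro x hx; simpa using hx
  | succ i ih =>
    intro x hx
    rw [pow_succ', Module.End.mul_apply]
    exact Z.D_P _ (ih x hx)

theorem Dpow_P' (i : ℕ) : ∀ x ∈ Z.P', (S.D ^ i) x ∈ Z.P' := by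
  induction i with
  | zero => intro x hx; simpa using hx
  | succ i ih =>
    intro x hx
    rw [pow_succ', Module.End.mul_apply]
    exact Z.D_P' _ (ih x hx)

theorem norm_P {x : L} (hx : x ∈ Z.P) : S.norm x ∈ Z.P := by
  rw [S.norm_apply]
  exact Submodule.sum_mem _ fun i _ => Z.Dpow_P i x hx

theorem norm_P' {x : L} (hx : x ∈ Z.P') : S.norm x ∈ Z.P' := by
  rw [S.norm_apply]
  exact Submodule.sum_mem _ fun i _ => Z.Dpow_P' i x hx

/-- **(C1)** `cores` maps `P` onto `P0`. -/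
theorem cores_surjOn {x0 : L0} (hx0 : x0 ∈ Z.P0) : ∃ x ∈ Z.P, S.cores x = x0 := by
  obtain ⟨x, rfl⟩ := S.cores_surj x0
  obtain ⟨a, ha, b, hb, rfl⟩ := Z.exists_decomp x
  refine ⟨a, ha, ?_⟩
  rw [map_add] at hx0 ⊢
  have h1 : S.cores b ∈ Z.P0 := by
    have := Z.P0.sub_mem hx0 (Z.cores_P a ha)
    simpa using this
  rw [Z.eq_zero_of_mem_of_mem0 h1 (Z.cores_P' b hb), add_zero]

/-- **(C1')** the kernel of `cores` on `P` is `(D - 1) P`. -/
theorem ker_cores_on {x : L} (hx : x ∈ Z.P) (h : S.cores x = 0) :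
    ∃ y ∈ Z.P, x = S.D y - y := by
  obtain ⟨y, rfl⟩ := S.ker_cores x h
  obtain ⟨a, ha, b, hb, rfl⟩ := Z.exists_decomp y
  refine ⟨a, ha, ?_⟩
  have h1 : S.D (a + b) - (a + b) = (S.D a - a) + (S.D b - b) := by rw [map_add]; abel
  rw [h1] at hx ⊢
  have h2 : S.D b - b ∈ Z.P := by
    have := Z.P.sub_mem hx (Z.P.sub_mem (Z.D_P a ha) ha)
    simpa using this
  rw [Z.eq_zero_of_mem_of_mem h2 (Z.P'.sub_mem (Z.D_P' b hb) hb), add_zero]

/-- `Ĥ^{-1} = 0` on `P`. -/
theorem tate_neg_one (hq : (q : O) ≠ 0) {x : L} (hx : x ∈ Z.P) (h : S.norm x = 0) :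
    ∃ y ∈ Z.P, x = S.D y - y := by
  refine Z.ker_cores_on hx ?_
  apply S.res_injective hq
  rw [S.res_cores', h, map_zero]

theorem norm_eq_smul_of_fixed {x : L} (h : S.D x = x) : S.norm x = (q : O) • x := by
  have hi : ∀ i : ℕ, (S.D ^ i) x = x := by
    intro i
    induction i with
    | zero => simp
    | succ i ih => rw [pow_succ, Module.End.mul_apply, h, ih]
  rw [S.norm_apply]
  simp only [hi]
  rw [Finset.sum_const, Finset.card_range, Nat.cast_smul_eq_nsmul]

/-- `t` maps the `D`-fixed vectors of `P` into `N P`. -/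
theorem t_fixed_mem_norm (hq : (q : O) ≠ 0) {x : L} (hx : x ∈ Z.P) (h : S.D x = x) :
    ∃ a ∈ Z.P, S.t x = S.norm a := by
  have h1 : S.res (S.cores x) = (q : O) • x := by
    rw [S.res_cores', norm_eq_smul_of_fixed h]
  obtain ⟨ψ', hψ'⟩ := S.eis (S.cores x) ⟨x, h1⟩
  obtain ⟨φ, rfl⟩ := S.cores_surj ψ'
  have h2 : (q : O) • S.t x = (q : O) • S.norm φ := by
    rw [← map_smul, ← h1, ← S.res_t0, hψ', map_smul, S.res_cores']
  have h3 : S.t x = S.norm φ := smul_right_injective L hq h2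
  obtain ⟨a, ha, b, hb, rfl⟩ := Z.exists_decomp φ
  refine ⟨a, ha, ?_⟩
  rw [map_add] at h3
  have h4 : S.norm b ∈ Z.P := by
    have := Z.P.sub_mem (Z.t_P x hx) (Z.norm_P ha)
    rw [h3] at this
    simpa using this
  rw [h3, Z.eq_zero_of_mem_of_mem h4 (Z.norm_P' hb), add_zero]

/-- `Ĥ^0 = 0` on `P`. -/
theorem tate_zero (hq : (q : O) ≠ 0) {x : L} (hx : x ∈ Z.P) (h : S.D x = x) :
    ∃ y ∈ Z.P, x = S.norm y := by
  obtain ⟨y, hy, rfl⟩ := Z.t_surj x hx
  have hfix : S.D y = y := by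
    have h1 : S.t (S.D y - y) = 0 := by
      rw [map_sub, S.t_D, h, sub_self]
    have h2 := Z.t_inj _ (Z.P.sub_mem (Z.D_P y hy) hy) h1
    exact sub_eq_zero.mp h2
  obtain ⟨a, ha, h3⟩ := Z.t_fixed_mem_norm hq hy hfix
  exact ⟨a, ha, h3⟩


/-- the restriction of `D` to `P` -/
def DP : Z.P →ₗ[O] Z.P := S.D.restrict Z.D_P

/-- the restriction of `cores` to `P → P0` -/
def coresP : Z.P →ₗ[O] Z.P0 := S.cores.restrict Z.cores_P

theorem coe_DP_pow (i : ℕ) (x : Z.P) : (((Z.DP ^ i) x : Z.P) : L) = (S.D ^ i) (x : L) := by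
  induction i with
  | zero => simp
  | succ i ih =>
    rw [pow_succ', Module.End.mul_apply, pow_succ', Module.End.mul_apply, ← ih]
    rfl

theorem DP_pow : Z.DP ^ q = 1 := by
  refine LinearMap.ext fun x => Subtype.ext ?_
  rw [coe_DP_pow, S.D_pow]
  rfl

theorem coe_sum_DP_pow (x : Z.P) :
    ((∑ i ∈ Finset.range q, (Z.DP ^ i) x : Z.P) : L) = S.norm (x : L) := by
  rw [S.norm_apply, Submodule.coe_sum]
  exact Finset.sum_congr rfl fun i _ => Z.coe_DP_pow i x

end Summand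

end CycStep

end OneStep

section Rank

variable {O : Type*} [CommRing O] [IsDomain O] [IsPrincipalIdealRing O]
variable {L L0 : Type*} [AddCommGroup L] [Module O L] [Module.Free O L] [Module.Finite O L]
  [AddCommGroup L0] [Module O L0] [Module.Free O L0] [Module.Finite O L0]

open CycStep CycStep.Summand

/-- **(C2)** the rank formula `rank_O P = p^n · rank_O P0` for the non-Eisenstein summand of one
cyclic step of `p`-power order. -/
theorem CycStep.Summand.finrank_eq (ϖ : O) (hϖ0 : ϖ ≠ 0) [hmax : (Ideal.span {ϖ}).IsMaximal]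
    (p n : ℕ) (hp : p.Prime) (hpϖ : (p : O) ∈ Ideal.span {ϖ}) (hq : ((p ^ n : ℕ) : O) ≠ 0)
    {S : CycStep O L L0 (p ^ n)} (Z : S.Summand) :
    finrank O Z.P = p ^ n * finrank O Z.P0 := by
  letI : Field (O ⧸ Ideal.span {ϖ}) := Ideal.Quotient.field _
  have hmain := finrank_eq_mul_finrank_ker_baseChange (P := Z.P) ϖ hϖ0 p n hp hpϖ Z.DP Z.DP_pow
    (by
      intro x hx
      have hx' : S.D (x : L) = x := congrArg Subtype.val hx
      obtain ⟨y, hy, hxy⟩ := Z.tate_zero hq x.2 hx'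
      refine ⟨⟨y, hy⟩, Subtype.ext ?_⟩
      rw [Z.coe_sum_DP_pow]
      exact hxy)
    (by
      intro x hx
      have hx' : S.norm (x : L) = 0 := by
        rw [← Z.coe_sum_DP_pow, hx]; rfl
      obtain ⟨y, hy, hxy⟩ := Z.tate_neg_one hq x.2 hx'
      exact ⟨⟨y, hy⟩, Subtype.ext hxy⟩)
  rw [hmain]
  congr 1
  -- `dim ker x̄ = dim (k ⊗ P0)` by right exactness
  set xb := (Z.DP - 1).baseChange (O ⧸ Ideal.span {ϖ}) with hxb
  set cb := Z.coresP.baseChange (O ⧸ Ideal.span {ϖ}) with hcb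
  have hcsurj : Function.Surjective cb := by
    intro z
    obtain ⟨v, rfl⟩ := exists_eq_one_tmul (Ideal.span {ϖ}) z
    obtain ⟨x, hx, hxv⟩ := Z.cores_surjOn v.2
    refine ⟨(1 : O ⧸ Ideal.span {ϖ}) ⊗ₜ[O] (⟨x, hx⟩ : Z.P), ?_⟩
    rw [hcb, LinearMap.baseChange_tmul]
    congr 1
    exact Subtype.ext hxv
  have hexact : LinearMap.range xb = LinearMap.ker cb := by
    apply le_antisymm
    · rintro _ ⟨z, rfl⟩
      obtain ⟨v, rfl⟩ := exists_eq_one_tmul (Ideal.span {ϖ}) z
      rw [LinearMap.mem_ker, hxb, hcb, LinearMap.baseChange_tmul, LinearMap.baseChange_tmul]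
      have : Z.coresP ((Z.DP - 1) v) = 0 := by
        apply Subtype.ext
        show S.cores (S.D (v : L) - (v : L)) = 0
        rw [map_sub, S.cores_D hq, sub_self]
      rw [this, TensorProduct.tmul_zero]
    · intro z hz
      obtain ⟨v, rfl⟩ := exists_eq_one_tmul (Ideal.span {ϖ}) z
      rw [LinearMap.mem_ker, hcb, LinearMap.baseChange_tmul] at hz
      obtain ⟨w0, hw0⟩ := exists_eq_smul_of_one_tmul_eq_zero ϖ _ hz
      obtain ⟨w, hw, hww0⟩ := Z.cores_surjOn w0.2
      have h1 : S.cores ((v : L) - ϖ • w) = 0 := by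
        rw [map_sub, map_smul, hww0]
        have := congrArg Subtype.val hw0
        rw [sub_eq_zero]
        exact this
      obtain ⟨y, hy, hvy⟩ := Z.ker_cores_on (Z.P.sub_mem v.2 (Z.P.smul_mem ϖ hw)) h1
      refine ⟨(1 : O ⧸ Ideal.span {ϖ}) ⊗ₜ[O] (⟨y, hy⟩ : Z.P), ?_⟩
      rw [hxb, LinearMap.baseChange_tmul]
      have h2 : (Z.DP - 1) (⟨y, hy⟩ : Z.P) = v - ϖ • (⟨w, hw⟩ : Z.P) := by
        apply Subtype.ext
        show S.D y - y = (v : L) - ϖ • w
        exact hvy.symm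
      rw [h2, TensorProduct.tmul_sub, one_tmul_smul_eq_zero, sub_zero]
  have e1 := xb.finrank_range_add_finrank_ker
  have e2 := cb.finrank_range_add_finrank_ker
  rw [LinearMap.range_eq_top.mpr hcsurj, finrank_top, ← hexact] at e2
  have e3 : finrank (O ⧸ Ideal.span {ϖ}) ((O ⧸ Ideal.span {ϖ}) ⊗[O] Z.P0) = finrank O Z.P0 :=
    Module.finrank_baseChange (R := O ⧸ Ideal.span {ϖ}) (S := O) (M' := Z.P0)
  omega

end Rank

section BasisStep

variable {O : Type*} [CommRing O] [IsDomain O] [IsPrincipalIdealRing O] [IsLocalRing O]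
variable {L L0 : Type*} [AddCommGroup L] [Module O L] [Module.Free O L] [Module.Finite O L]
  [AddCommGroup L0] [Module O L0] [Module.Free O L0] [Module.Finite O L0]

open CycStep CycStep.Summand

/-- **One cyclic step of Δ-freeness, basis form.**  If the `w m ∈ P` lift an `O`-basis of `P0`
along `cores`, then the `D^a (w m)`, `a < p^n`, form an `O`-basis of `P`: `P` is free over
`O[X]/(X^(p^n) - 1)` (`X ↦ D`) on the `w m`. -/
theorem CycStep.Summand.exists_basis (ϖ : O) (hϖ0 : ϖ ≠ 0)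
    (hmax : IsLocalRing.maximalIdeal O = Ideal.span {ϖ})
    (p n : ℕ) (hp : p.Prime) (hpϖ : (p : O) ∈ Ideal.span {ϖ}) (hq : ((p ^ n : ℕ) : O) ≠ 0)
    {S : CycStep O L L0 (p ^ n)} (Z : S.Summand)
    {ι : Type*} [Fintype ι] (w : ι → L) (hw : ∀ m, w m ∈ Z.P)
    (b0 : Basis ι O Z.P0) (hb0 : ∀ m, (b0 m : L0) = S.cores (w m)) :
    ∃ b : Basis (Fin (p ^ n) × ι) O Z.P, ∀ a m, (b (a, m) : L) = (S.D ^ (a : ℕ)) (w m) := by
  haveI hmax' : (Ideal.span {ϖ}).IsMaximal := hmax ▸ IsLocalRing.maximalIdeal.isMaximal O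
  -- the family
  let f : Fin (p ^ n) × ι → Z.P := fun am => ⟨(S.D ^ (am.1 : ℕ)) (w am.2), Z.Dpow_P _ _ (hw _)⟩
  -- the span `W` inside `L`
  set W : Submodule O L := Submodule.span O (Set.range fun am : Fin (p ^ n) × ι =>
    (S.D ^ (am.1 : ℕ)) (w am.2)) with hW
  have hqpos : 0 < p ^ n := Nat.pos_of_ne_zero (pow_ne_zero _ hp.ne_zero)
  -- Step A: `W` is `D`-stable
  have hWD : ∀ x ∈ W, S.D x ∈ W := by
    intro x hx
    rw [hW] at hx
    induction hx using Submodule.span_induction with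
    | mem x hx =>
      obtain ⟨⟨a, m⟩, rfl⟩ := hx
      show S.D ((S.D ^ (a : ℕ)) (w m)) ∈ W
      rw [← Module.End.mul_apply, ← pow_succ']
      by_cases ha : (a : ℕ) + 1 < p ^ n
      · exact Submodule.subset_span ⟨(⟨(a : ℕ) + 1, ha⟩, m), rfl⟩
      · have ha' : (a : ℕ) + 1 = p ^ n := by have := a.2; omega
        rw [ha', S.D_pow]
        exact Submodule.subset_span ⟨(⟨0, hqpos⟩, m), by simp⟩
    | zero => rw [map_zero]; exact W.zero_mem
    | add x y _ _ hx hy => rw [map_add]; exact W.add_mem hx hy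
    | smul r x _ hx => rw [map_smul]; exact W.smul_mem r hx
  have hWD1 : ∀ x ∈ W, (S.D - 1) x ∈ W := fun x hx => W.sub_mem (hWD x hx) hx
  -- Step B: `P ≤ W + (D - 1) P`
  have hB : ∀ x ∈ Z.P, ∃ u ∈ W, ∃ y ∈ Z.P, x = u + (S.D - 1) y := by
    intro x hx
    let c := b0.repr ⟨S.cores x, Z.cores_P x hx⟩
    set u : L := ∑ m, c m • w m with hu
    have huW : u ∈ W := by
      refine Submodule.sum_mem _ fun m _ => W.smul_mem _ ?_
      exact Submodule.subset_span ⟨(⟨0, hqpos⟩, m), by simp⟩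
    have huP : u ∈ Z.P := Submodule.sum_mem _ fun m _ => Z.P.smul_mem _ (hw m)
    have hcu : S.cores u = S.cores x := by
      rw [hu, map_sum]
      have h1 := b0.sum_repr ⟨S.cores x, Z.cores_P x hx⟩
      have h2 : ((∑ i, c i • b0 i : Z.P0) : L0) = S.cores x := congrArg Subtype.val h1
      rw [← h2, Submodule.coe_sum]
      refine Finset.sum_congr rfl fun m _ => ?_
      rw [map_smul, Submodule.coe_smul, hb0]
    obtain ⟨y, hy, hxy⟩ := Z.ker_cores_on (Z.P.sub_mem hx huP) (by rw [map_sub, hcu, sub_self])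
    refine ⟨u, huW, y, hy, ?_⟩
    rw [LinearMap.sub_apply, Module.End.one_apply, ← hxy]
    abel
  -- Step C: `P ≤ W + (D - 1)^j P`
  have hpow : ∀ j : ℕ, ∀ z ∈ W, ((S.D - 1) ^ j) z ∈ W := by
    intro j
    induction j with
    | zero => intro z hz; simpa using hz
    | succ j ihj =>
      intro z hz
      rw [pow_succ', Module.End.mul_apply]
      exact hWD1 _ (ihj z hz)
  have hC : ∀ j : ℕ, ∀ x ∈ Z.P, ∃ u ∈ W, ∃ y ∈ Z.P, x = u + ((S.D - 1) ^ j) y := by
    intro j
    induction j with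
    | zero =>
      intro x hx
      exact ⟨0, W.zero_mem, x, hx, by simp⟩
    | succ j ih =>
      intro x hx
      obtain ⟨u, hu, y, hy, rfl⟩ := ih x hx
      obtain ⟨u', hu', y', hy', rfl⟩ := hB y hy
      refine ⟨u + ((S.D - 1) ^ j) u', W.add_mem hu (hpow j u' hu'), y', hy', ?_⟩
      rw [map_add, pow_succ, Module.End.mul_apply]
      abel
  -- Step D + E: Nakayama
  have hPW : Z.P ≤ W := by
    refine Submodule.le_of_le_smul_of_le_jacobson_bot (I := Ideal.span {ϖ})
      (IsNoetherian.noetherian _) ?_ ?_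
    · rw [← hmax]
      exact IsLocalRing.maximalIdeal_le_jacobson _
    · intro x hx
      obtain ⟨u, hu, y, hy, rfl⟩ := hC (p ^ n) x hx
      refine Submodule.add_mem_sup hu ?_
      obtain ⟨z, hz⟩ := exists_sub_one_pow_eq_smul (P := Z.P) ϖ p n hp hpϖ Z.DP Z.DP_pow ⟨y, hy⟩
      have h1 : ((S.D - 1) ^ (p ^ n)) y = ϖ • (z : L) := by
        have h2 : ∀ (j : ℕ) (v : Z.P), ((((Z.DP - 1) ^ j) v : Z.P) : L) = ((S.D - 1) ^ j) (v : L) := by
          intro j
          induction j with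
          | zero => intro v; simp
          | succ j ihj =>
            intro v
            rw [pow_succ', Module.End.mul_apply, pow_succ', Module.End.mul_apply, ← ihj]
            rfl
        rw [← h2 (p ^ n) ⟨y, hy⟩, hz]
        rfl
      rw [h1, Submodule.ideal_span_singleton_smul]
      exact Submodule.smul_mem_pointwise_smul _ _ _ z.2
  -- the family spans `P`
  have hspan : ⊤ ≤ Submodule.span O (Set.range f) := by
    rintro ⟨x, hx⟩ -
    have hxW : x ∈ W := hPW hx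
    have hmap : Submodule.map Z.P.subtype (Submodule.span O (Set.range f)) = W := by
      rw [Submodule.map_span, hW, ← Set.range_comp]
      rfl
    rw [← hmap] at hxW
    obtain ⟨x', hx', hxx'⟩ := hxW
    have : x' = ⟨x, hx⟩ := Subtype.ext hxx'
    rwa [this] at hx'
  have hcard : Fintype.card (Fin (p ^ n) × ι) = finrank O Z.P := by
    rw [Fintype.card_prod, Fintype.card_fin, Z.finrank_eq ϖ hϖ0 p n hp hpϖ hq,
      Module.finrank_eq_card_basis b0]
  refine ⟨basisOfTopLeSpanOfCardEqFinrank f hspan hcard, fun a m => ?_⟩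
  rw [coe_basisOfTopLeSpanOfCardEqFinrank]

end BasisStep

end Fermat.Agent.GB.B3.FreeCyclic
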