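/-
GATE-B node B3-HECKE, abstract half (helper2): **kernel subsystems**.

`Γ ≤ H` a subgroup, `χ : Γ →* Δ` a homomorphism, `Γ_χ := ker χ` viewed as a subgroup of `H`
(`kerSub χ`).  A coset system `S` from `Γ` to `Γ` (GM/B/System) is *`χ`-compatible* when
`χ (S.c g i) = χ g`.  Then

* `kerSys S χ h` : the restricted system from `Γ_χ` to `Γ_χ` (same representatives);
* `resK χ`, `coresK χ r hr` : restriction `Hom(Γ, A) → Hom(Γ_χ, A)` and transfer
  `Hom(Γ_χ, A) → Hom(Γ, A)` (for a section `r` of `χ`, `Δ` finite);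
* `diaK χ d` : conjugation by `d ∈ Γ` on `Hom(Γ_χ, A)` (the diamond operator of `χ d`);
* `kerSys_op_res`, `cores_kerSys_op`, `dia_kerSys_op` : the operator of the restricted system
  commutes with restriction, transfer and the diamond operators;
* `res_cores` (`= ∑ δ, ⟨δ⟩`), `cores_res` (`= |Δ|`), `cores_dia`, `dia_res`, `dia_mul`,
  `dia_of_ker`.

Everything is inherited from the system on `Γ`: no matrix computation is repeated at the level of
`Γ_χ`.
-/
import Mathlib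
import Fermat.Agent.GM.B.System
import Fermat.Agent.GM.B.System2
import Fermat.Agent.GM.B.System3

set_option autoImplicit false

namespace Fermat.Agent.GB.B3

open Fermat.Agent.GM.B

variable {H G : Type*} [Group H] [Group G] {emb : H →* G} {Γ : Subgroup H}
  {Δ : Type} [Group Δ]

/-- the kernel of `χ : Γ →* Δ` as a subgroup of the ambient group -/
def kerSub (χ : Γ →* Δ) : Subgroup H := χ.ker.map Γ.subtype

theorem kerSub_le (χ : Γ →* Δ) : kerSub χ ≤ Γ := by
  rintro _ ⟨g, -, rfl⟩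
  exact g.2

/-- the inclusion `Γ_χ → Γ` -/
def kerIncl (χ : Γ →* Δ) : kerSub χ →* Γ := Subgroup.inclusion (kerSub_le χ)

@[simp] theorem coe_kerIncl (χ : Γ →* Δ) (k : kerSub χ) : ((kerIncl χ k : Γ) : H) = (k : H) := rfl

theorem chi_kerIncl (χ : Γ →* Δ) (k : kerSub χ) : χ (kerIncl χ k) = 1 := by
  obtain ⟨g, hg, hgk⟩ := k.2
  have : kerIncl χ k = g := Subtype.ext hgk.symm
  rw [this]
  exact hg

/-- an element of `Γ` killed by `χ`, as an element of `Γ_χ` -/
def kerMk (χ : Γ →* Δ) (g : Γ) (hg : χ g = 1) : kerSub χ := ⟨(g : H), ⟨g, hg, rfl⟩⟩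

@[simp] theorem coe_kerMk (χ : Γ →* Δ) (g : Γ) (hg : χ g = 1) : ((kerMk χ g hg : kerSub χ) : H) = g :=
  rfl

@[simp] theorem kerIncl_kerMk (χ : Γ →* Δ) (g : Γ) (hg : χ g = 1) : kerIncl χ (kerMk χ g hg) = g :=
  rfl

theorem kerMk_kerIncl (χ : Γ →* Δ) (k : kerSub χ) : kerMk χ (kerIncl χ k) (chi_kerIncl χ k) = k :=
  rfl

theorem kerMk_mul (χ : Γ →* Δ) (g g' : Γ) (hg : χ g = 1) (hg' : χ g' = 1) :
    kerMk χ (g * g') (by rw [map_mul, hg, hg', one_mul]) = kerMk χ g hg * kerMk χ g' hg' := rfl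

/-- `χ`-compatibility of a coset system on `Γ` -/
def Compat (S : CosetSys emb Γ Γ) (χ : Γ →* Δ) : Prop := ∀ g i, χ (S.c g i) = χ g

/-- **the restricted system** on `Γ_χ` -/
def kerSys (S : CosetSys emb Γ Γ) (χ : Γ →* Δ) (h : Compat S χ) :
    CosetSys emb (kerSub χ) (kerSub χ) where
  ι := S.ι
  a := S.a
  σ k := S.σ (kerIncl χ k)
  c k i := kerMk χ (S.c (kerIncl χ k) i) (by rw [h, chi_kerIncl])
  rel k i := S.rel (kerIncl χ k) i
  hσ k k' i := by rw [map_mul]; exact S.hσ _ _ i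
  hc k k' i := by
    apply Subtype.ext
    show ((S.c (kerIncl χ (k * k')) i : Γ) : H)
      = ((S.c (kerIncl χ k) i : Γ) : H) * ((S.c (kerIncl χ k') (S.σ (kerIncl χ k) i) : Γ) : H)
    rw [map_mul, S.hc]
    rfl

section Proj

variable (S : CosetSys emb Γ Γ) (χ : Γ →* Δ) (h : Compat S χ)

theorem kerSys_a (i : S.ι) : (kerSys S χ h).a i = S.a i := rfl

theorem kerSys_σ (k : kerSub χ) (i : S.ι) : (kerSys S χ h).σ k i = S.σ (kerIncl χ k) i := rfl

theorem kerIncl_kerSys_c (k : kerSub χ) (i : S.ι) :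
    kerIncl χ ((kerSys S χ h).c k i) = S.c (kerIncl χ k) i := rfl

end Proj

/-- restriction `Hom(Γ, A) → Hom(Γ_χ, A)` as a coset system -/
def resK (emb : H →* G) (χ : Γ →* Δ) : CosetSys emb Γ (kerSub χ) :=
  CosetSys.single emb 1 (kerIncl χ) (fun g => by rw [one_mul, mul_one]; rfl)

theorem resK_op_apply (χ : Γ →* Δ) {A : Type*} [AddCommGroup A] (φ : Additive Γ →+ A)
    (k : kerSub χ) :
    (resK emb χ).op A φ (Additive.ofMul k) = φ (Additive.ofMul (kerIncl χ k)) :=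
  CosetSys.single_op_apply _ _ _ φ k

/-- **restriction commutes with the restricted system** -/
theorem kerSys_op_res (S : CosetSys emb Γ Γ) (χ : Γ →* Δ) (h : Compat S χ)
    {A : Type*} [AddCommGroup A] (φ : Additive Γ →+ A) :
    (kerSys S χ h).op A ((resK emb χ).op A φ) = (resK emb χ).op A (S.op A φ) := by
  refine AddMonoidHom.ext fun k => ?_
  obtain ⟨k, rfl⟩ : ∃ k' : kerSub χ, Additive.ofMul k' = k := ⟨Additive.toMul k, rfl⟩
  rw [CosetSys.op_apply, resK_op_apply, CosetSys.op_apply]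
  refine Finset.sum_congr rfl fun i _ => ?_
  rw [resK_op_apply]
  rfl


/-! ### permutations of a coset system at inverses -/

theorem sigma_inv_apply {Γ₁ Γ₂ : Subgroup H} (S : CosetSys emb Γ₁ Γ₂) (g : Γ₂) (i : S.ι) :
    S.σ g⁻¹ (S.σ g i) = i := by
  rw [← S.hσ, mul_inv_cancel, S.σ_one]

theorem sigma_inv_eq_symm {Γ₁ Γ₂ : Subgroup H} (S : CosetSys emb Γ₁ Γ₂) (g : Γ₂) (j : S.ι) :
    S.σ g⁻¹ j = (S.σ g).symm j := by
  obtain ⟨i, rfl⟩ := (S.σ g).surjective j
  rw [sigma_inv_apply, Equiv.symm_apply_apply]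

/-! ### the diamond operators -/

/-- conjugation by `d ∈ Γ` on `Γ_χ` -/
def conjK (χ : Γ →* Δ) (d : Γ) : kerSub χ →* kerSub χ where
  toFun k := kerMk χ (d * kerIncl χ k * d⁻¹) (by
    rw [map_mul, map_mul, chi_kerIncl, mul_one, map_inv, mul_inv_cancel])
  map_one' := by
    apply Subtype.ext
    show ((d * kerIncl χ 1 * d⁻¹ : Γ) : H) = 1
    rw [map_one, mul_one, mul_inv_cancel]
    rfl
  map_mul' k k' := by
    apply Subtype.ext
    show ((d * kerIncl χ (k * k') * d⁻¹ : Γ) : H)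
      = ((d * kerIncl χ k * d⁻¹ : Γ) : H) * ((d * kerIncl χ k' * d⁻¹ : Γ) : H)
    rw [← Subgroup.coe_mul, map_mul]
    congr 1
    group

theorem kerIncl_conjK (χ : Γ →* Δ) (d : Γ) (k : kerSub χ) :
    kerIncl χ (conjK χ d k) = d * kerIncl χ k * d⁻¹ := rfl

/-- **the diamond system** of `d ∈ Γ` on `Γ_χ`: the single representative `emb d` -/
def diaK (emb : H →* G) (χ : Γ →* Δ) (d : Γ) : CosetSys emb (kerSub χ) (kerSub χ) :=
  CosetSys.single emb (emb (d : H)) (conjK χ d) (fun k => by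
    rw [← map_mul, ← map_mul]
    congr 1
    show (d : H) * (k : H) = ((d * kerIncl χ k * d⁻¹ : Γ) : H) * (d : H)
    rw [← Subgroup.coe_mul, inv_mul_cancel_right]
    rfl)

theorem diaK_op_apply (χ : Γ →* Δ) (d : Γ) {A : Type*} [AddCommGroup A]
    (ψ : Additive (kerSub χ) →+ A) (k : kerSub χ) :
    (diaK emb χ d).op A ψ (Additive.ofMul k) = ψ (Additive.ofMul (conjK χ d k)) :=
  CosetSys.single_op_apply _ _ _ ψ k

theorem diaK_a (χ : Γ →* Δ) (d : Γ) (u : Unit) : (diaK emb χ d).a u = emb (d : H) := rfl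

theorem diaK_c (χ : Γ →* Δ) (d : Γ) (k : kerSub χ) (u : Unit) :
    (diaK emb χ d).c k u = conjK χ d k := rfl

/-- the diamond operator of an element of the kernel is the identity -/
theorem dia_of_ker (χ : Γ →* Δ) (d : Γ) (hd : χ d = 1) {A : Type*} [AddCommGroup A]
    (ψ : Additive (kerSub χ) →+ A) : (diaK emb χ d).op A ψ = ψ := by
  refine AddMonoidHom.ext fun k => ?_
  obtain ⟨k, rfl⟩ : ∃ k' : kerSub χ, Additive.ofMul k' = k := ⟨Additive.toMul k, rfl⟩
  rw [diaK_op_apply]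
  have e : conjK χ d k = kerMk χ d hd * k * (kerMk χ d hd)⁻¹ := by
    apply Subtype.ext
    rfl
  rw [e, ofMul_mul, ofMul_mul, ofMul_inv, map_add, map_add, map_neg]
  abel

/-- composition of diamond operators -/
theorem dia_mul (χ : Γ →* Δ) (d d' : Γ) {A : Type*} [AddCommGroup A]
    (ψ : Additive (kerSub χ) →+ A) :
    (diaK emb χ (d' * d)).op A ψ = (diaK emb χ d).op A ((diaK emb χ d').op A ψ) := by
  refine AddMonoidHom.ext fun k => ?_
  obtain ⟨k, rfl⟩ : ∃ k' : kerSub χ, Additive.ofMul k' = k := ⟨Additive.toMul k, rfl⟩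
  rw [diaK_op_apply, diaK_op_apply, diaK_op_apply]
  congr 2
  apply Subtype.ext
  show ((d' * d * kerIncl χ k * (d' * d)⁻¹ : Γ) : H)
    = ((d' * kerIncl χ (conjK χ d k) * d'⁻¹ : Γ) : H)
  rw [kerIncl_conjK]
  congr 1
  group

/-- the diamond operator depends only on `χ d` -/
theorem dia_congr (χ : Γ →* Δ) (d d' : Γ) (hd : χ d = χ d') {A : Type*} [AddCommGroup A]
    (ψ : Additive (kerSub χ) →+ A) : (diaK emb χ d).op A ψ = (diaK emb χ d').op A ψ := by
  have e : d = d' * (d'⁻¹ * d) := by group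
  have hk : χ (d'⁻¹ * d) = 1 := by rw [map_mul, map_inv, hd, inv_mul_cancel]
  rw [e, dia_mul, dia_of_ker χ _ hk]

/-- restrictions are invariant under the diamond operators -/
theorem dia_res (χ : Γ →* Δ) (d : Γ) {A : Type*} [AddCommGroup A] (φ : Additive Γ →+ A) :
    (diaK emb χ d).op A ((resK emb χ).op A φ) = (resK emb χ).op A φ := by
  refine AddMonoidHom.ext fun k => ?_
  obtain ⟨k, rfl⟩ : ∃ k' : kerSub χ, Additive.ofMul k' = k := ⟨Additive.toMul k, rfl⟩
  rw [diaK_op_apply, resK_op_apply, resK_op_apply, kerIncl_conjK, ofMul_mul, ofMul_mul, ofMul_inv,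
    map_add, map_add, map_neg]
  abel


/-- **the diamond operators commute with the restricted system** -/
theorem dia_kerSys_op (hemb : Function.Injective emb) (S : CosetSys emb Γ Γ) (χ : Γ →* Δ)
    (h : Compat S χ) (d : Γ) {A : Type*} [AddCommGroup A] (ψ : Additive (kerSub χ) →+ A) :
    (diaK emb χ d).op A ((kerSys S χ h).op A ψ) = (kerSys S χ h).op A ((diaK emb χ d).op A ψ) := by
  rw [← CosetSys.op_comp, ← CosetSys.op_comp]
  refine CosetSys.op_eq_of_equiv ((diaK emb χ d).comp (kerSys S χ h))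
    ((kerSys S χ h).comp (diaK emb χ d)) hemb
    ((Equiv.prodComm Unit S.ι).trans (Equiv.prodCongr (S.σ d).symm (Equiv.refl Unit)))
    1 (fun x => by rw [one_mul, mul_one])
    (fun p => kerMk χ (S.c d ((S.σ d).symm p.2) * d⁻¹) (by
      rw [map_mul, h, map_inv, mul_inv_cancel])) ?_ ?_ ψ
  · rintro ⟨u, j⟩
    show S.a ((S.σ d).symm j) * emb (d : H)
      = 1 * emb (((S.c d ((S.σ d).symm j) * d⁻¹ : Γ)) : H) * (emb (d : H) * S.a j)
    rw [one_mul, S.rel d ((S.σ d).symm j), Equiv.apply_symm_apply, ← mul_assoc, ← map_mul,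
      ← Subgroup.coe_mul, inv_mul_cancel_right]
  · rintro k ⟨u, j⟩
    show (S.σ (kerIncl χ (conjK χ d k)) ((S.σ d).symm j), u)
      = ((S.σ d).symm (S.σ (kerIncl χ k) j), u)
    rw [kerIncl_conjK, S.hσ, S.hσ, Equiv.apply_symm_apply, sigma_inv_eq_symm]


/-! ### the transfer -/

section Cores

variable [Fintype Δ] (χ : Γ →* Δ) (r : Δ → Γ) (hr : ∀ δ, χ (r δ) = δ)

/-- the cocycle of the transfer -/
def coresC (g : Γ) (δ : Δ) : kerSub χ :=
  kerMk χ (r δ * g * (r (δ * χ g))⁻¹) (by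
    rw [map_mul, map_mul, map_inv, hr, hr, mul_inv_cancel])

omit [Fintype Δ] in
theorem kerIncl_coresC (g : Γ) (δ : Δ) :
    kerIncl χ (coresC χ r hr g δ) = r δ * g * (r (δ * χ g))⁻¹ := rfl

/-- **the transfer system** `Hom(Γ_χ, A) → Hom(Γ, A)` of a section `r` of `χ` -/
def coresK (emb : H →* G) : CosetSys emb (kerSub χ) Γ where
  ι := Δ
  a δ := emb ((r δ : Γ) : H)
  σ g := Equiv.mulRight (χ g)
  c g δ := coresC χ r hr g δ
  rel g δ := by
    rw [← map_mul, ← map_mul]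
    congr 1
    show ((r δ : Γ) : H) * (g : H) = ((r δ * g * (r (δ * χ g))⁻¹ : Γ) : H) * ((r (δ * χ g) : Γ) : H)
    rw [← Subgroup.coe_mul, ← Subgroup.coe_mul, inv_mul_cancel_right]
  hσ g g' δ := by
    show δ * χ (g * g') = δ * χ g * χ g'
    rw [map_mul, mul_assoc]
  hc g g' δ := by
    apply Subtype.ext
    show ((r δ * (g * g') * (r (δ * χ (g * g')))⁻¹ : Γ) : H)
      = ((r δ * g * (r (δ * χ g))⁻¹ : Γ) : H) * ((r (δ * χ g) * g' * (r (δ * χ g * χ g'))⁻¹ : Γ) : H)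
    rw [← Subgroup.coe_mul, map_mul, mul_assoc δ]
    congr 1
    group

theorem coresK_a (δ : Δ) : (coresK χ r hr emb).a δ = emb ((r δ : Γ) : H) := rfl

theorem coresK_σ (g : Γ) (δ : Δ) : (coresK χ r hr emb).σ g δ = δ * χ g := rfl

theorem coresK_c (g : Γ) (δ : Δ) : (coresK χ r hr emb).c g δ = coresC χ r hr g δ := rfl

theorem coresK_op_apply {A : Type*} [AddCommGroup A] (ψ : Additive (kerSub χ) →+ A) (g : Γ) :
    (coresK χ r hr emb).op A ψ (Additive.ofMul g)
      = ∑ δ : Δ, ψ (Additive.ofMul (coresC χ r hr g δ)) := rfl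

/-- **`res ∘ cores` is the norm** `∑ δ, ⟨δ⟩` -/
theorem res_cores {A : Type*} [AddCommGroup A] (ψ : Additive (kerSub χ) →+ A) :
    (resK emb χ).op A ((coresK χ r hr emb).op A ψ) = ∑ δ : Δ, (diaK emb χ (r δ)).op A ψ := by
  refine AddMonoidHom.ext fun k => ?_
  obtain ⟨k, rfl⟩ : ∃ k' : kerSub χ, Additive.ofMul k' = k := ⟨Additive.toMul k, rfl⟩
  rw [resK_op_apply, coresK_op_apply, AddMonoidHom.finsetSum_apply]
  refine Finset.sum_congr rfl fun δ _ => ?_
  rw [diaK_op_apply]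
  congr 2
  apply Subtype.ext
  show ((r δ * kerIncl χ k * (r (δ * χ (kerIncl χ k)))⁻¹ : Γ) : H)
    = ((r δ * kerIncl χ k * (r δ)⁻¹ : Γ) : H)
  rw [chi_kerIncl, mul_one]

/-- **`cores ∘ res` is multiplication by `|Δ|`** -/
theorem cores_res {A : Type*} [AddCommGroup A] (φ : Additive Γ →+ A) :
    (coresK χ r hr emb).op A ((resK emb χ).op A φ) = Fintype.card Δ • φ := by
  refine AddMonoidHom.ext fun g => ?_
  obtain ⟨g, rfl⟩ : ∃ g' : Γ, Additive.ofMul g' = g := ⟨Additive.toMul g, rfl⟩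
  rw [coresK_op_apply]
  simp_rw [resK_op_apply, kerIncl_coresC, ofMul_mul, ofMul_inv, map_add, map_neg]
  have e : ∑ δ : Δ, φ (Additive.ofMul (r (δ * χ g))) = ∑ δ : Δ, φ (Additive.ofMul (r δ)) :=
    Equiv.sum_comp (Equiv.mulRight (χ g)) (fun δ => φ (Additive.ofMul (r δ)))
  rw [Finset.sum_add_distrib, Finset.sum_add_distrib, Finset.sum_neg_distrib, e, Finset.sum_const,
    Finset.card_univ, AddMonoidHom.smul_apply]
  abel


/-- the reindexing `(δ, j) ↦ ((σ (r δ))⁻¹ j, δ)` -/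
def coresEquiv (S : CosetSys emb Γ Γ) : Δ × S.ι ≃ S.ι × Δ where
  toFun p := ((S.σ (r p.1)).symm p.2, p.1)
  invFun q := (q.2, S.σ (r q.2) q.1)
  left_inv p := by simp
  right_inv q := by simp

/-- **the transfer commutes with the restricted system** -/
theorem cores_kerSys_op (hemb : Function.Injective emb) (S : CosetSys emb Γ Γ) (h : Compat S χ)
    {A : Type*} [AddCommGroup A] (ψ : Additive (kerSub χ) →+ A) :
    (coresK χ r hr emb).op A ((kerSys S χ h).op A ψ) = S.op A ((coresK χ r hr emb).op A ψ) := by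
  rw [← CosetSys.op_comp, ← CosetSys.op_comp]
  refine CosetSys.op_eq_of_equiv ((coresK χ r hr emb).comp S)
    ((kerSys S χ h).comp (coresK χ r hr emb)) hemb (coresEquiv r S)
    1 (fun x => by rw [one_mul, mul_one])
    (fun p => kerMk χ (S.c (r p.1) ((S.σ (r p.1)).symm p.2) * (r p.1)⁻¹) (by
      rw [map_mul, h, map_inv, mul_inv_cancel])) ?_ ?_ ψ
  · rintro ⟨(δ : Δ), (j : S.ι)⟩
    show S.a ((S.σ (r δ)).symm j) * emb ((r δ : Γ) : H)
      = 1 * emb (((S.c (r δ) ((S.σ (r δ)).symm j) * (r δ)⁻¹ : Γ)) : H)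
        * (emb ((r δ : Γ) : H) * S.a j)
    rw [one_mul, S.rel (r δ) ((S.σ (r δ)).symm j), Equiv.apply_symm_apply, ← mul_assoc, ← map_mul,
      ← Subgroup.coe_mul, inv_mul_cancel_right]
  · rintro g ⟨(δ : Δ), (j : S.ι)⟩
    show (S.σ (kerIncl χ (coresC χ r hr g δ)) ((S.σ (r δ)).symm j), δ * χ g)
      = ((S.σ (r (δ * χ (S.c g j)))).symm (S.σ g j), δ * χ (S.c g j))
    rw [h, kerIncl_coresC, S.hσ, S.hσ, Equiv.apply_symm_apply, sigma_inv_eq_symm]

/-- **the transfer kills the diamond operators**: `cores ∘ ⟨d⟩ = cores` -/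
theorem cores_dia (hemb : Function.Injective emb) (d : Γ) {A : Type*} [AddCommGroup A]
    (ψ : Additive (kerSub χ) →+ A) :
    (coresK χ r hr emb).op A ((diaK emb χ d).op A ψ) = (coresK χ r hr emb).op A ψ := by
  rw [← CosetSys.op_comp]
  refine CosetSys.op_eq_of_equiv (coresK χ r hr emb)
    ((diaK emb χ d).comp (coresK χ r hr emb)) hemb
    ((Equiv.mulLeft (χ d)⁻¹).trans (Equiv.punitProd Δ).symm)
    1 (fun x => by rw [one_mul, mul_one])
    (fun (δ : Δ) => kerMk χ (d * r ((χ d)⁻¹ * δ) * (r δ)⁻¹) (by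
      rw [map_mul, map_mul, map_inv, hr, hr, mul_inv_cancel_left, mul_inv_cancel])) ?_ ?_ ψ
  · intro (δ : Δ)
    show emb (d : H) * emb ((r ((χ d)⁻¹ * δ) : Γ) : H)
      = 1 * emb (((d * r ((χ d)⁻¹ * δ) * (r δ)⁻¹ : Γ)) : H) * emb ((r δ : Γ) : H)
    rw [one_mul, ← map_mul, ← map_mul, ← Subgroup.coe_mul, ← Subgroup.coe_mul,
      inv_mul_cancel_right]
  · intro g (δ : Δ)
    show ((), (χ d)⁻¹ * δ * χ g) = ((), (χ d)⁻¹ * (δ * χ g))
    rw [mul_assoc]

end Cores


/-! ### distinctness and commutation are inherited -/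

section Inherit

variable (χ : Γ →* Δ)

/-- distinct cosets modulo `Γ` are distinct modulo `Γ_χ` -/
theorem kerSys_distinct (S : CosetSys emb Γ Γ) (h : Compat S χ) (hd : S.Distinct) :
    (kerSys S χ h).Distinct := by
  intro i j κ hκ
  exact hd i j (kerIncl χ κ) hκ

theorem kerSys_comp_distinct (S S' : CosetSys emb Γ Γ) (h : Compat S χ) (h' : Compat S' χ)
    (hd : (S.comp S').Distinct) : ((kerSys S χ h).comp (kerSys S' χ h')).Distinct := by
  rintro ⟨i, j⟩ ⟨i', j'⟩ κ hκ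
  exact hd (i, j) (i', j') (kerIncl χ κ) hκ

/-- **commutation of two restricted systems**, reduced to a statement about cosets of `Γ`:
the composite `S' ∘ S` has distinct cosets, and every coset `Γ · a_i a'_j` contains
`γ⁻¹ a'_{j'} a_{i'}` for some `γ ∈ Γ` with `χ γ = 1`. -/
theorem kerSys_op_comm_of_cosets (hemb : Function.Injective emb) (S S' : CosetSys emb Γ Γ)
    (h : Compat S χ) (h' : Compat S' χ) (hd : (S'.comp S).Distinct)
    (e : S.ι × S'.ι ≃ S'.ι × S.ι) (γ : S.ι × S'.ι → Γ) (hγ : ∀ p, χ (γ p) = 1)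
    (hrep : ∀ p : S.ι × S'.ι,
      S'.a (e p).1 * S.a (e p).2 = emb ((γ p : Γ) : H) * (S.a p.1 * S'.a p.2))
    {A : Type*} [AddCommGroup A] (ψ : Additive (kerSub χ) →+ A) :
    (kerSys S χ h).op A ((kerSys S' χ h').op A ψ)
      = (kerSys S' χ h').op A ((kerSys S χ h).op A ψ) := by
  rw [← CosetSys.op_comp, ← CosetSys.op_comp]
  refine CosetSys.op_eq_of_cosets ((kerSys S χ h).comp (kerSys S' χ h'))
    ((kerSys S' χ h').comp (kerSys S χ h)) hemb (kerSys_comp_distinct χ S' S h' h hd) e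
    1 (fun x => by rw [one_mul, mul_one]) (fun p => kerMk χ (γ p) (hγ p)) ?_ ψ
  intro p
  show S'.a (e p).1 * S.a (e p).2 = 1 * emb ((γ p : Γ) : H) * (S.a p.1 * S'.a p.2)
  rw [one_mul, hrep p]

end Inherit

end Fermat.Agent.GB.B3
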