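import Mathlib
import Fermat.Agent.GB.B3.Eis
import Fermat.Agent.GB.B3.KerSys
import Fermat.Agent.GB.B3.FreeCyclic

/-!
# GATE-B / B3 (helper46): the cyclic step `CycStep` of a kernel subsystem

Glue between helper2's `KerSys` (restriction, transfer, diamonds and the restricted Hecke system on
`Γ_χ = ker χ`), helper95's `FreeCyclic.CycStep` (the binder package of one cyclic step of the
Taylor–Wiles tower) and `GB/B3/Eis` (the Eisenstein field).

For `χ : Γ →* Δ` onto a cyclic group of order `q` generated by `χ d0`, a section `r` of `χ`, and a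
`χ`-compatible coset system `S` on `Γ` (a Hecke operator `T`), `cycStep` is the `CycStep` with

* `L = Hom(Γ_χ, O)`, `L0 = Hom(Γ, O)`, `D = ⟨d0⟩`, `res`, `cores` the operators of `KerSys`,
* `t = T^χ - card ι` on `L`, `t0 = T - card ι` on `L0` (for `T_ℓ`: `T_ℓ - ℓ - 1`),

from the TWO model inputs `cores` ONTO and `ker cores = (D - 1) L` (binders `hsurj`, `hker`:
helper95 `CoresModel` / helper22 `TorsorModel`).  All other fields are theorems.
-/

set_option autoImplicit false

namespace Fermat.Agent.GB.B3.CycInst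

open Fermat.Agent.GM.B Fermat.Agent.GB.B3 Fermat.Agent.GB.B3.FreeCyclic

variable {H G : Type*} [Group H] [Group G] {emb : H →* G}

section OpLin

variable (O : Type*) [CommRing O] {Γ₁ Γ₂ : Subgroup H}

/-- the operator of a coset system as an `O`-linear map `Hom(Γ₁, O) → Hom(Γ₂, O)` -/
noncomputable def opLin (T : CosetSys emb Γ₁ Γ₂) :
    (Additive Γ₁ →+ O) →ₗ[O] (Additive Γ₂ →+ O) where
  toFun := T.op O
  map_add' := map_add _
  map_smul' c φ := by
    have e : c • φ = (AddMonoidHom.mulLeft c).comp φ := by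
      refine AddMonoidHom.ext fun g => ?_
      rfl
    rw [RingHom.id_apply, e, CosetSys.op_comp_hom]
    refine AddMonoidHom.ext fun g => ?_
    rfl

theorem opLin_apply (T : CosetSys emb Γ₁ Γ₂) (φ : Additive Γ₁ →+ O) :
    opLin O T φ = T.op O φ := rfl

end OpLin

section Step

variable (hemb : Function.Injective emb) {Γ : Subgroup H} {Δ : Type} [CommGroup Δ] [Fintype Δ]
  (χ : Γ →* Δ) (r : Δ → Γ) (hr : ∀ δ, χ (r δ) = δ) (S : CosetSys emb Γ Γ) (h : Compat S χ)
  (O : Type*) [CommRing O] (q : ℕ) (d0 : Γ)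

omit [Fintype Δ] in
/-- powers of a diamond operator -/
theorem dia_pow (n : ℕ) (ψ : Additive (kerSub χ) →+ O) :
    ((opLin O (diaK emb χ d0)) ^ n) ψ = (diaK emb χ (d0 ^ n)).op O ψ := by
  induction n generalizing ψ with
  | zero =>
    rw [pow_zero, pow_zero, Module.End.one_apply]
    exact (dia_of_ker χ 1 (map_one χ) ψ).symm
  | succ n ih =>
    rw [pow_succ, Module.End.mul_apply, ih, opLin_apply, pow_succ', dia_mul]

omit [Fintype Δ] in
theorem dia_pow_order (hord : orderOf (χ d0) = q) (ψ : Additive (kerSub χ) →+ O) :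
    ((opLin O (diaK emb χ d0)) ^ q) ψ = ψ := by
  rw [dia_pow]
  refine dia_of_ker χ _ ?_ ψ
  rw [map_pow, ← hord, pow_orderOf_eq_one]

theorem pow_bijective (hord : orderOf (χ d0) = q) (hcard : Fintype.card Δ = q) :
    Function.Bijective (fun i : Fin q => χ d0 ^ (i : ℕ)) := by
  rw [Fintype.bijective_iff_injective_and_card]
  refine ⟨?_, by rw [Fintype.card_fin, hcard]⟩
  intro i j hij
  apply Fin.ext
  refine pow_injOn_Iio_orderOf ?_ ?_ hij
  · rw [Set.mem_Iio, hord]; exact i.2
  · rw [Set.mem_Iio, hord]; exact j.2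

/-- **`res ∘ cores = ∑_{i < q} D^i`** -/
theorem res_cores_eq_sum_pow (hord : orderOf (χ d0) = q) (hcard : Fintype.card Δ = q)
    (ψ : Additive (kerSub χ) →+ O) :
    (resK emb χ).op O ((coresK χ r hr emb).op O ψ)
      = ∑ i ∈ Finset.range q, ((opLin O (diaK emb χ d0)) ^ i) ψ := by
  rw [res_cores, ← Fin.sum_univ_eq_sum_range (fun i => ((opLin O (diaK emb χ d0)) ^ i) ψ) q]
  symm
  refine Fintype.sum_bijective _ (pow_bijective χ q d0 hord hcard) _ _ ?_
  intro i
  rw [dia_pow]
  refine dia_congr χ _ _ ?_ ψ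
  rw [hr, map_pow]

/-- **the cyclic step of a kernel subsystem.** -/
noncomputable def cycStep (hord : orderOf (χ d0) = q) (hcard : Fintype.card Δ = q)
    (hq : ∀ a : O, (q : O) * a = 0 → a = 0)
    (hsurj : Function.Surjective ((coresK χ r hr emb).op O))
    (hker : ∀ x : Additive (kerSub χ) →+ O, (coresK χ r hr emb).op O x = 0 →
      ∃ y : Additive (kerSub χ) →+ O, x = (diaK emb χ d0).op O y - y) :
    CycStep O (Additive (kerSub χ) →+ O) (Additive Γ →+ O) q where
  D := opLin O (diaK emb χ d0)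
  res := opLin O (resK emb χ)
  cores := opLin O (coresK χ r hr emb)
  t := opLin O (kerSys S χ h) - Fintype.card S.ι • LinearMap.id
  t0 := opLin O S - Fintype.card S.ι • LinearMap.id
  D_pow := by
    refine LinearMap.ext fun ψ => ?_
    rw [dia_pow_order χ O q d0 hord, Module.End.one_apply]
  res_cores x := by
    rw [opLin_apply, opLin_apply]
    exact res_cores_eq_sum_pow χ r hr O q d0 hord hcard x
  cores_res y := by
    rw [opLin_apply, opLin_apply, cores_res, hcard, Nat.cast_smul_eq_nsmul]
  cores_surj := hsurj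
  ker_cores x hx := hker x hx
  t_D x := by
    simp only [LinearMap.sub_apply, LinearMap.smul_apply, LinearMap.id_apply, map_sub, map_nsmul]
    rw [opLin_apply, opLin_apply, opLin_apply, opLin_apply, dia_kerSys_op hemb S χ h d0 x]
  res_t0 y := by
    simp only [LinearMap.sub_apply, LinearMap.smul_apply, LinearMap.id_apply, map_sub, map_nsmul]
    rw [opLin_apply, opLin_apply, opLin_apply, opLin_apply, kerSys_op_res S χ h y]
  cores_t x := by
    simp only [LinearMap.sub_apply, LinearMap.smul_apply, LinearMap.id_apply, map_sub, map_nsmul]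
    rw [opLin_apply, opLin_apply, opLin_apply, opLin_apply, cores_kerSys_op χ r hr hemb S h x]
  eis ψ := by
    rintro ⟨z, hz⟩
    have hA : ∀ a : O, q • a = 0 → a = 0 := by
      intro a ha
      rw [nsmul_eq_mul] at ha
      exact hq a ha
    have hψ : ∀ g : Γ, χ g = 1 → ∃ a : O, ψ (Additive.ofMul g) = q • a := by
      intro g hg
      refine ⟨z (Additive.ofMul (kerMk χ g hg)), ?_⟩
      have h1 := DFunLike.congr_fun hz (Additive.ofMul (kerMk χ g hg))
      rw [opLin_apply, resK_op_apply, kerIncl_kerMk] at h1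
      rw [h1, AddMonoidHom.smul_apply, smul_eq_mul, nsmul_eq_mul]
    obtain ⟨ψ', hψ'⟩ := Eis.exists_op_sub_card_nsmul_eq_nsmul S χ (fun _ => 1)
      (fun g i => by rw [mul_one, mul_one, h g i]) q hA ψ hψ
    refine ⟨ψ', ?_⟩
    rw [LinearMap.sub_apply, LinearMap.smul_apply, LinearMap.id_apply, opLin_apply, hψ',
      Nat.cast_smul_eq_nsmul]

end Step

end Fermat.Agent.GB.B3.CycInst
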