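/-
GATE-B node B3-HECKE, relative form (helper2): **two levels of one character**.

`χ : Γ →* Δ` (`Δ` commutative), `π : Δ →* Δ''`.  Then `Γ_χ = kerSub χ ≤ Γ_{πχ} = kerSub (π ∘ χ) ≤ Γ`
and the quotient `Γ_{πχ} / Γ_χ` is (a subgroup of) `ker π`.  This file provides the restriction
and the transfer BETWEEN the two levels and their compatibility with the restricted coset
systems `kerSys S _` and the diamond operators `diaK _ d` (`d ∈ Γ`) of BOTH levels — the step of
the Taylor–Wiles tower from `Q ∖ {r}` to `Q` with all groups of the uniform shape `kerSub _`: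

* `resKK`, `coresKK` : the coset systems; `chiK : Γ_{πχ} →* ker π`;
* `kerSys_op_resKK`, `coresKK_kerSys_op` : Hecke equivariance;
* `dia_resKK`, `coresKK_dia` : diamond equivariance (old diamonds act on both levels);
* `resKK_coresKK = ∑ δ ∈ ker π, ⟨r δ⟩`, `coresKK_resKK = |ker π|`, `resKK_resK`.
-/
import Mathlib
import Fermat.Agent.GB.B3.KerSys

set_option autoImplicit false

namespace Fermat.Agent.GB.B3

open Fermat.Agent.GM.B

variable {H G : Type*} [Group H] [Group G] {emb : H →* G} {Γ : Subgroup H}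
  {Δ Δ'' : Type} [CommGroup Δ] [Group Δ'']

section Basic

variable (χ : Γ →* Δ) (π : Δ →* Δ'')

theorem kerSub_le_comp : kerSub χ ≤ kerSub (π.comp χ) := by
  rintro _ ⟨g, hg, rfl⟩
  refine ⟨g, ?_, rfl⟩
  show π (χ g) = 1
  have : χ g = 1 := hg
  rw [this, map_one]

/-- the inclusion of the lower level into the upper level -/
def upIncl : kerSub χ →* kerSub (π.comp χ) := Subgroup.inclusion (kerSub_le_comp χ π)

@[simp] theorem kerIncl_upIncl (k : kerSub χ) : kerIncl (π.comp χ) (upIncl χ π k) = kerIncl χ k := rfl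

theorem Compat.comp {S : CosetSys emb Γ Γ} (h : Compat S χ) : Compat S (π.comp χ) := by
  intro g i
  show π (χ (S.c g i)) = π (χ g)
  rw [h]

/-- the character of the upper level with values in `ker π` -/
def chiK : kerSub (π.comp χ) →* π.ker :=
  (χ.comp (kerIncl (π.comp χ))).codRestrict π.ker (fun g => chi_kerIncl (π.comp χ) g)

@[simp] theorem coe_chiK (g : kerSub (π.comp χ)) :
    ((chiK χ π g : π.ker) : Δ) = χ (kerIncl (π.comp χ) g) := rfl

/-- restriction from the upper to the lower level -/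
def resKK (emb : H →* G) : CosetSys emb (kerSub (π.comp χ)) (kerSub χ) :=
  CosetSys.single emb 1 (upIncl χ π) (fun g => by rw [one_mul, mul_one]; rfl)

theorem resKK_op_apply {A : Type*} [AddCommGroup A] (φ : Additive (kerSub (π.comp χ)) →+ A)
    (k : kerSub χ) :
    (resKK χ π emb).op A φ (Additive.ofMul k) = φ (Additive.ofMul (upIncl χ π k)) :=
  CosetSys.single_op_apply _ _ _ φ k

/-- restriction is transitive -/
theorem resKK_resK {A : Type*} [AddCommGroup A] (φ : Additive Γ →+ A) :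
    (resKK χ π emb).op A ((resK emb (π.comp χ)).op A φ) = (resK emb χ).op A φ := by
  refine AddMonoidHom.ext fun k => ?_
  obtain ⟨k, rfl⟩ : ∃ k' : kerSub χ, Additive.ofMul k' = k := ⟨Additive.toMul k, rfl⟩
  rw [resKK_op_apply, resK_op_apply, resK_op_apply, kerIncl_upIncl]

/-- **Hecke equivariance of the restriction** -/
theorem kerSys_op_resKK (S : CosetSys emb Γ Γ) (h : Compat S χ) {A : Type*} [AddCommGroup A]
    (φ : Additive (kerSub (π.comp χ)) →+ A) :
    (kerSys S χ h).op A ((resKK χ π emb).op A φ)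
      = (resKK χ π emb).op A ((kerSys S (π.comp χ) (h.comp χ π)).op A φ) := by
  refine AddMonoidHom.ext fun k => ?_
  obtain ⟨k, rfl⟩ : ∃ k' : kerSub χ, Additive.ofMul k' = k := ⟨Additive.toMul k, rfl⟩
  rw [CosetSys.op_apply, resKK_op_apply, CosetSys.op_apply]
  refine Finset.sum_congr rfl fun i _ => ?_
  rw [resKK_op_apply]
  rfl

/-- **diamond equivariance of the restriction** -/
theorem dia_resKK (d : Γ) {A : Type*} [AddCommGroup A]
    (φ : Additive (kerSub (π.comp χ)) →+ A) :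
    (diaK emb χ d).op A ((resKK χ π emb).op A φ)
      = (resKK χ π emb).op A ((diaK emb (π.comp χ) d).op A φ) := by
  refine AddMonoidHom.ext fun k => ?_
  obtain ⟨k, rfl⟩ : ∃ k' : kerSub χ, Additive.ofMul k' = k := ⟨Additive.toMul k, rfl⟩
  rw [diaK_op_apply, resKK_op_apply, resKK_op_apply, diaK_op_apply]
  rfl

end Basic


section Cores

variable (χ : Γ →* Δ) (π : Δ →* Δ'') [Fintype π.ker] (r : π.ker → Γ)
  (hr : ∀ δ : π.ker, χ (r δ) = (δ : Δ))

/-- the cocycle of the relative transfer -/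
def coresCC (g : kerSub (π.comp χ)) (δ : π.ker) : kerSub χ :=
  kerMk χ (r δ * kerIncl (π.comp χ) g * (r (δ * chiK χ π g))⁻¹) (by
    rw [map_mul, map_mul, map_inv, hr, hr, Subgroup.coe_mul, coe_chiK, mul_inv_cancel])

omit [Fintype π.ker] in
theorem kerIncl_coresCC (g : kerSub (π.comp χ)) (δ : π.ker) :
    kerIncl χ (coresCC χ π r hr g δ)
      = r δ * kerIncl (π.comp χ) g * (r (δ * chiK χ π g))⁻¹ := rfl

/-- **the relative transfer system** `Hom(Γ_χ, A) → Hom(Γ_{πχ}, A)` of a section `r` of `χ` over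
`ker π` -/
def coresKK (emb : H →* G) : CosetSys emb (kerSub χ) (kerSub (π.comp χ)) where
  ι := π.ker
  a δ := emb ((r δ : Γ) : H)
  σ g := Equiv.mulRight (chiK χ π g)
  c g δ := coresCC χ π r hr g δ
  rel g δ := by
    rw [← map_mul, ← map_mul]
    congr 1
    show ((r δ : Γ) : H) * ((kerIncl (π.comp χ) g : Γ) : H)
      = ((r δ * kerIncl (π.comp χ) g * (r (δ * chiK χ π g))⁻¹ : Γ) : H)
        * ((r (δ * chiK χ π g) : Γ) : H)
    rw [← Subgroup.coe_mul, ← Subgroup.coe_mul, inv_mul_cancel_right]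
  hσ g g' δ := by
    show δ * chiK χ π (g * g') = δ * chiK χ π g * chiK χ π g'
    rw [map_mul, mul_assoc]
  hc g g' δ := by
    apply Subtype.ext
    show ((r δ * kerIncl (π.comp χ) (g * g') * (r (δ * chiK χ π (g * g')))⁻¹ : Γ) : H)
      = ((r δ * kerIncl (π.comp χ) g * (r (δ * chiK χ π g))⁻¹ : Γ) : H)
        * ((r (δ * chiK χ π g) * kerIncl (π.comp χ) g'
            * (r (δ * chiK χ π g * chiK χ π g'))⁻¹ : Γ) : H)
    rw [← Subgroup.coe_mul, map_mul, map_mul, mul_assoc δ]
    congr 1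
    group

theorem coresKK_op_apply {A : Type*} [AddCommGroup A] (ψ : Additive (kerSub χ) →+ A)
    (g : kerSub (π.comp χ)) :
    (coresKK χ π r hr emb).op A ψ (Additive.ofMul g)
      = ∑ δ : π.ker, ψ (Additive.ofMul (coresCC χ π r hr g δ)) := rfl

/-- **`res ∘ cores` is the relative norm** `∑ δ ∈ ker π, ⟨δ⟩` -/
theorem resKK_coresKK {A : Type*} [AddCommGroup A] (ψ : Additive (kerSub χ) →+ A) :
    (resKK χ π emb).op A ((coresKK χ π r hr emb).op A ψ)
      = ∑ δ : π.ker, (diaK emb χ (r δ)).op A ψ := by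
  refine AddMonoidHom.ext fun k => ?_
  obtain ⟨k, rfl⟩ : ∃ k' : kerSub χ, Additive.ofMul k' = k := ⟨Additive.toMul k, rfl⟩
  rw [resKK_op_apply, coresKK_op_apply, AddMonoidHom.finsetSum_apply]
  refine Finset.sum_congr rfl fun δ _ => ?_
  rw [diaK_op_apply]
  congr 2
  apply Subtype.ext
  have h1 : chiK χ π (upIncl χ π k) = 1 := by
    apply Subtype.ext
    rw [coe_chiK, kerIncl_upIncl, chi_kerIncl]
    rfl
  show ((r δ * kerIncl (π.comp χ) (upIncl χ π k) * (r (δ * chiK χ π (upIncl χ π k)))⁻¹ : Γ) : H)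
    = ((r δ * kerIncl χ k * (r δ)⁻¹ : Γ) : H)
  rw [h1, mul_one, kerIncl_upIncl]

/-- **`cores ∘ res` is multiplication by `|ker π|`** -/
theorem coresKK_resKK {A : Type*} [AddCommGroup A] (φ : Additive (kerSub (π.comp χ)) →+ A) :
    (coresKK χ π r hr emb).op A ((resKK χ π emb).op A φ) = Fintype.card π.ker • φ := by
  -- the representatives, as elements of the upper level
  have hrK : ∀ δ : π.ker, (π.comp χ) (r δ) = 1 := fun δ => by
    show π (χ (r δ)) = 1
    rw [hr]
    exact δ.2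
  refine AddMonoidHom.ext fun g => ?_
  obtain ⟨g, rfl⟩ : ∃ g' : kerSub (π.comp χ), Additive.ofMul g' = g := ⟨Additive.toMul g, rfl⟩
  rw [coresKK_op_apply]
  have hterm : ∀ δ : π.ker, upIncl χ π (coresCC χ π r hr g δ)
      = kerMk (π.comp χ) (r δ) (hrK δ) * g * (kerMk (π.comp χ) (r (δ * chiK χ π g)) (hrK _))⁻¹ := by
    intro δ
    apply Subtype.ext
    rfl
  simp_rw [resKK_op_apply, hterm, ofMul_mul, ofMul_inv, map_add, map_neg]
  have e : ∑ δ : π.ker, φ (Additive.ofMul (kerMk (π.comp χ) (r (δ * chiK χ π g)) (hrK _)))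
      = ∑ δ : π.ker, φ (Additive.ofMul (kerMk (π.comp χ) (r δ) (hrK δ))) :=
    Equiv.sum_comp (Equiv.mulRight (chiK χ π g))
      (fun δ => φ (Additive.ofMul (kerMk (π.comp χ) (r δ) (hrK δ))))
  rw [Finset.sum_add_distrib, Finset.sum_add_distrib, Finset.sum_neg_distrib, e, Finset.sum_const,
    Finset.card_univ, AddMonoidHom.smul_apply]
  abel


/-- the reindexing `(δ, j) ↦ ((σ (r δ))⁻¹ j, δ)` -/
def coresEquivKK (S : CosetSys emb Γ Γ) : π.ker × S.ι ≃ S.ι × π.ker where
  toFun p := ((S.σ (r p.1)).symm p.2, p.1)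
  invFun q := (q.2, S.σ (r q.2) q.1)
  left_inv p := by simp
  right_inv q := by simp

omit [Fintype π.ker] in
theorem chiK_kerSys_c (S : CosetSys emb Γ Γ) (h : Compat S χ) (g : kerSub (π.comp χ))
    (j : S.ι) : chiK χ π ((kerSys S (π.comp χ) (h.comp χ π)).c g j) = chiK χ π g := by
  apply Subtype.ext
  rw [coe_chiK, coe_chiK, kerIncl_kerSys_c, h]

/-- **Hecke equivariance of the relative transfer** -/
theorem coresKK_kerSys_op (hemb : Function.Injective emb) (S : CosetSys emb Γ Γ)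
    (h : Compat S χ) {A : Type*} [AddCommGroup A] (ψ : Additive (kerSub χ) →+ A) :
    (coresKK χ π r hr emb).op A ((kerSys S χ h).op A ψ)
      = (kerSys S (π.comp χ) (h.comp χ π)).op A ((coresKK χ π r hr emb).op A ψ) := by
  rw [← CosetSys.op_comp, ← CosetSys.op_comp]
  refine CosetSys.op_eq_of_equiv
    ((coresKK χ π r hr emb).comp (kerSys S (π.comp χ) (h.comp χ π)))
    ((kerSys S χ h).comp (coresKK χ π r hr emb)) hemb (coresEquivKK π r S)
    1 (fun x => by rw [one_mul, mul_one])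
    (fun p => kerMk χ (S.c (r p.1) ((S.σ (r p.1)).symm p.2) * (r p.1)⁻¹) (by
      rw [map_mul, h, map_inv, mul_inv_cancel])) ?_ ?_ ψ
  · rintro ⟨(δ : π.ker), (j : S.ι)⟩
    show S.a ((S.σ (r δ)).symm j) * emb ((r δ : Γ) : H)
      = 1 * emb (((S.c (r δ) ((S.σ (r δ)).symm j) * (r δ)⁻¹ : Γ)) : H)
        * (emb ((r δ : Γ) : H) * S.a j)
    rw [one_mul, S.rel (r δ) ((S.σ (r δ)).symm j), Equiv.apply_symm_apply, ← mul_assoc, ← map_mul,
      ← Subgroup.coe_mul, inv_mul_cancel_right]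
  · rintro g ⟨(δ : π.ker), (j : S.ι)⟩
    show (S.σ (kerIncl χ (coresCC χ π r hr g δ)) ((S.σ (r δ)).symm j), δ * chiK χ π g)
      = ((S.σ (r (δ * chiK χ π ((kerSys S (π.comp χ) (h.comp χ π)).c g j)))).symm
          (S.σ (kerIncl (π.comp χ) g) j),
        δ * chiK χ π ((kerSys S (π.comp χ) (h.comp χ π)).c g j))
    rw [chiK_kerSys_c χ π S h, kerIncl_coresCC, S.hσ, S.hσ, Equiv.apply_symm_apply,
      sigma_inv_eq_symm]

omit [Fintype π.ker] in
theorem chiK_conjK (d : Γ) (g : kerSub (π.comp χ)) :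
    chiK χ π (conjK (π.comp χ) d g) = chiK χ π g := by
  apply Subtype.ext
  rw [coe_chiK, coe_chiK, kerIncl_conjK, map_mul, map_mul, map_inv, mul_comm, inv_mul_cancel_left]

/-- **diamond equivariance of the relative transfer** (`Δ` commutative) -/
theorem coresKK_dia (hemb : Function.Injective emb) (d : Γ) {A : Type*} [AddCommGroup A]
    (ψ : Additive (kerSub χ) →+ A) :
    (coresKK χ π r hr emb).op A ((diaK emb χ d).op A ψ)
      = (diaK emb (π.comp χ) d).op A ((coresKK χ π r hr emb).op A ψ) := by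
  rw [← CosetSys.op_comp, ← CosetSys.op_comp]
  refine CosetSys.op_eq_of_equiv
    ((coresKK χ π r hr emb).comp (diaK emb (π.comp χ) d))
    ((diaK emb χ d).comp (coresKK χ π r hr emb)) hemb (Equiv.prodComm π.ker Unit)
    1 (fun x => by rw [one_mul, mul_one])
    (fun p => kerMk χ (d * r p.1 * d⁻¹ * (r p.1)⁻¹) (by
      rw [map_mul, map_mul, map_mul, map_inv, map_inv, mul_comm (χ d), mul_inv_cancel_right,
        mul_inv_cancel])) ?_ ?_ ψ
  · rintro ⟨(δ : π.ker), u⟩
    show emb (d : H) * emb ((r δ : Γ) : H)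
      = 1 * emb (((d * r δ * d⁻¹ * (r δ)⁻¹ : Γ)) : H) * (emb ((r δ : Γ) : H) * emb (d : H))
    rw [one_mul, ← map_mul, ← map_mul, ← map_mul, ← Subgroup.coe_mul, ← Subgroup.coe_mul,
      ← Subgroup.coe_mul]
    congr 2
    group
  · rintro g ⟨(δ : π.ker), u⟩
    show ((), δ * chiK χ π g) = ((), δ * chiK χ π (conjK (π.comp χ) d g))
    rw [chiK_conjK]

end Cores

end Fermat.Agent.GB.B3
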