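/-
GATE-B / B3 (helper2): the cyclic step `CycStep` BETWEEN two levels of one character — the relative
form of helper46's `CycInst.cycStep`, on `GB/B3/KerSys2`.

`χ : Γ →* Δ` (`Δ` commutative), `π : Δ →* Δ''` with `ker π` cyclic of order `q` generated by
`χ d0`, a section `r` of `χ` over `ker π`, a `χ`-compatible coset system `S` on `Γ`.  Then
`cycStepKK` is the `FreeCyclic.CycStep` with

* `L = Hom(Γ_χ, O)`, `L0 = Hom(Γ_{πχ}, O)`, `D = ⟨d0⟩`, `res`, `cores` the relative operators,
* `t = T^χ - card ι` on `L`, `t0 = T^{πχ} - card ι` on `L0`,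

from the two model inputs `cores` ONTO and `ker cores = (D - 1) L`.
-/
import Mathlib
import Fermat.Agent.GB.B3.KerSys2
import Fermat.Agent.GB.B3.CycInst

set_option autoImplicit false

namespace Fermat.Agent.GB.B3.CycInst

open Fermat.Agent.GM.B Fermat.Agent.GB.B3 Fermat.Agent.GB.B3.FreeCyclic

variable {H G : Type*} [Group H] [Group G] {emb : H →* G}

section StepKK

variable (hemb : Function.Injective emb) {Γ : Subgroup H} {Δ Δ'' : Type} [CommGroup Δ]
  [Group Δ''] (χ : Γ →* Δ) (π : Δ →* Δ'') [Fintype π.ker] (r : π.ker → Γ)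
  (hr : ∀ δ : π.ker, χ (r δ) = (δ : Δ)) (S : CosetSys emb Γ Γ) (h : Compat S χ)
  (O : Type*) [CommRing O] (q : ℕ) (d0 : Γ)

omit [Fintype π.ker] in
theorem pow_mem_ker (hd0 : χ d0 ∈ π.ker) (i : ℕ) : χ d0 ^ i ∈ π.ker := π.ker.pow_mem hd0 i

theorem pow_bijectiveKK (hd0 : χ d0 ∈ π.ker) (hord : orderOf (χ d0) = q)
    (hcard : Fintype.card π.ker = q) :
    Function.Bijective (fun i : Fin q => (⟨χ d0 ^ (i : ℕ), pow_mem_ker χ π d0 hd0 i⟩ : π.ker)) := by
  rw [Fintype.bijective_iff_injective_and_card]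
  refine ⟨?_, by rw [Fintype.card_fin, hcard]⟩
  intro i j hij
  apply Fin.ext
  have hij' : χ d0 ^ (i : ℕ) = χ d0 ^ (j : ℕ) := congrArg Subtype.val hij
  refine pow_injOn_Iio_orderOf ?_ ?_ hij'
  · rw [Set.mem_Iio, hord]; exact i.2
  · rw [Set.mem_Iio, hord]; exact j.2

/-- **`res ∘ cores = ∑_{i < q} D^i`** between two levels -/
theorem resKK_coresKK_eq_sum_pow (hd0 : χ d0 ∈ π.ker) (hord : orderOf (χ d0) = q)
    (hcard : Fintype.card π.ker = q) (ψ : Additive (kerSub χ) →+ O) :
    (resKK χ π emb).op O ((coresKK χ π r hr emb).op O ψ)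
      = ∑ i ∈ Finset.range q, ((opLin O (diaK emb χ d0)) ^ i) ψ := by
  rw [resKK_coresKK, ← Fin.sum_univ_eq_sum_range (fun i => ((opLin O (diaK emb χ d0)) ^ i) ψ) q]
  symm
  refine Fintype.sum_bijective _ (pow_bijectiveKK χ π q d0 hd0 hord hcard) _ _ ?_
  intro i
  rw [dia_pow]
  refine dia_congr χ _ _ ?_ ψ
  rw [hr, map_pow]

/-- **the cyclic step between two levels of one character.** -/
noncomputable def cycStepKK (hd0 : χ d0 ∈ π.ker) (hord : orderOf (χ d0) = q)
    (hcard : Fintype.card π.ker = q)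
    (hq : ∀ a : O, (q : O) * a = 0 → a = 0)
    (hsurj : Function.Surjective ((coresKK χ π r hr emb).op O))
    (hker : ∀ x : Additive (kerSub χ) →+ O, (coresKK χ π r hr emb).op O x = 0 →
      ∃ y : Additive (kerSub χ) →+ O, x = (diaK emb χ d0).op O y - y) :
    CycStep O (Additive (kerSub χ) →+ O) (Additive (kerSub (π.comp χ)) →+ O) q where
  D := opLin O (diaK emb χ d0)
  res := opLin O (resKK χ π emb)
  cores := opLin O (coresKK χ π r hr emb)
  t := opLin O (kerSys S χ h) - Fintype.card S.ι • LinearMap.id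
  t0 := opLin O (kerSys S (π.comp χ) (h.comp χ π)) - Fintype.card S.ι • LinearMap.id
  D_pow := by
    refine LinearMap.ext fun ψ => ?_
    rw [dia_pow_order χ O q d0 hord, Module.End.one_apply]
  res_cores x := by
    rw [opLin_apply, opLin_apply]
    exact resKK_coresKK_eq_sum_pow χ π r hr O q d0 hd0 hord hcard x
  cores_res y := by
    rw [opLin_apply, opLin_apply, coresKK_resKK, hcard, Nat.cast_smul_eq_nsmul]
  cores_surj := hsurj
  ker_cores x hx := hker x hx
  t_D x := by
    simp only [LinearMap.sub_apply, LinearMap.smul_apply, LinearMap.id_apply, map_sub, map_nsmul]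
    rw [opLin_apply, opLin_apply, opLin_apply, opLin_apply, dia_kerSys_op hemb S χ h d0 x]
  res_t0 y := by
    simp only [LinearMap.sub_apply, LinearMap.smul_apply, LinearMap.id_apply, map_sub, map_nsmul]
    rw [opLin_apply, opLin_apply, opLin_apply, opLin_apply, kerSys_op_resKK χ π S h y]
  cores_t x := by
    simp only [LinearMap.sub_apply, LinearMap.smul_apply, LinearMap.id_apply, map_sub, map_nsmul]
    rw [opLin_apply, opLin_apply, opLin_apply, opLin_apply,
      coresKK_kerSys_op χ π r hr hemb S h x]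
  eis ψ := by
    rintro ⟨z, hz⟩
    have hA : ∀ a : O, q • a = 0 → a = 0 := by
      intro a ha
      rw [nsmul_eq_mul] at ha
      exact hq a ha
    have hψ : ∀ g : kerSub (π.comp χ), chiK χ π g = 1 →
        ∃ a : O, ψ (Additive.ofMul g) = q • a := by
      intro g hg
      have hg' : χ (kerIncl (π.comp χ) g) = 1 := by
        have := congrArg Subtype.val hg
        rwa [coe_chiK] at this
      refine ⟨z (Additive.ofMul (kerMk χ (kerIncl (π.comp χ) g) hg')), ?_⟩
      have h1 := DFunLike.congr_fun hz (Additive.ofMul (kerMk χ (kerIncl (π.comp χ) g) hg'))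
      rw [opLin_apply, resKK_op_apply] at h1
      have e : upIncl χ π (kerMk χ (kerIncl (π.comp χ) g) hg') = g := Subtype.ext rfl
      rw [e] at h1
      rw [h1, AddMonoidHom.smul_apply, smul_eq_mul, nsmul_eq_mul]
    obtain ⟨ψ', hψ'⟩ := Eis.exists_op_sub_card_nsmul_eq_nsmul
      (kerSys S (π.comp χ) (h.comp χ π)) (chiK χ π) (fun _ => 1)
      (fun g i => by rw [mul_one, mul_one, chiK_kerSys_c χ π S h g i]) q hA ψ hψ
    refine ⟨ψ', ?_⟩
    rw [LinearMap.sub_apply, LinearMap.smul_apply, LinearMap.id_apply, opLin_apply]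
    have hc : Fintype.card (kerSys S (π.comp χ) (h.comp χ π)).ι = Fintype.card S.ι := rfl
    rw [hc] at hψ'
    rw [hψ', Nat.cast_smul_eq_nsmul]

end StepKK

end Fermat.Agent.GB.B3.CycInst
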