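import Mathlib
import Fermat.Agent.GB.B3.CoresModel
import Fermat.Agent.GB.B3.CycInst

/-!
GATE-B / B3 (helper95): **the two model binders of `CycInst.cycStep` discharged** for subgroups of
`SL(2,ℤ)`: for `χ : Γ →* Δ` onto a cyclic group of order `q` prime to `6` (generated by `χ d0`),
`-1 ∈ ker χ`, `Γ` of finite index, and `O` torsion free:

* `coresK_op_surjective` : `cores : Hom(Γ_χ, O) → Hom(Γ, O)` is onto;
* `coresK_op_eq_zero`    : `cores x = 0 → ∃ y, x = ⟨d0⟩ y - y`;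
* `cycStepSL`            : helper46's `cycStep` with no model binder left.
-/

set_option autoImplicit false
set_option linter.unusedSectionVars false
set_option linter.style.haveILetI false

open scoped MatrixGroups

namespace Fermat.Agent.GB.B3.CycPlug

open Fermat.Agent.GM.B Fermat.Agent.GB.B3 Fermat.Agent.GB.B3.CoresModel
  Fermat.Agent.GB.B3.FreeCyclic Fermat.Agent.GB.B3.CycInst

variable {G : Type*} [Group G] {emb : SL(2,ℤ) →* G}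
variable {Γ : Subgroup SL(2,ℤ)} {Δ : Type} [CommGroup Δ] [Fintype Δ]

theorem coe_mem_kerSub_iff (χ : Γ →* Δ) (g : Γ) : (g : SL(2,ℤ)) ∈ kerSub χ ↔ χ g = 1 := by
  constructor
  · rintro ⟨g', hg', hgg'⟩
    have : g' = g := Subtype.ext hgg'
    rw [← this]
    exact hg'
  · intro hg
    exact ⟨g, hg, rfl⟩

variable (χ : Γ →* Δ) (r : Δ → Γ) (hr : ∀ δ, χ (r δ) = δ) (q : ℕ) (d0 : Γ)

include hr in
/-- the cyclic quotient data of `χ` -/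
theorem cycQuot (hord : orderOf (χ d0) = q) (hcard : Fintype.card Δ = q)
    (hneg : (-1 : SL(2,ℤ)) ∈ kerSub χ) (h2 : ¬ 2 ∣ q) (h3 : ¬ 3 ∣ q) :
    CycQuot (kerSub χ) Γ ((d0⁻¹ : Γ) : SL(2,ℤ)) q where
  le := kerSub_le χ
  neg := hneg
  g_mem := (d0⁻¹ : Γ).2
  normal := by
    rintro γ hγ _ ⟨g, hg, rfl⟩
    have h1 : γ * (Γ.subtype g) * γ⁻¹ = (((⟨γ, hγ⟩ : Γ) * g * (⟨γ, hγ⟩ : Γ)⁻¹ : Γ) : SL(2,ℤ)) := rfl
    rw [h1, coe_mem_kerSub_iff, map_mul, map_mul, map_inv]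
    have hg' : χ g = 1 := hg
    rw [hg', mul_one, mul_inv_cancel]
  gen := by
    intro γ hγ
    obtain ⟨i, hi⟩ := (pow_bijective χ q d0 hord hcard).2 (χ ⟨γ, hγ⟩)
    refine ⟨(i : ℕ), ?_⟩
    have h1 : γ * ((d0⁻¹ : Γ) : SL(2,ℤ)) ^ (i : ℕ) = (((⟨γ, hγ⟩ : Γ) * (d0⁻¹) ^ (i : ℕ) : Γ) : SL(2,ℤ)) := rfl
    rw [h1, coe_mem_kerSub_iff, map_mul, map_pow, map_inv, ← hi, inv_pow, mul_inv_cancel]
  pow_mem := by
    have h1 : ((d0⁻¹ : Γ) : SL(2,ℤ)) ^ q = (((d0⁻¹) ^ q : Γ) : SL(2,ℤ)) := rfl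
    rw [h1, coe_mem_kerSub_iff, map_pow, map_inv, inv_pow, ← hord, pow_orderOf_eq_one, inv_one]
  free := by
    intro j hj hjq hmem
    have h1 : ((d0⁻¹ : Γ) : SL(2,ℤ)) ^ j = (((d0⁻¹) ^ j : Γ) : SL(2,ℤ)) := rfl
    rw [h1, coe_mem_kerSub_iff, map_pow, map_inv, inv_pow, inv_eq_one] at hmem
    have := orderOf_dvd_of_pow_eq_one hmem
    rw [hord] at this
    exact absurd (Nat.le_of_dvd hj this) (by omega)
  odd := h2
  not3 := h3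

variable [Fintype (SL(2,ℤ) ⧸ Γ)] [DecidableEq (SL(2,ℤ) ⧸ Γ)]
  [Fintype (SL(2,ℤ) ⧸ kerSub χ)] [DecidableEq (SL(2,ℤ) ⧸ kerSub χ)]
variable (hemb : Function.Injective emb)
variable (O : Type*) [AddCommGroup O] [Module.IsTorsionFree ℤ O]

include hemb in
/-- **`cores` is onto** -/
theorem coresK_op_surjective (hord : orderOf (χ d0) = q) (hcard : Fintype.card Δ = q)
    (hneg : (-1 : SL(2,ℤ)) ∈ kerSub χ) (h2 : ¬ 2 ∣ q) (h3 : ¬ 3 ∣ q) :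
    Function.Surjective ((coresK χ r hr emb).op O) := by
  have H := cycQuot χ r hr q d0 hord hcard hneg h2 h3
  haveI : Nonempty (coresK χ r hr emb).ι := ⟨(1 : Δ)⟩
  refine cores_surjective H hemb (coresK χ r hr emb) (fun δ : Δ => ((r δ : Γ) : SL(2,ℤ)))
    (fun _ => rfl) (fun δ => (r δ).2) ?_ O
  intro δ δ' hmem
  have h1 : ((r δ : Γ) : SL(2,ℤ)) * ((r δ' : Γ) : SL(2,ℤ))⁻¹ = ((r δ * (r δ')⁻¹ : Γ) : SL(2,ℤ)) := rfl
  rw [h1, coe_mem_kerSub_iff, map_mul, map_inv, mul_inv_eq_one] at hmem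
  exact (hr δ).symm.trans (hmem.trans (hr δ'))

include hemb in
/-- **the kernel of `cores` is `(⟨d0⟩ - 1)`** -/
theorem coresK_op_eq_zero (hord : orderOf (χ d0) = q) (hcard : Fintype.card Δ = q)
    (hneg : (-1 : SL(2,ℤ)) ∈ kerSub χ) (h2 : ¬ 2 ∣ q) (h3 : ¬ 3 ∣ q)
    (x : Additive (kerSub χ) →+ O) (hx : (coresK χ r hr emb).op O x = 0) :
    ∃ y : Additive (kerSub χ) →+ O, x = (diaK emb χ d0).op O y - y := by
  have H := cycQuot χ r hr q d0 hord hcard hneg h2 h3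
  haveI : Nonempty (coresK χ r hr emb).ι := ⟨(1 : Δ)⟩
  obtain ⟨θ, hθ⟩ := cores_eq_zero H hemb (coresK χ r hr emb)
    (fun δ : Δ => ((r δ : Γ) : SL(2,ℤ))) (fun _ => rfl) (fun δ => (r δ).2) (by
      intro δ δ' hmem
      have h1 : ((r δ : Γ) : SL(2,ℤ)) * ((r δ' : Γ) : SL(2,ℤ))⁻¹
          = ((r δ * (r δ')⁻¹ : Γ) : SL(2,ℤ)) := rfl
      rw [h1, coe_mem_kerSub_iff, map_mul, map_inv, mul_inv_eq_one] at hmem
      exact (hr δ).symm.trans (hmem.trans (hr δ'))) O hx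
  refine ⟨θ, ?_⟩
  rw [hθ]
  congr 1
  refine AddMonoidHom.ext fun k => ?_
  obtain ⟨k, rfl⟩ : ∃ k' : kerSub χ, Additive.ofMul k' = k := ⟨Additive.toMul k, rfl⟩
  rw [CycQuot.conjHom_apply, diaK_op_apply]
  congr 2
  apply Subtype.ext
  show (((d0⁻¹ : Γ) : SL(2,ℤ)))⁻¹ * (k : SL(2,ℤ)) * ((d0⁻¹ : Γ) : SL(2,ℤ))
    = ((d0 * kerIncl χ k * d0⁻¹ : Γ) : SL(2,ℤ))
  simp

section Step

variable {G : Type*} [Group G] {emb : SL(2,ℤ) →* G} (hemb : Function.Injective emb)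
variable {Γ : Subgroup SL(2,ℤ)} {Δ : Type} [CommGroup Δ] [Fintype Δ]
variable (χ : Γ →* Δ) (r : Δ → Γ) (hr : ∀ δ, χ (r δ) = δ) (S : CosetSys emb Γ Γ) (h : Compat S χ)
variable [Fintype (SL(2,ℤ) ⧸ Γ)] [DecidableEq (SL(2,ℤ) ⧸ Γ)]
  [Fintype (SL(2,ℤ) ⧸ kerSub χ)] [DecidableEq (SL(2,ℤ) ⧸ kerSub χ)]
variable (O : Type*) [CommRing O] [Module.IsTorsionFree ℤ O] (q : ℕ) (d0 : Γ)

/-- **helper46's cyclic step with NO model binder**, for subgroups of `SL(2,ℤ)`. -/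
noncomputable def cycStepSL (hord : orderOf (χ d0) = q) (hcard : Fintype.card Δ = q)
    (hq : ∀ a : O, (q : O) * a = 0 → a = 0)
    (hneg : (-1 : SL(2,ℤ)) ∈ kerSub χ) (h2 : ¬ 2 ∣ q) (h3 : ¬ 3 ∣ q) :
    CycStep O (Additive (kerSub χ) →+ O) (Additive Γ →+ O) q :=
  cycStep hemb χ r hr S h O q d0 hord hcard hq
    (coresK_op_surjective χ r hr q d0 hemb O hord hcard hneg h2 h3)
    (coresK_op_eq_zero χ r hr q d0 hemb O hord hcard hneg h2 h3)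

end Step

end Fermat.Agent.GB.B3.CycPlug
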