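import Mathlib
import Fermat.Agent.GB.B3.CoresModel
import Fermat.Agent.GB.B3.CycInst2
import Fermat.Agent.GB.B3.CycPlug

/-!
GATE-B / B3 (helper2): **the two model binders of `CycInst.cycStepKK` discharged** for subgroups
of `SL(2,ℤ)` — relative form of helper95's `CycPlug`: for `χ : Γ →* Δ` (`Δ` commutative),
`π : Δ →* Δ''` with `ker π` cyclic of order `q` prime to `6` generated by `χ d0`, a section `r` of
`χ` over `ker π`, `-1 ∈ ker χ`, and `O` torsion free: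

* `coresKK_op_surjective` : `cores : Hom(Γ_χ, O) → Hom(Γ_{πχ}, O)` is onto;
* `coresKK_op_eq_zero`    : `cores x = 0 → ∃ y, x = ⟨d0⟩ y - y`;
* `cycStepKKSL`           : `cycStepKK` with no model binder left.
-/

set_option autoImplicit false
set_option linter.unusedSectionVars false
set_option linter.style.haveILetI false

open scoped MatrixGroups

namespace Fermat.Agent.GB.B3.CycPlug

open Fermat.Agent.GM.B Fermat.Agent.GB.B3 Fermat.Agent.GB.B3.CoresModel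
  Fermat.Agent.GB.B3.FreeCyclic Fermat.Agent.GB.B3.CycInst

variable {G : Type*} [Group G] {emb : SL(2,ℤ) →* G}
variable {Γ : Subgroup SL(2,ℤ)} {Δ Δ'' : Type} [CommGroup Δ] [Group Δ'']

variable (χ : Γ →* Δ) (π : Δ →* Δ'') [Fintype π.ker] (r : π.ker → Γ)
  (hr : ∀ δ : π.ker, χ (r δ) = (δ : Δ)) (q : ℕ) (d0 : Γ)

omit [Fintype π.ker] in
/-- membership in the lower level (no finiteness) -/
theorem coe_mem_kerSub_iff' (g : Γ) : (g : SL(2,ℤ)) ∈ kerSub χ ↔ χ g = 1 := by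
  constructor
  · rintro ⟨g', hg', hgg'⟩
    have : g' = g := Subtype.ext hgg'
    rw [← this]
    exact hg'
  · intro hg
    exact ⟨g, hg, rfl⟩

omit [Fintype π.ker] in
/-- membership in the upper level -/
theorem coe_mem_kerSub_comp_iff (g : Γ) : (g : SL(2,ℤ)) ∈ kerSub (π.comp χ) ↔ χ g ∈ π.ker := by
  constructor
  · rintro ⟨g', hg', hgg'⟩
    have : g' = g := Subtype.ext hgg'
    rw [← this]
    exact hg'
  · intro hg
    exact ⟨g, hg, rfl⟩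

include hr in
/-- the cyclic quotient data of the two levels -/
theorem cycQuotKK (hd0 : χ d0 ∈ π.ker) (hord : orderOf (χ d0) = q)
    (hcard : Fintype.card π.ker = q)
    (hneg : (-1 : SL(2,ℤ)) ∈ kerSub χ) (h2 : ¬ 2 ∣ q) (h3 : ¬ 3 ∣ q) :
    CycQuot (kerSub χ) (kerSub (π.comp χ)) ((d0⁻¹ : Γ) : SL(2,ℤ)) q where
  le := kerSub_le_comp χ π
  neg := hneg
  g_mem := by
    rw [coe_mem_kerSub_comp_iff, map_inv]
    exact π.ker.inv_mem hd0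
  normal := by
    rintro _ ⟨γ, -, rfl⟩ _ ⟨g, hg, rfl⟩
    have h1 : Γ.subtype γ * (Γ.subtype g) * (Γ.subtype γ)⁻¹ = ((γ * g * γ⁻¹ : Γ) : SL(2,ℤ)) := rfl
    rw [h1, coe_mem_kerSub_iff', map_mul, map_mul, map_inv]
    have hg' : χ g = 1 := hg
    rw [hg', mul_one, mul_inv_cancel]
  gen := by
    rintro _ ⟨γ, hγ, rfl⟩
    have hγ' : χ γ ∈ π.ker := hγ
    obtain ⟨i, hi⟩ := (pow_bijectiveKK χ π q d0 hd0 hord hcard).2 ⟨χ γ, hγ'⟩
    have hi' : χ d0 ^ (i : ℕ) = χ γ := congrArg Subtype.val hi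
    refine ⟨(i : ℕ), ?_⟩
    have h1 : Γ.subtype γ * ((d0⁻¹ : Γ) : SL(2,ℤ)) ^ (i : ℕ)
        = ((γ * (d0⁻¹) ^ (i : ℕ) : Γ) : SL(2,ℤ)) := rfl
    rw [h1, coe_mem_kerSub_iff', map_mul, map_pow, map_inv, ← hi', inv_pow, mul_inv_cancel]
  pow_mem := by
    have h1 : ((d0⁻¹ : Γ) : SL(2,ℤ)) ^ q = (((d0⁻¹) ^ q : Γ) : SL(2,ℤ)) := rfl
    rw [h1, coe_mem_kerSub_iff', map_pow, map_inv, inv_pow, ← hord, pow_orderOf_eq_one, inv_one]
  free := by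
    intro j hj hjq hmem
    have h1 : ((d0⁻¹ : Γ) : SL(2,ℤ)) ^ j = (((d0⁻¹) ^ j : Γ) : SL(2,ℤ)) := rfl
    rw [h1, coe_mem_kerSub_iff', map_pow, map_inv, inv_pow, inv_eq_one] at hmem
    have := orderOf_dvd_of_pow_eq_one hmem
    rw [hord] at this
    exact absurd (Nat.le_of_dvd hj this) (by omega)
  odd := h2
  not3 := h3

variable [Fintype (SL(2,ℤ) ⧸ kerSub (π.comp χ))] [DecidableEq (SL(2,ℤ) ⧸ kerSub (π.comp χ))]
  [Fintype (SL(2,ℤ) ⧸ kerSub χ)] [DecidableEq (SL(2,ℤ) ⧸ kerSub χ)]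
variable (hemb : Function.Injective emb)
variable (O : Type*) [AddCommGroup O] [Module.IsTorsionFree ℤ O]

omit [Fintype (SL(2,ℤ) ⧸ kerSub (π.comp χ))] [DecidableEq (SL(2,ℤ) ⧸ kerSub (π.comp χ))]
  [Fintype (SL(2,ℤ) ⧸ kerSub χ)] [DecidableEq (SL(2,ℤ) ⧸ kerSub χ)] in
include hr in
theorem rep_distinct (δ δ' : π.ker)
    (hmem : ((r δ : Γ) : SL(2,ℤ)) * ((r δ' : Γ) : SL(2,ℤ))⁻¹ ∈ kerSub χ) : δ = δ' := by
  have h1 : ((r δ : Γ) : SL(2,ℤ)) * ((r δ' : Γ) : SL(2,ℤ))⁻¹ = ((r δ * (r δ')⁻¹ : Γ) : SL(2,ℤ)) := rfl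
  rw [h1, coe_mem_kerSub_iff', map_mul, map_inv, mul_inv_eq_one, hr, hr] at hmem
  exact Subtype.ext hmem

omit [Fintype (SL(2,ℤ) ⧸ kerSub (π.comp χ))] [DecidableEq (SL(2,ℤ) ⧸ kerSub (π.comp χ))]
  [Fintype (SL(2,ℤ) ⧸ kerSub χ)] [DecidableEq (SL(2,ℤ) ⧸ kerSub χ)] in
include hr in
theorem rep_mem (δ : π.ker) : ((r δ : Γ) : SL(2,ℤ)) ∈ kerSub (π.comp χ) := by
  rw [coe_mem_kerSub_comp_iff, hr]
  exact δ.2

include hemb in
/-- **`cores` is onto** between two levels -/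
theorem coresKK_op_surjective (hd0 : χ d0 ∈ π.ker) (hord : orderOf (χ d0) = q)
    (hcard : Fintype.card π.ker = q)
    (hneg : (-1 : SL(2,ℤ)) ∈ kerSub χ) (h2 : ¬ 2 ∣ q) (h3 : ¬ 3 ∣ q) :
    Function.Surjective ((coresKK χ π r hr emb).op O) := by
  have H := cycQuotKK χ π r hr q d0 hd0 hord hcard hneg h2 h3
  haveI : Nonempty (coresKK χ π r hr emb).ι := ⟨(1 : π.ker)⟩
  exact cores_surjective H hemb (coresKK χ π r hr emb)
    (fun δ : π.ker => ((r δ : Γ) : SL(2,ℤ))) (fun _ => rfl) (rep_mem χ π r hr)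
    (rep_distinct χ π r hr) O

include hemb in
/-- **the kernel of `cores` is `(⟨d0⟩ - 1)`** between two levels -/
theorem coresKK_op_eq_zero (hd0 : χ d0 ∈ π.ker) (hord : orderOf (χ d0) = q)
    (hcard : Fintype.card π.ker = q)
    (hneg : (-1 : SL(2,ℤ)) ∈ kerSub χ) (h2 : ¬ 2 ∣ q) (h3 : ¬ 3 ∣ q)
    (x : Additive (kerSub χ) →+ O) (hx : (coresKK χ π r hr emb).op O x = 0) :
    ∃ y : Additive (kerSub χ) →+ O, x = (diaK emb χ d0).op O y - y := by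
  have H := cycQuotKK χ π r hr q d0 hd0 hord hcard hneg h2 h3
  haveI : Nonempty (coresKK χ π r hr emb).ι := ⟨(1 : π.ker)⟩
  obtain ⟨θ, hθ⟩ := cores_eq_zero H hemb (coresKK χ π r hr emb)
    (fun δ : π.ker => ((r δ : Γ) : SL(2,ℤ))) (fun _ => rfl) (rep_mem χ π r hr)
    (rep_distinct χ π r hr) O hx
  refine ⟨θ, ?_⟩
  rw [hθ]
  congr 1
  refine AddMonoidHom.ext fun k => ?_
  obtain ⟨k, rfl⟩ : ∃ k' : kerSub χ, Additive.ofMul k' = k := ⟨Additive.toMul k, rfl⟩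
  rw [CycQuot.conjHom_apply, diaK_op_apply]
  congr 2
  apply Subtype.ext
  show (((d0⁻¹ : Γ) : SL(2,ℤ)))⁻¹ * (k : SL(2,ℤ)) * ((d0⁻¹ : Γ) : SL(2,ℤ))
    = ((d0 * kerIncl χ k * d0⁻¹ : Γ) : SL(2,ℤ))
  simp

section Step

variable {G : Type*} [Group G] {emb : SL(2,ℤ) →* G} (hemb : Function.Injective emb)
variable {Γ : Subgroup SL(2,ℤ)} {Δ Δ'' : Type} [CommGroup Δ] [Group Δ'']
variable (χ : Γ →* Δ) (π : Δ →* Δ'') [Fintype π.ker] (r : π.ker → Γ)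
  (hr : ∀ δ : π.ker, χ (r δ) = (δ : Δ)) (S : CosetSys emb Γ Γ) (h : Compat S χ)
variable [Fintype (SL(2,ℤ) ⧸ kerSub (π.comp χ))] [DecidableEq (SL(2,ℤ) ⧸ kerSub (π.comp χ))]
  [Fintype (SL(2,ℤ) ⧸ kerSub χ)] [DecidableEq (SL(2,ℤ) ⧸ kerSub χ)]
variable (O : Type*) [CommRing O] [Module.IsTorsionFree ℤ O] (q : ℕ) (d0 : Γ)

/-- **the cyclic step between two levels with NO model binder**, for subgroups of `SL(2,ℤ)`. -/
noncomputable def cycStepKKSL (hd0 : χ d0 ∈ π.ker) (hord : orderOf (χ d0) = q)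
    (hcard : Fintype.card π.ker = q)
    (hq : ∀ a : O, (q : O) * a = 0 → a = 0)
    (hneg : (-1 : SL(2,ℤ)) ∈ kerSub χ) (h2 : ¬ 2 ∣ q) (h3 : ¬ 3 ∣ q) :
    CycStep O (Additive (kerSub χ) →+ O) (Additive (kerSub (π.comp χ)) →+ O) q :=
  cycStepKK hemb χ π r hr S h O q d0 hd0 hord hcard hq
    (coresKK_op_surjective χ π r hr q d0 hemb O hd0 hord hcard hneg h2 h3)
    (coresKK_op_eq_zero χ π r hr q d0 hemb O hd0 hord hcard hneg h2 h3)

end Step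

end Fermat.Agent.GB.B3.CycPlug
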