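/-
GATE-B / B3-COMM (helper80), file 1: commutation of the operators of two coset systems — abstract.

`S, S' : CosetSys emb Γ Γ`.  `S'.op ∘ S.op` is the operator of the product system `S.comp S'`
(representatives `a i * a' j`) and `S.op ∘ S'.op` that of `S'.comp S` (representatives `a' j * a i`).
If both product systems have pairwise distinct cosets and every coset `Γ · a' j · a i` is one of the
cosets `Γ · a i' · a' j'`, the two operators commute (`GM/B/System3.op_eq_of_contained`).

* `CosetSys.op_comm_of_contained` : the statement with an explicit matching function;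
* `CosetSys.op_comm_of_exists`    : the same with the matching given by an existential;
* `CosetSys.distinct_of_le`       : distinctness modulo `Γ` gives distinctness modulo any `Γ' ≤ Γ`
  (for systems living over a subgroup, e.g. a kernel system over `Γ_H ≤ Γ₀(N)`).
-/
import Mathlib
import Fermat.Agent.GM.B.System
import Fermat.Agent.GM.B.System2
import Fermat.Agent.GM.B.System3

set_option autoImplicit false

namespace Fermat.Agent.GB.B3.CommAbs

open Fermat.Agent.GM.B Fermat.Agent.GM.B.CosetSys

variable {H G : Type*} [Group H] [Group G] {emb : H →* G} {Γ : Subgroup H}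

/-- **Commutation of two coset operators, explicit matching.**  `f` sends the index `(j, i)` of the
representative `a' j * a i` to the index `(i', j')` of a representative `a i' * a' j'` in the same
`Γ`-coset. -/
theorem op_comm_of_contained (S S' : CosetSys emb Γ Γ) (hemb : Function.Injective emb)
    (h1 : (S'.comp S).Distinct) (h2 : (S.comp S').Distinct)
    (f : S'.ι × S.ι → S.ι × S'.ι) (γ : S'.ι × S.ι → Γ)
    (hrep : ∀ p : S'.ι × S.ι,
      S.a (f p).1 * S'.a (f p).2 = emb ((γ p : Γ) : H) * (S'.a p.1 * S.a p.2))
    {A : Type*} [AddCommGroup A] (φ : Additive Γ →+ A) :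
    S'.op A (S.op A φ) = S.op A (S'.op A φ) := by
  rw [← op_comp, ← op_comp]
  refine op_eq_of_contained (S'.comp S) (S.comp S') hemb h1 h2 ?_ f 1 (fun x => by simp) γ ?_ φ
  · show Fintype.card (S'.ι × S.ι) = Fintype.card (S.ι × S'.ι)
    rw [Fintype.card_prod, Fintype.card_prod, mul_comm]
  · intro p
    show S.a (f p).1 * S'.a (f p).2 = 1 * emb ((γ p : Γ) : H) * (S'.a p.1 * S.a p.2)
    rw [one_mul]
    exact hrep p

/-- **Commutation of two coset operators, existential matching.** -/
theorem op_comm_of_exists (S S' : CosetSys emb Γ Γ) (hemb : Function.Injective emb)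
    (h1 : (S'.comp S).Distinct) (h2 : (S.comp S').Distinct)
    (hrep : ∀ (j : S'.ι) (i : S.ι), ∃ (i' : S.ι) (j' : S'.ι) (γ : Γ),
      S.a i' * S'.a j' = emb ((γ : Γ) : H) * (S'.a j * S.a i))
    {A : Type*} [AddCommGroup A] (φ : Additive Γ →+ A) :
    S'.op A (S.op A φ) = S.op A (S'.op A φ) := by
  classical
  choose fi fj γ hγ using hrep
  exact op_comm_of_contained S S' hemb h1 h2 (fun p => (fi p.1 p.2, fj p.1 p.2))
    (fun p => γ p.1 p.2) (fun p => hγ p.1 p.2) φ

/-- distinctness modulo a bigger group implies distinctness -/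
theorem distinct_of_distinctMod {Γ₁ Γ₂ : Subgroup H} (S : CosetSys emb Γ₁ Γ₂) {Γ' : Subgroup H}
    (hle : Γ₁ ≤ Γ') (h : S.DistinctMod Γ') : S.Distinct := by
  intro i j κ hκ
  exact h i j ⟨(κ : H), hle κ.2⟩ hκ

end Fermat.Agent.GB.B3.CommAbs
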