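/-
GATE-B / B3-COMM (helper80), file 2: the coset Hecke operators on `Hom(Γ₀(N), A)` commute —
by comparison of cosets.

For coprime `m, n > 1` the products `heckeRep m i * heckeRep n j` (`i ∈ P¹(ℤ/m)`, `j ∈ P¹(ℤ/n)`) are
the integer upper triangular matrices

  `(mn, 0; 0, 1)`, `(m, m j; 0, n)`, `(n, i; 0, m)`, `(1, j + i n; 0, mn)`.

* `prod_injective` : their `SL(2, ℤ)`-cosets are pairwise distinct;
* `prod_match`     : every `heckeRep n j * heckeRep m i` is `T ^ t * (heckeRep m i' * heckeRep n j')`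
  with `i' = ∞ ↔ i = ∞`, `j' = ∞ ↔ j = ∞` (so that the statement restricts to the `U`-systems,
  whose representatives are the finite points);
* `cohT_comm`, `cohT_cohU_comm`, `cohU_comm` : `T_ℓ T_ℓ' = T_ℓ' T_ℓ`, `T_ℓ U_r = U_r T_ℓ`,
  `U_r U_r' = U_r' U_r` on `Hom(Γ₀(N), A)` (any coefficient group `A`);
* the matching statements `heckeSys_match`, `heckeSys_uSys_match`, `uSys_match` with connecting
  elements in `Γ₁(N)` (in fact powers of `T`), and the distinctness of the product systems modulo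
  `SL(2, ℤ)`, for the refinement to `Γ_H` (file 3).
-/
import Mathlib
import Fermat.Agent.GB.B3.CommAbs
import Fermat.Agent.GM.B.Distinct
import Fermat.Agent.GM.B5.UqSquare
import Fermat.Agent.S16.LB.ShimuraEigen

set_option autoImplicit false
set_option linter.unusedSectionVars false
set_option linter.style.haveILetI false
set_option linter.unusedSimpArgs false

open scoped MatrixGroups
open CongruenceSubgroup Matrix Matrix.SpecialLinearGroup
open P2MW.S_ModularForm_heckeT_slash_eq_self_of_mem_Gamma0.ModularForm.HeckeSlashInvariance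
open P2MW.S_ModularForm_heckeT_slash_eq_self_of_mem_Gamma0.ModularForm
open Fermat.Agent.S16_helper49 Fermat.Agent.GM.B Fermat.Agent.GM.B5
open scoped OnePoint

namespace Fermat.Agent.GB.B3.CommGamma0

/-! ### integer matrices -/

/-- the integer upper triangular matrix `(a, b; 0, d)` -/
def ut (a b d : ℤ) : Matrix (Fin 2) (Fin 2) ℤ := !![a, b; 0, d]

theorem ut_mul (a b d a' b' d' : ℤ) :
    ut a b d * ut a' b' d' = ut (a * a') (a * b' + b * d') (d * d') := by
  ext i j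
  fin_cases i <;> fin_cases j <;> simp [ut, Matrix.mul_apply, Fin.sum_univ_two]

/-- `α ∈ GL(2, ℝ)` is the integer matrix `M` -/
def IsZ (α : GL (Fin 2) ℝ) (M : Matrix (Fin 2) (Fin 2) ℤ) : Prop :=
  (α : Matrix (Fin 2) (Fin 2) ℝ) = M.map (Int.castRingHom ℝ)

theorem IsZ.mul {α β : GL (Fin 2) ℝ} {M M' : Matrix (Fin 2) (Fin 2) ℤ} (h : IsZ α M)
    (h' : IsZ β M') : IsZ (α * β) (M * M') := by
  unfold IsZ at *
  rw [Units.val_mul, h, h', Matrix.map_mul]

theorem isZ_embR (g : SL(2, ℤ)) : IsZ (embR g) (g : Matrix (Fin 2) (Fin 2) ℤ) :=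
  Fermat.Agent.S16.LB.SH.coe_mapGL g

theorem IsZ.inj {α : GL (Fin 2) ℝ} {M M' : Matrix (Fin 2) (Fin 2) ℤ} (h : IsZ α M)
    (h' : IsZ α M') : M = M' :=
  Matrix.map_injective (RingHom.injective_int (Int.castRingHom ℝ)) (h.symm.trans h')

theorem IsZ.ext {α β : GL (Fin 2) ℝ} {M : Matrix (Fin 2) (Fin 2) ℤ} (h : IsZ α M)
    (h' : IsZ β M) : α = β :=
  Units.ext (h.trans h'.symm)

/-- the `a`-entry of `heckeRep m x` -/
def hA (m : ℕ) (x : OnePoint (ZMod m)) : ℤ := x.elim (m : ℤ) (fun _ => 1)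

/-- the `b`-entry of `heckeRep m x` -/
def hB (m : ℕ) (x : OnePoint (ZMod m)) : ℤ := x.elim 0 (fun j => (j.val : ℤ))

/-- the `d`-entry of `heckeRep m x` -/
def hD (m : ℕ) (x : OnePoint (ZMod m)) : ℤ := x.elim 1 (fun _ => (m : ℤ))

theorem isZ_heckeRep {m : ℕ} (hm : m ≠ 0) (x : OnePoint (ZMod m)) :
    IsZ (heckeRep m x) (ut (hA m x) (hB m x) (hD m x)) := by
  induction x using OnePoint.rec with
  | infty => exact Fermat.Agent.S16.LB.SH.coe_heckeDiagMatrix hm
  | coe j => exact Fermat.Agent.S16.LB.SH.coe_heckeMatrix hm j.val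

/-- the coset criterion: `(a, b; 0, d) = γ (a', b'; 0, d')` with `a, a' > 0` forces `γ` unipotent -/
theorem ut_coset {a b d a' b' d' : ℤ} (ha : 0 < a) (ha' : 0 < a') (γ : SL(2, ℤ))
    (h : ut a b d = (γ : Matrix (Fin 2) (Fin 2) ℤ) * ut a' b' d') :
    a = a' ∧ d = d' ∧ b = b' + γ 0 1 * d' := by
  have h00 := congrFun (congrFun h 0) 0
  have h01 := congrFun (congrFun h 0) 1
  have h10 := congrFun (congrFun h 1) 0
  have h11 := congrFun (congrFun h 1) 1
  simp [ut, Matrix.mul_apply, Fin.sum_univ_two] at h00 h01 h10 h11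
  have hdet : (γ : Matrix (Fin 2) (Fin 2) ℤ) 0 0 * (γ : Matrix (Fin 2) (Fin 2) ℤ) 1 1
      - (γ : Matrix (Fin 2) (Fin 2) ℤ) 0 1 * (γ : Matrix (Fin 2) (Fin 2) ℤ) 1 0 = 1 := by
    rw [← Matrix.det_fin_two]
    exact γ.det_coe
  have hc : (γ : Matrix (Fin 2) (Fin 2) ℤ) 1 0 = 0 := by
    rcases h10 with h | h
    · exact h
    · omega
  rw [hc, mul_zero, sub_zero] at hdet
  rw [hc, zero_mul, zero_add] at h11
  rcases Int.eq_one_or_neg_one_of_mul_eq_one' hdet with ⟨h1, h2⟩ | ⟨h1, h2⟩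
  · rw [h1, one_mul] at h00 h01
    rw [h2, one_mul] at h11
    exact ⟨h00, h11, h01⟩
  · rw [h1] at h00
    exfalso
    omega

theorem T_zpow_mul_ut (t a b d : ℤ) :
    ((ModularGroup.T ^ t : SL(2, ℤ)) : Matrix (Fin 2) (Fin 2) ℤ) * ut a b d
      = ut a (b + t * d) d := by
  rw [ModularGroup.coe_T_zpow]
  ext i j
  fin_cases i <;> fin_cases j <;> simp [ut, Matrix.mul_apply, Fin.sum_univ_two]

theorem T_zpow_mem_Gamma1 (N : ℕ) (t : ℤ) : (ModularGroup.T ^ t : SL(2, ℤ)) ∈ Gamma1 N := by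
  rw [Gamma1_mem]
  have h := ModularGroup.coe_T_zpow t
  have h00 : (ModularGroup.T ^ t : SL(2, ℤ)) 0 0 = 1 := by
    show ((ModularGroup.T ^ t : SL(2, ℤ))).1 0 0 = 1
    rw [h]; rfl
  have h11 : (ModularGroup.T ^ t : SL(2, ℤ)) 1 1 = 1 := by
    show ((ModularGroup.T ^ t : SL(2, ℤ))).1 1 1 = 1
    rw [h]; rfl
  have h10 : (ModularGroup.T ^ t : SL(2, ℤ)) 1 0 = 0 := by
    show ((ModularGroup.T ^ t : SL(2, ℤ))).1 1 0 = 0
    rw [h]; rfl
  rw [h00, h11, h10]
  simp

theorem T_zpow_mem_Gamma0 (N : ℕ) (t : ℤ) : (ModularGroup.T ^ t : SL(2, ℤ)) ∈ Gamma0 N :=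
  Gamma1_in_Gamma0 N (T_zpow_mem_Gamma1 N t)

/-! ### arithmetic in `ZMod m` -/

theorem exists_val_add (m : ℕ) [NeZero m] (c : ℤ) :
    ∃ (x : ZMod m) (s : ℤ), c = (x.val : ℤ) + m * s := by
  refine ⟨(c : ZMod m), c / m, ?_⟩
  rw [ZMod.val_intCast]
  exact (Int.emod_add_mul_ediv c m).symm

theorem eq_of_dvd_val_sub {m : ℕ} [NeZero m] (x y : ZMod m)
    (h : (m : ℤ) ∣ (x.val : ℤ) - y.val) : x = y := by
  have h1 := (ZMod.intCast_eq_intCast_iff_dvd_sub (y.val : ℤ) (x.val : ℤ) m).mpr h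
  rw [Int.cast_natCast, Int.cast_natCast, ZMod.natCast_zmod_val, ZMod.natCast_zmod_val] at h1
  exact h1.symm

/-! ### the products of two systems of representatives -/

section Prod

variable {m n : ℕ}

theorem isZ_prod (hm : m ≠ 0) (hn : n ≠ 0) (i : OnePoint (ZMod m)) (j : OnePoint (ZMod n)) :
    IsZ (heckeRep m i * heckeRep n j)
      (ut (hA m i * hA n j) (hA m i * hB n j + hB m i * hD n j) (hD m i * hD n j)) := by
  rw [← ut_mul]
  exact (isZ_heckeRep hm i).mul (isZ_heckeRep hn j)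

theorem hA_pos (hm : m ≠ 0) (i : OnePoint (ZMod m)) : 0 < hA m i := by
  induction i using OnePoint.rec with
  | infty => exact Int.natCast_pos.mpr (Nat.pos_of_ne_zero hm)
  | coe j => exact one_pos

/-- **distinctness**: the `SL(2, ℤ)`-cosets of the products `heckeRep m i * heckeRep n j` are
pairwise distinct (`m, n > 1` coprime) -/
theorem prod_injective (hm : 1 < m) (hn : 1 < n) (hmn : Nat.Coprime m n)
    (i i' : OnePoint (ZMod m)) (j j' : OnePoint (ZMod n)) (γ : SL(2, ℤ))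
    (h : heckeRep m i * heckeRep n j = embR γ * (heckeRep m i' * heckeRep n j')) :
    i = i' ∧ j = j' := by
  have hm0 : m ≠ 0 := by omega
  have hn0 : n ≠ 0 := by omega
  haveI : NeZero m := ⟨hm0⟩
  haveI : NeZero n := ⟨hn0⟩
  have hZ1 := isZ_prod hm0 hn0 i j
  have hZ2 := (isZ_embR γ).mul (isZ_prod hm0 hn0 i' j')
  rw [← h] at hZ2
  have hM := hZ1.inj hZ2
  obtain ⟨hAA, hDD, hBB⟩ := ut_coset (mul_pos (hA_pos hm0 i) (hA_pos hn0 j))
    (mul_pos (hA_pos hm0 i') (hA_pos hn0 j')) γ hM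
  -- the numerical facts
  have hm1 : (1 : ℤ) < m := by exact_mod_cast hm
  have hn1 : (1 : ℤ) < n := by exact_mod_cast hn
  have hp1 : (m : ℤ) < (m : ℤ) * (n : ℤ) := by nlinarith
  have hp2 : (n : ℤ) < (m : ℤ) * (n : ℤ) := by nlinarith
  have hne : (m : ℤ) ≠ n := by
    intro hmn'
    have : m = n := by exact_mod_cast hmn'
    subst this
    rw [Nat.coprime_self] at hmn
    omega
  have hcop : IsCoprime (n : ℤ) (m : ℤ) := (Nat.isCoprime_iff_coprime.mpr hmn).symm
  induction i using OnePoint.rec with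
  | infty =>
    induction i' using OnePoint.rec with
    | infty =>
      induction j using OnePoint.rec with
      | infty =>
        induction j' using OnePoint.rec with
        | infty => exact ⟨rfl, rfl⟩
        | coe l' =>
          exfalso
          simp only [hA, hB, hD, OnePoint.elim_infty, OnePoint.elim_some] at hAA hDD hBB
          omega
      | coe l =>
        induction j' using OnePoint.rec with
        | infty =>
          exfalso
          simp only [hA, hB, hD, OnePoint.elim_infty, OnePoint.elim_some] at hAA hDD hBB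
          omega
        | coe l' =>
          simp only [hA, hB, hD, OnePoint.elim_infty, OnePoint.elim_some] at hAA hDD hBB
          refine ⟨rfl, ?_⟩
          have h1 : (n : ℤ) ∣ ((l.val : ℤ) - l'.val) * m :=
            ⟨(γ : Matrix (Fin 2) (Fin 2) ℤ) 0 1, by linear_combination hBB⟩
          rw [eq_of_dvd_val_sub l l' (hcop.dvd_of_dvd_mul_right h1)]
    | coe k' =>
      exfalso
      induction j using OnePoint.rec with
      | infty =>
        induction j' using OnePoint.rec with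
        | infty =>
          simp only [hA, hB, hD, OnePoint.elim_infty, OnePoint.elim_some] at hAA hDD hBB
          omega
        | coe l' =>
          simp only [hA, hB, hD, OnePoint.elim_infty, OnePoint.elim_some] at hAA hDD hBB
          omega
      | coe l =>
        induction j' using OnePoint.rec with
        | infty =>
          simp only [hA, hB, hD, OnePoint.elim_infty, OnePoint.elim_some] at hAA hDD hBB
          omega
        | coe l' =>
          simp only [hA, hB, hD, OnePoint.elim_infty, OnePoint.elim_some] at hAA hDD hBB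
          omega
  | coe k =>
    induction i' using OnePoint.rec with
    | infty =>
      exfalso
      induction j using OnePoint.rec with
      | infty =>
        induction j' using OnePoint.rec with
        | infty =>
          simp only [hA, hB, hD, OnePoint.elim_infty, OnePoint.elim_some] at hAA hDD hBB
          omega
        | coe l' =>
          simp only [hA, hB, hD, OnePoint.elim_infty, OnePoint.elim_some] at hAA hDD hBB
          omega
      | coe l =>
        induction j' using OnePoint.rec with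
        | infty =>
          simp only [hA, hB, hD, OnePoint.elim_infty, OnePoint.elim_some] at hAA hDD hBB
          omega
        | coe l' =>
          simp only [hA, hB, hD, OnePoint.elim_infty, OnePoint.elim_some] at hAA hDD hBB
          omega
    | coe k' =>
      induction j using OnePoint.rec with
      | infty =>
        induction j' using OnePoint.rec with
        | infty =>
          simp only [hA, hB, hD, OnePoint.elim_infty, OnePoint.elim_some] at hAA hDD hBB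
          refine ⟨?_, rfl⟩
          have h1 : (m : ℤ) ∣ (k.val : ℤ) - k'.val :=
            ⟨(γ : Matrix (Fin 2) (Fin 2) ℤ) 0 1, by linear_combination hBB⟩
          rw [eq_of_dvd_val_sub k k' h1]
        | coe l' =>
          exfalso
          simp only [hA, hB, hD, OnePoint.elim_infty, OnePoint.elim_some] at hAA hDD hBB
          omega
      | coe l =>
        induction j' using OnePoint.rec with
        | infty =>
          exfalso
          simp only [hA, hB, hD, OnePoint.elim_infty, OnePoint.elim_some] at hAA hDD hBB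
          omega
        | coe l' =>
          simp only [hA, hB, hD, OnePoint.elim_infty, OnePoint.elim_some] at hAA hDD hBB
          have h1 : (n : ℤ) ∣ (l.val : ℤ) - l'.val :=
            ⟨(k'.val : ℤ) - k.val + (γ : Matrix (Fin 2) (Fin 2) ℤ) 0 1 * m,
              by linear_combination hBB⟩
          have hl : l = l' := eq_of_dvd_val_sub l l' h1
          subst hl
          have hn' : (n : ℤ) ≠ 0 := by omega
          have h2 : (k.val : ℤ) - k'.val = (γ : Matrix (Fin 2) (Fin 2) ℤ) 0 1 * m := by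
            apply mul_right_cancel₀ hn'
            linear_combination hBB
          have h3 : (m : ℤ) ∣ (k.val : ℤ) - k'.val := ⟨_, by rw [h2, mul_comm]⟩
          rw [eq_of_dvd_val_sub k k' h3]
          exact ⟨rfl, rfl⟩

/-- **matching**: every `heckeRep n j * heckeRep m i` is in the coset of some
`heckeRep m i' * heckeRep n j'`, the connecting element being a power of `T`; the matching
respects the points at infinity -/
theorem prod_match (hm : 1 < m) (hn : 1 < n) (hmn : Nat.Coprime m n)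
    (j : OnePoint (ZMod n)) (i : OnePoint (ZMod m)) :
    ∃ (i' : OnePoint (ZMod m)) (j' : OnePoint (ZMod n)) (t : ℤ),
      (i' = ∞ ↔ i = ∞) ∧ (j' = ∞ ↔ j = ∞) ∧
      heckeRep m i' * heckeRep n j'
        = embR (ModularGroup.T ^ t) * (heckeRep n j * heckeRep m i) := by
  have hm0 : m ≠ 0 := by omega
  have hn0 : n ≠ 0 := by omega
  haveI : NeZero m := ⟨hm0⟩
  haveI : NeZero n := ⟨hn0⟩
  -- it suffices to match the integer matrices
  suffices hkey : ∃ (i' : OnePoint (ZMod m)) (j' : OnePoint (ZMod n)) (t : ℤ),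
      (i' = ∞ ↔ i = ∞) ∧ (j' = ∞ ↔ j = ∞) ∧
      hA m i' * hA n j' = hA n j * hA m i ∧ hD m i' * hD n j' = hD n j * hD m i ∧
      hA m i' * hB n j' + hB m i' * hD n j'
        = hA n j * hB m i + hB n j * hD m i + t * (hD n j * hD m i) by
    obtain ⟨i', j', t, h1, h2, h3, h4, h5⟩ := hkey
    refine ⟨i', j', t, h1, h2, ?_⟩
    have hZ1 := isZ_prod hm0 hn0 i' j'
    have hZ2 := (isZ_embR (ModularGroup.T ^ t)).mul (isZ_prod hn0 hm0 j i)
    rw [T_zpow_mul_ut, ← h5, ← h3, ← h4] at hZ2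
    exact hZ1.ext hZ2
  induction j using OnePoint.rec with
  | infty =>
    induction i using OnePoint.rec with
    | infty =>
      refine ⟨∞, ∞, 0, Iff.rfl, Iff.rfl, ?_, ?_, ?_⟩ <;>
        simp only [hA, hB, hD, OnePoint.elim_infty, OnePoint.elim_some] <;> ring
    | coe k =>
      -- `(n, n k; 0, m)` against `(n, k'; 0, m)`
      obtain ⟨k', s, hs⟩ := exists_val_add m ((n : ℤ) * k.val)
      refine ⟨(k' : OnePoint (ZMod m)), ∞, -s, ?_, Iff.rfl, ?_, ?_, ?_⟩
      · exact ⟨fun h => absurd h (OnePoint.coe_ne_infty _),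
          fun h => absurd h (OnePoint.coe_ne_infty _)⟩
      all_goals simp only [hA, hB, hD, OnePoint.elim_infty, OnePoint.elim_some]
      all_goals first | ring1 | linear_combination -hs
  | coe l =>
    induction i using OnePoint.rec with
    | infty =>
      -- `(m, l; 0, n)` against `(m, m l'; 0, n)`
      obtain ⟨u, v, huv⟩ : ∃ u v : ℤ, u * m + v * n = 1 := Nat.isCoprime_iff_coprime.mpr hmn
      obtain ⟨l', s, hs⟩ := exists_val_add n (u * l.val)
      refine ⟨∞, (l' : OnePoint (ZMod n)), -(v * l.val) - m * s, Iff.rfl, ?_, ?_, ?_, ?_⟩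
      · exact ⟨fun h => absurd h (OnePoint.coe_ne_infty _),
          fun h => absurd h (OnePoint.coe_ne_infty _)⟩
      all_goals simp only [hA, hB, hD, OnePoint.elim_infty, OnePoint.elim_some]
      all_goals first | ring1 | linear_combination (-(m : ℤ)) * hs + (l.val : ℤ) * huv
    | coe k =>
      -- `(1, k + l m; 0, n m)` against `(1, l' + k' n; 0, m n)`
      obtain ⟨l', c, hc⟩ := exists_val_add n ((k.val : ℤ) + l.val * m)
      obtain ⟨k', s, hs⟩ := exists_val_add m c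
      refine ⟨(k' : OnePoint (ZMod m)), (l' : OnePoint (ZMod n)), -s, ?_, ?_, ?_, ?_, ?_⟩
      · exact ⟨fun h => absurd h (OnePoint.coe_ne_infty _),
          fun h => absurd h (OnePoint.coe_ne_infty _)⟩
      · exact ⟨fun h => absurd h (OnePoint.coe_ne_infty _),
          fun h => absurd h (OnePoint.coe_ne_infty _)⟩
      all_goals simp only [hA, hB, hD, OnePoint.elim_infty, OnePoint.elim_some]
      all_goals first | ring1 | linear_combination -hc - (n : ℤ) * hs

end Prod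

/-! ### the coset systems -/

section Ops

variable {N : ℕ}

/-- the connecting elements `T ^ t`, in `Γ₀(N)` -/
def tG (N : ℕ) (t : ℤ) : Gamma0 N := ⟨ModularGroup.T ^ t, T_zpow_mem_Gamma0 N t⟩

theorem tG_mem_Gamma1 (N : ℕ) (t : ℤ) : ((tG N t : Gamma0 N) : SL(2, ℤ)) ∈ Gamma1 N :=
  T_zpow_mem_Gamma1 N t

section TT

variable {ℓ ℓ' : ℕ} [Fact ℓ.Prime] [Fact ℓ'.Prime]

/-- the product system `T_ℓ` then `T_ℓ'` has pairwise distinct cosets, modulo any subgroup -/
theorem heckeSys_comp_distinctMod (hℓN : ¬ ℓ ∣ N) (hℓ'N : ¬ ℓ' ∣ N) (hne : ℓ ≠ ℓ')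
    (Γ : Subgroup SL(2, ℤ)) : ((heckeSys hℓN).comp (heckeSys hℓ'N)).DistinctMod Γ := by
  rintro ⟨i, j⟩ ⟨i', j'⟩ γ h
  obtain ⟨h1, h2⟩ := prod_injective (Fact.out : ℓ.Prime).one_lt (Fact.out : ℓ'.Prime).one_lt
    ((Nat.coprime_primes Fact.out Fact.out).mpr hne) i i' j j' (γ : SL(2, ℤ)) h
  rw [h1, h2]

/-- the matching of the cosets of `T_ℓ' T_ℓ` with those of `T_ℓ T_ℓ'`; connecting elements in
`Γ₁(N)` -/
theorem heckeSys_match (hℓN : ¬ ℓ ∣ N) (hℓ'N : ¬ ℓ' ∣ N) (hne : ℓ ≠ ℓ')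
    (j : OnePoint (ZMod ℓ')) (i : OnePoint (ZMod ℓ)) :
    ∃ (i' : OnePoint (ZMod ℓ)) (j' : OnePoint (ZMod ℓ')) (γ : Gamma0 N),
      ((γ : Gamma0 N) : SL(2, ℤ)) ∈ Gamma1 N ∧
      (heckeSys hℓN).a i' * (heckeSys hℓ'N).a j'
        = embR ((γ : Gamma0 N) : SL(2, ℤ)) * ((heckeSys hℓ'N).a j * (heckeSys hℓN).a i) := by
  obtain ⟨i', j', t, -, -, h⟩ := prod_match (Fact.out : ℓ.Prime).one_lt
    (Fact.out : ℓ'.Prime).one_lt ((Nat.coprime_primes Fact.out Fact.out).mpr hne) j i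
  exact ⟨i', j', tG N t, tG_mem_Gamma1 N t, h⟩

/-- **`T_ℓ T_ℓ' = T_ℓ' T_ℓ` on `Hom(Γ₀(N), A)`**, by comparison of cosets -/
theorem cohT_comm (hℓN : ¬ ℓ ∣ N) (hℓ'N : ¬ ℓ' ∣ N) (A : Type*) [AddCommGroup A]
    (φ : Additive (Gamma0 N) →+ A) :
    cohT hℓ'N A (cohT hℓN A φ) = cohT hℓN A (cohT hℓ'N A φ) := by
  by_cases hne : ℓ = ℓ'
  · subst hne
    rfl
  rw [← heckeSys_op hℓN, ← heckeSys_op hℓ'N]
  refine CommAbs.op_comm_of_exists (heckeSys hℓN) (heckeSys hℓ'N) embR_injective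
    (heckeSys_comp_distinctMod hℓ'N hℓN (Ne.symm hne) _).distinct
    (heckeSys_comp_distinctMod hℓN hℓ'N hne _).distinct ?_ φ
  intro j i
  obtain ⟨i', j', γ, -, h⟩ := heckeSys_match hℓN hℓ'N hne j i
  exact ⟨i', j', γ, h⟩

end TT

section TU

variable {ℓ r : ℕ} [Fact ℓ.Prime] [NeZero r]

theorem coprime_of_not_dvd_of_dvd (hℓN : ¬ ℓ ∣ N) (hrN : r ∣ N) : Nat.Coprime ℓ r :=
  (Nat.Prime.coprime_iff_not_dvd Fact.out).mpr fun h => hℓN (h.trans hrN)

/-- the product system `T_ℓ` then `U_r` has pairwise distinct cosets -/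
theorem heckeSys_comp_uSys_distinctMod (hℓN : ¬ ℓ ∣ N) (hrN : r ∣ N) (hr : 1 < r)
    (Γ : Subgroup SL(2, ℤ)) : ((heckeSys hℓN).comp (uSys hrN)).DistinctMod Γ := by
  rintro ⟨i, (x : ZMod r)⟩ ⟨i', (x' : ZMod r)⟩ γ h
  obtain ⟨h1, h2⟩ := prod_injective (Fact.out : ℓ.Prime).one_lt hr
    (coprime_of_not_dvd_of_dvd hℓN hrN) i i' (x : OnePoint (ZMod r)) (x' : OnePoint (ZMod r))
    (γ : SL(2, ℤ)) h
  rw [h1, OnePoint.coe_injective h2]

/-- the product system `U_r` then `T_ℓ` has pairwise distinct cosets -/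
theorem uSys_comp_heckeSys_distinctMod (hℓN : ¬ ℓ ∣ N) (hrN : r ∣ N) (hr : 1 < r)
    (Γ : Subgroup SL(2, ℤ)) : ((uSys hrN).comp (heckeSys hℓN)).DistinctMod Γ := by
  rintro ⟨(x : ZMod r), i⟩ ⟨(x' : ZMod r), i'⟩ γ h
  obtain ⟨h1, h2⟩ := prod_injective hr (Fact.out : ℓ.Prime).one_lt
    (coprime_of_not_dvd_of_dvd hℓN hrN).symm (x : OnePoint (ZMod r)) (x' : OnePoint (ZMod r))
    i i' (γ : SL(2, ℤ)) h
  rw [h2, OnePoint.coe_injective h1]

/-- the matching of the cosets of `U_r T_ℓ` with those of `T_ℓ U_r` -/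
theorem heckeSys_uSys_match (hℓN : ¬ ℓ ∣ N) (hrN : r ∣ N) (hr : 1 < r)
    (x : ZMod r) (i : OnePoint (ZMod ℓ)) :
    ∃ (i' : OnePoint (ZMod ℓ)) (x' : ZMod r) (γ : Gamma0 N),
      ((γ : Gamma0 N) : SL(2, ℤ)) ∈ Gamma1 N ∧
      (heckeSys hℓN).a i' * (uSys hrN).a x'
        = embR ((γ : Gamma0 N) : SL(2, ℤ)) * ((uSys hrN).a x * (heckeSys hℓN).a i) := by
  obtain ⟨i', j', t, -, hj, h⟩ := prod_match (Fact.out : ℓ.Prime).one_lt hr
    (coprime_of_not_dvd_of_dvd hℓN hrN) ((x : ZMod r) : OnePoint (ZMod r)) i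
  have hj' : j' ≠ ∞ := fun h0 => OnePoint.coe_ne_infty _ (hj.mp h0)
  obtain ⟨x', rfl⟩ := OnePoint.ne_infty_iff_exists.mp hj'
  exact ⟨i', x', tG N t, tG_mem_Gamma1 N t, h⟩

/-- the matching of the cosets of `T_ℓ U_r` with those of `U_r T_ℓ` -/
theorem uSys_heckeSys_match (hℓN : ¬ ℓ ∣ N) (hrN : r ∣ N) (hr : 1 < r)
    (i : OnePoint (ZMod ℓ)) (x : ZMod r) :
    ∃ (x' : ZMod r) (i' : OnePoint (ZMod ℓ)) (γ : Gamma0 N),
      ((γ : Gamma0 N) : SL(2, ℤ)) ∈ Gamma1 N ∧
      (uSys hrN).a x' * (heckeSys hℓN).a i'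
        = embR ((γ : Gamma0 N) : SL(2, ℤ)) * ((heckeSys hℓN).a i * (uSys hrN).a x) := by
  obtain ⟨j', i', t, hj, -, h⟩ := prod_match hr (Fact.out : ℓ.Prime).one_lt
    (coprime_of_not_dvd_of_dvd hℓN hrN).symm i ((x : ZMod r) : OnePoint (ZMod r))
  have hj' : j' ≠ ∞ := fun h0 => OnePoint.coe_ne_infty _ (hj.mp h0)
  obtain ⟨x', rfl⟩ := OnePoint.ne_infty_iff_exists.mp hj'
  exact ⟨x', i', tG N t, tG_mem_Gamma1 N t, h⟩

/-- `U_1` is the identity -/
theorem cohU_of_eq_one (hr1 : r = 1) (hrN : r ∣ N) {A : Type*} [AddCommGroup A]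
    (ψ : Additive (Gamma0 N) →+ A) : cohU hrN A ψ = ψ := by
  subst hr1
  rw [← uSys_op hrN]
  have ha : ∀ x : ZMod 1, (uSys hrN).a x
      = 1 * embR (((fun _ : ZMod 1 => (1 : Gamma0 N)) x : Gamma0 N) : SL(2, ℤ)) := by
    intro x
    have hx : x = 0 := Subsingleton.elim _ _
    subst hx
    show heckeMatrix 1 (ZMod.val (0 : ZMod 1)) = 1 * embR ((1 : Gamma0 N) : SL(2, ℤ))
    rw [one_mul, Subgroup.coe_one, map_one, ZMod.val_zero]
    apply Units.ext
    rw [ModularForm.val_heckeMatrix one_ne_zero]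
    ext a b
    fin_cases a <;> fin_cases b <;> simp
  have h := CosetSys.op_eq_card_smul (uSys hrN) embR_injective 1
    (fun x => by rw [one_mul, mul_one]) (fun _ : ZMod 1 => (1 : Gamma0 N)) ha ψ
  rw [h]
  have hc : Fintype.card (uSys hrN).ι = 1 := ZMod.card 1
  rw [hc, one_smul]

/-- **`T_ℓ U_r = U_r T_ℓ` on `Hom(Γ₀(N), A)`** (`ℓ ∤ N`, `r ∣ N`), by comparison of cosets -/
theorem cohU_cohT_comm (hℓN : ¬ ℓ ∣ N) (hrN : r ∣ N) (A : Type*) [AddCommGroup A]
    (φ : Additive (Gamma0 N) →+ A) :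
    cohU hrN A (cohT hℓN A φ) = cohT hℓN A (cohU hrN A φ) := by
  rcases Nat.lt_or_ge 1 r with hr | hr
  · rw [← heckeSys_op hℓN, ← uSys_op hrN]
    refine CommAbs.op_comm_of_exists (heckeSys hℓN) (uSys hrN) embR_injective
      (uSys_comp_heckeSys_distinctMod hℓN hrN hr _).distinct
      (heckeSys_comp_uSys_distinctMod hℓN hrN hr _).distinct ?_ φ
    intro x i
    obtain ⟨i', x', γ, -, h⟩ := heckeSys_uSys_match hℓN hrN hr x i
    exact ⟨i', x', γ, h⟩
  · -- `r = 1`: `U_1` is the identity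
    have hr1 : r = 1 := le_antisymm hr (Nat.pos_of_ne_zero (NeZero.ne r))
    rw [cohU_of_eq_one hr1 hrN, cohU_of_eq_one hr1 hrN]

end TU

section UU

variable {r r' : ℕ} [NeZero r] [NeZero r']

/-- the product system `U_r` then `U_r'` has pairwise distinct cosets -/
theorem uSys_comp_distinctMod (hrN : r ∣ N) (hr'N : r' ∣ N) (hr : 1 < r) (hr' : 1 < r')
    (hcop : Nat.Coprime r r') (Γ : Subgroup SL(2, ℤ)) :
    ((uSys hrN).comp (uSys hr'N)).DistinctMod Γ := by
  rintro ⟨(x : ZMod r), (y : ZMod r')⟩ ⟨(x' : ZMod r), (y' : ZMod r')⟩ γ h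
  obtain ⟨h1, h2⟩ := prod_injective hr hr' hcop (x : OnePoint (ZMod r)) (x' : OnePoint (ZMod r))
    (y : OnePoint (ZMod r')) (y' : OnePoint (ZMod r')) (γ : SL(2, ℤ)) h
  rw [OnePoint.coe_injective h1, OnePoint.coe_injective h2]

/-- the matching of the cosets of `U_r' U_r` with those of `U_r U_r'` -/
theorem uSys_match (hrN : r ∣ N) (hr'N : r' ∣ N) (hr : 1 < r) (hr' : 1 < r')
    (hcop : Nat.Coprime r r') (y : ZMod r') (x : ZMod r) :
    ∃ (x' : ZMod r) (y' : ZMod r') (γ : Gamma0 N),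
      ((γ : Gamma0 N) : SL(2, ℤ)) ∈ Gamma1 N ∧
      (uSys hrN).a x' * (uSys hr'N).a y'
        = embR ((γ : Gamma0 N) : SL(2, ℤ)) * ((uSys hr'N).a y * (uSys hrN).a x) := by
  obtain ⟨i', j', t, hi, hj, h⟩ := prod_match hr hr' hcop
    ((y : ZMod r') : OnePoint (ZMod r')) ((x : ZMod r) : OnePoint (ZMod r))
  have hi' : i' ≠ ∞ := fun h0 => OnePoint.coe_ne_infty _ (hi.mp h0)
  have hj' : j' ≠ ∞ := fun h0 => OnePoint.coe_ne_infty _ (hj.mp h0)
  obtain ⟨x', rfl⟩ := OnePoint.ne_infty_iff_exists.mp hi'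
  obtain ⟨y', rfl⟩ := OnePoint.ne_infty_iff_exists.mp hj'
  exact ⟨x', y', tG N t, tG_mem_Gamma1 N t, h⟩

/-- **`U_r U_r' = U_r' U_r` on `Hom(Γ₀(N), A)`** (`r, r' > 1` coprime divisors of `N`) -/
theorem cohU_comm (hrN : r ∣ N) (hr'N : r' ∣ N) (hr : 1 < r) (hr' : 1 < r')
    (hcop : Nat.Coprime r r') (A : Type*) [AddCommGroup A] (φ : Additive (Gamma0 N) →+ A) :
    cohU hr'N A (cohU hrN A φ) = cohU hrN A (cohU hr'N A φ) := by
  rw [← uSys_op hrN, ← uSys_op hr'N]
  refine CommAbs.op_comm_of_exists (uSys hrN) (uSys hr'N) embR_injective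
    (uSys_comp_distinctMod hr'N hrN hr' hr hcop.symm _).distinct
    (uSys_comp_distinctMod hrN hr'N hr hr' hcop _).distinct ?_ φ
  intro y x
  obtain ⟨x', y', γ, -, h⟩ := uSys_match hrN hr'N hr hr' hcop y x
  exact ⟨x', y', γ, h⟩

end UU

end Ops

end Fermat.Agent.GB.B3.CommGamma0
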