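/-
GATE-B / B3-COMM (helper80), file 3a: changing the representatives of two coset systems inside
their `Γ`-cosets only reindexes the `Γ`-cosets of the product systems.

`S, S' : CosetSys emb Γ Γ`; `St`, `S't` are *twists*: `St.a k = emb (g k) * S.a (e k)` with
`e : St.ι ≃ S.ι`, `g k ∈ Γ` (and likewise for `S't`).  Then

  `St.a k * S't.a l = emb (g k * S.c (g' l) (e k)) * (S.a (S.σ (g' l) (e k)) * S'.a (e' l))`,

hence
* `comp_distinct_of_twist` : the product system `St.comp S't` has pairwise distinct cosets as soon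
  as `S.comp S'` has;
* `exists_match_of_twist`  : a matching of the cosets of `S' S` with those of `S S'` gives a
  matching of the cosets of `S't St` with those of `St S't`.
-/
import Mathlib
import Fermat.Agent.GB.B3.CommAbs

set_option autoImplicit false

namespace Fermat.Agent.GB.B3.CommTwist

open Fermat.Agent.GM.B Fermat.Agent.GM.B.CosetSys

variable {H G : Type*} [Group H] [Group G] {emb : H →* G} {Γ : Subgroup H}

section

variable (S S' St S't : CosetSys emb Γ Γ)
  (e : St.ι ≃ S.ι) (g : St.ι → Γ) (ha : ∀ k, St.a k = emb ((g k : Γ) : H) * S.a (e k))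
  (e' : S't.ι ≃ S'.ι) (g' : S't.ι → Γ)
  (ha' : ∀ l, S't.a l = emb ((g' l : Γ) : H) * S'.a (e' l))

include ha ha' in
/-- the product of two twisted representatives -/
theorem twist_prod (k : St.ι) (l : S't.ι) :
    St.a k * S't.a l
      = emb (((g k * S.c (g' l) (e k) : Γ)) : H) * (S.a (S.σ (g' l) (e k)) * S'.a (e' l)) := by
  rw [ha, ha', Subgroup.coe_mul, map_mul]
  calc emb ((g k : Γ) : H) * S.a (e k) * (emb ((g' l : Γ) : H) * S'.a (e' l))
      = emb ((g k : Γ) : H) * (S.a (e k) * emb ((g' l : Γ) : H)) * S'.a (e' l) := by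
        simp only [mul_assoc]
    _ = emb ((g k : Γ) : H) * (emb ((S.c (g' l) (e k) : Γ) : H) * S.a (S.σ (g' l) (e k)))
          * S'.a (e' l) := by rw [S.rel (g' l) (e k)]
    _ = _ := by simp only [mul_assoc]

include ha ha' in
/-- **distinctness is inherited by twists** -/
theorem comp_distinct_of_twist (hd : (S.comp S').Distinct) : (St.comp S't).Distinct := by
  rintro ⟨k, l⟩ ⟨k', l'⟩ κ h
  have h1 : St.a k * S't.a l = emb ((κ : Γ) : H) * (St.a k' * S't.a l') := h
  rw [twist_prod S S' St S't e g ha e' g' ha' k l,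
    twist_prod S S' St S't e g ha e' g' ha' k' l'] at h1
  -- `u P = κ u' P'`
  have h2 := hd (S.σ (g' l) (e k), e' l) (S.σ (g' l') (e k'), e' l')
    ((g k * S.c (g' l) (e k))⁻¹ * κ * (g k' * S.c (g' l') (e k'))) (by
      show S.a (S.σ (g' l) (e k)) * S'.a (e' l) = _ * (S.a (S.σ (g' l') (e k')) * S'.a (e' l'))
      rw [Subgroup.coe_mul, Subgroup.coe_mul, Subgroup.coe_inv, map_mul, map_mul, map_inv,
        mul_assoc, mul_assoc, eq_inv_mul_iff_mul_eq, h1])
  have hl : l = l' := e'.injective (congrArg Prod.snd h2)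
  subst hl
  have hk : k = k' := e.injective ((S.σ (g' l)).injective (congrArg Prod.fst h2))
  subst hk
  rfl

include ha ha' in
/-- **the matching of cosets is inherited by twists** -/
theorem exists_match_of_twist
    (hrep : ∀ (j : S'.ι) (i : S.ι), ∃ (i' : S.ι) (j' : S'.ι) (γ : Γ),
      S.a i' * S'.a j' = emb ((γ : Γ) : H) * (S'.a j * S.a i))
    (l : S't.ι) (k : St.ι) :
    ∃ (k' : St.ι) (l' : S't.ι) (γ : Γ),
      St.a k' * S't.a l' = emb ((γ : Γ) : H) * (S't.a l * St.a k) := by
  -- the coset of `S't.a l * St.a k`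
  have h1 := twist_prod S' S S't St e' g' ha' e g ha l k
  obtain ⟨i₂, j₂, γ₀, h2⟩ := hrep (S'.σ (g k) (e' l)) (e k)
  -- the twisted pair over `(i₂, j₂)`
  let l' : S't.ι := e'.symm j₂
  let k' : St.ι := e.symm ((S.σ (g' l')).symm i₂)
  have h3 := twist_prod S S' St S't e g ha e' g' ha' k' l'
  have hk' : S.σ (g' l') (e k') = i₂ := by
    show S.σ (g' l') (e (e.symm ((S.σ (g' l')).symm i₂))) = i₂
    rw [Equiv.apply_symm_apply, Equiv.apply_symm_apply]
  have hl' : e' l' = j₂ := Equiv.apply_symm_apply e' j₂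
  rw [hk', hl', h2] at h3
  refine ⟨k', l', (g k' * S.c (g' l') (e k')) * γ₀ * (g' l * S'.c (g k) (e' l))⁻¹, ?_⟩
  rw [h3, h1]
  simp only [Subgroup.coe_mul, Subgroup.coe_inv, map_mul, map_inv]
  group

end

end Fermat.Agent.GB.B3.CommTwist
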