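/-
GATE-B node B3-HECKE, concrete half (helper2): Hecke, `U` and diamond operators on
`Hom(Γ_H, A)`, `Γ_H = ker (θ ∘ (d mod N)) ≤ Γ₀(N)`, for an arbitrary quotient
`θ : (ZMod N)ˣ →* Δ`, with their equivariance under restriction and transfer to `Γ₀(N)`.

* `GammaH θ` : the group; `heckeSysD hℓN` : the `σ_ℓ`-twisted Hecke system of `T_ℓ` on `Γ₀(N)`
  (Diamond–Shurman normalisation: the representative at `∞` is `σ_ℓ · diag(ℓ, 1)`,
  `d(σ_ℓ) ≡ ℓ mod N`); it defines the SAME operator `cohT` on `Hom(Γ₀(N), A)`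
  (`heckeSysD_op`) and it is compatible with `d mod N` (`dUnits_cD`), hence with every `χ_θ`.
* `uSys hrM` (`r ∣ M`) is compatible with `d mod M` (`dUnits_cU`).
* `TH`, `UH`, `diaH`, `resH`, `coresH` : the operators on `Hom(Γ_H, A)` and between `Γ_H` and
  `Γ₀(N)`; `TH_resH`, `coresH_TH`, `diaH_TH`, `UH_resH`, `coresH_UH`, `diaH_UH`,
  `resH_coresH`, `coresH_resH`, `coresH_diaH`, `diaH_resH`.
-/
import Mathlib
import Fermat.Agent.GB.B3.KerSys
import Fermat.Agent.GB.B3.EisGamma0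
import Fermat.Agent.GM.B5.UqSquare

set_option autoImplicit false

open scoped MatrixGroups
open CongruenceSubgroup Matrix Matrix.SpecialLinearGroup
open P2MW.S_ModularForm_heckeT_slash_eq_self_of_mem_Gamma0.ModularForm.HeckeSlashInvariance
open Fermat.Agent.S16_helper49 Fermat.Agent.GM.B Fermat.Agent.GM.EisClass
open Fermat.Agent.GB.B3.EisGamma0

namespace Fermat.Agent.GB.B3.GamH

variable {N : ℕ}

section Twist

variable {ℓ : ℕ} [Fact ℓ.Prime]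

/-- an element `σ_ℓ ∈ Γ₀(N)` with `d(σ_ℓ) ≡ ℓ mod N` -/
noncomputable def sigmaL (hℓN : ¬ ℓ ∣ N) : Gamma0 N := (exists_dN_eq (N := N) (ℓ := ℓ) hℓN).choose

theorem dN_sigmaL (hℓN : ¬ ℓ ∣ N) : dN (sigmaL hℓN) = ((ℓ : ℤ) : ZMod N) :=
  (exists_dN_eq (N := N) (ℓ := ℓ) hℓN).choose_spec

/-- the twisting elements: `σ_ℓ` at `∞`, `1` at the finite points -/
noncomputable def twG (hℓN : ¬ ℓ ∣ N) (x : OnePoint (ZMod ℓ)) : Gamma0 N :=
  x.elim (sigmaL hℓN) (fun _ => 1)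

/-- the unit `ℓ mod N` -/
noncomputable def unitL (hℓN : ¬ ℓ ∣ N) : (ZMod N)ˣ :=
  deltaU hℓN (((0 : ZMod ℓ) : ZMod ℓ) : OnePoint (ZMod ℓ))

theorem dUnits_twG_mul_deltaU (hℓN : ¬ ℓ ∣ N) (x : OnePoint (ZMod ℓ)) :
    dUnits N (twG hℓN x) * deltaU hℓN x = unitL hℓN := by
  apply Units.ext
  rw [Units.val_mul, coe_dUnits, coe_deltaU]
  unfold unitL
  rw [coe_deltaU]
  induction x using OnePoint.rec with
  | infty =>
    show dN (sigmaL hℓN) * (((1 : ℤ) : ℤ) : ZMod N) = (((ℓ : ℤ) : ℤ) : ZMod N)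
    rw [dN_sigmaL, Int.cast_one, mul_one]
  | coe j =>
    show dN (1 : Gamma0 N) * (((ℓ : ℤ) : ℤ) : ZMod N) = (((ℓ : ℤ) : ℤ) : ZMod N)
    rw [dN_one, one_mul]

/-- the cocycle of the twisted Hecke system -/
noncomputable def cD (hℓN : ¬ ℓ ∣ N) (g : Gamma0 N) (x : OnePoint (ZMod ℓ)) : Gamma0 N :=
  twG hℓN x * (heckeSys hℓN).c g x * (twG hℓN ((heckeSys hℓN).σ g x))⁻¹

/-- **the twisted cocycle preserves `d mod N`** -/
theorem dUnits_cD (hℓN : ¬ ℓ ∣ N) (g : Gamma0 N) (x : OnePoint (ZMod ℓ)) :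
    dUnits N (cD hℓN g x) = dUnits N g := by
  unfold cD
  rw [map_mul, map_mul, map_inv]
  have h1 := dUnits_relation hℓN g x
  have h2 := dUnits_twG_mul_deltaU hℓN x
  have h3 := dUnits_twG_mul_deltaU hℓN ((heckeSys hℓN).σ g x)
  apply mul_right_cancel (b := unitL hℓN)
  calc dUnits N (twG hℓN x) * dUnits N ((heckeSys hℓN).c g x)
          * (dUnits N (twG hℓN ((heckeSys hℓN).σ g x)))⁻¹ * unitL hℓN
      = dUnits N (twG hℓN x) * dUnits N ((heckeSys hℓN).c g x)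
          * (dUnits N (twG hℓN ((heckeSys hℓN).σ g x)))⁻¹
          * (dUnits N (twG hℓN ((heckeSys hℓN).σ g x)) * deltaU hℓN ((heckeSys hℓN).σ g x)) := by
        rw [h3]
    _ = dUnits N (twG hℓN x)
          * (dUnits N ((heckeSys hℓN).c g x) * deltaU hℓN ((heckeSys hℓN).σ g x)) := by group
    _ = dUnits N g * (dUnits N (twG hℓN x) * deltaU hℓN x) := by rw [h1, mul_left_comm]
    _ = dUnits N g * unitL hℓN := by rw [h2]

/-- **the `σ_ℓ`-twisted Hecke system** of `T_ℓ` at level `N` -/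
noncomputable def heckeSysD (hℓN : ¬ ℓ ∣ N) : CosetSys embR (Gamma0 N) (Gamma0 N) :=
  (heckeSys hℓN).twist embR_injective 1 (twG hℓN) (cD hℓN)
    (fun g i => by rw [mul_one, one_mul]; rfl)

theorem heckeSysD_c (hℓN : ¬ ℓ ∣ N) (g : Gamma0 N) (x : OnePoint (ZMod ℓ)) :
    (heckeSysD hℓN).c g x = cD hℓN g x := rfl

theorem heckeSysD_a (hℓN : ¬ ℓ ∣ N) (x : OnePoint (ZMod ℓ)) :
    (heckeSysD hℓN).a x = 1 * embR ((twG hℓN x : Gamma0 N) : SL(2, ℤ)) * heckeRep ℓ x := rfl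

/-- the twisted system defines the same operator `T_ℓ` on `Hom(Γ₀(N), A)` -/
theorem heckeSysD_op (hℓN : ¬ ℓ ∣ N) (A : Type*) [AddCommGroup A] :
    (heckeSysD hℓN).op A = cohT hℓN A := by
  rw [← heckeSys_op]
  refine AddMonoidHom.ext fun φ => ?_
  exact CosetSys.op_eq_of_equiv (heckeSys hℓN) (heckeSysD hℓN) embR_injective (Equiv.refl _) 1
    (fun x => by rw [one_mul, mul_one]) (twG hℓN) (fun i => rfl) (fun g i => rfl) φ

theorem heckeSysD_card (hℓN : ¬ ℓ ∣ N) : Fintype.card (heckeSysD hℓN).ι = ℓ + 1 :=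
  heckeSys_card hℓN

end Twist


/-! ### the `U` system is compatible with `d mod M` -/

section USys

open Fermat.Agent.GM.B5

variable {M r : ℕ} [NeZero r]

/-- the upper left entries in the coset relation of `U_r` -/
theorem cU_zero_zero (hrM : r ∣ M) (g : Gamma0 M) (x : ZMod r) :
    ((cU hrM g x : Gamma0 M) : SL(2, ℤ)) 0 0
      = (g : SL(2, ℤ)) 0 0 + (x.val : ℤ) * (g : SL(2, ℤ)) 1 0 := by
  have hr : r ≠ 0 := NeZero.ne r
  have h := congrArg (fun X : GL (Fin 2) ℝ => (X : Matrix (Fin 2) (Fin 2) ℝ) 0 0) (cU_rel hrM g x)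
  simp only [Matrix.GeneralLinearGroup.coe_mul, Matrix.mul_apply, Fin.sum_univ_two] at h
  have m1 := mapGL_apply (g : SL(2, ℤ)) 0 0
  have m2 := mapGL_apply (g : SL(2, ℤ)) 1 0
  have m3 := mapGL_apply ((cU hrM g x : Gamma0 M) : SL(2, ℤ)) 0 0
  have m4 := mapGL_apply ((cU hrM g x : Gamma0 M) : SL(2, ℤ)) 0 1
  change (ModularForm.heckeMatrix r x.val : GL (Fin 2) ℝ) 0 0
        * (mapGL ℝ (g : SL(2, ℤ)) : GL (Fin 2) ℝ) 0 0
      + (ModularForm.heckeMatrix r x.val : GL (Fin 2) ℝ) 0 1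
        * (mapGL ℝ (g : SL(2, ℤ)) : GL (Fin 2) ℝ) 1 0
    = (mapGL ℝ ((cU hrM g x : Gamma0 M) : SL(2, ℤ)) : GL (Fin 2) ℝ) 0 0
        * (ModularForm.heckeMatrix r (sigU hrM g x).val : GL (Fin 2) ℝ) 0 0
      + (mapGL ℝ ((cU hrM g x : Gamma0 M) : SL(2, ℤ)) : GL (Fin 2) ℝ) 0 1
        * (ModularForm.heckeMatrix r (sigU hrM g x).val : GL (Fin 2) ℝ) 1 0 at h
  have e1 : (ModularForm.heckeMatrix r x.val : GL (Fin 2) ℝ) 0 0 = 1 := by
    rw [ModularForm.val_heckeMatrix hr]; simp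
  have e2 : (ModularForm.heckeMatrix r x.val : GL (Fin 2) ℝ) 0 1 = (x.val : ℝ) := by
    rw [ModularForm.val_heckeMatrix hr]; simp
  have e3 : (ModularForm.heckeMatrix r (sigU hrM g x).val : GL (Fin 2) ℝ) 0 0 = 1 := by
    rw [ModularForm.val_heckeMatrix hr]; simp
  have e4 : (ModularForm.heckeMatrix r (sigU hrM g x).val : GL (Fin 2) ℝ) 1 0 = 0 := by
    rw [ModularForm.val_heckeMatrix hr]; simp
  rw [e1, e2, e3, e4, m1, m2, m3, m4, one_mul, mul_one, mul_zero, add_zero] at h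
  exact_mod_cast h.symm

/-- **the cocycle of `U_r` preserves `d mod M`** -/
theorem dN_cU (hrM : r ∣ M) (g : Gamma0 M) (x : ZMod r) : dN (cU hrM g x) = dN g := by
  have h00 : ((((cU hrM g x : Gamma0 M) : SL(2, ℤ)) 0 0 : ℤ) : ZMod M)
      = ((((g : SL(2, ℤ)) 0 0 : ℤ)) : ZMod M) := by
    rw [cU_zero_zero]
    push_cast
    rw [c_eq_zero g, mul_zero, add_zero]
  have hc := unit_of_apply_one_zero_eq_zero (p := M) ((cU hrM g x : Gamma0 M) : SL(2, ℤ))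
    (c_eq_zero (cU hrM g x))
  have hg := unit_of_apply_one_zero_eq_zero (p := M) (g : SL(2, ℤ)) (c_eq_zero g)
  rw [h00] at hc
  unfold dN
  calc ((((cU hrM g x : Gamma0 M) : SL(2, ℤ)) 1 1 : ℤ) : ZMod M)
      = (((((g : SL(2, ℤ)) 0 0 : ℤ)) : ZMod M) * ((((g : SL(2, ℤ)) 1 1 : ℤ)) : ZMod M))
          * ((((cU hrM g x : Gamma0 M) : SL(2, ℤ)) 1 1 : ℤ) : ZMod M) := by rw [hg, one_mul]
    _ = (((((g : SL(2, ℤ)) 0 0 : ℤ)) : ZMod M)
          * ((((cU hrM g x : Gamma0 M) : SL(2, ℤ)) 1 1 : ℤ) : ZMod M))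
          * ((((g : SL(2, ℤ)) 1 1 : ℤ)) : ZMod M) := by ring
    _ = ((((g : SL(2, ℤ)) 1 1 : ℤ)) : ZMod M) := by rw [hc, one_mul]

theorem dUnits_cU (hrM : r ∣ M) (g : Gamma0 M) (x : ZMod r) :
    dUnits M ((uSys hrM).c g x) = dUnits M g := by
  apply Units.ext
  rw [coe_dUnits, coe_dUnits]
  exact dN_cU hrM g x

end USys


/-! ### the operators on `Hom(Γ_H, A)` -/

section Operators

open Fermat.Agent.GM.B5

variable {Δ : Type} [CommGroup Δ] (θ : (ZMod N)ˣ →* Δ)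

/-- **the group `Γ_H`**, `H = ker θ`: the matrices of `Γ₀(N)` with `θ (d mod N) = 1` -/
noncomputable def GammaH : Subgroup SL(2, ℤ) := kerSub (chi θ)

theorem GammaH_le : GammaH θ ≤ Gamma0 N := kerSub_le (chi θ)

theorem mem_GammaH_iff (g : SL(2, ℤ)) :
    g ∈ GammaH θ ↔ ∃ hg : g ∈ Gamma0 N, θ (dUnits N ⟨g, hg⟩) = 1 := by
  constructor
  · rintro ⟨k, hk, rfl⟩
    exact ⟨k.2, hk⟩
  · rintro ⟨hg, h⟩
    exact ⟨⟨g, hg⟩, h, rfl⟩

section Hecke

variable {ℓ : ℕ} [Fact ℓ.Prime]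

theorem compat_heckeSysD (hℓN : ¬ ℓ ∣ N) : Compat (heckeSysD hℓN) (chi θ) := by
  intro g x
  rw [chi_apply, chi_apply, heckeSysD_c, dUnits_cD]

/-- **the Hecke system of `T_ℓ` on `Γ_H`** (`ℓ ∤ N`) -/
noncomputable def heckeSysH (hℓN : ¬ ℓ ∣ N) : CosetSys embR (GammaH θ) (GammaH θ) :=
  kerSys (heckeSysD hℓN) (chi θ) (compat_heckeSysD θ hℓN)

theorem heckeSysH_card (hℓN : ¬ ℓ ∣ N) : Fintype.card (heckeSysH θ hℓN).ι = ℓ + 1 :=
  heckeSys_card hℓN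

end Hecke

section U

variable {r : ℕ} [NeZero r]

theorem compat_uSys (hrN : r ∣ N) : Compat (uSys hrN) (chi θ) := by
  intro g x
  rw [chi_apply, chi_apply, dUnits_cU]

/-- **the system of `U_r` on `Γ_H`** (`r ∣ N`) -/
noncomputable def uSysH (hrN : r ∣ N) : CosetSys embR (GammaH θ) (GammaH θ) :=
  kerSys (uSys hrN) (chi θ) (compat_uSys θ hrN)

end U

variable (A : Type*) [AddCommGroup A]

/-- restriction `Hom(Γ₀(N), A) → Hom(Γ_H, A)` -/
noncomputable def resH : (Additive (Gamma0 N) →+ A) →+ (Additive (GammaH θ) →+ A) :=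
  (resK embR (chi θ)).op A

/-- the diamond operator `⟨d⟩` of `d ∈ Γ₀(N)` on `Hom(Γ_H, A)`: `ψ ↦ ψ (d · d⁻¹)` -/
noncomputable def diaH (d : Gamma0 N) :
    (Additive (GammaH θ) →+ A) →+ (Additive (GammaH θ) →+ A) :=
  (diaK embR (chi θ) d).op A

/-- `T_ℓ` on `Hom(Γ_H, A)` -/
noncomputable def TH {ℓ : ℕ} [Fact ℓ.Prime] (hℓN : ¬ ℓ ∣ N) :
    (Additive (GammaH θ) →+ A) →+ (Additive (GammaH θ) →+ A) :=
  (heckeSysH θ hℓN).op A

/-- `U_r` on `Hom(Γ_H, A)` -/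
noncomputable def UH {r : ℕ} [NeZero r] (hrN : r ∣ N) :
    (Additive (GammaH θ) →+ A) →+ (Additive (GammaH θ) →+ A) :=
  (uSysH θ hrN).op A

variable {A}

theorem resH_apply (φ : Additive (Gamma0 N) →+ A) (k : GammaH θ) :
    resH θ A φ (Additive.ofMul k) = φ (Additive.ofMul (kerIncl (chi θ) k)) :=
  resK_op_apply (chi θ) φ k

theorem diaH_apply (d : Gamma0 N) (ψ : Additive (GammaH θ) →+ A) (k : GammaH θ) :
    diaH θ A d ψ (Additive.ofMul k) = ψ (Additive.ofMul (conjK (chi θ) d k)) :=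
  diaK_op_apply (chi θ) d ψ k

/-- **`T_ℓ ∘ res = res ∘ T_ℓ`** -/
theorem TH_resH {ℓ : ℕ} [Fact ℓ.Prime] (hℓN : ¬ ℓ ∣ N) (φ : Additive (Gamma0 N) →+ A) :
    TH θ A hℓN (resH θ A φ) = resH θ A (cohT hℓN A φ) := by
  rw [← heckeSysD_op]
  exact kerSys_op_res (heckeSysD hℓN) (chi θ) (compat_heckeSysD θ hℓN) φ

/-- **`U_r ∘ res = res ∘ U_r`** -/
theorem UH_resH {r : ℕ} [NeZero r] (hrN : r ∣ N) (φ : Additive (Gamma0 N) →+ A) :
    UH θ A hrN (resH θ A φ) = resH θ A (cohU hrN A φ) := by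
  rw [← uSys_op]
  exact kerSys_op_res (uSys hrN) (chi θ) (compat_uSys θ hrN) φ

/-- **the diamond operators commute with `T_ℓ`** -/
theorem diaH_TH {ℓ : ℕ} [Fact ℓ.Prime] (hℓN : ¬ ℓ ∣ N) (d : Gamma0 N)
    (ψ : Additive (GammaH θ) →+ A) :
    diaH θ A d (TH θ A hℓN ψ) = TH θ A hℓN (diaH θ A d ψ) :=
  dia_kerSys_op embR_injective (heckeSysD hℓN) (chi θ) (compat_heckeSysD θ hℓN) d ψ

/-- **the diamond operators commute with `U_r`** -/
theorem diaH_UH {r : ℕ} [NeZero r] (hrN : r ∣ N) (d : Gamma0 N)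
    (ψ : Additive (GammaH θ) →+ A) :
    diaH θ A d (UH θ A hrN ψ) = UH θ A hrN (diaH θ A d ψ) :=
  dia_kerSys_op embR_injective (uSys hrN) (chi θ) (compat_uSys θ hrN) d ψ

theorem diaH_mul (d d' : Gamma0 N) (ψ : Additive (GammaH θ) →+ A) :
    diaH θ A (d' * d) ψ = diaH θ A d (diaH θ A d' ψ) :=
  dia_mul (chi θ) d d' ψ

theorem diaH_of_ker (d : Gamma0 N) (hd : chi θ d = 1) (ψ : Additive (GammaH θ) →+ A) :
    diaH θ A d ψ = ψ :=
  dia_of_ker (chi θ) d hd ψ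

theorem diaH_congr (d d' : Gamma0 N) (hd : chi θ d = chi θ d') (ψ : Additive (GammaH θ) →+ A) :
    diaH θ A d ψ = diaH θ A d' ψ :=
  dia_congr (chi θ) d d' hd ψ

/-- the diamond operators commute with each other (`Δ` is commutative) -/
theorem diaH_comm (d d' : Gamma0 N) (ψ : Additive (GammaH θ) →+ A) :
    diaH θ A d (diaH θ A d' ψ) = diaH θ A d' (diaH θ A d ψ) := by
  rw [← diaH_mul, ← diaH_mul]
  exact diaH_congr θ _ _ (by rw [map_mul, map_mul, mul_comm]) ψ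

theorem diaH_resH (d : Gamma0 N) (φ : Additive (Gamma0 N) →+ A) :
    diaH θ A d (resH θ A φ) = resH θ A φ :=
  dia_res (chi θ) d φ

section Cores

variable [Fintype Δ] (rep : Δ → Gamma0 N) (hrep : ∀ δ, chi θ (rep δ) = δ)

/-- the transfer `Hom(Γ_H, A) → Hom(Γ₀(N), A)` of a section `rep` of `χ_θ` -/
noncomputable def coresH (A : Type*) [AddCommGroup A] :
    (Additive (GammaH θ) →+ A) →+ (Additive (Gamma0 N) →+ A) :=
  (coresK (chi θ) rep hrep embR).op A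

/-- **`cores ∘ T_ℓ = T_ℓ ∘ cores`** -/
theorem coresH_TH {ℓ : ℕ} [Fact ℓ.Prime] (hℓN : ¬ ℓ ∣ N) (ψ : Additive (GammaH θ) →+ A) :
    coresH θ rep hrep A (TH θ A hℓN ψ) = cohT hℓN A (coresH θ rep hrep A ψ) := by
  rw [← heckeSysD_op]
  exact cores_kerSys_op (chi θ) rep hrep embR_injective (heckeSysD hℓN)
    (compat_heckeSysD θ hℓN) ψ

/-- **`cores ∘ U_r = U_r ∘ cores`** -/
theorem coresH_UH {r : ℕ} [NeZero r] (hrN : r ∣ N) (ψ : Additive (GammaH θ) →+ A) :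
    coresH θ rep hrep A (UH θ A hrN ψ) = cohU hrN A (coresH θ rep hrep A ψ) := by
  rw [← uSys_op]
  exact cores_kerSys_op (chi θ) rep hrep embR_injective (uSys hrN) (compat_uSys θ hrN) ψ

/-- **`res ∘ cores = ∑ δ, ⟨δ⟩`** -/
theorem resH_coresH (ψ : Additive (GammaH θ) →+ A) :
    resH θ A (coresH θ rep hrep A ψ) = ∑ δ : Δ, diaH θ A (rep δ) ψ :=
  res_cores (chi θ) rep hrep ψ

/-- **`cores ∘ res = |Δ|`** -/
theorem coresH_resH (φ : Additive (Gamma0 N) →+ A) :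
    coresH θ rep hrep A (resH θ A φ) = Fintype.card Δ • φ :=
  cores_res (chi θ) rep hrep φ

/-- **`cores ∘ ⟨d⟩ = cores`** -/
theorem coresH_diaH (d : Gamma0 N) (ψ : Additive (GammaH θ) →+ A) :
    coresH θ rep hrep A (diaH θ A d ψ) = coresH θ rep hrep A ψ :=
  cores_dia (chi θ) rep hrep embR_injective d ψ

end Cores


/-! ### naturality in the coefficient group -/

section Natural

variable {B : Type*} [AddCommGroup B] (f : A →+ B)

theorem TH_comp_hom {ℓ : ℕ} [Fact ℓ.Prime] (hℓN : ¬ ℓ ∣ N) (ψ : Additive (GammaH θ) →+ A) :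
    TH θ B hℓN (f.comp ψ) = f.comp (TH θ A hℓN ψ) :=
  CosetSys.op_comp_hom _ f ψ

theorem UH_comp_hom {r : ℕ} [NeZero r] (hrN : r ∣ N) (ψ : Additive (GammaH θ) →+ A) :
    UH θ B hrN (f.comp ψ) = f.comp (UH θ A hrN ψ) :=
  CosetSys.op_comp_hom _ f ψ

theorem diaH_comp_hom (d : Gamma0 N) (ψ : Additive (GammaH θ) →+ A) :
    diaH θ B d (f.comp ψ) = f.comp (diaH θ A d ψ) :=
  CosetSys.op_comp_hom _ f ψ

theorem resH_comp_hom (φ : Additive (Gamma0 N) →+ A) :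
    resH θ B (f.comp φ) = f.comp (resH θ A φ) :=
  CosetSys.op_comp_hom _ f φ

theorem coresH_comp_hom [Fintype Δ] (rep : Δ → Gamma0 N) (hrep : ∀ δ, chi θ (rep δ) = δ)
    (ψ : Additive (GammaH θ) →+ A) :
    coresH θ rep hrep B (f.comp ψ) = f.comp (coresH θ rep hrep A ψ) :=
  CosetSys.op_comp_hom _ f ψ

end Natural

end Operators

/-! ### sections of `χ_θ` -/

section Surj

/-- every unit mod `N` is the lower right entry of a matrix of `Γ₀(N)` -/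
theorem dUnits_surjective [NeZero N] : Function.Surjective (dUnits N) := by
  intro u
  have hcop : Nat.Coprime (u : ZMod N).val N := ZMod.val_coe_unit_coprime u
  have hco : IsCoprime (((u : ZMod N).val : ℕ) : ℤ) (N : ℤ) := Nat.isCoprime_iff_coprime.mpr hcop
  obtain ⟨a, b, hab⟩ := hco
  let Mx : SL(2, ℤ) := ⟨!![a, -b; (N : ℤ), (((u : ZMod N).val : ℕ) : ℤ)], by
    rw [Matrix.det_fin_two_of]
    linear_combination hab⟩
  have hM10 : Mx 1 0 = (N : ℤ) := rfl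
  have hM11 : Mx 1 1 = (((u : ZMod N).val : ℕ) : ℤ) := rfl
  have hM : Mx ∈ Gamma0 N := by
    rw [Gamma0_mem, hM10]
    simp
  refine ⟨⟨Mx, hM⟩, ?_⟩
  apply Units.ext
  rw [coe_dUnits]
  change ((Mx 1 1 : ℤ) : ZMod N) = _
  rw [hM11, Int.cast_natCast, ZMod.natCast_zmod_val]

theorem chi_surjective [NeZero N] {Δ : Type} [CommGroup Δ] (θ : (ZMod N)ˣ →* Δ)
    (hθ : Function.Surjective θ) : Function.Surjective (chi θ) :=
  hθ.comp dUnits_surjective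

/-- a section of `χ_θ` -/
theorem exists_rep [NeZero N] {Δ : Type} [CommGroup Δ] (θ : (ZMod N)ˣ →* Δ)
    (hθ : Function.Surjective θ) : ∃ rep : Δ → Gamma0 N, ∀ δ, chi θ (rep δ) = δ :=
  ⟨Function.surjInv (chi_surjective θ hθ), Function.surjInv_eq (chi_surjective θ hθ)⟩

end Surj

end Fermat.Agent.GB.B3.GamH
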