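/-
GATE-B / B3-COMM (helper80), file 3b: the Hecke operators `T_ℓ` (`ℓ ∤ N`) and `U_r` (`r ∣ N`) on
`Hom(Γ_H, A)`, `Γ_H = ker (θ ∘ (d mod N)) ≤ Γ₀(N)` (helper2's `GamH.TH`, `GamH.UH`), commute.

Method.  The product systems of the `σ_ℓ`-twisted Hecke systems `GamH.heckeSysD` (and of `uSys`)
have the same `Γ₀(N)`-cosets as the untwisted ones (`CommTwist`), which are matched in
`CommGamma0`.  All the representatives `σ_ℓ · diag(ℓ, 1)`, `(1, j; 0, ℓ)`, `(1, x; 0, r)` are integer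
matrices `≡ (1, *; 0, *) mod N` — a class closed under products (`IsA1`) — so that every connecting
element `γ` (`Q = γ P`, `P`, `Q` in this class) lies in `Γ₁(N) ≤ ker χ_θ`
(`mem_Gamma1_of_isA1`).

* `TH_comm`    : `T_ℓ' T_ℓ = T_ℓ T_ℓ'`;
* `UH_TH_comm` : `U_r T_ℓ = T_ℓ U_r`;
* `UH_comm`    : `U_r' U_r = U_r U_r'` (`r, r' > 1` coprime).

With helper2's `diaH_TH`, `diaH_UH`, `diaH_comm` the operators `T_ℓ`, `U_r`, `⟨d⟩` on
`Hom(Γ_H, A)` form a commuting family.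
-/
import Mathlib
import Fermat.Agent.GB.B3.CommTwist
import Fermat.Agent.GB.B3.CommGamma0
import Fermat.Agent.GB.B3.GammaH

set_option autoImplicit false
set_option linter.unusedSectionVars false

open scoped MatrixGroups
open CongruenceSubgroup Matrix Matrix.SpecialLinearGroup
open P2MW.S_ModularForm_heckeT_slash_eq_self_of_mem_Gamma0.ModularForm.HeckeSlashInvariance
open P2MW.S_ModularForm_heckeT_slash_eq_self_of_mem_Gamma0.ModularForm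
open Fermat.Agent.S16_helper49 Fermat.Agent.GM.B Fermat.Agent.GM.B5 Fermat.Agent.GM.EisClass
open Fermat.Agent.GB.B3.EisGamma0 Fermat.Agent.GB.B3.CommGamma0
open scoped OnePoint

namespace Fermat.Agent.GB.B3.CommGammaH

variable {N : ℕ}

/-! ### integer matrices `≡ (1, *; 0, *) mod N` -/

/-- `α` is an integer matrix congruent to `(1, *; 0, *)` modulo `N` -/
def IsA1 (N : ℕ) (α : GL (Fin 2) ℝ) : Prop :=
  ∃ M : Matrix (Fin 2) (Fin 2) ℤ, IsZ α M ∧ ((M 0 0 : ℤ) : ZMod N) = 1 ∧ ((M 1 0 : ℤ) : ZMod N) = 0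

theorem IsA1.mul {α β : GL (Fin 2) ℝ} (h : IsA1 N α) (h' : IsA1 N β) : IsA1 N (α * β) := by
  obtain ⟨M, hM, h00, h10⟩ := h
  obtain ⟨M', hM', h00', h10'⟩ := h'
  refine ⟨M * M', hM.mul hM', ?_, ?_⟩
  · rw [Matrix.mul_apply, Fin.sum_univ_two]
    push_cast
    rw [h00, h00', h10', mul_zero, add_zero, one_mul]
  · rw [Matrix.mul_apply, Fin.sum_univ_two]
    push_cast
    rw [h10, h10', mul_zero, add_zero, zero_mul]

/-- **connecting elements between matrices `≡ (1, *; 0, *) mod N` lie in `Γ₁(N)`** -/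
theorem mem_Gamma1_of_isA1 {P Q : GL (Fin 2) ℝ} (hP : IsA1 N P) (hQ : IsA1 N Q) (γ : SL(2, ℤ))
    (h : Q = embR γ * P) : γ ∈ Gamma1 N := by
  obtain ⟨MP, hMP, p00, p10⟩ := hP
  obtain ⟨MQ, hMQ, q00, q10⟩ := hQ
  have hZ := (isZ_embR γ).mul hMP
  rw [← h] at hZ
  have hM : MQ = (γ : Matrix (Fin 2) (Fin 2) ℤ) * MP := hMQ.inj hZ
  have e00 : MQ 0 0 = (γ : Matrix (Fin 2) (Fin 2) ℤ) 0 0 * MP 0 0
      + (γ : Matrix (Fin 2) (Fin 2) ℤ) 0 1 * MP 1 0 := by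
    rw [hM, Matrix.mul_apply, Fin.sum_univ_two]
  have e10 : MQ 1 0 = (γ : Matrix (Fin 2) (Fin 2) ℤ) 1 0 * MP 0 0
      + (γ : Matrix (Fin 2) (Fin 2) ℤ) 1 1 * MP 1 0 := by
    rw [hM, Matrix.mul_apply, Fin.sum_univ_two]
  have hdet : (γ : Matrix (Fin 2) (Fin 2) ℤ) 0 0 * (γ : Matrix (Fin 2) (Fin 2) ℤ) 1 1
      - (γ : Matrix (Fin 2) (Fin 2) ℤ) 0 1 * (γ : Matrix (Fin 2) (Fin 2) ℤ) 1 0 = 1 := by
    rw [← Matrix.det_fin_two]
    exact γ.det_coe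
  have c00 : (((γ : Matrix (Fin 2) (Fin 2) ℤ) 0 0 : ℤ) : ZMod N) = 1 := by
    have h1 := congrArg (Int.cast : ℤ → ZMod N) e00
    push_cast at h1
    rw [q00, p00, p10, mul_one, mul_zero, add_zero] at h1
    exact h1.symm
  have c10 : (((γ : Matrix (Fin 2) (Fin 2) ℤ) 1 0 : ℤ) : ZMod N) = 0 := by
    have h1 := congrArg (Int.cast : ℤ → ZMod N) e10
    push_cast at h1
    rw [q10, p00, p10, mul_one, mul_zero, add_zero] at h1
    exact h1.symm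
  have c11 : (((γ : Matrix (Fin 2) (Fin 2) ℤ) 1 1 : ℤ) : ZMod N) = 1 := by
    have h1 := congrArg (Int.cast : ℤ → ZMod N) hdet
    push_cast at h1
    rw [c00, c10, mul_zero, sub_zero, one_mul] at h1
    exact h1
  rw [Gamma1_mem]
  exact ⟨c00, c11, c10⟩

theorem isA1_heckeMatrix {r : ℕ} (hr : r ≠ 0) (j : ℕ) :
    IsA1 N (ModularForm.heckeMatrix r j) :=
  ⟨!![(1 : ℤ), (j : ℤ); 0, (r : ℤ)], Fermat.Agent.S16.LB.SH.coe_heckeMatrix hr j,
    by simp, by simp⟩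

theorem isA1_embR_mul_diag {ℓ : ℕ} (hℓ : ℓ ≠ 0) (σ : Gamma0 N)
    (hσ : dN σ = ((ℓ : ℤ) : ZMod N)) :
    IsA1 N (embR ((σ : Gamma0 N) : SL(2, ℤ)) * ModularForm.heckeDiagMatrix ℓ) := by
  have hdet : ((σ : Gamma0 N) : SL(2, ℤ)) 0 0 * ((σ : Gamma0 N) : SL(2, ℤ)) 1 1
      - ((σ : Gamma0 N) : SL(2, ℤ)) 0 1 * ((σ : Gamma0 N) : SL(2, ℤ)) 1 0 = 1 := by
    rw [← Matrix.det_fin_two]
    exact ((σ : Gamma0 N) : SL(2, ℤ)).det_coe
  have hc : (((((σ : Gamma0 N) : SL(2, ℤ)) 1 0 : ℤ)) : ZMod N) = 0 := c_eq_zero σ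
  have hd : (((((σ : Gamma0 N) : SL(2, ℤ)) 1 1 : ℤ)) : ZMod N) = ((ℓ : ℤ) : ZMod N) := hσ
  have h1 := congrArg (Int.cast : ℤ → ZMod N) hdet
  push_cast at h1
  rw [hc, mul_zero, sub_zero, hd] at h1
  refine ⟨(((σ : Gamma0 N) : SL(2, ℤ)) : Matrix (Fin 2) (Fin 2) ℤ) * !![(ℓ : ℤ), 0; 0, (1 : ℤ)],
    (isZ_embR _).mul (Fermat.Agent.S16.LB.SH.coe_heckeDiagMatrix hℓ), ?_, ?_⟩
  · rw [Matrix.mul_apply, Fin.sum_univ_two]
    simp only [Matrix.of_apply, Matrix.cons_val', Matrix.cons_val_zero, Matrix.cons_val_one,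
      Matrix.cons_val_fin_one]
    push_cast
    rw [mul_zero, add_zero]
    push_cast at h1
    exact h1
  · rw [Matrix.mul_apply, Fin.sum_univ_two]
    simp only [Matrix.of_apply, Matrix.cons_val', Matrix.cons_val_zero, Matrix.cons_val_one,
      Matrix.cons_val_fin_one]
    push_cast
    rw [hc, zero_mul, mul_zero, add_zero]

/-- the representatives of the `σ_ℓ`-twisted Hecke system are `≡ (1, *; 0, *) mod N` -/
theorem isA1_heckeSysD {ℓ : ℕ} [Fact ℓ.Prime] (hℓN : ¬ ℓ ∣ N) (x : OnePoint (ZMod ℓ)) :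
    IsA1 N ((GamH.heckeSysD hℓN).a x) := by
  have hℓ : ℓ ≠ 0 := (Fact.out : ℓ.Prime).ne_zero
  rw [GamH.heckeSysD_a, one_mul]
  induction x using OnePoint.rec with
  | infty => exact isA1_embR_mul_diag hℓ (GamH.sigmaL hℓN) (GamH.dN_sigmaL hℓN)
  | coe j =>
    show IsA1 N (embR ((1 : Gamma0 N) : SL(2, ℤ)) * ModularForm.heckeMatrix ℓ j.val)
    rw [Subgroup.coe_one, map_one, one_mul]
    exact isA1_heckeMatrix hℓ j.val

/-- the representatives of `U_r` are `≡ (1, *; 0, *) mod N` -/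
theorem isA1_uSys {r : ℕ} [NeZero r] (hrN : r ∣ N) (x : ZMod r) : IsA1 N ((uSys hrN).a x) :=
  isA1_heckeMatrix (NeZero.ne r) x.val

/-! ### the character `χ_θ` kills `Γ₁(N)` -/

theorem chi_eq_one_of_mem_Gamma1 {Δ : Type} [CommGroup Δ] (θ : (ZMod N)ˣ →* Δ) (γ : Gamma0 N)
    (h : ((γ : Gamma0 N) : SL(2, ℤ)) ∈ Gamma1 N) : chi θ γ = 1 := by
  rw [chi_apply]
  have h1 : dUnits N γ = 1 := by
    apply Units.ext
    rw [coe_dUnits, Units.val_one]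
    exact ((Gamma1_mem N _).mp h).2.1
  rw [h1, map_one]

/-! ### commutation of the restricted systems -/

section Main

variable {Δ : Type} [CommGroup Δ] (θ : (ZMod N)ˣ →* Δ)

/-- **the general statement**: `St`, `S't` twists of `S`, `S'` with representatives
`≡ (1, *; 0, *) mod N`, compatible with `χ_θ`; if the product systems of `S`, `S'` have distinct
cosets and the cosets of `S' S` are matched with those of `S S'`, the restrictions of `St`, `S't` to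
`Γ_H` commute. -/
theorem kerSys_op_comm_of_isA1 (S S' St S't : CosetSys embR (Gamma0 N) (Gamma0 N))
    (e : St.ι ≃ S.ι) (g : St.ι → Gamma0 N)
    (ha : ∀ k, St.a k = embR ((g k : Gamma0 N) : SL(2, ℤ)) * S.a (e k))
    (e' : S't.ι ≃ S'.ι) (g' : S't.ι → Gamma0 N)
    (ha' : ∀ l, S't.a l = embR ((g' l : Gamma0 N) : SL(2, ℤ)) * S'.a (e' l))
    (hA : ∀ k, IsA1 N (St.a k)) (hA' : ∀ l, IsA1 N (S't.a l))
    (hc : Compat St (chi θ)) (hc' : Compat S't (chi θ))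
    (hd1 : (S'.comp S).Distinct) (hd2 : (S.comp S').Distinct)
    (hrep : ∀ (j : S'.ι) (i : S.ι), ∃ (i' : S.ι) (j' : S'.ι) (γ : Gamma0 N),
      S.a i' * S'.a j' = embR ((γ : Gamma0 N) : SL(2, ℤ)) * (S'.a j * S.a i))
    {A : Type*} [AddCommGroup A] (ψ : Additive (kerSub (chi θ)) →+ A) :
    (kerSys S't (chi θ) hc').op A ((kerSys St (chi θ) hc).op A ψ)
      = (kerSys St (chi θ) hc).op A ((kerSys S't (chi θ) hc').op A ψ) := by
  refine CommAbs.op_comm_of_exists (kerSys St (chi θ) hc) (kerSys S't (chi θ) hc') embR_injective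
    (kerSys_comp_distinct (chi θ) S't St hc' hc
      (CommTwist.comp_distinct_of_twist S' S S't St e' g' ha' e g ha hd1))
    (kerSys_comp_distinct (chi θ) St S't hc hc'
      (CommTwist.comp_distinct_of_twist S S' St S't e g ha e' g' ha' hd2)) ?_ ψ
  intro l k
  obtain ⟨k', l', γ, h⟩ := CommTwist.exists_match_of_twist S S' St S't e g ha e' g' ha' hrep l k
  have hγ : ((γ : Gamma0 N) : SL(2, ℤ)) ∈ Gamma1 N :=
    mem_Gamma1_of_isA1 ((hA' l).mul (hA k)) ((hA k').mul (hA' l')) _ h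
  exact ⟨k', l', kerMk (chi θ) γ (chi_eq_one_of_mem_Gamma1 θ γ hγ), h⟩

/-- the twisted Hecke system is a twist of the Hecke system -/
theorem heckeSysD_twist {ℓ : ℕ} [Fact ℓ.Prime] (hℓN : ¬ ℓ ∣ N) (x : OnePoint (ZMod ℓ)) :
    (GamH.heckeSysD hℓN).a x
      = embR ((GamH.twG hℓN x : Gamma0 N) : SL(2, ℤ)) * (heckeSys hℓN).a (Equiv.refl _ x) := by
  rw [GamH.heckeSysD_a, one_mul]
  rfl

theorem uSys_twist {r : ℕ} [NeZero r] (hrN : r ∣ N) (x : ZMod r) :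
    (uSys hrN).a x
      = embR (((fun _ : ZMod r => (1 : Gamma0 N)) x : Gamma0 N) : SL(2, ℤ))
        * (uSys hrN).a (Equiv.refl _ x) := by
  rw [Subgroup.coe_one, map_one, one_mul]
  rfl

variable (A : Type*) [AddCommGroup A]

/-- **`T_ℓ' T_ℓ = T_ℓ T_ℓ'` on `Hom(Γ_H, A)`** -/
theorem TH_comm {ℓ ℓ' : ℕ} [Fact ℓ.Prime] [Fact ℓ'.Prime] (hℓN : ¬ ℓ ∣ N) (hℓ'N : ¬ ℓ' ∣ N)
    (ψ : Additive (GamH.GammaH θ) →+ A) :
    GamH.TH θ A hℓ'N (GamH.TH θ A hℓN ψ) = GamH.TH θ A hℓN (GamH.TH θ A hℓ'N ψ) := by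
  by_cases hne : ℓ = ℓ'
  · subst hne
    rfl
  exact kerSys_op_comm_of_isA1 θ (heckeSys hℓN) (heckeSys hℓ'N) (GamH.heckeSysD hℓN)
    (GamH.heckeSysD hℓ'N) (Equiv.refl _) (GamH.twG hℓN) (heckeSysD_twist hℓN)
    (Equiv.refl _) (GamH.twG hℓ'N) (heckeSysD_twist hℓ'N)
    (isA1_heckeSysD hℓN) (isA1_heckeSysD hℓ'N)
    (GamH.compat_heckeSysD θ hℓN) (GamH.compat_heckeSysD θ hℓ'N)
    (heckeSys_comp_distinctMod hℓ'N hℓN (Ne.symm hne) _).distinct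
    (heckeSys_comp_distinctMod hℓN hℓ'N hne _).distinct
    (fun j i => by
      obtain ⟨i', j', γ, -, h⟩ := heckeSys_match hℓN hℓ'N hne j i
      exact ⟨i', j', γ, h⟩) ψ

/-- **`U_r T_ℓ = T_ℓ U_r` on `Hom(Γ_H, A)`** (`ℓ ∤ N`, `r ∣ N`, `r > 1`) -/
theorem UH_TH_comm {ℓ r : ℕ} [Fact ℓ.Prime] [NeZero r] (hℓN : ¬ ℓ ∣ N) (hrN : r ∣ N)
    (hr : 1 < r) (ψ : Additive (GamH.GammaH θ) →+ A) :
    GamH.UH θ A hrN (GamH.TH θ A hℓN ψ) = GamH.TH θ A hℓN (GamH.UH θ A hrN ψ) :=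
  kerSys_op_comm_of_isA1 θ (heckeSys hℓN) (uSys hrN) (GamH.heckeSysD hℓN) (uSys hrN)
    (Equiv.refl _) (GamH.twG hℓN) (heckeSysD_twist hℓN)
    (Equiv.refl _) (fun _ => 1) (uSys_twist hrN)
    (isA1_heckeSysD hℓN) (isA1_uSys hrN)
    (GamH.compat_heckeSysD θ hℓN) (GamH.compat_uSys θ hrN)
    (uSys_comp_heckeSys_distinctMod hℓN hrN hr _).distinct
    (heckeSys_comp_uSys_distinctMod hℓN hrN hr _).distinct
    (fun x i => by
      obtain ⟨i', x', γ, -, h⟩ := heckeSys_uSys_match hℓN hrN hr x i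
      exact ⟨i', x', γ, h⟩) ψ

/-- **`U_r' U_r = U_r U_r'` on `Hom(Γ_H, A)`** (`r, r' > 1` coprime divisors of `N`) -/
theorem UH_comm {r r' : ℕ} [NeZero r] [NeZero r'] (hrN : r ∣ N) (hr'N : r' ∣ N)
    (hr : 1 < r) (hr' : 1 < r') (hcop : Nat.Coprime r r') (ψ : Additive (GamH.GammaH θ) →+ A) :
    GamH.UH θ A hr'N (GamH.UH θ A hrN ψ) = GamH.UH θ A hrN (GamH.UH θ A hr'N ψ) :=
  kerSys_op_comm_of_isA1 θ (uSys hrN) (uSys hr'N) (uSys hrN) (uSys hr'N)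
    (Equiv.refl _) (fun _ => 1) (uSys_twist hrN)
    (Equiv.refl _) (fun _ => 1) (uSys_twist hr'N)
    (isA1_uSys hrN) (isA1_uSys hr'N)
    (GamH.compat_uSys θ hrN) (GamH.compat_uSys θ hr'N)
    (uSys_comp_distinctMod hr'N hrN hr' hr hcop.symm _).distinct
    (uSys_comp_distinctMod hrN hr'N hr hr' hcop _).distinct
    (fun y x => by
      obtain ⟨x', y', γ, -, h⟩ := uSys_match hrN hr'N hr hr' hcop y x
      exact ⟨x', y', γ, h⟩) ψ

end Main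

end Fermat.Agent.GB.B3.CommGammaH
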