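/-
GATE-B node B3-HECKE, the tower step (helper2): restriction and transfer BETWEEN two levels
`Γ_H = GammaH θ ≤ Γ_{H''} = GammaH (π ∘ θ) ≤ Γ₀(N)` (`θ : (ZMod N)ˣ →* Δ`, `π : Δ →* Δ''`), with
their equivariance for `T_ℓ`, `U_r` and the diamond operators of `Γ₀(N)` acting on BOTH levels.
Instance of `GB/B3/KerSys2` for `χ_θ`; all levels of the Taylor–Wiles tower have the uniform shape
`GammaH _` (take `π` = the projection forgetting one Taylor–Wiles prime).
-/
import Mathlib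
import Fermat.Agent.GB.B3.KerSys2
import Fermat.Agent.GB.B3.GammaH

set_option autoImplicit false

open scoped MatrixGroups
open CongruenceSubgroup Matrix Matrix.SpecialLinearGroup
open Fermat.Agent.S16_helper49 Fermat.Agent.GM.B Fermat.Agent.GM.B5
open Fermat.Agent.GB.B3.EisGamma0

namespace Fermat.Agent.GB.B3.GamH

variable {N : ℕ} {Δ Δ'' : Type} [CommGroup Δ] [CommGroup Δ''] (θ : (ZMod N)ˣ →* Δ) (π : Δ →* Δ'')

theorem chi_comp : chi (π.comp θ) = π.comp (chi θ) := rfl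

theorem GammaH_le_comp : GammaH θ ≤ GammaH (π.comp θ) := kerSub_le_comp (chi θ) π

variable (A : Type*) [AddCommGroup A]

/-- restriction `Hom(Γ_{H''}, A) → Hom(Γ_H, A)` -/
noncomputable def resHH : (Additive (GammaH (π.comp θ)) →+ A) →+ (Additive (GammaH θ) →+ A) :=
  (resKK (chi θ) π embR).op A

variable {A}

/-- restriction is transitive -/
theorem resHH_resH (φ : Additive (Gamma0 N) →+ A) :
    resHH θ π A (resH (π.comp θ) A φ) = resH θ A φ :=
  resKK_resK (chi θ) π φ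

/-- **`T_ℓ ∘ res = res ∘ T_ℓ`** between two levels -/
theorem TH_resHH {ℓ : ℕ} [Fact ℓ.Prime] (hℓN : ¬ ℓ ∣ N)
    (φ : Additive (GammaH (π.comp θ)) →+ A) :
    TH θ A hℓN (resHH θ π A φ) = resHH θ π A (TH (π.comp θ) A hℓN φ) :=
  kerSys_op_resKK (chi θ) π (heckeSysD hℓN) (compat_heckeSysD θ hℓN) φ

/-- **`U_r ∘ res = res ∘ U_r`** between two levels -/
theorem UH_resHH {r : ℕ} [NeZero r] (hrN : r ∣ N) (φ : Additive (GammaH (π.comp θ)) →+ A) :
    UH θ A hrN (resHH θ π A φ) = resHH θ π A (UH (π.comp θ) A hrN φ) :=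
  kerSys_op_resKK (chi θ) π (uSys hrN) (compat_uSys θ hrN) φ

/-- **`⟨d⟩ ∘ res = res ∘ ⟨d⟩`** between two levels -/
theorem diaH_resHH (d : Gamma0 N) (φ : Additive (GammaH (π.comp θ)) →+ A) :
    diaH θ A d (resHH θ π A φ) = resHH θ π A (diaH (π.comp θ) A d φ) :=
  dia_resKK (chi θ) π d φ

section Cores

variable [Fintype π.ker] (rep : π.ker → Gamma0 N) (hrep : ∀ δ : π.ker, chi θ (rep δ) = (δ : Δ))

/-- the transfer `Hom(Γ_H, A) → Hom(Γ_{H''}, A)` of a section `rep` of `χ_θ` over `ker π` -/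
noncomputable def coresHH (A : Type*) [AddCommGroup A] :
    (Additive (GammaH θ) →+ A) →+ (Additive (GammaH (π.comp θ)) →+ A) :=
  (coresKK (chi θ) π rep hrep embR).op A

/-- **`cores ∘ T_ℓ = T_ℓ ∘ cores`** between two levels -/
theorem coresHH_TH {ℓ : ℕ} [Fact ℓ.Prime] (hℓN : ¬ ℓ ∣ N) (ψ : Additive (GammaH θ) →+ A) :
    coresHH θ π rep hrep A (TH θ A hℓN ψ) = TH (π.comp θ) A hℓN (coresHH θ π rep hrep A ψ) :=
  coresKK_kerSys_op (chi θ) π rep hrep embR_injective (heckeSysD hℓN) (compat_heckeSysD θ hℓN) ψ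

/-- **`cores ∘ U_r = U_r ∘ cores`** between two levels -/
theorem coresHH_UH {r : ℕ} [NeZero r] (hrN : r ∣ N) (ψ : Additive (GammaH θ) →+ A) :
    coresHH θ π rep hrep A (UH θ A hrN ψ) = UH (π.comp θ) A hrN (coresHH θ π rep hrep A ψ) :=
  coresKK_kerSys_op (chi θ) π rep hrep embR_injective (uSys hrN) (compat_uSys θ hrN) ψ

/-- **`cores ∘ ⟨d⟩ = ⟨d⟩ ∘ cores`** between two levels -/
theorem coresHH_diaH (d : Gamma0 N) (ψ : Additive (GammaH θ) →+ A) :
    coresHH θ π rep hrep A (diaH θ A d ψ) = diaH (π.comp θ) A d (coresHH θ π rep hrep A ψ) :=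
  coresKK_dia (chi θ) π rep hrep embR_injective d ψ

/-- **`res ∘ cores = ∑ δ ∈ ker π, ⟨δ⟩`** -/
theorem resHH_coresHH (ψ : Additive (GammaH θ) →+ A) :
    resHH θ π A (coresHH θ π rep hrep A ψ) = ∑ δ : π.ker, diaH θ A (rep δ) ψ :=
  resKK_coresKK (chi θ) π rep hrep ψ

/-- **`cores ∘ res = |ker π|`** -/
theorem coresHH_resHH (φ : Additive (GammaH (π.comp θ)) →+ A) :
    coresHH θ π rep hrep A (resHH θ π A φ) = Fintype.card π.ker • φ :=
  coresKK_resKK (chi θ) π rep hrep φ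

end Cores

/-- a section of `χ_θ` over `ker π` -/
theorem exists_repK [NeZero N] (hθ : Function.Surjective θ) :
    ∃ rep : π.ker → Gamma0 N, ∀ δ : π.ker, chi θ (rep δ) = (δ : Δ) := by
  obtain ⟨rep, hrep⟩ := exists_rep θ hθ
  exact ⟨fun δ => rep δ, fun δ => hrep δ⟩

section Natural

variable {B : Type*} [AddCommGroup B] (f : A →+ B)

theorem resHH_comp_hom (φ : Additive (GammaH (π.comp θ)) →+ A) :
    resHH θ π B (f.comp φ) = f.comp (resHH θ π A φ) :=
  CosetSys.op_comp_hom _ f φ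

theorem coresHH_comp_hom [Fintype π.ker] (rep : π.ker → Gamma0 N)
    (hrep : ∀ δ : π.ker, chi θ (rep δ) = (δ : Δ)) (ψ : Additive (GammaH θ) →+ A) :
    coresHH θ π rep hrep B (f.comp ψ) = f.comp (coresHH θ π rep hrep A ψ) :=
  CosetSys.op_comp_hom _ f ψ

end Natural

end Fermat.Agent.GB.B3.GamH
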