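/-
GATE-B / B3 (helper80): the action of a polynomial algebra of symbols through a commuting family
of operators — abstract part ((T5) of helper95's integration plan).

* `polyAct f hf : MvPolynomial σ O →ₐ[O] Module.End O M` for a pairwise commuting family
  `f : σ → Module.End O M` (`X i ↦ f i`), through the commutative subalgebra generated by the `f i`;
* `polyAct_intertwine` : an `O`-linear map `g : M → M'` with `g ∘ f i = f' i ∘ g` for all `i`
  intertwines the two actions of every polynomial (so restriction, transfer, the diamond operators,
  degeneracy maps are `MvPolynomial σ O`-linear as soon as they commute with the generators);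
* `sysAct O S hS : MvPolynomial σ O →ₐ[O] Module.End O (Additive K →+ O)` for a family
  `S : σ → CosetSys emb K K` of coset systems whose operators commute pairwise (any stage `K`);
  `sysAct_intertwine` for a coset system `T : CosetSys emb K K'` between two stages.
-/
import Mathlib
import Fermat.Agent.GB.B3.CycInst

set_option autoImplicit false
set_option linter.style.haveILetI false

namespace Fermat.Agent.GB.B3.HeckeAct

open Fermat.Agent.GM.B Fermat.Agent.GB.B3 Fermat.Agent.GB.B3.CycInst
open scoped IsMulCommutative

section Poly

variable {O : Type*} [CommRing O] {M : Type*} [AddCommGroup M] [Module O M] {σ : Type*}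

theorem range_comm (f : σ → Module.End O M) (hf : ∀ i j, f i * f j = f j * f i) :
    ∀ a ∈ Set.range f, ∀ b ∈ Set.range f, a * b = b * a := by
  rintro _ ⟨i, rfl⟩ _ ⟨j, rfl⟩
  exact hf i j

/-- the commutative ring structure on the subalgebra generated by a commuting family -/
noncomputable abbrev adjoinCommRing (f : σ → Module.End O M) (hf : ∀ i j, f i * f j = f j * f i) :
    CommRing (Algebra.adjoin O (Set.range f)) := by
  have := Algebra.isMulCommutative_adjoin O (range_comm f hf)
  infer_instance

/-- **the action of the polynomial algebra through a commuting family of endomorphisms** -/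
noncomputable def polyAct (f : σ → Module.End O M) (hf : ∀ i j, f i * f j = f j * f i) :
    MvPolynomial σ O →ₐ[O] Module.End O M :=
  letI : CommRing (Algebra.adjoin O (Set.range f)) := adjoinCommRing f hf
  (Algebra.adjoin O (Set.range f)).val.comp
    (MvPolynomial.aeval fun i =>
      (⟨f i, Algebra.subset_adjoin ⟨i, rfl⟩⟩ : Algebra.adjoin O (Set.range f)))

variable (f : σ → Module.End O M) (hf : ∀ i j, f i * f j = f j * f i)

@[simp] theorem polyAct_X (i : σ) : polyAct f hf (MvPolynomial.X i) = f i := by
  letI : CommRing (Algebra.adjoin O (Set.range f)) := adjoinCommRing f hf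
  show (Algebra.adjoin O (Set.range f)).val
    (MvPolynomial.aeval (fun i =>
      (⟨f i, Algebra.subset_adjoin ⟨i, rfl⟩⟩ : Algebra.adjoin O (Set.range f)))
      (MvPolynomial.X i)) = f i
  rw [MvPolynomial.aeval_X]
  rfl

@[simp] theorem polyAct_C (a : O) : polyAct f hf (MvPolynomial.C a) = algebraMap O _ a := by
  rw [← MvPolynomial.algebraMap_eq, AlgHom.commutes]

theorem polyAct_C_apply (a : O) (x : M) : polyAct f hf (MvPolynomial.C a) x = a • x := by
  rw [polyAct_C, Module.algebraMap_end_apply]

/-- the image of the action is commutative -/
theorem polyAct_comm (p q : MvPolynomial σ O) :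
    polyAct f hf p * polyAct f hf q = polyAct f hf q * polyAct f hf p := by
  rw [← map_mul, ← map_mul, mul_comm]

/-- **intertwining**: a linear map commuting with the generators commutes with the action -/
theorem polyAct_intertwine {M' : Type*} [AddCommGroup M'] [Module O M']
    (f' : σ → Module.End O M') (hf' : ∀ i j, f' i * f' j = f' j * f' i)
    (g : M →ₗ[O] M') (h : ∀ i x, g (f i x) = f' i (g x)) (p : MvPolynomial σ O) (x : M) :
    g (polyAct f hf p x) = polyAct f' hf' p (g x) := by
  induction p using MvPolynomial.induction_on generalizing x with
  | C a => rw [polyAct_C_apply, polyAct_C_apply, map_smul]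
  | add p q hp hq =>
    rw [map_add, map_add, LinearMap.add_apply, LinearMap.add_apply, map_add, hp, hq]
  | mul_X p i hp =>
    rw [map_mul, map_mul, polyAct_X, polyAct_X, Module.End.mul_apply, Module.End.mul_apply, hp, h]

/-- an endomorphism commuting with the generators commutes with the action -/
theorem polyAct_commute_of (D : Module.End O M) (h : ∀ i, D * f i = f i * D)
    (p : MvPolynomial σ O) : D * polyAct f hf p = polyAct f hf p * D := by
  refine LinearMap.ext fun x => ?_
  rw [Module.End.mul_apply, Module.End.mul_apply]
  exact polyAct_intertwine f hf f hf D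
    (fun i y => by
      have := congrArg (fun e : Module.End O M => e y) (h i)
      simpa [Module.End.mul_apply] using this) p x

end Poly

section Sys

variable {H G : Type*} [Group H] [Group G] {emb : H →* G} (O : Type*) [CommRing O]
  {K K' : Subgroup H} {σ : Type*}

/-- the operators of a family of coset systems commute pairwise -/
def OpsCommute (S : σ → CosetSys emb K K) : Prop :=
  ∀ (i j : σ) (φ : Additive K →+ O), (S i).op O ((S j).op O φ) = (S j).op O ((S i).op O φ)

variable {O}

theorem opLin_comm {S : σ → CosetSys emb K K} (hS : OpsCommute O S) (i j : σ) :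
    opLin O (S i) * opLin O (S j) = opLin O (S j) * opLin O (S i) :=
  LinearMap.ext fun φ => hS i j φ

variable (O)

/-- **the action of the polynomial algebra of symbols on `Hom(K, O)`** through a family of coset
systems with pairwise commuting operators -/
noncomputable def sysAct (S : σ → CosetSys emb K K) (hS : OpsCommute O S) :
    MvPolynomial σ O →ₐ[O] Module.End O (Additive K →+ O) :=
  polyAct (fun i => opLin O (S i)) (opLin_comm hS)

variable {O}

theorem sysAct_X (S : σ → CosetSys emb K K) (hS : OpsCommute O S) (i : σ) :
    sysAct O S hS (MvPolynomial.X i) = opLin O (S i) :=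
  polyAct_X _ _ i

theorem sysAct_X_apply (S : σ → CosetSys emb K K) (hS : OpsCommute O S) (i : σ)
    (φ : Additive K →+ O) : sysAct O S hS (MvPolynomial.X i) φ = (S i).op O φ := by
  rw [sysAct_X]
  rfl

theorem sysAct_C_apply (S : σ → CosetSys emb K K) (hS : OpsCommute O S) (a : O)
    (φ : Additive K →+ O) : sysAct O S hS (MvPolynomial.C a) φ = a • φ :=
  polyAct_C_apply _ _ a φ

/-- **a coset system between two stages commuting with the generators is linear over the algebra of
symbols** -/
theorem sysAct_intertwine (S : σ → CosetSys emb K K) (hS : OpsCommute O S)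
    (S' : σ → CosetSys emb K' K') (hS' : OpsCommute O S') (T : CosetSys emb K K')
    (h : ∀ (i : σ) (φ : Additive K →+ O), T.op O ((S i).op O φ) = (S' i).op O (T.op O φ))
    (p : MvPolynomial σ O) (φ : Additive K →+ O) :
    T.op O (sysAct O S hS p φ) = sysAct O S' hS' p (T.op O φ) :=
  polyAct_intertwine _ _ _ _ (opLin O T) (fun i x => h i x) p φ

/-- an operator on one stage commuting with the generators commutes with the action -/
theorem sysAct_commute (S : σ → CosetSys emb K K) (hS : OpsCommute O S) (T : CosetSys emb K K)
    (h : ∀ (i : σ) (φ : Additive K →+ O), T.op O ((S i).op O φ) = (S i).op O (T.op O φ))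
    (p : MvPolynomial σ O) (φ : Additive K →+ O) :
    T.op O (sysAct O S hS p φ) = sysAct O S hS p (T.op O φ) :=
  sysAct_intertwine S hS S hS T h p φ

end Sys

end Fermat.Agent.GB.B3.HeckeAct
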