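/-
GATE-B / B3 (helper80): the algebra of Hecke symbols `𝕋 = O[X_ℓ (ℓ ∤ N), X_r (r ∣ N)]` acting on
`Hom(Γ₀(N), O)` and on `Hom(Γ_H, O)` for EVERY quotient `θ` of `(ℤ/N)ˣ` — concrete part of (T5) of
helper95's integration plan (board 5415).

* `Symbols N` : a family of primes `ℓ i ∤ N` (`i : ι₁`) and of primes `r j ∣ N` (`j : ι₂`)
  (for (C2): `ι₁ = GoodPrime N p`, `ι₂ = Fin k`); `Sy.𝕋 O := MvPolynomial (ι₁ ⊕ ι₂) O`;
* `act0 Sy O : Sy.𝕋 O →ₐ[O] End_O Hom(Γ₀(N), O)` (`X_ℓ ↦ cohT`, `X_r ↦ cohU`),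
  `actH Sy O θ : Sy.𝕋 O →ₐ[O] End_O Hom(Γ_H, O)` (`X_ℓ ↦ GamH.TH`, `X_r ↦ GamH.UH`)
  (well defined by `CommGamma0` / `CommGammaH`);
* `resH_act`, `coresH_act`, `diaH_act`, `resHH_act`, `coresHH_act` : restriction, transfer (to
  `Γ₀(N)` and between two levels `Γ_H ≤ Γ_{H''}`) and the diamond operators are `𝕋`-linear.
-/
import Mathlib
import Fermat.Agent.GB.B3.HeckeAct
import Fermat.Agent.GB.B3.CommGammaH
import Fermat.Agent.GB.B3.GammaH2

set_option autoImplicit false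
set_option linter.unusedSectionVars false
set_option linter.style.haveILetI false

open scoped MatrixGroups
open CongruenceSubgroup Matrix Matrix.SpecialLinearGroup
open Fermat.Agent.S16_helper49 Fermat.Agent.GM.B Fermat.Agent.GM.B5
open Fermat.Agent.GB.B3.EisGamma0 Fermat.Agent.GB.B3.HeckeAct Fermat.Agent.GB.B3.CycInst

namespace Fermat.Agent.GB.B3.HeckeActH

/-- **Hecke symbols at level `N`**: primes `ℓ i ∤ N` and primes `r j ∣ N` -/
structure Symbols (N : ℕ) where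
  /-- the index type of the good primes -/
  ι₁ : Type
  /-- the index type of the primes dividing the level -/
  ι₂ : Type
  /-- the good primes -/
  ℓ : ι₁ → ℕ
  hℓ : ∀ i, (ℓ i).Prime
  hℓN : ∀ i, ¬ ℓ i ∣ N
  /-- the primes dividing the level -/
  r : ι₂ → ℕ
  hr : ∀ j, (r j).Prime
  hrN : ∀ j, r j ∣ N

namespace Symbols

variable {N : ℕ} (Sy : Symbols N)

/-- the polynomial algebra of the symbols -/
abbrev 𝕋 (O : Type*) [CommRing O] : Type _ := MvPolynomial (Sy.ι₁ ⊕ Sy.ι₂) O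

theorem factℓ (i : Sy.ι₁) : Fact (Sy.ℓ i).Prime := ⟨Sy.hℓ i⟩

theorem neZeroR (j : Sy.ι₂) : NeZero (Sy.r j) := ⟨(Sy.hr j).ne_zero⟩

end Symbols

variable {N : ℕ} (Sy : Symbols N)

/-! ### the coset systems of the symbols -/

/-- the systems on `Γ₀(N)` -/
noncomputable def sys0 : Sy.ι₁ ⊕ Sy.ι₂ → CosetSys embR (Gamma0 N) (Gamma0 N)
  | Sum.inl i => haveI := Sy.factℓ i; heckeSys (Sy.hℓN i)
  | Sum.inr j => haveI := Sy.neZeroR j; uSys (Sy.hrN j)

section Level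

variable {Δ : Type} [CommGroup Δ] (θ : (ZMod N)ˣ →* Δ)

/-- the systems on `Γ_H` -/
noncomputable def sysH : Sy.ι₁ ⊕ Sy.ι₂ → CosetSys embR (GamH.GammaH θ) (GamH.GammaH θ)
  | Sum.inl i => haveI := Sy.factℓ i; GamH.heckeSysH θ (Sy.hℓN i)
  | Sum.inr j => haveI := Sy.neZeroR j; GamH.uSysH θ (Sy.hrN j)

end Level

variable (O : Type*) [CommRing O]

theorem sys0_inl_op (i : Sy.ι₁) (φ : Additive (Gamma0 N) →+ O) :
    haveI := Sy.factℓ i
    (sys0 Sy (Sum.inl i)).op O φ = cohT (Sy.hℓN i) O φ := by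
  haveI := Sy.factℓ i
  show (heckeSys (Sy.hℓN i)).op O φ = _
  rw [heckeSys_op]

theorem sys0_inr_op (j : Sy.ι₂) (φ : Additive (Gamma0 N) →+ O) :
    haveI := Sy.neZeroR j
    (sys0 Sy (Sum.inr j)).op O φ = cohU (Sy.hrN j) O φ := by
  haveI := Sy.neZeroR j
  show (uSys (Sy.hrN j)).op O φ = _
  rw [uSys_op]

/-- two `U`-operators at the same prime coincide -/
theorem cohU_congr {r r' : ℕ} [NeZero r] [NeZero r'] (h : r = r') (hrN : r ∣ N) (hr'N : r' ∣ N)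
    (φ : Additive (Gamma0 N) →+ O) : cohU hrN O φ = cohU hr'N O φ := by
  subst h
  rfl

/-- the operators of the symbols on `Hom(Γ₀(N), O)` commute -/
theorem opsCommute_sys0 : OpsCommute O (sys0 Sy) := by
  intro x y φ
  rcases x with i | j <;> rcases y with i' | j'
  · haveI := Sy.factℓ i
    haveI := Sy.factℓ i'
    rw [sys0_inl_op, sys0_inl_op, sys0_inl_op, sys0_inl_op]
    exact CommGamma0.cohT_comm (Sy.hℓN i') (Sy.hℓN i) O φ
  · haveI := Sy.factℓ i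
    haveI := Sy.neZeroR j'
    rw [sys0_inr_op, sys0_inl_op, sys0_inl_op, sys0_inr_op]
    exact (CommGamma0.cohU_cohT_comm (Sy.hℓN i) (Sy.hrN j') O φ).symm
  · haveI := Sy.neZeroR j
    haveI := Sy.factℓ i'
    rw [sys0_inl_op, sys0_inr_op, sys0_inr_op, sys0_inl_op]
    exact CommGamma0.cohU_cohT_comm (Sy.hℓN i') (Sy.hrN j) O φ
  · haveI := Sy.neZeroR j
    haveI := Sy.neZeroR j'
    rw [sys0_inr_op, sys0_inr_op, sys0_inr_op, sys0_inr_op]
    by_cases h : Sy.r j = Sy.r j'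
    · rw [cohU_congr O h (Sy.hrN j) (Sy.hrN j'), cohU_congr O h (Sy.hrN j) (Sy.hrN j')]
    · exact CommGamma0.cohU_comm (Sy.hrN j') (Sy.hrN j) (Sy.hr j').one_lt (Sy.hr j).one_lt
        ((Nat.coprime_primes (Sy.hr j') (Sy.hr j)).mpr (Ne.symm h)) O φ

/-- **the action of the Hecke symbols on `Hom(Γ₀(N), O)`** -/
noncomputable def act0 : Sy.𝕋 O →ₐ[O] Module.End O (Additive (Gamma0 N) →+ O) :=
  sysAct O (sys0 Sy) (opsCommute_sys0 Sy O)

theorem act0_X_inl (i : Sy.ι₁) (φ : Additive (Gamma0 N) →+ O) :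
    haveI := Sy.factℓ i
    act0 Sy O (MvPolynomial.X (Sum.inl i)) φ = cohT (Sy.hℓN i) O φ := by
  haveI := Sy.factℓ i
  unfold act0
  rw [sysAct_X_apply, sys0_inl_op]

theorem act0_X_inr (j : Sy.ι₂) (φ : Additive (Gamma0 N) →+ O) :
    haveI := Sy.neZeroR j
    act0 Sy O (MvPolynomial.X (Sum.inr j)) φ = cohU (Sy.hrN j) O φ := by
  haveI := Sy.neZeroR j
  unfold act0
  rw [sysAct_X_apply, sys0_inr_op]

section Level

variable {Δ : Type} [CommGroup Δ] (θ : (ZMod N)ˣ →* Δ)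

theorem sysH_inl_op (i : Sy.ι₁) (ψ : Additive (GamH.GammaH θ) →+ O) :
    haveI := Sy.factℓ i
    (sysH Sy θ (Sum.inl i)).op O ψ = GamH.TH θ O (Sy.hℓN i) ψ := rfl

theorem sysH_inr_op (j : Sy.ι₂) (ψ : Additive (GamH.GammaH θ) →+ O) :
    haveI := Sy.neZeroR j
    (sysH Sy θ (Sum.inr j)).op O ψ = GamH.UH θ O (Sy.hrN j) ψ := rfl

/-- two `U`-operators at the same prime coincide -/
theorem UH_congr {r r' : ℕ} [NeZero r] [NeZero r'] (h : r = r') (hrN : r ∣ N) (hr'N : r' ∣ N)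
    (ψ : Additive (GamH.GammaH θ) →+ O) : GamH.UH θ O hrN ψ = GamH.UH θ O hr'N ψ := by
  subst h
  rfl

/-- the operators of the symbols on `Hom(Γ_H, O)` commute -/
theorem opsCommute_sysH : OpsCommute O (sysH Sy θ) := by
  intro x y ψ
  rcases x with i | j <;> rcases y with i' | j'
  · haveI := Sy.factℓ i
    haveI := Sy.factℓ i'
    rw [sysH_inl_op, sysH_inl_op, sysH_inl_op, sysH_inl_op]
    exact CommGammaH.TH_comm θ O (Sy.hℓN i') (Sy.hℓN i) ψ
  · haveI := Sy.factℓ i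
    haveI := Sy.neZeroR j'
    rw [sysH_inr_op, sysH_inl_op, sysH_inl_op, sysH_inr_op]
    exact (CommGammaH.UH_TH_comm θ O (Sy.hℓN i) (Sy.hrN j') (Sy.hr j').one_lt ψ).symm
  · haveI := Sy.neZeroR j
    haveI := Sy.factℓ i'
    rw [sysH_inl_op, sysH_inr_op, sysH_inr_op, sysH_inl_op]
    exact CommGammaH.UH_TH_comm θ O (Sy.hℓN i') (Sy.hrN j) (Sy.hr j).one_lt ψ
  · haveI := Sy.neZeroR j
    haveI := Sy.neZeroR j'
    rw [sysH_inr_op, sysH_inr_op, sysH_inr_op, sysH_inr_op]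
    by_cases h : Sy.r j = Sy.r j'
    · rw [UH_congr O θ h (Sy.hrN j) (Sy.hrN j'), UH_congr O θ h (Sy.hrN j) (Sy.hrN j')]
    · exact CommGammaH.UH_comm θ O (Sy.hrN j') (Sy.hrN j) (Sy.hr j').one_lt (Sy.hr j).one_lt
        ((Nat.coprime_primes (Sy.hr j') (Sy.hr j)).mpr (Ne.symm h)) ψ

/-- **the action of the Hecke symbols on `Hom(Γ_H, O)`** -/
noncomputable def actH : Sy.𝕋 O →ₐ[O] Module.End O (Additive (GamH.GammaH θ) →+ O) :=
  sysAct O (sysH Sy θ) (opsCommute_sysH Sy O θ)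

theorem actH_X_inl (i : Sy.ι₁) (ψ : Additive (GamH.GammaH θ) →+ O) :
    haveI := Sy.factℓ i
    actH Sy O θ (MvPolynomial.X (Sum.inl i)) ψ = GamH.TH θ O (Sy.hℓN i) ψ := by
  unfold actH
  rw [sysAct_X_apply]
  rfl

theorem actH_X_inr (j : Sy.ι₂) (ψ : Additive (GamH.GammaH θ) →+ O) :
    haveI := Sy.neZeroR j
    actH Sy O θ (MvPolynomial.X (Sum.inr j)) ψ = GamH.UH θ O (Sy.hrN j) ψ := by
  unfold actH
  rw [sysAct_X_apply]
  rfl

theorem actH_C (a : O) (ψ : Additive (GamH.GammaH θ) →+ O) :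
    actH Sy O θ (MvPolynomial.C a) ψ = a • ψ :=
  sysAct_C_apply _ _ a ψ

/-- the image of the action is commutative -/
theorem actH_comm (p q : Sy.𝕋 O) :
    actH Sy O θ p * actH Sy O θ q = actH Sy O θ q * actH Sy O θ p :=
  polyAct_comm _ _ p q

/-! ### linearity of restriction, transfer and diamonds -/

/-- **restriction `Hom(Γ₀(N), O) → Hom(Γ_H, O)` is `𝕋`-linear** -/
theorem resH_act (p : Sy.𝕋 O) (φ : Additive (Gamma0 N) →+ O) :
    GamH.resH θ O (act0 Sy O p φ) = actH Sy O θ p (GamH.resH θ O φ) := by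
  refine sysAct_intertwine (sys0 Sy) (opsCommute_sys0 Sy O) (sysH Sy θ) (opsCommute_sysH Sy O θ)
    (resK embR (chi θ)) ?_ p φ
  intro x φ
  rcases x with i | j
  · haveI := Sy.factℓ i
    rw [sys0_inl_op]
    exact (GamH.TH_resH θ (Sy.hℓN i) φ).symm
  · haveI := Sy.neZeroR j
    rw [sys0_inr_op]
    exact (GamH.UH_resH θ (Sy.hrN j) φ).symm

/-- **the diamond operators are `𝕋`-linear** -/
theorem diaH_act (d : Gamma0 N) (p : Sy.𝕋 O) (ψ : Additive (GamH.GammaH θ) →+ O) :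
    GamH.diaH θ O d (actH Sy O θ p ψ) = actH Sy O θ p (GamH.diaH θ O d ψ) := by
  refine sysAct_commute (sysH Sy θ) (opsCommute_sysH Sy O θ) (diaK embR (chi θ) d) ?_ p ψ
  intro x ψ
  rcases x with i | j
  · haveI := Sy.factℓ i
    exact GamH.diaH_TH θ (Sy.hℓN i) d ψ
  · haveI := Sy.neZeroR j
    exact GamH.diaH_UH θ (Sy.hrN j) d ψ

section Cores

variable [Fintype Δ] (rep : Δ → Gamma0 N) (hrep : ∀ δ, chi θ (rep δ) = δ)

/-- **the transfer `Hom(Γ_H, O) → Hom(Γ₀(N), O)` is `𝕋`-linear** -/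
theorem coresH_act (p : Sy.𝕋 O) (ψ : Additive (GamH.GammaH θ) →+ O) :
    GamH.coresH θ rep hrep O (actH Sy O θ p ψ) = act0 Sy O p (GamH.coresH θ rep hrep O ψ) := by
  refine sysAct_intertwine (sysH Sy θ) (opsCommute_sysH Sy O θ) (sys0 Sy) (opsCommute_sys0 Sy O)
    (coresK (chi θ) rep hrep embR) ?_ p ψ
  intro x ψ
  rcases x with i | j
  · haveI := Sy.factℓ i
    rw [sys0_inl_op]
    exact GamH.coresH_TH θ rep hrep (Sy.hℓN i) ψ
  · haveI := Sy.neZeroR j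
    rw [sys0_inr_op]
    exact GamH.coresH_UH θ rep hrep (Sy.hrN j) ψ

end Cores

section TwoLevels

variable {Δ'' : Type} [CommGroup Δ''] (π : Δ →* Δ'')

/-- **restriction between two levels `Hom(Γ_{H''}, O) → Hom(Γ_H, O)` is `𝕋`-linear** -/
theorem resHH_act (p : Sy.𝕋 O) (φ : Additive (GamH.GammaH (π.comp θ)) →+ O) :
    GamH.resHH θ π O (actH Sy O (π.comp θ) p φ) = actH Sy O θ p (GamH.resHH θ π O φ) := by
  refine sysAct_intertwine (sysH Sy (π.comp θ)) (opsCommute_sysH Sy O (π.comp θ)) (sysH Sy θ)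
    (opsCommute_sysH Sy O θ) (resKK (chi θ) π embR) ?_ p φ
  intro x φ
  rcases x with i | j
  · haveI := Sy.factℓ i
    exact (GamH.TH_resHH θ π (Sy.hℓN i) φ).symm
  · haveI := Sy.neZeroR j
    exact (GamH.UH_resHH θ π (Sy.hrN j) φ).symm

variable [Fintype π.ker] (rep : π.ker → Gamma0 N)
  (hrep : ∀ δ : π.ker, chi θ (rep δ) = (δ : Δ))

/-- **the transfer between two levels `Hom(Γ_H, O) → Hom(Γ_{H''}, O)` is `𝕋`-linear** -/
theorem coresHH_act (p : Sy.𝕋 O) (ψ : Additive (GamH.GammaH θ) →+ O) :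
    GamH.coresHH θ π rep hrep O (actH Sy O θ p ψ)
      = actH Sy O (π.comp θ) p (GamH.coresHH θ π rep hrep O ψ) := by
  refine sysAct_intertwine (sysH Sy θ) (opsCommute_sysH Sy O θ) (sysH Sy (π.comp θ))
    (opsCommute_sysH Sy O (π.comp θ)) (coresKK (chi θ) π rep hrep embR) ?_ p ψ
  intro x ψ
  rcases x with i | j
  · haveI := Sy.factℓ i
    exact GamH.coresHH_TH θ π rep hrep (Sy.hℓN i) ψ
  · haveI := Sy.neZeroR j
    exact GamH.coresHH_UH θ π rep hrep (Sy.hrN j) ψ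

end TwoLevels

end Level

end Fermat.Agent.GB.B3.HeckeActH
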