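import Mathlib

/-!
# GATE-B / B3 (helper46): `Hom(Γ, O)` is a finite free `O`-module

For a finitely generated group `Γ` and a principal ideal domain `O`, the `O`-module
`Additive Γ →+ O` (`= Hom(Γ, O) = H¹(Γ, O)` with trivial action) is finitely generated and free:
evaluation on a finite generating set embeds it into `O^S`.

These are the `[Module.Finite O L] [Module.Free O L]` binders of `FreeCyclic`, `Loc`, `LocSummand`
for `L = Hom(K, O)`, `K` a stage of the Taylor–Wiles tower.

* `evalGen S` : evaluation on a finite set `S` of elements, `O`-linear; `evalGen_injective` for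
  generating sets;
* `homFinite`, `homTorsionFree`, `homFree`;
* `fg_of_finiteIndex` : finite-index subgroups of a finitely generated group are finitely generated
  (Mathlib's Schreier lemma, restated as an instance-free theorem), `fg_SL2Z`,
  `fg_of_finiteIndex_SL2Z`.
-/

set_option autoImplicit false

open scoped MatrixGroups

namespace Fermat.Agent.GB.B3.HomFree

open Module

section Eval

variable {Γ : Type*} [Group Γ] {O : Type*} [CommRing O]

/-- evaluation of homomorphisms on a finite set of elements -/
def evalGen (S : Finset Γ) : (Additive Γ →+ O) →ₗ[O] (S → O) where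
  toFun φ s := φ (Additive.ofMul (s : Γ))
  map_add' _ _ := rfl
  map_smul' _ _ := rfl

@[simp] theorem evalGen_apply (S : Finset Γ) (φ : Additive Γ →+ O) (s : S) :
    evalGen S φ s = φ (Additive.ofMul (s : Γ)) := rfl

/-- a homomorphism vanishing on a generating set vanishes -/
theorem eq_zero_of_closure {A : Type*} [AddCommGroup A] {S : Set Γ}
    (hS : Subgroup.closure S = ⊤) (φ : Additive Γ →+ A)
    (h : ∀ s ∈ S, φ (Additive.ofMul s) = 0) : φ = 0 := by
  refine AddMonoidHom.ext fun g => ?_
  obtain ⟨g, rfl⟩ : ∃ g' : Γ, Additive.ofMul g' = g := ⟨Additive.toMul g, rfl⟩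
  have hg : g ∈ Subgroup.closure S := by rw [hS]; exact Subgroup.mem_top g
  rw [AddMonoidHom.zero_apply]
  induction hg using Subgroup.closure_induction with
  | mem x hx => exact h x hx
  | one => rw [ofMul_one, map_zero]
  | mul x y _ _ hx hy => rw [ofMul_mul, map_add, hx, hy, add_zero]
  | inv x _ hx => rw [ofMul_inv, map_neg, hx, neg_zero]

theorem evalGen_injective (S : Finset Γ) (hS : Subgroup.closure (S : Set Γ) = ⊤) :
    Function.Injective (evalGen (O := O) S) := by
  rw [← LinearMap.ker_eq_bot, LinearMap.ker_eq_bot']
  intro φ hφ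
  refine eq_zero_of_closure hS φ fun s hs => ?_
  exact congrFun hφ ⟨s, hs⟩

end Eval

section Main

variable (Γ : Type*) [Group Γ] [Group.FG Γ] (O : Type*) [CommRing O]

/-- **`Hom(Γ, O)` is a finite `O`-module**, `Γ` finitely generated, `O` noetherian -/
theorem homFinite [IsNoetherianRing O] : Module.Finite O (Additive Γ →+ O) := by
  obtain ⟨S, hS⟩ := Group.fg_def.mp (inferInstance : Group.FG Γ)
  exact Module.Finite.of_injective (evalGen S) (evalGen_injective S hS)

/-- **`Hom(Γ, O)` is torsion free**, `O` a domain -/
theorem homTorsionFree [IsDomain O] : Module.IsTorsionFree O (Additive Γ →+ O) := by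
  obtain ⟨S, hS⟩ := Group.fg_def.mp (inferInstance : Group.FG Γ)
  exact Function.Injective.moduleIsTorsionFree (evalGen (O := O) S) (evalGen_injective S hS)
    (fun r m => map_smul (evalGen (O := O) S) r m)

/-- **`Hom(Γ, O)` is a free `O`-module**, `Γ` finitely generated, `O` a principal ideal domain -/
theorem homFree [IsDomain O] [IsPrincipalIdealRing O] : Module.Free O (Additive Γ →+ O) := by
  have := homFinite Γ O
  have := homTorsionFree Γ O
  exact Module.free_of_finite_type_torsion_free'

end Main

section Subgroups

/-- finite-index subgroups of finitely generated groups are finitely generated (Schreier) -/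
theorem fg_of_finiteIndex {G : Type*} [Group G] [Group.FG G] (K : Subgroup G) [K.FiniteIndex] :
    Group.FG K :=
  Subgroup.fg_of_index_ne_zero K

/-- `SL(2,ℤ)` is finitely generated -/
theorem fg_SL2Z : Group.FG SL(2,ℤ) :=
  Group.fg_iff.mpr ⟨{ModularGroup.S, ModularGroup.T}, SpecialLinearGroup.SL2Z_generators, by simp⟩

/-- finite-index subgroups of `SL(2,ℤ)` are finitely generated -/
theorem fg_of_finiteIndex_SL2Z (K : Subgroup SL(2,ℤ)) [K.FiniteIndex] : Group.FG K :=
  haveI := fg_SL2Z
  fg_of_finiteIndex K

/-- **`Hom(K, O)` is finite free** for every finite-index subgroup of `SL(2,ℤ)` -/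
theorem homFinite_SL2Z (K : Subgroup SL(2,ℤ)) [K.FiniteIndex] (O : Type*) [CommRing O]
    [IsNoetherianRing O] : Module.Finite O (Additive K →+ O) :=
  haveI := fg_of_finiteIndex_SL2Z K
  homFinite K O

theorem homFree_SL2Z (K : Subgroup SL(2,ℤ)) [K.FiniteIndex] (O : Type*) [CommRing O]
    [IsDomain O] [IsPrincipalIdealRing O] : Module.Free O (Additive K →+ O) :=
  haveI := fg_of_finiteIndex_SL2Z K
  homFree K O

end Subgroups

end Fermat.Agent.GB.B3.HomFree
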