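/-
GATE-B / S43, node GB-B3-LOC (helper74): **localisation at a maximal ideal of a Hecke-type algebra**
acting on finite modules over a complete noetherian local ring, in "idempotent summand" form with
INTRINSIC definitions (so functoriality is free).

`A` a commutative ring, `𝔪` a prime ideal of `A`, `L` an `A`-module:
* `locPart 𝔪 L  := ⨅ s ∉ 𝔪, range (s • ·)`  (the `𝔪`-primary part),
* `awayPart 𝔪 L := {x | ∃ s ∉ 𝔪, s • x = 0}` (the part away from `𝔪`);
* `map_locPart_le`, `map_awayPart_le` : every `A`-linear map respects both parts.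

MAIN THEOREM.  `𝒪` complete noetherian local, `A` a commutative `𝒪`-algebra, `𝔪` maximal, `L` finite
over `𝒪` (`IsScalarTower 𝒪 A L`):
* `isCompl_locPart_awayPart` : `IsCompl (locPart 𝔪 L) (awayPart 𝔪 L)`;
* `bijective_smul_locPart`   : every `s ∉ 𝔪` acts bijectively on `locPart 𝔪 L`;
* `free_locPart`             : `L` free over `𝒪` ⟹ `locPart 𝔪 L` free over `𝒪`.
Proof: `T := A ⧸ annihilator A L` is finite over `𝒪`, hence a finite product of local rings
(Prelude `Algebra.finite_maximalSpectrum_and_bijective_localization_of_module_finite`); `locPart` and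
`awayPart` are the images of the idempotent `e` of the factor at `𝔪` and of `1 - e`.
-/
import Mathlib
import Fermat.Prelude.Thm_Algebra_finite_maximalSpectrum_and_bijective_localization_of_module_finite

set_option autoImplicit false

namespace Fermat.Agent.GB.B3.Loc

/-! ### Definitions and functoriality -/

section Defs

variable {A : Type*} [CommRing A] (𝔪 : Ideal A) [𝔪.IsPrime]
variable (L : Type*) [AddCommGroup L] [Module A L]

/-- the `𝔪`-primary part of `L`: the elements divisible by every `s ∉ 𝔪` -/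
def locPart : Submodule A L :=
  ⨅ s : 𝔪.primeCompl, LinearMap.range (LinearMap.lsmul A L (s : A))

/-- the part of `L` away from `𝔪`: the elements killed by some `s ∉ 𝔪` -/
def awayPart : Submodule A L where
  carrier := {x | ∃ s : 𝔪.primeCompl, (s : A) • x = 0}
  zero_mem' := ⟨1, smul_zero _⟩
  add_mem' := by
    rintro x y ⟨s, hs⟩ ⟨t, ht⟩
    refine ⟨s * t, ?_⟩
    rw [Submonoid.coe_mul, smul_add, mul_smul, mul_smul, smul_comm (s : A) (t : A) x, hs, ht,
      smul_zero, smul_zero, add_zero]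
  smul_mem' := by
    rintro a x ⟨s, hs⟩
    exact ⟨s, by rw [smul_comm, hs, smul_zero]⟩

variable {𝔪 L}

theorem mem_locPart {x : L} : x ∈ locPart 𝔪 L ↔ ∀ s : A, s ∉ 𝔪 → ∃ y : L, s • y = x := by
  unfold locPart
  rw [Submodule.mem_iInf]
  constructor
  · intro h s hs
    obtain ⟨y, hy⟩ := h ⟨s, hs⟩
    exact ⟨y, hy⟩
  · intro h s
    obtain ⟨y, hy⟩ := h (s : A) s.2
    exact ⟨y, hy⟩

theorem mem_awayPart {x : L} : x ∈ awayPart 𝔪 L ↔ ∃ s : A, s ∉ 𝔪 ∧ s • x = 0 := by
  constructor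
  · rintro ⟨s, hs⟩
    exact ⟨s, s.2, hs⟩
  · rintro ⟨s, hs, h⟩
    exact ⟨⟨s, hs⟩, h⟩

variable {L' : Type*} [AddCommGroup L'] [Module A L']

/-- every `A`-linear map respects the `𝔪`-primary parts -/
theorem map_locPart_le (f : L →ₗ[A] L') : (locPart 𝔪 L).map f ≤ locPart 𝔪 L' := by
  rintro _ ⟨x, hx, rfl⟩
  rw [mem_locPart]
  intro s hs
  obtain ⟨y, hy⟩ := mem_locPart.1 hx s hs
  exact ⟨f y, by rw [← map_smul, hy]⟩

/-- every `A`-linear map respects the parts away from `𝔪` -/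
theorem map_awayPart_le (f : L →ₗ[A] L') : (awayPart 𝔪 L).map f ≤ awayPart 𝔪 L' := by
  rintro _ ⟨x, hx, rfl⟩
  obtain ⟨s, hs, h⟩ := mem_awayPart.1 hx
  exact mem_awayPart.2 ⟨s, hs, by rw [← map_smul, h, map_zero]⟩

theorem apply_mem_locPart (f : L →ₗ[A] L') {x : L} (hx : x ∈ locPart 𝔪 L) :
    f x ∈ locPart 𝔪 L' :=
  map_locPart_le f ⟨x, hx, rfl⟩

theorem apply_mem_awayPart (f : L →ₗ[A] L') {x : L} (hx : x ∈ awayPart 𝔪 L) :
    f x ∈ awayPart 𝔪 L' :=
  map_awayPart_le f ⟨x, hx, rfl⟩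

end Defs

/-! ### The idempotent criterion -/

section Idem

variable {A : Type*} [CommRing A] {𝔪 : Ideal A} [𝔪.IsPrime]
variable {L : Type*} [AddCommGroup L] [Module A L]

/-- **Idempotent criterion.**  Let `ε : L →ₗ[A] L` be an endomorphism such that
(1) some `s₀ ∉ 𝔪` acts as `ε`, and (2) every `s ∉ 𝔪` is invertible on the image of `ε`
(`u ∘ s ∘ ε = ε` for some `A`-linear `u` commuting with `ε`).  Then `locPart = range ε`,
`awayPart = ker ε`. -/
theorem locPart_eq_range_of_idem (ε : L →ₗ[A] L)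
    (s₀ : A) (hs₀ : s₀ ∉ 𝔪) (hs₀ε : ∀ x, s₀ • x = ε x)
    (hinv : ∀ s : A, s ∉ 𝔪 → ∃ u : L →ₗ[A] L, ∀ x, s • u (ε x) = ε x) :
    locPart 𝔪 L = LinearMap.range ε := by
  apply le_antisymm
  · intro x hx
    obtain ⟨y, hy⟩ := mem_locPart.1 hx s₀ hs₀
    exact ⟨y, by rw [← hs₀ε, hy]⟩
  · rintro _ ⟨y, rfl⟩
    rw [mem_locPart]
    intro s hs
    obtain ⟨u, hu⟩ := hinv s hs
    exact ⟨u (ε y), hu y⟩

theorem awayPart_eq_ker_of_idem (ε : L →ₗ[A] L)
    (s₀ : A) (hs₀ : s₀ ∉ 𝔪) (hs₀ε : ∀ x, s₀ • x = ε x)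
    (hinv : ∀ s : A, s ∉ 𝔪 → ∃ u : L →ₗ[A] L, ∀ x, u (s • ε x) = ε x) :
    awayPart 𝔪 L = LinearMap.ker ε := by
  apply le_antisymm
  · intro x hx
    obtain ⟨s, hs, h⟩ := mem_awayPart.1 hx
    obtain ⟨u, hu⟩ := hinv s hs
    rw [LinearMap.mem_ker, ← hu x, ← map_smul, h, map_zero, map_zero]
  · intro x hx
    rw [LinearMap.mem_ker] at hx
    exact mem_awayPart.2 ⟨s₀, hs₀, by rw [hs₀ε, hx]⟩

end Idem

/-! ### The main theorem -/

section Main

variable {𝒪 : Type} [CommRing 𝒪] [IsLocalRing 𝒪] [IsNoetherianRing 𝒪]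
  [IsAdicComplete (IsLocalRing.maximalIdeal 𝒪) 𝒪]
variable {A : Type} [CommRing A] [Algebra 𝒪 A]
variable {L : Type*} [AddCommGroup L] [Module 𝒪 L] [Module A L] [IsScalarTower 𝒪 A L]
  [Module.Finite 𝒪 L]

omit [IsLocalRing 𝒪] [IsAdicComplete (IsLocalRing.maximalIdeal 𝒪) 𝒪] in
/-- the image of `A` in `End L` is finite over `𝒪` -/
theorem finite_quotient_annihilator :
    Module.Finite 𝒪 (A ⧸ Module.annihilator A L) := by
  classical
  obtain ⟨n, s, hs⟩ := Module.Finite.exists_fin (R := 𝒪) (M := L)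
  -- `a ↦ (a • s i)_i`
  let g : A →ₗ[A] (Fin n → L) :=
    LinearMap.pi fun i => LinearMap.toSpanSingleton A L (s i)
  have hg : ∀ a i, g a i = a • s i := fun a i => rfl
  have hker : Module.annihilator A L = LinearMap.ker g := by
    ext a
    rw [Module.mem_annihilator, LinearMap.mem_ker]
    constructor
    · intro h
      funext i
      rw [hg, h, Pi.zero_apply]
    · intro h x
      have hx : x ∈ Submodule.span 𝒪 (Set.range s) := by rw [hs]; trivial
      induction hx using Submodule.span_induction with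
      | mem y hy =>
        obtain ⟨i, rfl⟩ := hy
        have := congrFun h i
        rwa [hg] at this
      | zero => exact smul_zero _
      | add y z _ _ hy hz => rw [smul_add, hy, hz, add_zero]
      | smul c y _ hy => rw [smul_comm, hy, smul_zero]
  let f : (A ⧸ Module.annihilator A L) →ₗ[A] (Fin n → L) :=
    Submodule.liftQ _ g hker.le
  have hf : Function.Injective f := by
    rw [← LinearMap.ker_eq_bot]
    exact Submodule.ker_liftQ_eq_bot _ _ _ hker.ge
  exact Module.Finite.of_injective (f.restrictScalars 𝒪) hf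

/-- two elements of `A` with the same image in `A ⧸ annihilator` act in the same way -/
theorem smul_eq_of_mk_eq {a b : A}
    (h : Ideal.Quotient.mk (Module.annihilator A L) a = Ideal.Quotient.mk _ b) (x : L) :
    a • x = b • x := by
  have h1 : a - b ∈ Module.annihilator A L := by
    rw [← Ideal.Quotient.eq]; exact h
  have h2 := Module.mem_annihilator.1 h1 x
  rwa [sub_smul, sub_eq_zero] at h2

variable (𝒪) (𝔪 : Ideal A) [h𝔪 : 𝔪.IsMaximal]

include 𝒪

/-- **Existence of the idempotent** (support case): if `annihilator A L ≤ 𝔪`, there are `s₀ ∉ 𝔪`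
acting as an idempotent, and for every `s ∉ 𝔪` some `u` with `u • s • s₀ • x = s₀ • x`. -/
theorem exists_idem (hI : Module.annihilator A L ≤ 𝔪) :
    ∃ s₀ : A, s₀ ∉ 𝔪 ∧ (∀ x : L, s₀ • s₀ • x = s₀ • x) ∧
      ∀ s : A, s ∉ 𝔪 → ∃ u : A, ∀ x : L, u • s • s₀ • x = s₀ • x := by
  classical
  set I := Module.annihilator A L with hIdef
  set T := A ⧸ I with hT
  have : Module.Finite 𝒪 T := finite_quotient_annihilator (𝒪 := 𝒪) (A := A) (L := L)
  obtain ⟨_, hbij, _, _⟩ :=
    Algebra.finite_maximalSpectrum_and_bijective_localization_of_module_finite (𝒪 := 𝒪) T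
  set ψ : T →+* ∀ J : MaximalSpectrum T, Localization.AtPrime J.asIdeal :=
    RingHom.pi fun J : MaximalSpectrum T => algebraMap T (Localization.AtPrime J.asIdeal) with hψ
  have hψapp : ∀ t J, ψ t J = algebraMap T (Localization.AtPrime J.asIdeal) t := fun t J => rfl
  -- the maximal ideal of `T` under `𝔪`
  have hmax : (𝔪.map (Ideal.Quotient.mk I)).IsMaximal :=
    Ideal.IsMaximal.map_of_surjective_of_ker_le Ideal.Quotient.mk_surjective
      (by rw [Ideal.mk_ker]; exact hI)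
  let J₀ : MaximalSpectrum T := ⟨𝔪.map (Ideal.Quotient.mk I), hmax⟩
  have hmem : ∀ a : A, Ideal.Quotient.mk I a ∈ J₀.asIdeal ↔ a ∈ 𝔪 := fun a =>
    Ideal.mem_quotient_iff_mem hI
  -- the idempotent
  obtain ⟨e, he⟩ := hbij.2 (Pi.single J₀ 1)
  have hsingle : ∀ v w : Localization.AtPrime J₀.asIdeal,
      (Pi.single J₀ v : ∀ J : MaximalSpectrum T, Localization.AtPrime J.asIdeal) *
        Pi.single J₀ w = Pi.single J₀ (v * w) := by
    intro v w
    funext J
    by_cases hJ : J = J₀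
    · subst hJ; simp
    · simp [Pi.single_eq_of_ne hJ]
  have hee : e * e = e := by
    apply hbij.1
    rw [map_mul, he, hsingle, mul_one]
  have he_not : e ∉ J₀.asIdeal := by
    intro hmemJ
    have h1 : ψ e J₀ = 1 := by rw [he]; simp
    rw [hψapp] at h1
    have hu : IsUnit (algebraMap T (Localization.AtPrime J₀.asIdeal) e) := by
      rw [h1]; exact isUnit_one
    rw [IsLocalization.AtPrime.isUnit_to_map_iff (Localization.AtPrime J₀.asIdeal) J₀.asIdeal] at hu
    exact hu hmemJ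
  have hinvT : ∀ t : T, t ∉ J₀.asIdeal → ∃ u : T, u * t * e = e := by
    intro t ht
    have hu : IsUnit (algebraMap T (Localization.AtPrime J₀.asIdeal) t) := by
      rw [IsLocalization.AtPrime.isUnit_to_map_iff (Localization.AtPrime J₀.asIdeal) J₀.asIdeal]
      exact ht
    obtain ⟨v, hv⟩ := hu.exists_left_inv
    obtain ⟨u, hu'⟩ := hbij.2 (Pi.single J₀ v)
    refine ⟨u, ?_⟩
    apply hbij.1
    rw [map_mul, map_mul, hu', he]
    funext J
    by_cases hJ : J = J₀
    · subst hJ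
      simp only [Pi.mul_apply, Pi.single_eq_same, mul_one]
      rw [hψapp]; exact hv
    · simp [Pi.single_eq_of_ne hJ]
  -- lift to `A`
  obtain ⟨s₀, hs₀⟩ := Ideal.Quotient.mk_surjective e
  refine ⟨s₀, ?_, ?_, ?_⟩
  · intro h
    exact he_not (by rw [← hs₀]; exact (hmem s₀).2 h)
  · intro x
    rw [← mul_smul]
    exact smul_eq_of_mk_eq (by rw [map_mul, hs₀, hee]) x
  · intro s hs
    have hst : Ideal.Quotient.mk I s ∉ J₀.asIdeal := fun h => hs ((hmem s).1 h)
    obtain ⟨u', hu'⟩ := hinvT _ hst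
    obtain ⟨u, hu⟩ := Ideal.Quotient.mk_surjective u'
    refine ⟨u, fun x => ?_⟩
    rw [← mul_smul, ← mul_smul]
    exact smul_eq_of_mk_eq (by rw [map_mul, map_mul, hu, hs₀, hu']) x

/-- the structure of the two parts: either both are described by an idempotent scalar, or `𝔪` is
outside the support -/
theorem parts_eq :
    (∃ s₀ : A, s₀ ∉ 𝔪 ∧ (∀ x : L, s₀ • s₀ • x = s₀ • x) ∧
      locPart 𝔪 L = LinearMap.range (LinearMap.lsmul A L s₀) ∧
      awayPart 𝔪 L = LinearMap.ker (LinearMap.lsmul A L s₀)) := by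
  by_cases hI : Module.annihilator A L ≤ 𝔪
  · obtain ⟨s₀, hs₀, hidem, hinv⟩ := exists_idem 𝒪 (L := L) 𝔪 hI
    refine ⟨s₀, hs₀, hidem, ?_, ?_⟩
    · refine locPart_eq_range_of_idem (LinearMap.lsmul A L s₀) s₀ hs₀ (fun x => rfl) ?_
      intro s hs
      obtain ⟨u, hu⟩ := hinv s hs
      refine ⟨LinearMap.lsmul A L u, fun x => ?_⟩
      show s • u • s₀ • x = s₀ • x
      rw [smul_comm s u]
      exact hu x
    · refine awayPart_eq_ker_of_idem (LinearMap.lsmul A L s₀) s₀ hs₀ (fun x => rfl) ?_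
      intro s hs
      obtain ⟨u, hu⟩ := hinv s hs
      exact ⟨LinearMap.lsmul A L u, fun x => hu x⟩
  · -- `𝔪` is not in the support: `locPart = ⊥`, `awayPart = ⊤`; take `s₀ ∈ annihilator ∖ 𝔪`
    obtain ⟨s₀, hs₀I, hs₀⟩ := SetLike.not_le_iff_exists.1 hI
    have hzero : ∀ x : L, s₀ • x = 0 := Module.mem_annihilator.1 hs₀I
    refine ⟨s₀, hs₀, fun x => by rw [hzero, hzero], ?_, ?_⟩
    · apply le_antisymm
      · intro x hx
        obtain ⟨y, hy⟩ := mem_locPart.1 hx s₀ hs₀
        exact ⟨y, hy⟩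
      · rintro _ ⟨y, rfl⟩
        show s₀ • y ∈ _
        rw [hzero]
        exact Submodule.zero_mem _
    · apply le_antisymm
      · intro x _
        rw [LinearMap.mem_ker]
        exact hzero x
      · intro x _
        exact mem_awayPart.2 ⟨s₀, hs₀, hzero x⟩

/-- **`L = L_𝔪 ⊕ L^𝔪`** -/
theorem isCompl_locPart_awayPart : IsCompl (locPart 𝔪 L) (awayPart 𝔪 L) := by
  obtain ⟨s₀, -, hidem, hloc, haway⟩ := parts_eq 𝒪 (L := L) 𝔪
  rw [hloc, haway]
  constructor
  · rw [Submodule.disjoint_def]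
    rintro x ⟨y, rfl⟩ hx
    rw [LinearMap.mem_ker] at hx
    show s₀ • y = 0
    have : s₀ • s₀ • y = 0 := hx
    rwa [hidem] at this
  · rw [codisjoint_iff, eq_top_iff]
    intro x _
    refine Submodule.mem_sup.2 ⟨s₀ • x, ⟨x, rfl⟩, x - s₀ • x, ?_, by abel⟩
    rw [LinearMap.mem_ker]
    show s₀ • (x - s₀ • x) = 0
    rw [smul_sub, hidem, sub_self]

/-- **every `s ∉ 𝔪` acts bijectively on the `𝔪`-primary part** -/
theorem bijective_smul_locPart {s : A} (hs : s ∉ 𝔪) :
    Function.Bijective (fun x : locPart 𝔪 L => s • x) := by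
  have hcompl := isCompl_locPart_awayPart 𝒪 (L := L) 𝔪
  constructor
  · intro x y hxy
    have h0 : s • ((x : L) - y) = 0 := by
      have := congrArg (Subtype.val) hxy
      simp only [Submodule.coe_smul] at this
      rw [smul_sub, this, sub_self]
    have h1 : (x : L) - y ∈ awayPart 𝔪 L := mem_awayPart.2 ⟨s, hs, h0⟩
    have h2 : (x : L) - y ∈ locPart 𝔪 L := Submodule.sub_mem _ x.2 y.2
    have h3 := (Submodule.disjoint_def.1 hcompl.disjoint) _ h2 h1
    exact Subtype.ext (sub_eq_zero.1 h3)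
  · intro x
    by_cases hI : Module.annihilator A L ≤ 𝔪
    · obtain ⟨s₀, hs₀, hidem, hinv⟩ := exists_idem 𝒪 (L := L) 𝔪 hI
      obtain ⟨u, hu⟩ := hinv s hs
      obtain ⟨y, hy⟩ := mem_locPart.1 x.2 s₀ hs₀
      have hux : u • (x : L) ∈ locPart 𝔪 L := Submodule.smul_mem _ u x.2
      refine ⟨⟨u • (x : L), hux⟩, Subtype.ext ?_⟩
      show s • u • (x : L) = x
      have hx' : s₀ • (x : L) = x := by rw [← hy, hidem]
      rw [← hx', smul_comm s u]
      exact hu x
    · obtain ⟨s₀, hs₀I, hs₀⟩ := SetLike.not_le_iff_exists.1 hI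
      obtain ⟨y, hy⟩ := mem_locPart.1 x.2 s₀ hs₀
      have hx0 : (x : L) = 0 := by rw [← hy]; exact Module.mem_annihilator.1 hs₀I y
      refine ⟨0, Subtype.ext ?_⟩
      show s • (0 : L) = x
      rw [smul_zero, hx0]

/-- the projection of `L` onto its `𝔪`-primary part -/
noncomputable def locProj : L →ₗ[A] locPart 𝔪 L :=
  Submodule.projectionOnto _ _ (isCompl_locPart_awayPart 𝒪 (L := L) 𝔪)

theorem locProj_apply_of_mem {x : L} (hx : x ∈ locPart 𝔪 L) :
    locProj 𝒪 𝔪 x = ⟨x, hx⟩ :=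
  Submodule.projectionOnto_apply_left _ ⟨x, hx⟩

theorem locProj_surjective : Function.Surjective (locProj 𝒪 (L := L) 𝔪) :=
  fun x => ⟨x, by rw [locProj_apply_of_mem 𝒪 𝔪 x.2]⟩

/-- the `𝔪`-primary part is finite over `𝒪` -/
theorem finite_locPart : Module.Finite 𝒪 (locPart 𝔪 L) :=
  Module.Finite.of_surjective ((locProj 𝒪 (L := L) 𝔪).restrictScalars 𝒪)
    (locProj_surjective 𝒪 𝔪)

/-- **the `𝔪`-primary part of a free module is free** (a direct summand over a local ring) -/
theorem free_locPart [Module.Free 𝒪 L] : Module.Free 𝒪 (locPart 𝔪 L) := by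
  have : Module.Finite 𝒪 (locPart 𝔪 L) := finite_locPart 𝒪 𝔪
  have : Module.Projective 𝒪 (locPart 𝔪 L) :=
    Module.Projective.of_split ((locPart 𝔪 L).subtype.restrictScalars 𝒪)
      ((locProj 𝒪 (L := L) 𝔪).restrictScalars 𝒪) (by
        ext x
        simp only [LinearMap.coe_comp, LinearMap.coe_restrictScalars, Function.comp_apply,
          Submodule.coe_subtype, LinearMap.id_coe, id_eq]
        rw [locProj_apply_of_mem 𝒪 𝔪 x.2])
  exact Module.free_of_flat_of_isLocalRing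

end Main

end Fermat.Agent.GB.B3.Loc
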