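/-
GATE-B / S43, node GB-B3-LOC, file 2 (helper74): consequences of the decomposition
`L = locPart 𝔪 L ⊕ awayPart 𝔪 L` of `GB/B3/Loc.lean`.

PART 1 (abstract, hypothesis form: the two modules are decomposed):
* `locMap f : locPart 𝔪 L →ₗ[A] locPart 𝔪 L'`, `awayMap f`, functoriality;
* `map_locPart_eq` : `(locPart 𝔪 L).map f = locPart 𝔪 L' ⊓ range f`;
* `locMap_surjective`, `locMap_injective`, `locMap_exact` : localisation at `𝔪` is exact.

PART 2 (`𝒪` complete noetherian local, `L` finite over `𝒪`):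
* all of part 1 without hypotheses;
* `exists_inv_on_locPart` : every `s ∉ 𝔪` has an inverse on `locPart 𝔪 L` coming from `A`;
* `locPart_ne_bot_iff` : `locPart 𝔪 L ≠ ⊥ ↔ annihilator A L ≤ 𝔪`;
* `isLocalRing_quotient` : `A ⧸ annihilator A (locPart 𝔪 L)` is a local ring, finite over `𝒪`, with
  maximal ideal the image of `𝔪`.
-/
import Mathlib
import Fermat.Agent.GB.B3.Loc

set_option autoImplicit false

namespace Fermat.Agent.GB.B3.Loc2

open Fermat.Agent.GB.B3.Loc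

/-! ### Part 1: exactness, abstractly -/

section Abstract

variable {A : Type*} [CommRing A] {𝔪 : Ideal A} [𝔪.IsPrime]
variable {L L' L'' : Type*} [AddCommGroup L] [Module A L] [AddCommGroup L'] [Module A L']
  [AddCommGroup L''] [Module A L'']

/-- the map induced on the `𝔪`-primary parts -/
def locMap (f : L →ₗ[A] L') : locPart 𝔪 L →ₗ[A] locPart 𝔪 L' :=
  f.restrict fun _ hx => apply_mem_locPart f hx

/-- the map induced on the parts away from `𝔪` -/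
def awayMap (f : L →ₗ[A] L') : awayPart 𝔪 L →ₗ[A] awayPart 𝔪 L' :=
  f.restrict fun _ hx => apply_mem_awayPart f hx

@[simp] theorem locMap_apply (f : L →ₗ[A] L') (x : locPart 𝔪 L) :
    ((locMap f x : locPart 𝔪 L') : L') = f x := rfl

@[simp] theorem awayMap_apply (f : L →ₗ[A] L') (x : awayPart 𝔪 L) :
    ((awayMap f x : awayPart 𝔪 L') : L') = f x := rfl

theorem locMap_id : locMap (𝔪 := 𝔪) (LinearMap.id : L →ₗ[A] L) = LinearMap.id := by
  ext x; rfl

theorem locMap_comp (g : L' →ₗ[A] L'') (f : L →ₗ[A] L') :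
    locMap (𝔪 := 𝔪) (g ∘ₗ f) = locMap g ∘ₗ locMap f := by
  ext x; rfl

theorem awayMap_id : awayMap (𝔪 := 𝔪) (LinearMap.id : L →ₗ[A] L) = LinearMap.id := by
  ext x; rfl

theorem awayMap_comp (g : L' →ₗ[A] L'') (f : L →ₗ[A] L') :
    awayMap (𝔪 := 𝔪) (g ∘ₗ f) = awayMap g ∘ₗ awayMap f := by
  ext x; rfl

theorem locMap_injective {f : L →ₗ[A] L'} (hf : Function.Injective f) :
    Function.Injective (locMap (𝔪 := 𝔪) f) := by
  intro x y hxy
  apply Subtype.ext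
  apply hf
  exact congrArg Subtype.val hxy

theorem awayMap_injective {f : L →ₗ[A] L'} (hf : Function.Injective f) :
    Function.Injective (awayMap (𝔪 := 𝔪) f) := by
  intro x y hxy
  apply Subtype.ext
  apply hf
  exact congrArg Subtype.val hxy

/-- **the image of the `𝔪`-primary part is the `𝔪`-primary part of the image** -/
theorem map_locPart_eq (f : L →ₗ[A] L')
    (hL : Codisjoint (locPart 𝔪 L) (awayPart 𝔪 L))
    (hL' : Disjoint (locPart 𝔪 L') (awayPart 𝔪 L')) :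
    (locPart 𝔪 L).map f = locPart 𝔪 L' ⊓ LinearMap.range f := by
  apply le_antisymm
  · rintro _ ⟨x, hx, rfl⟩
    exact ⟨apply_mem_locPart f hx, ⟨x, rfl⟩⟩
  · rintro _ ⟨hy, ⟨x, rfl⟩⟩
    have hx : x ∈ locPart 𝔪 L ⊔ awayPart 𝔪 L := by rw [codisjoint_iff.1 hL]; trivial
    obtain ⟨x₁, hx₁, x₂, hx₂, rfl⟩ := Submodule.mem_sup.1 hx
    have h2 : f x₂ ∈ awayPart 𝔪 L' := apply_mem_awayPart f hx₂
    have h1 : f x₂ ∈ locPart 𝔪 L' := by
      have : f x₂ = f (x₁ + x₂) - f x₁ := by rw [map_add]; abel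
      rw [this]
      exact Submodule.sub_mem _ hy (apply_mem_locPart f hx₁)
    have h0 : f x₂ = 0 := Submodule.disjoint_def.1 hL' _ h1 h2
    exact ⟨x₁, hx₁, by rw [map_add, h0, add_zero]⟩

/-- the image of the part away from `𝔪` is the part away from `𝔪` of the image -/
theorem map_awayPart_eq (f : L →ₗ[A] L')
    (hL : Codisjoint (locPart 𝔪 L) (awayPart 𝔪 L))
    (hL' : Disjoint (locPart 𝔪 L') (awayPart 𝔪 L')) :
    (awayPart 𝔪 L).map f = awayPart 𝔪 L' ⊓ LinearMap.range f := by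
  apply le_antisymm
  · rintro _ ⟨x, hx, rfl⟩
    exact ⟨apply_mem_awayPart f hx, ⟨x, rfl⟩⟩
  · rintro _ ⟨hy, ⟨x, rfl⟩⟩
    have hx : x ∈ locPart 𝔪 L ⊔ awayPart 𝔪 L := by rw [codisjoint_iff.1 hL]; trivial
    obtain ⟨x₁, hx₁, x₂, hx₂, rfl⟩ := Submodule.mem_sup.1 hx
    have h1 : f x₁ ∈ locPart 𝔪 L' := apply_mem_locPart f hx₁
    have h2 : f x₁ ∈ awayPart 𝔪 L' := by
      have : f x₁ = f (x₁ + x₂) - f x₂ := by rw [map_add]; abel
      rw [this]
      exact Submodule.sub_mem _ hy (apply_mem_awayPart f hx₂)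
    have h0 : f x₁ = 0 := Submodule.disjoint_def.1 hL' _ h1 h2
    exact ⟨x₂, hx₂, by rw [map_add, h0, zero_add]⟩

theorem locMap_surjective {f : L →ₗ[A] L'} (hf : Function.Surjective f)
    (hL : Codisjoint (locPart 𝔪 L) (awayPart 𝔪 L))
    (hL' : Disjoint (locPart 𝔪 L') (awayPart 𝔪 L')) :
    Function.Surjective (locMap (𝔪 := 𝔪) f) := by
  intro y
  have hy : (y : L') ∈ (locPart 𝔪 L).map f := by
    rw [map_locPart_eq f hL hL']
    exact ⟨y.2, hf y⟩
  obtain ⟨x, hx, hxy⟩ := hy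
  exact ⟨⟨x, hx⟩, Subtype.ext hxy⟩

theorem awayMap_surjective {f : L →ₗ[A] L'} (hf : Function.Surjective f)
    (hL : Codisjoint (locPart 𝔪 L) (awayPart 𝔪 L))
    (hL' : Disjoint (locPart 𝔪 L') (awayPart 𝔪 L')) :
    Function.Surjective (awayMap (𝔪 := 𝔪) f) := by
  intro y
  have hy : (y : L') ∈ (awayPart 𝔪 L).map f := by
    rw [map_awayPart_eq f hL hL']
    exact ⟨y.2, hf y⟩
  obtain ⟨x, hx, hxy⟩ := hy
  exact ⟨⟨x, hx⟩, Subtype.ext hxy⟩

/-- **localisation at `𝔪` is exact** -/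
theorem locMap_exact {f : L →ₗ[A] L'} {g : L' →ₗ[A] L''}
    (hfg : LinearMap.range f = LinearMap.ker g)
    (hL : Codisjoint (locPart 𝔪 L) (awayPart 𝔪 L))
    (hL' : Disjoint (locPart 𝔪 L') (awayPart 𝔪 L')) :
    LinearMap.range (locMap (𝔪 := 𝔪) f) = LinearMap.ker (locMap (𝔪 := 𝔪) g) := by
  apply le_antisymm
  · rintro _ ⟨x, rfl⟩
    rw [LinearMap.mem_ker]
    apply Subtype.ext
    have : (f x : L') ∈ LinearMap.ker g := by rw [← hfg]; exact ⟨x, rfl⟩
    exact this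
  · intro y hy
    rw [LinearMap.mem_ker] at hy
    have hy0 : g (y : L') = 0 := congrArg Subtype.val hy
    have hy1 : (y : L') ∈ (locPart 𝔪 L).map f := by
      rw [map_locPart_eq f hL hL', hfg]
      exact ⟨y.2, hy0⟩
    obtain ⟨x, hx, hxy⟩ := hy1
    exact ⟨⟨x, hx⟩, Subtype.ext hxy⟩

theorem awayMap_exact {f : L →ₗ[A] L'} {g : L' →ₗ[A] L''}
    (hfg : LinearMap.range f = LinearMap.ker g)
    (hL : Codisjoint (locPart 𝔪 L) (awayPart 𝔪 L))
    (hL' : Disjoint (locPart 𝔪 L') (awayPart 𝔪 L')) :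
    LinearMap.range (awayMap (𝔪 := 𝔪) f) = LinearMap.ker (awayMap (𝔪 := 𝔪) g) := by
  apply le_antisymm
  · rintro _ ⟨x, rfl⟩
    rw [LinearMap.mem_ker]
    apply Subtype.ext
    have : (f x : L') ∈ LinearMap.ker g := by rw [← hfg]; exact ⟨x, rfl⟩
    exact this
  · intro y hy
    rw [LinearMap.mem_ker] at hy
    have hy0 : g (y : L') = 0 := congrArg Subtype.val hy
    have hy1 : (y : L') ∈ (awayPart 𝔪 L).map f := by
      rw [map_awayPart_eq f hL hL', hfg]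
      exact ⟨y.2, hy0⟩
    obtain ⟨x, hx, hxy⟩ := hy1
    exact ⟨⟨x, hx⟩, Subtype.ext hxy⟩

end Abstract

/-! ### Part 2: the complete local case -/

section Main

variable (𝒪 : Type) [CommRing 𝒪] [IsLocalRing 𝒪] [IsNoetherianRing 𝒪]
  [IsAdicComplete (IsLocalRing.maximalIdeal 𝒪) 𝒪]
variable {A : Type} [CommRing A] [Algebra 𝒪 A]
variable {L L' L'' : Type*} [AddCommGroup L] [Module 𝒪 L] [Module A L] [IsScalarTower 𝒪 A L]
  [Module.Finite 𝒪 L]
  [AddCommGroup L'] [Module 𝒪 L'] [Module A L'] [IsScalarTower 𝒪 A L'] [Module.Finite 𝒪 L']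
  [AddCommGroup L''] [Module 𝒪 L''] [Module A L''] [IsScalarTower 𝒪 A L''] [Module.Finite 𝒪 L'']
variable (𝔪 : Ideal A) [h𝔪 : 𝔪.IsMaximal]

include 𝒪

theorem map_locPart_eq' (f : L →ₗ[A] L') :
    (locPart 𝔪 L).map f = locPart 𝔪 L' ⊓ LinearMap.range f :=
  map_locPart_eq f (isCompl_locPart_awayPart 𝒪 𝔪).codisjoint
    (isCompl_locPart_awayPart 𝒪 𝔪).disjoint

theorem map_awayPart_eq' (f : L →ₗ[A] L') :
    (awayPart 𝔪 L).map f = awayPart 𝔪 L' ⊓ LinearMap.range f :=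
  map_awayPart_eq f (isCompl_locPart_awayPart 𝒪 𝔪).codisjoint
    (isCompl_locPart_awayPart 𝒪 𝔪).disjoint

theorem locMap_surjective' {f : L →ₗ[A] L'} (hf : Function.Surjective f) :
    Function.Surjective (locMap (𝔪 := 𝔪) f) :=
  locMap_surjective hf (isCompl_locPart_awayPart 𝒪 𝔪).codisjoint
    (isCompl_locPart_awayPart 𝒪 𝔪).disjoint

theorem awayMap_surjective' {f : L →ₗ[A] L'} (hf : Function.Surjective f) :
    Function.Surjective (awayMap (𝔪 := 𝔪) f) :=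
  awayMap_surjective hf (isCompl_locPart_awayPart 𝒪 𝔪).codisjoint
    (isCompl_locPart_awayPart 𝒪 𝔪).disjoint

omit [Module 𝒪 L''] [IsScalarTower 𝒪 A L''] [Module.Finite 𝒪 L''] in
theorem locMap_exact' {f : L →ₗ[A] L'} {g : L' →ₗ[A] L''}
    (hfg : LinearMap.range f = LinearMap.ker g) :
    LinearMap.range (locMap (𝔪 := 𝔪) f) = LinearMap.ker (locMap (𝔪 := 𝔪) g) :=
  locMap_exact hfg (isCompl_locPart_awayPart 𝒪 𝔪).codisjoint
    (isCompl_locPart_awayPart 𝒪 𝔪).disjoint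

omit [Module 𝒪 L''] [IsScalarTower 𝒪 A L''] [Module.Finite 𝒪 L''] in
theorem awayMap_exact' {f : L →ₗ[A] L'} {g : L' →ₗ[A] L''}
    (hfg : LinearMap.range f = LinearMap.ker g) :
    LinearMap.range (awayMap (𝔪 := 𝔪) f) = LinearMap.ker (awayMap (𝔪 := 𝔪) g) :=
  awayMap_exact hfg (isCompl_locPart_awayPart 𝒪 𝔪).codisjoint
    (isCompl_locPart_awayPart 𝒪 𝔪).disjoint

/-- every `s ∉ 𝔪` has an inverse on `locPart 𝔪 L` which is an element of `A` -/
theorem exists_inv_on_locPart {s : A} (hs : s ∉ 𝔪) :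
    ∃ u : A, ∀ x ∈ locPart 𝔪 L, u • s • x = x := by
  by_cases hI : Module.annihilator A L ≤ 𝔪
  · obtain ⟨s₀, hs₀, hidem, hinv⟩ := exists_idem 𝒪 (L := L) 𝔪 hI
    obtain ⟨u, hu⟩ := hinv s hs
    refine ⟨u, fun x hx => ?_⟩
    obtain ⟨y, hy⟩ := mem_locPart.1 hx s₀ hs₀
    have hx' : s₀ • x = x := by rw [← hy, hidem]
    have := hu x
    rwa [hx'] at this
  · obtain ⟨s₀, hs₀I, hs₀⟩ := SetLike.not_le_iff_exists.1 hI
    refine ⟨0, fun x hx => ?_⟩
    obtain ⟨y, hy⟩ := mem_locPart.1 hx s₀ hs₀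
    rw [← hy, Module.mem_annihilator.1 hs₀I y, smul_zero, smul_zero]

/-- the `𝔪`-primary part is nonzero exactly when `𝔪` is in the support -/
theorem locPart_ne_bot_iff : locPart 𝔪 L ≠ ⊥ ↔ Module.annihilator A L ≤ 𝔪 := by
  constructor
  · intro hne
    by_contra hI
    apply hne
    obtain ⟨s₀, hs₀I, hs₀⟩ := SetLike.not_le_iff_exists.1 hI
    rw [eq_bot_iff]
    intro x hx
    obtain ⟨y, hy⟩ := mem_locPart.1 hx s₀ hs₀
    rw [Submodule.mem_bot, ← hy]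
    exact Module.mem_annihilator.1 hs₀I y
  · intro hI hbot
    obtain ⟨s₀, hs₀, -, hloc, haway⟩ := parts_eq 𝒪 (L := L) 𝔪
    have : s₀ ∈ Module.annihilator A L := by
      rw [Module.mem_annihilator]
      intro x
      have hx : s₀ • x ∈ locPart 𝔪 L := by rw [hloc]; exact ⟨x, rfl⟩
      rw [hbot] at hx
      exact hx
    exact hs₀ (hI this)

/-- the annihilator of a nonzero `𝔪`-primary part is contained in `𝔪` -/
theorem annihilator_locPart_le (hne : locPart 𝔪 L ≠ ⊥) :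
    Module.annihilator A (locPart 𝔪 L) ≤ 𝔪 := by
  intro s hs
  by_contra hs'
  apply hne
  rw [eq_bot_iff]
  intro x hx
  obtain ⟨u, hu⟩ := exists_inv_on_locPart 𝒪 (L := L) 𝔪 hs'
  have h0 : s • (⟨x, hx⟩ : locPart 𝔪 L) = 0 := Module.mem_annihilator.1 hs _
  have h1 : s • x = 0 := congrArg Subtype.val h0
  rw [Submodule.mem_bot, ← hu x hx, h1, smul_zero]

/-- every `s ∉ 𝔪` is a unit in `A ⧸ annihilator A (locPart 𝔪 L)` -/
theorem isUnit_mk_of_notMem {s : A} (hs : s ∉ 𝔪) :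
    IsUnit (Ideal.Quotient.mk (Module.annihilator A (locPart 𝔪 L)) s) := by
  obtain ⟨u, hu⟩ := exists_inv_on_locPart 𝒪 (L := L) 𝔪 hs
  refine IsUnit.of_mul_eq_one (Ideal.Quotient.mk _ u) ?_
  rw [← map_mul, ← map_one (Ideal.Quotient.mk _), Ideal.Quotient.eq, Module.mem_annihilator]
  rintro ⟨x, hx⟩
  apply Subtype.ext
  show (s * u - 1) • x = 0
  rw [sub_smul, one_smul, mul_comm, mul_smul, hu x hx, sub_self]

/-- **`T_𝔪 := A ⧸ annihilator A (locPart 𝔪 L)` is a local ring** (for `𝔪` in the support) -/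
theorem isLocalRing_quotient (hne : locPart 𝔪 L ≠ ⊥) :
    IsLocalRing (A ⧸ Module.annihilator A (locPart 𝔪 L)) := by
  have hle := annihilator_locPart_le 𝒪 (L := L) 𝔪 hne
  have : Nontrivial (A ⧸ Module.annihilator A (locPart 𝔪 L)) :=
    Ideal.Quotient.nontrivial_iff.2 (fun h => h𝔪.ne_top (top_le_iff.1 (h ▸ hle)))
  refine IsLocalRing.of_nonunits_add ?_
  have key : ∀ t : A ⧸ Module.annihilator A (locPart 𝔪 L), t ∈ nonunits _ →
      ∃ a ∈ 𝔪, Ideal.Quotient.mk _ a = t := by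
    intro t ht
    obtain ⟨a, rfl⟩ := Ideal.Quotient.mk_surjective t
    refine ⟨a, ?_, rfl⟩
    by_contra ha
    exact ht (isUnit_mk_of_notMem 𝒪 (L := L) 𝔪 ha)
  intro a b ha hb
  obtain ⟨a', ha', rfl⟩ := key a ha
  obtain ⟨b', hb', rfl⟩ := key b hb
  rw [← map_add]
  intro hu
  have hmem : a' + b' ∈ 𝔪 := 𝔪.add_mem ha' hb'
  -- a unit of the quotient which is the class of an element of `𝔪`
  obtain ⟨v, hv⟩ := hu.exists_right_inv
  obtain ⟨v', rfl⟩ := Ideal.Quotient.mk_surjective v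
  rw [← map_mul, ← map_one (Ideal.Quotient.mk _), Ideal.Quotient.eq] at hv
  have h1 : (a' + b') * v' - 1 ∈ 𝔪 := hle hv
  have h2 : (a' + b') * v' ∈ 𝔪 := 𝔪.mul_mem_right _ hmem
  have h3 : (1 : A) ∈ 𝔪 := by
    have := 𝔪.sub_mem h2 h1
    rwa [sub_sub_cancel] at this
  exact h𝔪.ne_top ((Ideal.eq_top_iff_one _).2 h3)

/-- the maximal ideal of `T_𝔪` is the image of `𝔪` -/
theorem mem_maximalIdeal_quotient_iff (hne : locPart 𝔪 L ≠ ⊥) (a : A) :
    haveI := isLocalRing_quotient 𝒪 (L := L) 𝔪 hne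
    Ideal.Quotient.mk (Module.annihilator A (locPart 𝔪 L)) a ∈
      IsLocalRing.maximalIdeal (A ⧸ Module.annihilator A (locPart 𝔪 L)) ↔ a ∈ 𝔪 := by
  have := isLocalRing_quotient 𝒪 (L := L) 𝔪 hne
  have hle := annihilator_locPart_le 𝒪 (L := L) 𝔪 hne
  rw [IsLocalRing.mem_maximalIdeal, mem_nonunits_iff]
  constructor
  · intro h
    by_contra ha
    exact h (isUnit_mk_of_notMem 𝒪 (L := L) 𝔪 ha)
  · intro ha hu
    obtain ⟨v, hv⟩ := hu.exists_right_inv
    obtain ⟨v', rfl⟩ := Ideal.Quotient.mk_surjective v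
    rw [← map_mul, ← map_one (Ideal.Quotient.mk _), Ideal.Quotient.eq] at hv
    have h1 : a * v' - 1 ∈ 𝔪 := hle hv
    have h2 : a * v' ∈ 𝔪 := 𝔪.mul_mem_right _ ha
    have h3 : (1 : A) ∈ 𝔪 := by
      have := 𝔪.sub_mem h2 h1
      rwa [sub_sub_cancel] at this
    exact h𝔪.ne_top ((Ideal.eq_top_iff_one _).2 h3)

/-- `T_𝔪` is finite over `𝒪` -/
theorem finite_quotient_locPart :
    Module.Finite 𝒪 (A ⧸ Module.annihilator A (locPart 𝔪 L)) := by
  have : Module.Finite 𝒪 (locPart 𝔪 L) := finite_locPart 𝒪 𝔪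
  exact finite_quotient_annihilator (𝒪 := 𝒪) (A := A) (L := locPart 𝔪 L)

end Main

end Fermat.Agent.GB.B3.Loc2
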