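/-
GATE-B / S43, node GB-B3-LOC, file 3 (helper74): **the decomposition binder of `FreeCyclic`**.

`CycStep.Summand` (helper95, `GB/B3/FreeCyclic.lean`) asks for a decomposition `L = P ⊕ P'`,
`L0 = P0 ⊕ P0'` respected by `D`, `cores`, `t`, with `t` bijective on `P`.  Here it is produced from
the localisation of `GB/B3/Loc.lean`: `A` a commutative `O`-algebra of Hecke symbols acting on `L`
and `L0` (`O` complete noetherian local, `L`, `L0` finite over `O`), `D` and `cores` commuting with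
`A`, `𝔪` a maximal ideal of `A`, and `t` the action of some `τ ∉ 𝔪` (`τ = T_ℓ - ℓ - 1`,
`𝔪` non-Eisenstein):

  `P = locPart 𝔪 L`, `P' = awayPart 𝔪 L`, `P0 = locPart 𝔪 L0`, `P0' = awayPart 𝔪 L0`.
-/
import Mathlib
import Fermat.Agent.GB.B3.Loc
import Fermat.Agent.GB.B3.Loc2
import Fermat.Agent.GB.B3.FreeCyclic

set_option autoImplicit false

namespace Fermat.Agent.GB.B3.LocSummand

open Fermat.Agent.GB.B3.Loc Fermat.Agent.GB.B3.Loc2 Fermat.Agent.GB.B3.FreeCyclic

section Restrict

variable {O A L : Type*} [CommRing O] [CommRing A] [Algebra O A] [AddCommGroup L] [Module O L]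
  [Module A L] [IsScalarTower O A L]

/-- complements stay complements after restriction of scalars -/
theorem isCompl_restrictScalars {p p' : Submodule A L} (h : IsCompl p p') :
    IsCompl (p.restrictScalars O) (p'.restrictScalars O) := by
  constructor
  · rw [Submodule.disjoint_def]
    intro x hx hx'
    exact Submodule.disjoint_def.1 h.disjoint x hx hx'
  · rw [codisjoint_iff, eq_top_iff]
    intro x _
    have hx : x ∈ p ⊔ p' := by rw [codisjoint_iff.1 h.codisjoint]; trivial
    obtain ⟨a, ha, b, hb, rfl⟩ := Submodule.mem_sup.1 hx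
    exact Submodule.mem_sup.2 ⟨a, ha, b, hb, rfl⟩

variable {L' : Type*} [AddCommGroup L'] [Module O L'] [Module A L'] [IsScalarTower O A L']

/-- an `O`-linear map commuting with `A` as an `A`-linear map -/
def toLin (f : L →ₗ[O] L') (hf : ∀ (a : A) (x : L), f (a • x) = a • f x) : L →ₗ[A] L' where
  toFun := f
  map_add' := f.map_add
  map_smul' := hf

omit [Algebra O A] [IsScalarTower O A L] [IsScalarTower O A L'] in
@[simp] theorem toLin_apply (f : L →ₗ[O] L') (hf : ∀ (a : A) (x : L), f (a • x) = a • f x)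
    (x : L) : toLin f hf x = f x := rfl

end Restrict

section Main

variable {O : Type} [CommRing O] [IsLocalRing O] [IsNoetherianRing O]
  [IsAdicComplete (IsLocalRing.maximalIdeal O) O]
variable {A : Type} [CommRing A] [Algebra O A]
variable {L L0 : Type*} [AddCommGroup L] [Module O L] [Module A L] [IsScalarTower O A L]
  [Module.Finite O L]
  [AddCommGroup L0] [Module O L0] [Module A L0] [IsScalarTower O A L0] [Module.Finite O L0]

/-- **the `FreeCyclic` decomposition binder from the localisation at `𝔪`** -/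
noncomputable def summandOfLoc {q : ℕ} (S : CycStep O L L0 q) (𝔪 : Ideal A) [𝔪.IsMaximal]
    (hD : ∀ (a : A) (x : L), S.D (a • x) = a • S.D x)
    (hcores : ∀ (a : A) (x : L), S.cores (a • x) = a • S.cores x)
    (τ : A) (hτ : τ ∉ 𝔪) (ht : ∀ x : L, S.t x = τ • x) : S.Summand where
  P := (locPart 𝔪 L).restrictScalars O
  P' := (awayPart 𝔪 L).restrictScalars O
  P0 := (locPart 𝔪 L0).restrictScalars O
  P0' := (awayPart 𝔪 L0).restrictScalars O
  compl := isCompl_restrictScalars (isCompl_locPart_awayPart O 𝔪)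
  compl0 := isCompl_restrictScalars (isCompl_locPart_awayPart O 𝔪)
  D_P := fun x hx => apply_mem_locPart (toLin S.D hD) hx
  D_P' := fun x hx => apply_mem_awayPart (toLin S.D hD) hx
  cores_P := fun x hx => apply_mem_locPart (toLin S.cores hcores) hx
  cores_P' := fun x hx => apply_mem_awayPart (toLin S.cores hcores) hx
  t_P := fun x hx => by
    rw [ht]
    exact Submodule.smul_mem (locPart 𝔪 L) τ hx
  t_inj := fun x hx h => by
    have hb := (bijective_smul_locPart O (L := L) 𝔪 hτ).1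
    have h0 : τ • (⟨x, hx⟩ : locPart 𝔪 L) = τ • (0 : locPart 𝔪 L) := by
      apply Subtype.ext
      show τ • x = τ • (0 : L)
      rw [smul_zero, ← ht, h]
    exact congrArg Subtype.val (hb h0)
  t_surj := fun x hx => by
    obtain ⟨y, hy⟩ := (bijective_smul_locPart O (L := L) 𝔪 hτ).2 ⟨x, hx⟩
    refine ⟨y, y.2, ?_⟩
    rw [ht]
    exact congrArg Subtype.val hy

variable {q : ℕ} (S : CycStep O L L0 q) (𝔪 : Ideal A) [𝔪.IsMaximal]
    (hD : ∀ (a : A) (x : L), S.D (a • x) = a • S.D x)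
    (hcores : ∀ (a : A) (x : L), S.cores (a • x) = a • S.cores x)
    (τ : A) (hτ : τ ∉ 𝔪) (ht : ∀ x : L, S.t x = τ • x)

@[simp] theorem summandOfLoc_P :
    (summandOfLoc S 𝔪 hD hcores τ hτ ht).P = (locPart 𝔪 L).restrictScalars O := rfl

@[simp] theorem summandOfLoc_P' :
    (summandOfLoc S 𝔪 hD hcores τ hτ ht).P' = (awayPart 𝔪 L).restrictScalars O := rfl

@[simp] theorem summandOfLoc_P0 :
    (summandOfLoc S 𝔪 hD hcores τ hτ ht).P0 = (locPart 𝔪 L0).restrictScalars O := rfl

@[simp] theorem summandOfLoc_P0' :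
    (summandOfLoc S 𝔪 hD hcores τ hτ ht).P0' = (awayPart 𝔪 L0).restrictScalars O := rfl

theorem mem_summandOfLoc_P {x : L} :
    x ∈ (summandOfLoc S 𝔪 hD hcores τ hτ ht).P ↔ x ∈ locPart 𝔪 L := Iff.rfl

theorem mem_summandOfLoc_P0 {x : L0} :
    x ∈ (summandOfLoc S 𝔪 hD hcores τ hτ ht).P0 ↔ x ∈ locPart 𝔪 L0 := Iff.rfl

/-- **plug test / corollary**: the rank formula of `FreeCyclic` for the `𝔪`-primary parts -/
theorem finrank_locPart_eq [IsDomain O] [IsPrincipalIdealRing O] [Module.Free O L]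
    [Module.Free O L0] (ϖ : O) (hϖ0 : ϖ ≠ 0) [hmax : (Ideal.span {ϖ}).IsMaximal] (p n : ℕ)
    (hp : p.Prime) (hpϖ : (p : O) ∈ Ideal.span {ϖ}) (hq : ((p ^ n : ℕ) : O) ≠ 0)
    (S : CycStep O L L0 (p ^ n)) (𝔪 : Ideal A) [𝔪.IsMaximal]
    (hD : ∀ (a : A) (x : L), S.D (a • x) = a • S.D x)
    (hcores : ∀ (a : A) (x : L), S.cores (a • x) = a • S.cores x)
    (τ : A) (hτ : τ ∉ 𝔪) (ht : ∀ x : L, S.t x = τ • x) :
    Module.finrank O ((locPart 𝔪 L).restrictScalars O) =
      p ^ n * Module.finrank O ((locPart 𝔪 L0).restrictScalars O) :=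
  CycStep.Summand.finrank_eq ϖ hϖ0 p n hp hpϖ hq (summandOfLoc S 𝔪 hD hcores τ hτ ht)

end Main

end Fermat.Agent.GB.B3.LocSummand
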