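import Mathlib
import Fermat.Agent.GB.B3.TWLevel

/-!
GATE-B / B3 (helper95): **a `FreeLevel` realised inside an ambient Hecke module**, the induction
invariant of the Taylor–Wiles tower (`GB/B3/StepAbs.lean`, `GB/B3/Tower.lean`).  Mathlib + TWLevel.

* `IsLoc act 𝔪 x` : `x` lies in the `𝔪`-primary part of `L` for the action `act : A →ₐ[O] End_O L`
  — the instance-free form of `Loc.mem_locPart` (no `Module A L` instance in the statement).
* `Realizes F actL 𝔪 E` : the level `F` is (via an injective `O`-linear `ι : F.M → L` with range the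
  `𝔪`-primary part of `L`) the localisation at `𝔪` of the ambient module `L`, with Hecke action the
  restriction of `actL` and diamonds the restrictions of the operators `E i` of `L`.
-/

set_option autoImplicit false

namespace Fermat.Agent.GB.B3.RealLevel

open Module Fermat.Agent.GB.B3.TWLevel

/-- `x` lies in the `𝔪`-primary part of `L` for the action `act`
(instance-free form of `Loc.mem_locPart`). -/
def IsLoc {O A L : Type*} [CommRing O] [CommRing A] [Algebra O A] [AddCommGroup L] [Module O L]
    (act : A →ₐ[O] Module.End O L) (𝔪 : Ideal A) (x : L) : Prop :=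
  ∀ s : A, s ∉ 𝔪 → ∃ y : L, act s y = x

/-- a `FreeLevel` realised as the `𝔪`-primary part of an ambient Hecke module `L` with diamond
operators `E i` -/
structure Realizes {O : Type} [CommRing O] {A : Type} [CommRing A] [Algebra O A]
    {M0 : Type} [AddCommGroup M0] [Module O M0] {act0 : A →ₐ[O] Module.End O M0}
    {k : ℕ} {N : Fin k → ℕ} (F : FreeLevel O A M0 act0 k N)
    {L : Type} [AddCommGroup L] [Module O L] (actL : A →ₐ[O] Module.End O L) (𝔪 : Ideal A)
    (E : Fin k → Module.End O L) where
  /-- the embedding into the ambient module -/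
  ι : F.M →ₗ[O] L
  inj : Function.Injective ι
  range : ∀ x, x ∈ LinearMap.range ι ↔ IsLoc actL 𝔪 x
  ι_act : ∀ t x, ι (F.act t x) = actL t (ι x)
  ι_D : ∀ i x, ι (F.D i x) = E i (ι x)

end Fermat.Agent.GB.B3.RealLevel
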