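/-
GATE-B / B3 AUT-COH / GB-B3-TOWERSTEP (helper22).  Mathlib + GB/B3/TWLevel (helper95) only.

The ABSTRACT INDUCTIVE STEP of the Taylor–Wiles tower: a `FreeLevel` with `k` diamond generators
together with ONE further cyclic step (`StepData`: a module `M` over the level `F.M`, a new diamond
`Dnew` of order `N' 0`, the old diamonds lifted to `M`, `cores : M → F.M` onto with kernel
`(Dnew - 1) M`, equivariant for the old diamonds and the Hecke symbols, and the one-step basis
property in the shape of helper95's `CycStep.Summand.exists_basis`) gives a `FreeLevel` with `k + 1`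
diamond generators (`StepData.extend`).  The new generator is put at index `0`
(`D := Fin.cons Dnew Dold`), so that `mono D a = Dnew ^ a 0 * mono Dold (a ∘ Fin.succ)`.

`Tower.lean` = induction on `k` with `FreeLevel.trivial` as base and `StepData.extend` as step.
-/
import Mathlib
import Fermat.Agent.GB.B3.TWLevel

set_option autoImplicit false

namespace Fermat.Agent.GB.B3.TowerStep

open Module Fermat.Agent.GB.B3.TWLevel

/-! ### monomials -/

section Mono

variable {O M : Type*} [CommRing O] [AddCommGroup M] [Module O M] {k : ℕ}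

theorem mono_cons (Dnew : Module.End O M) (Dold : Fin k → Module.End O M) (a : Fin (k + 1) → ℕ) :
    mono (Fin.cons Dnew Dold : Fin (k + 1) → Module.End O M) a
      = Dnew ^ a 0 * mono Dold (fun i => a i.succ) := by
  unfold mono
  rw [List.ofFn_succ, List.prod_cons]
  simp only [Fin.cons_zero, Fin.cons_succ]

/-- an equivariant map intertwines the monomials -/
theorem map_mono {M₂ : Type*} [AddCommGroup M₂] [Module O M₂] (f : M →ₗ[O] M₂)
    (D : Fin k → Module.End O M) (D₂ : Fin k → Module.End O M₂)
    (hf : ∀ i x, f (D i x) = D₂ i (f x)) (a : Fin k → ℕ) (x : M) :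
    f (mono D a x) = mono D₂ a (f x) := by
  induction k generalizing x with
  | zero => simp [mono]
  | succ k ih =>
    have hD : D = Fin.cons (D 0) (fun i => D i.succ) := (Fin.cons_self_tail D).symm
    have hD₂ : D₂ = Fin.cons (D₂ 0) (fun i => D₂ i.succ) := (Fin.cons_self_tail D₂).symm
    rw [hD, hD₂, mono_cons, mono_cons, Module.End.mul_apply, Module.End.mul_apply]
    have hpow : ∀ (n : ℕ) (y : M), f ((D 0 ^ n) y) = (D₂ 0 ^ n) (f y) := by
      intro n
      induction n with
      | zero => intro y; simp
      | succ n ihn =>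
        intro y
        rw [pow_succ, pow_succ, Module.End.mul_apply, Module.End.mul_apply, ihn, hf]
    rw [hpow, ih (fun i => D i.succ) (fun i => D₂ i.succ) (fun i x => hf i.succ x)]

end Mono

variable {O : Type} [CommRing O] {𝕋 : Type} [CommRing 𝕋] [Algebra O 𝕋]
  {M0 : Type} [AddCommGroup M0] [Module O M0] {act0 : 𝕋 →ₐ[O] Module.End O M0} {k : ℕ}

/-- **One further cyclic step** over a level `F` with `k` diamond generators. -/
structure StepData (N' : Fin (k + 1) → ℕ)
    (F : FreeLevel O 𝕋 M0 act0 k (fun i => N' i.succ)) : Type 1 where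
  /-- the module of the new level -/
  M : Type
  [instAddCommGroup : AddCommGroup M]
  [instModule : Module O M]
  /-- the Hecke action -/
  act : 𝕋 →ₐ[O] Module.End O M
  /-- the new diamond generator -/
  Dnew : Module.End O M
  /-- the old diamond generators, on the new level -/
  Dold : Fin k → Module.End O M
  Dnew_pow : Dnew ^ N' 0 = 1
  Dold_pow : ∀ i, Dold i ^ N' i.succ = 1
  Dold_comm : ∀ i j, Dold i * Dold j = Dold j * Dold i
  Dnew_comm : ∀ i, Dnew * Dold i = Dold i * Dnew
  act_Dnew : ∀ t, act t * Dnew = Dnew * act t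
  act_Dold : ∀ t i, act t * Dold i = Dold i * act t
  /-- corestriction to the old level -/
  cores : M →ₗ[O] F.M
  cores_surjective : Function.Surjective cores
  ker_cores : ∀ x, cores x = 0 ↔ x ∈ LinearMap.range (Dnew - 1)
  cores_Dold : ∀ i x, cores (Dold i x) = F.D i (cores x)
  cores_act : ∀ t x, cores (act t x) = F.act t (cores x)
  /-- the one-step basis property (`CycStep.Summand.exists_basis`) -/
  basis_of_lift : ∀ {ι : Type} [Fintype ι] (w : ι → M) (b : Basis ι O F.M),
    (∀ m, b m = cores (w m)) →
      ∃ b' : Basis (Fin (N' 0) × ι) O M, ∀ a m, b' (a, m) = (Dnew ^ (a : ℕ)) (w m)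

attribute [instance] StepData.instAddCommGroup StepData.instModule

namespace StepData

variable {N' : Fin (k + 1) → ℕ} {F : FreeLevel O 𝕋 M0 act0 k (fun i => N' i.succ)}
  (S : StepData N' F)

/-- the diamond generators of the new level: the new one at index `0` -/
def D : Fin (k + 1) → Module.End O S.M := Fin.cons S.Dnew S.Dold

@[simp] theorem D_zero : S.D 0 = S.Dnew := rfl

@[simp] theorem D_succ (i : Fin k) : S.D i.succ = S.Dold i := by
  simp [D]

/-- lifts of the `O[Δ]`-basis of the old level -/
noncomputable def e (j : Fin F.d) : S.M := (S.cores_surjective (F.e j)).choose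

theorem cores_e (j : Fin F.d) : S.cores (S.e j) = F.e j := (S.cores_surjective (F.e j)).choose_spec

/-- the lifted monomial family of the old level -/
noncomputable def w (p : (∀ i : Fin k, Fin (N' i.succ)) × Fin F.d) : S.M :=
  mono S.Dold (fun i => (p.1 i : ℕ)) (S.e p.2)

theorem cores_w (p : (∀ i : Fin k, Fin (N' i.succ)) × Fin F.d) : F.basis p = S.cores (S.w p) := by
  obtain ⟨a, j⟩ := p
  rw [F.basis_eq, w, map_mono S.cores S.Dold F.D S.cores_Dold, S.cores_e]

/-- reindexing of the monomial exponents -/
def idxEquiv (N' : Fin (k + 1) → ℕ) (d : ℕ) :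
    (Fin (N' 0) × ((∀ i : Fin k, Fin (N' i.succ)) × Fin d)) ≃
      ((∀ i : Fin (k + 1), Fin (N' i)) × Fin d) :=
  (Equiv.prodAssoc _ _ _).symm.trans
    (Equiv.prodCongr (Fin.consEquiv (fun i : Fin (k + 1) => Fin (N' i))) (Equiv.refl _))

theorem idxEquiv_symm_apply (d : ℕ) (a : ∀ i : Fin (k + 1), Fin (N' i)) (j : Fin d) :
    (idxEquiv N' d).symm (a, j) = (a 0, (fun i : Fin k => a i.succ, j)) := rfl

/-- the one-step basis of the new level -/
noncomputable def stepBasis :
    Basis (Fin (N' 0) × ((∀ i : Fin k, Fin (N' i.succ)) × Fin F.d)) O S.M :=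
  (S.basis_of_lift S.w F.basis S.cores_w).choose

theorem stepBasis_apply (a : Fin (N' 0)) (p : (∀ i : Fin k, Fin (N' i.succ)) × Fin F.d) :
    S.stepBasis (a, p) = (S.Dnew ^ (a : ℕ)) (S.w p) :=
  (S.basis_of_lift S.w F.basis S.cores_w).choose_spec a p

theorem cores_Dnew (x : S.M) : S.cores (S.Dnew x) = S.cores x := by
  have h : S.cores ((S.Dnew - 1) x) = 0 := (S.ker_cores _).2 ⟨x, rfl⟩
  rw [LinearMap.sub_apply, Module.End.one_apply, map_sub, sub_eq_zero] at h
  exact h

/-- lifting the augmentation submodule of the old level -/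
theorem exists_lift_of_mem_iSup {y : F.M} (hy : y ∈ ⨆ i, LinearMap.range (F.D i - 1)) :
    ∃ z ∈ ⨆ i, LinearMap.range (S.Dold i - 1), S.cores z = y := by
  induction hy using Submodule.iSup_induction' with
  | mem i y hy =>
    obtain ⟨y', rfl⟩ := hy
    obtain ⟨z', rfl⟩ := S.cores_surjective y'
    refine ⟨(S.Dold i - 1) z', Submodule.mem_iSup_of_mem i ⟨z', rfl⟩, ?_⟩
    rw [LinearMap.sub_apply, LinearMap.sub_apply, Module.End.one_apply, Module.End.one_apply,
      map_sub, S.cores_Dold]
  | zero => exact ⟨0, Submodule.zero_mem _, map_zero _⟩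
  | add y₁ y₂ _ _ h₁ h₂ =>
    obtain ⟨z₁, hz₁, rfl⟩ := h₁
    obtain ⟨z₂, hz₂, rfl⟩ := h₂
    exact ⟨z₁ + z₂, Submodule.add_mem _ hz₁ hz₂, map_add _ _ _⟩

theorem iSup_Dold_le : (⨆ i, LinearMap.range (S.Dold i - 1)) ≤ ⨆ i, LinearMap.range (S.D i - 1) := by
  refine iSup_le fun i => ?_
  have := le_iSup (fun i => LinearMap.range (S.D i - 1)) i.succ
  rwa [S.D_succ] at this

/-- **The inductive step**: the level with `k + 1` diamond generators. -/
noncomputable def extend : FreeLevel O 𝕋 M0 act0 (k + 1) N' where
  M := S.M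
  act := S.act
  D := S.D
  D_pow := by
    intro i
    refine Fin.cases ?_ (fun j => ?_) i
    · exact S.Dnew_pow
    · rw [S.D_succ]; exact S.Dold_pow j
  D_comm := by
    intro i j
    refine Fin.cases ?_ (fun i' => ?_) i <;> refine Fin.cases ?_ (fun j' => ?_) j
    · rfl
    · rw [S.D_succ, S.D_zero]; exact S.Dnew_comm j'
    · rw [S.D_succ, S.D_zero]; exact (S.Dnew_comm i').symm
    · rw [S.D_succ, S.D_succ]; exact S.Dold_comm i' j'
  act_D := by
    intro t i
    refine Fin.cases ?_ (fun j => ?_) i
    · exact S.act_Dnew t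
    · rw [S.D_succ]; exact S.act_Dold t j
  d := F.d
  e := S.e
  basis := S.stepBasis.reindex (idxEquiv N' F.d)
  basis_eq := by
    intro a j
    rw [Basis.reindex_apply, idxEquiv_symm_apply, S.stepBasis_apply, D, mono_cons,
      Module.End.mul_apply]
    rfl
  π := F.π ∘ₗ S.cores
  π_surjective := F.π_surjective.comp S.cores_surjective
  ker_π := by
    intro x
    rw [LinearMap.comp_apply, F.ker_π]
    constructor
    · intro hx
      obtain ⟨z, hz, hzx⟩ := S.exists_lift_of_mem_iSup hx
      have h0 : S.cores (x - z) = 0 := by rw [map_sub, hzx, sub_self]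
      have h1 : x - z ∈ LinearMap.range (S.Dnew - 1) := (S.ker_cores _).1 h0
      have h2 : x - z ∈ ⨆ i, LinearMap.range (S.D i - 1) :=
        Submodule.mem_iSup_of_mem (0 : Fin (k + 1)) h1
      have h3 := Submodule.add_mem _ h2 (S.iSup_Dold_le hz)
      rwa [sub_add_cancel] at h3
    · intro hx
      induction hx using Submodule.iSup_induction' with
      | mem i x hx =>
        obtain ⟨x', rfl⟩ := hx
        revert x'
        refine Fin.cases ?_ (fun j => ?_) i
        · intro x'
          have : S.cores ((S.D 0 - 1) x') = 0 := (S.ker_cores _).2 ⟨x', rfl⟩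
          rw [this]
          exact Submodule.zero_mem _
        · intro x'
          rw [S.D_succ, LinearMap.sub_apply, Module.End.one_apply, map_sub, S.cores_Dold]
          exact Submodule.mem_iSup_of_mem j ⟨S.cores x', by
            rw [LinearMap.sub_apply, Module.End.one_apply]⟩
      | zero => rw [map_zero]; exact Submodule.zero_mem _
      | add x₁ x₂ _ _ h₁ h₂ => rw [map_add]; exact Submodule.add_mem _ h₁ h₂
  π_act := by
    intro t x
    rw [LinearMap.comp_apply, LinearMap.comp_apply, S.cores_act, F.π_act]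
  basis0 := F.basis0
  basis0_eq := by
    intro j
    rw [LinearMap.comp_apply, S.cores_e, F.basis0_eq]

@[simp] theorem extend_M : S.extend.M = S.M := rfl
@[simp] theorem extend_d : S.extend.d = F.d := rfl
theorem extend_D : S.extend.D = S.D := rfl
theorem extend_act : S.extend.act = S.act := rfl
theorem extend_π : S.extend.π = F.π ∘ₗ S.cores := rfl

end StepData

end Fermat.Agent.GB.B3.TowerStep
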