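/-
GATE-B / B3 AUT-COH / GB-B3-STEPABS (helper22; statement pinned by helper95, board 5500).

**The abstract step of the Taylor–Wiles tower**, pure algebra: ONE cyclic step
`CS : FreeCyclic.CycStep O L L0 (p ^ n)` between two ambient Hecke modules `L`, `L0` (actions
`actL`, `actL0` of a commutative `O`-algebra `A` of Hecke symbols, instance-free), a maximal ideal
`𝔪` of `A` and `τ ∉ 𝔪` with `CS.t = actL τ`, old diamond operators `E i` on `L` and `E0 i` on `L0`
compatible with `CS.cores`, and a level `F` realised (`RealLevel.Realizes`) as the `𝔪`-primary part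
of `L0`, give a level `F'` with one more diamond generator realised as the `𝔪`-primary part of `L`
with diamonds `Fin.cons CS.D E`.

Route: `Module A L := Module.compHom L actL` inside the proof only; the decomposition binder
`LocSummand.summandOfLoc` (helper74); `TowerStep.StepData` on `M := ↥Z.P` with
`cores := (F.M ≃ Z.P0)⁻¹ ∘ CS.cores`; `CycStep.Summand.exists_basis` (helper95) for the one-step
basis; `StepData.extend` (helper22); `Realizes` with `ι := Z.P.subtype`.
-/
import Mathlib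
import Fermat.Agent.GB.B3.TWLevel
import Fermat.Agent.GB.B3.TowerStep
import Fermat.Agent.GB.B3.FreeCyclic
import Fermat.Agent.GB.B3.LocSummand
import Fermat.Agent.GB.B3.Realizes

set_option autoImplicit false

namespace Fermat.Agent.GB.B3.StepAbs

open Module Fermat.Agent.GB.B3.TWLevel Fermat.Agent.GB.B3.TowerStep Fermat.Agent.GB.B3.Loc
  Fermat.Agent.GB.B3.Loc2 Fermat.Agent.GB.B3.FreeCyclic Fermat.Agent.GB.B3.LocSummand
  Fermat.Agent.GB.B3.RealLevel

/-! ### restriction of endomorphisms to a stable submodule -/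

section Restrict

variable {O L : Type*} [CommRing O] [AddCommGroup L] [Module O L] (P : Submodule O L)

theorem coe_restrict_pow (f : Module.End O L) (hf : ∀ x ∈ P, f x ∈ P) (m : ℕ) (x : P) :
    (((f.restrict hf ^ m : Module.End O P) x : P) : L) = (f ^ m) (x : L) := by
  induction m generalizing x with
  | zero => rfl
  | succ m ih =>
    rw [pow_succ, Module.End.mul_apply, ih, pow_succ, Module.End.mul_apply]
    rfl

end Restrict

/-! ### the `𝔪`-primary part, instance-free membership -/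

section IsLoc

variable {O : Type*} [CommRing O] {A : Type*} [CommRing A] [Algebra O A] (𝔪 : Ideal A) [𝔪.IsPrime]
variable {L : Type*} [AddCommGroup L] [Module O L] [Module A L]

theorem isLoc_iff_mem_locPart (actL : A →ₐ[O] Module.End O L) (hact : ∀ a x, actL a x = a • x)
    (x : L) : IsLoc actL 𝔪 x ↔ x ∈ locPart 𝔪 L := by
  rw [mem_locPart]
  unfold IsLoc
  simp only [hact]

end IsLoc

/-! ### the producer -/

section Producer

variable {O : Type} [CommRing O] [IsDomain O] [IsPrincipalIdealRing O] [IsLocalRing O]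
  [IsAdicComplete (IsLocalRing.maximalIdeal O) O]
variable {A : Type} [CommRing A] [Algebra O A] (𝔪 : Ideal A) [𝔪.IsMaximal]
variable {M0 : Type} [AddCommGroup M0] [Module O M0] {act0 : A →ₐ[O] Module.End O M0}
variable {L L0 : Type} [AddCommGroup L] [Module O L] [Module A L] [IsScalarTower O A L]
  [Module.Finite O L] [Module.Free O L]
  [AddCommGroup L0] [Module O L0] [Module A L0] [IsScalarTower O A L0]
  [Module.Finite O L0] [Module.Free O L0]
variable {k : ℕ} {N : Fin k → ℕ} (F : FreeLevel O A M0 act0 k N)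

/-- the `𝔪`-primary part as an `O`-submodule -/
abbrev locO (L : Type) [AddCommGroup L] [Module O L] [Module A L] [IsScalarTower O A L] :
    Submodule O L := (locPart 𝔪 L).restrictScalars O

/-- the Hecke action on the `𝔪`-primary part -/
def actLoc : A →ₐ[O] Module.End O ↥(locO (O := O) 𝔪 L) :=
  Algebra.lsmul O O ↥(locO (O := O) 𝔪 L)

omit [IsDomain O] [IsPrincipalIdealRing O] [IsLocalRing O]
  [IsAdicComplete (IsLocalRing.maximalIdeal O) O] [Module.Finite O L] [Module.Free O L] in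
@[simp] theorem coe_actLoc (a : A) (x : locO (O := O) 𝔪 L) :
    ((actLoc (O := O) 𝔪 a x : locO (O := O) 𝔪 L) : L) = a • (x : L) := rfl

/-- the restriction of an `A`-equivariant `O`-linear map to the `𝔪`-primary parts -/
def resLoc (f : L →ₗ[O] L0) (hf : ∀ (a : A) (x : L), f (a • x) = a • f x) :
    ↥(locO (O := O) 𝔪 L) →ₗ[O] ↥(locO (O := O) 𝔪 L0) :=
  f.restrict (p := locO (O := O) 𝔪 L) (q := locO (O := O) 𝔪 L0)
    (fun _ hx => apply_mem_locPart (toLin f hf) hx)

omit [IsDomain O] [IsPrincipalIdealRing O] [IsLocalRing O]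
  [IsAdicComplete (IsLocalRing.maximalIdeal O) O] [Module.Finite O L] [Module.Free O L]
  [Module.Finite O L0] [Module.Free O L0] in
@[simp] theorem coe_resLoc (f : L →ₗ[O] L0) (hf : ∀ (a : A) (x : L), f (a • x) = a • f x)
    (x : locO (O := O) 𝔪 L) : ((resLoc 𝔪 f hf x : locO (O := O) 𝔪 L0) : L0) = f (x : L) := rfl

omit [IsDomain O] [IsPrincipalIdealRing O] [IsLocalRing O]
  [IsAdicComplete (IsLocalRing.maximalIdeal O) O] [Module.Finite O L] [Module.Free O L] in
theorem coe_resLoc_pow (f : Module.End O L) (hf : ∀ (a : A) (x : L), f (a • x) = a • f x)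
    (m : ℕ) (x : locO (O := O) 𝔪 L) :
    (((resLoc 𝔪 f hf ^ m : Module.End O ↥(locO (O := O) 𝔪 L)) x : locO (O := O) 𝔪 L) : L)
      = (f ^ m) (x : L) :=
  coe_restrict_pow (locO (O := O) 𝔪 L) f _ m x

variable {F}
variable {actL0 : A →ₐ[O] Module.End O L0} {E0 : Fin k → Module.End O L0}

/-- the identification of a realised level with the `𝔪`-primary part of the ambient module -/
noncomputable def realEquiv (R : Realizes F actL0 𝔪 E0) (hact0 : ∀ a x, actL0 a x = a • x) :
    F.M ≃ₗ[O] ↥(locO (O := O) 𝔪 L0) :=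
  LinearEquiv.ofBijective
    (R.ι.codRestrict (locO (O := O) 𝔪 L0) (fun x =>
      (isLoc_iff_mem_locPart 𝔪 actL0 hact0 _).1 ((R.range _).1 ⟨x, rfl⟩)))
    ⟨fun x y h => R.inj (congrArg Subtype.val h), fun y => by
      obtain ⟨x, hx⟩ := (R.range (y : L0)).2 ((isLoc_iff_mem_locPart 𝔪 actL0 hact0 _).2 y.2)
      exact ⟨x, Subtype.ext hx⟩⟩

omit [IsDomain O] [IsPrincipalIdealRing O] [IsLocalRing O]
  [IsAdicComplete (IsLocalRing.maximalIdeal O) O] [Module.Finite O L0] [Module.Free O L0] in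
@[simp] theorem coe_realEquiv (R : Realizes F actL0 𝔪 E0) (hact0 : ∀ a x, actL0 a x = a • x)
    (x : F.M) : ((realEquiv 𝔪 R hact0 x : locO (O := O) 𝔪 L0) : L0) = R.ι x := rfl


variable {E : Fin k → Module.End O L}

/-- the one-step basis property on the `𝔪`-primary parts (`CycStep.Summand.exists_basis`) -/
theorem exists_stepBasis (R : Realizes F actL0 𝔪 E0) (hact0 : ∀ a x, actL0 a x = a • x)
    (ϖ : O) (hϖ0 : ϖ ≠ 0) (hmax : IsLocalRing.maximalIdeal O = Ideal.span {ϖ})
    (p n : ℕ) (hp : p.Prime) (hpϖ : (p : O) ∈ Ideal.span {ϖ}) (hq : ((p ^ n : ℕ) : O) ≠ 0)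
    (CS : CycStep O L L0 (p ^ n))
    (hD : ∀ (a : A) (x : L), CS.D (a • x) = a • CS.D x)
    (hcores : ∀ (a : A) (x : L), CS.cores (a • x) = a • CS.cores x)
    (τ : A) (hτ : τ ∉ 𝔪) (ht : ∀ x : L, CS.t x = τ • x)
    {ι : Type} [Fintype ι] (w : ι → ↥(locO (O := O) 𝔪 L)) (b : Basis ι O F.M)
    (hb : ∀ m, b m = (realEquiv 𝔪 R hact0).symm (resLoc 𝔪 CS.cores hcores (w m))) :
    ∃ b' : Basis (Fin (p ^ n) × ι) O ↥(locO (O := O) 𝔪 L),
      ∀ a m, b' (a, m) = (resLoc 𝔪 CS.D hD ^ (a : ℕ)) (w m) := by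
  have key : ∀ m, (((b.map (realEquiv 𝔪 R hact0)) m : locO (O := O) 𝔪 L0) : L0)
      = CS.cores ((w m : locO (O := O) 𝔪 L) : L) := by
    intro m
    rw [Basis.map_apply, hb, LinearEquiv.apply_symm_apply]
    rfl
  obtain ⟨b', hb'⟩ := CycStep.Summand.exists_basis ϖ hϖ0 hmax p n hp hpϖ hq
    (summandOfLoc CS 𝔪 hD hcores τ hτ ht)
    (fun m => ((w m : locO (O := O) 𝔪 L) : L)) (fun m => (w m).2)
    (b.map (realEquiv 𝔪 R hact0)) key
  refine ⟨b', ?_⟩
  intro a m
  apply Subtype.ext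
  exact (hb' a m).trans (coe_resLoc_pow 𝔪 CS.D hD (a : ℕ) (w m)).symm

/-- **One tower step from one cyclic step and the localisation at `𝔪`** (module form). -/
noncomputable def stepData (R : Realizes F actL0 𝔪 E0) (hact0 : ∀ a x, actL0 a x = a • x)
    (ϖ : O) (hϖ0 : ϖ ≠ 0) (hmax : IsLocalRing.maximalIdeal O = Ideal.span {ϖ})
    (p n : ℕ) (hp : p.Prime) (hpϖ : (p : O) ∈ Ideal.span {ϖ}) (hq : ((p ^ n : ℕ) : O) ≠ 0)
    (CS : CycStep O L L0 (p ^ n))
    (hD : ∀ (a : A) (x : L), CS.D (a • x) = a • CS.D x)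
    (hcores : ∀ (a : A) (x : L), CS.cores (a • x) = a • CS.cores x)
    (τ : A) (hτ : τ ∉ 𝔪) (ht : ∀ x : L, CS.t x = τ • x)
    (hE_pow : ∀ i, E i ^ N i = 1) (hE_comm : ∀ i j, E i * E j = E j * E i)
    (hE_D : ∀ i, CS.D * E i = E i * CS.D)
    (hE_act : ∀ (i : Fin k) (a : A) (x : L), E i (a • x) = a • E i x)
    (hE_cores : ∀ i x, CS.cores (E i x) = E0 i (CS.cores x)) :
    StepData (Fin.cons (p ^ n) N : Fin (k + 1) → ℕ) F where
  M := ↥(locO (O := O) 𝔪 L)
  act := actLoc (O := O) 𝔪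
  Dnew := resLoc 𝔪 CS.D hD
  Dold i := resLoc 𝔪 (E i) (hE_act i)
  Dnew_pow := by
    refine LinearMap.ext fun x => Subtype.ext ?_
    refine (coe_resLoc_pow 𝔪 CS.D hD (p ^ n) x).trans ?_
    rw [CS.D_pow]
    rfl
  Dold_pow i := by
    refine LinearMap.ext fun x => Subtype.ext ?_
    refine (coe_resLoc_pow 𝔪 (E i) (hE_act i) (N i) x).trans ?_
    rw [hE_pow]
    rfl
  Dold_comm i i' := by
    refine LinearMap.ext fun x => Subtype.ext ?_
    exact LinearMap.congr_fun (hE_comm i i') (x : L)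
  Dnew_comm i := by
    refine LinearMap.ext fun x => Subtype.ext ?_
    exact LinearMap.congr_fun (hE_D i) (x : L)
  act_Dnew t := by
    refine LinearMap.ext fun x => Subtype.ext ?_
    exact (hD t x).symm
  act_Dold t i := by
    refine LinearMap.ext fun x => Subtype.ext ?_
    exact (hE_act i t x).symm
  cores := (realEquiv 𝔪 R hact0).symm.toLinearMap ∘ₗ resLoc 𝔪 CS.cores hcores
  cores_surjective := by
    intro y
    obtain ⟨x, hx, hxy⟩ := (summandOfLoc CS 𝔪 hD hcores τ hτ ht).cores_surjOn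
      (x0 := ((realEquiv 𝔪 R hact0 y : locO (O := O) 𝔪 L0) : L0)) (realEquiv 𝔪 R hact0 y).2
    refine ⟨⟨x, hx⟩, ?_⟩
    rw [LinearMap.comp_apply, LinearEquiv.coe_coe, LinearEquiv.symm_apply_eq]
    exact Subtype.ext hxy
  ker_cores := by
    intro x
    rw [LinearMap.comp_apply, LinearEquiv.coe_coe, LinearEquiv.map_eq_zero_iff]
    constructor
    · intro h
      have h0 : CS.cores (x : L) = 0 := congrArg Subtype.val h
      obtain ⟨y, hy, hxy⟩ := (summandOfLoc CS 𝔪 hD hcores τ hτ ht).ker_cores_on x.2 h0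
      refine ⟨⟨y, hy⟩, Subtype.ext ?_⟩
      rw [hxy]
      rfl
    · rintro ⟨y, rfl⟩
      apply Subtype.ext
      show CS.cores (CS.D (y : L) - (y : L)) = 0
      rw [map_sub, CS.cores_D hq, sub_self]
  cores_Dold i x := by
    rw [LinearMap.comp_apply, LinearMap.comp_apply, LinearEquiv.coe_coe,
      LinearEquiv.symm_apply_eq]
    apply Subtype.ext
    rw [coe_realEquiv, R.ι_D, ← coe_realEquiv 𝔪 R hact0, LinearEquiv.apply_symm_apply]
    exact hE_cores i x
  cores_act t x := by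
    rw [LinearMap.comp_apply, LinearMap.comp_apply, LinearEquiv.coe_coe,
      LinearEquiv.symm_apply_eq]
    apply Subtype.ext
    rw [coe_realEquiv, R.ι_act, ← coe_realEquiv 𝔪 R hact0, LinearEquiv.apply_symm_apply, hact0]
    exact hcores t x
  basis_of_lift := fun w b hb =>
    exists_stepBasis 𝔪 R hact0 ϖ hϖ0 hmax p n hp hpϖ hq CS hD hcores τ hτ ht w b hb

/-- **the new level is again realised as an `𝔪`-primary part**, with the diamond operators
`Fin.cons CS.D E` -/
noncomputable def realizesExtend (actL : A →ₐ[O] Module.End O L) (hact : ∀ a x, actL a x = a • x)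
    (R : Realizes F actL0 𝔪 E0) (hact0 : ∀ a x, actL0 a x = a • x)
    (ϖ : O) (hϖ0 : ϖ ≠ 0) (hmax : IsLocalRing.maximalIdeal O = Ideal.span {ϖ})
    (p n : ℕ) (hp : p.Prime) (hpϖ : (p : O) ∈ Ideal.span {ϖ}) (hq : ((p ^ n : ℕ) : O) ≠ 0)
    (CS : CycStep O L L0 (p ^ n))
    (hD : ∀ (a : A) (x : L), CS.D (a • x) = a • CS.D x)
    (hcores : ∀ (a : A) (x : L), CS.cores (a • x) = a • CS.cores x)
    (τ : A) (hτ : τ ∉ 𝔪) (ht : ∀ x : L, CS.t x = τ • x)
    (hE_pow : ∀ i, E i ^ N i = 1) (hE_comm : ∀ i j, E i * E j = E j * E i)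
    (hE_D : ∀ i, CS.D * E i = E i * CS.D)
    (hE_act : ∀ (i : Fin k) (a : A) (x : L), E i (a • x) = a • E i x)
    (hE_cores : ∀ i x, CS.cores (E i x) = E0 i (CS.cores x)) :
    Realizes (stepData 𝔪 R hact0 ϖ hϖ0 hmax p n hp hpϖ hq CS hD hcores τ hτ ht hE_pow hE_comm hE_D
      hE_act hE_cores).extend actL 𝔪 (Fin.cons CS.D E : Fin (k + 1) → Module.End O L) where
  ι := (locO (O := O) 𝔪 L).subtype
  inj := Subtype.val_injective
  range x := by
    rw [isLoc_iff_mem_locPart 𝔪 actL hact]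
    constructor
    · rintro ⟨y, rfl⟩
      exact y.2
    · intro hx
      exact ⟨⟨x, hx⟩, rfl⟩
  ι_act t x := (hact t _).symm
  ι_D i x := by
    refine Fin.cases ?_ (fun i' => ?_) i
    · rfl
    · rw [Fin.cons_succ]
      rfl

end Producer

/-! ### the instance-free statement (pinned by helper95, board 5500) -/

/-- **THE ABSTRACT TOWER STEP.** -/
theorem exists_step {O : Type} [CommRing O] [IsDomain O] [IsPrincipalIdealRing O] [IsLocalRing O]
    [IsAdicComplete (IsLocalRing.maximalIdeal O) O] {A : Type} [CommRing A] [Algebra O A]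
    (𝔪 : Ideal A) [𝔪.IsMaximal] {M0 : Type} [AddCommGroup M0] [Module O M0]
    {act0 : A →ₐ[O] Module.End O M0} {k : ℕ} {N : Fin k → ℕ} (F : FreeLevel O A M0 act0 k N)
    {L L0 : Type} [AddCommGroup L] [Module O L] [Module.Finite O L] [Module.Free O L]
    [AddCommGroup L0] [Module O L0] [Module.Finite O L0] [Module.Free O L0]
    (actL : A →ₐ[O] Module.End O L) (actL0 : A →ₐ[O] Module.End O L0)
    (E : Fin k → Module.End O L) (E0 : Fin k → Module.End O L0)
    (R : Realizes F actL0 𝔪 E0) (ϖ : O) (hϖ0 : ϖ ≠ 0)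
    (hmax : IsLocalRing.maximalIdeal O = Ideal.span {ϖ}) (p n : ℕ) (hp : p.Prime)
    (hpϖ : (p : O) ∈ Ideal.span {ϖ}) (hq : ((p ^ n : ℕ) : O) ≠ 0)
    (CS : CycStep O L L0 (p ^ n)) (hD : ∀ a x, CS.D (actL a x) = actL a (CS.D x))
    (hcores : ∀ a x, CS.cores (actL a x) = actL0 a (CS.cores x)) (τ : A) (hτ : τ ∉ 𝔪)
    (ht : ∀ x, CS.t x = actL τ x) (hE_pow : ∀ i, E i ^ N i = 1)
    (hE_comm : ∀ i j, E i * E j = E j * E i) (hE_D : ∀ i, CS.D * E i = E i * CS.D)
    (hE_act : ∀ a i, actL a * E i = E i * actL a)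
    (hE_cores : ∀ i x, CS.cores (E i x) = E0 i (CS.cores x)) :
    ∃ F' : FreeLevel O A M0 act0 (k + 1) (Fin.cons (p ^ n) N : Fin (k + 1) → ℕ),
      Nonempty (Realizes F' actL 𝔪 (Fin.cons CS.D E : Fin (k + 1) → Module.End O L)) := by
  let instL : Module A L := Module.compHom L actL.toRingHom
  have towL : IsScalarTower O A L := ⟨fun o a x => by
    show actL (o • a) x = o • actL a x
    rw [map_smul]
    rfl⟩
  let instL0 : Module A L0 := Module.compHom L0 actL0.toRingHom
  have towL0 : IsScalarTower O A L0 := ⟨fun o a x => by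
    show actL0 (o • a) x = o • actL0 a x
    rw [map_smul]
    rfl⟩
  have hact : ∀ a x, actL a x = a • x := fun _ _ => rfl
  have hact0 : ∀ a x, actL0 a x = a • x := fun _ _ => rfl
  have hE_act' : ∀ (i : Fin k) (a : A) (x : L), E i (a • x) = a • E i x := fun i a x =>
    (LinearMap.congr_fun (hE_act a i) x).symm
  exact ⟨_, ⟨realizesExtend 𝔪 actL hact R hact0 ϖ hϖ0 hmax p n hp hpϖ hq CS hD hcores τ hτ ht
    hE_pow hE_comm hE_D hE_act' hE_cores⟩⟩

end Fermat.Agent.GB.B3.StepAbs
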