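import Mathlib
import Fermat.Agent.GB.B3.CycPlug2
import Fermat.Agent.GB.B3.HeckeActH
import Fermat.Agent.GB.B3.HomFree
import Fermat.Agent.GB.B3.StepAbs

/-!
GATE-B / B3 (helper95): **the concrete step of the Taylor–Wiles tower**, in the uniform shape
`Γ_H = GammaH θ ≤ Γ_{H''} = GammaH (π ∘ θ) ≤ Γ₀(N)` of helper2's `KerSys2`/`GammaH2`
(`θ : (ZMod N)ˣ →* Δ`, `π : Δ →* Δ''` with `ker π` cyclic of order `p ^ n`).

* `finiteIndex_GammaH`, `neg_one_mem_GammaH`;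
* `diaLin O θ d` : the `O`-linear diamond operator of `d ∈ Γ₀(N)` on `Hom(Γ_H, O)`; `diaLin_pow`,
  `diaLin_comm`;
* `exists_step_inst` : `StepAbs.exists_step` instantiated by `CycPlug.cycStepKKSL`
  (`GB/B3/CycPlug2.lean`),
  helper80's `HeckeActH.actH` (+ `coresHH_act`, `diaH_act`) and helper2's `coresHH_diaH`:
  a level realised in `Hom(Γ_{H''}, O)_𝔪` with diamonds `⟨d i⟩` gives a level realised in
  `Hom(Γ_H, O)_𝔪` with diamonds `⟨d0⟩, ⟨d i⟩`.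
-/

set_option autoImplicit false
set_option linter.unusedSectionVars false
set_option linter.style.haveILetI false

open scoped MatrixGroups
open CongruenceSubgroup

namespace Fermat.Agent.GB.B3.StepInst

open Fermat.Agent.GM.B Fermat.Agent.GB.B3 Fermat.Agent.GB.B3.EisGamma0
  Fermat.Agent.GB.B3.CycInst Fermat.Agent.GB.B3.CycPlug Fermat.Agent.GB.B3.FreeCyclic
  Fermat.Agent.GB.B3.TWLevel Fermat.Agent.GB.B3.RealLevel Fermat.Agent.GB.B3.HeckeActH
  Fermat.Agent.GB.B3.HeckeAct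

variable {N : ℕ}

section Groups

variable {Δ : Type} [CommGroup Δ] (θ : (ZMod N)ˣ →* Δ)

theorem Gamma_le_GammaH : Gamma N ≤ GamH.GammaH θ := by
  intro g hg
  obtain ⟨-, -, h10, h11⟩ := Gamma_mem.1 hg
  have hg0 : g ∈ Gamma0 N := Gamma0_mem.2 h10
  refine (GamH.mem_GammaH_iff θ g).2 ⟨hg0, ?_⟩
  have h1 : dUnits N ⟨g, hg0⟩ = 1 := by
    apply Units.ext
    rw [coe_dUnits, Units.val_one]
    exact h11
  rw [h1, map_one]

/-- `Γ_H` has finite index in `SL(2,ℤ)` -/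
theorem finiteIndex_GammaH [NeZero N] : (GamH.GammaH θ).FiniteIndex :=
  IsCongruenceSubgroup.finiteIndex ⟨N, NeZero.ne N, Gamma_le_GammaH θ⟩

theorem neg_one_mem_Gamma0 : (-1 : SL(2, ℤ)) ∈ Gamma0 N := by
  rw [Gamma0_mem]
  simp

theorem dUnits_neg_one : dUnits N ⟨-1, neg_one_mem_Gamma0⟩ = -1 := by
  apply Units.ext
  rw [coe_dUnits, Units.val_neg, Units.val_one]
  simp [Fermat.Agent.GM.EisClass.dN]

/-- `-1 ∈ Γ_H` when `θ (-1) = 1` -/
theorem neg_one_mem_GammaH (hneg : θ (-1) = 1) : (-1 : SL(2, ℤ)) ∈ GamH.GammaH θ :=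
  (GamH.mem_GammaH_iff θ _).2 ⟨neg_one_mem_Gamma0, by rw [dUnits_neg_one, hneg]⟩

end Groups

section Dia

variable (O : Type) [CommRing O] {Δ : Type} [CommGroup Δ] (θ : (ZMod N)ˣ →* Δ)

/-- the diamond operator of `d ∈ Γ₀(N)` on `Hom(Γ_H, O)`, as an `O`-linear map -/
noncomputable def diaLin (d : Gamma0 N) : Module.End O (Additive (GamH.GammaH θ) →+ O) :=
  opLin O (diaK embR (chi θ) d)

theorem diaLin_apply (d : Gamma0 N) (ψ : Additive (GamH.GammaH θ) →+ O) :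
    diaLin O θ d ψ = GamH.diaH θ O d ψ := rfl

theorem diaLin_pow (d : Gamma0 N) (n : ℕ) (hd : chi θ (d ^ n) = 1) : diaLin O θ d ^ n = 1 := by
  refine LinearMap.ext fun ψ => ?_
  rw [Module.End.one_apply]
  have h := dia_pow (emb := embR) (chi θ) O d n ψ
  exact h.trans (dia_of_ker (chi θ) _ hd ψ)

theorem diaLin_comm (d d' : Gamma0 N) :
    diaLin O θ d * diaLin O θ d' = diaLin O θ d' * diaLin O θ d := by
  refine LinearMap.ext fun ψ => ?_
  rw [Module.End.mul_apply, Module.End.mul_apply, diaLin_apply, diaLin_apply, diaLin_apply,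
    diaLin_apply]
  exact GamH.diaH_comm θ d d' ψ

end Dia

section Main

variable [NeZero N] (Sy : Symbols N)
variable {O : Type} [CommRing O] [IsDomain O] [IsPrincipalIdealRing O] [IsLocalRing O]
  [IsAdicComplete (IsLocalRing.maximalIdeal O) O] [Module.IsTorsionFree ℤ O]
variable (𝔪 : Ideal (Sy.𝕋 O)) [𝔪.IsMaximal]
variable {M0 : Type} [AddCommGroup M0] [Module O M0] {act0 : Sy.𝕋 O →ₐ[O] Module.End O M0}
variable {k : ℕ} {Nk : Fin k → ℕ} (F : FreeLevel O (Sy.𝕋 O) M0 act0 k Nk)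
variable {Δ Δ'' : Type} [CommGroup Δ] [CommGroup Δ''] (θ : (ZMod N)ˣ →* Δ) (π : Δ →* Δ'')
  [Fintype π.ker]

/-- the non-Eisenstein element `T_ℓ - (ℓ + 1)` of the algebra of symbols -/
noncomputable def tauOf (O : Type) [CommRing O] (s0 : Sy.ι₁) : Sy.𝕋 O :=
  MvPolynomial.X (Sum.inl s0) - MvPolynomial.C (((Sy.ℓ s0 + 1 : ℕ) : O))

/-- **the concrete step of the tower** -/
theorem exists_step_inst
    (rep : π.ker → Gamma0 N) (hrep : ∀ δ : π.ker, chi θ (rep δ) = (δ : Δ))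
    (d0 : Gamma0 N) (hd0 : chi θ d0 ∈ π.ker)
    (ϖ : O) (hϖ0 : ϖ ≠ 0) (hmax : IsLocalRing.maximalIdeal O = Ideal.span {ϖ})
    (p n : ℕ) (hp : p.Prime) (hpϖ : (p : O) ∈ Ideal.span {ϖ}) (hq : ((p ^ n : ℕ) : O) ≠ 0)
    (hord : orderOf (chi θ d0) = p ^ n) (hcard : Fintype.card π.ker = p ^ n)
    (hneg : θ (-1) = 1) (h2 : ¬ 2 ∣ p ^ n) (h3 : ¬ 3 ∣ p ^ n)
    (s0 : Sy.ι₁) (hτ : tauOf Sy O s0 ∉ 𝔪)
    (d : Fin k → Gamma0 N) (hdpow : ∀ i, chi θ (d i ^ Nk i) = 1)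
    (R : Realizes F (actH Sy O (π.comp θ)) 𝔪 (fun i => diaLin O (π.comp θ) (d i))) :
    ∃ F' : FreeLevel O (Sy.𝕋 O) M0 act0 (k + 1) (Fin.cons (p ^ n) Nk : Fin (k + 1) → ℕ),
      Nonempty (Realizes F' (actH Sy O θ) 𝔪
        (fun i => diaLin O θ ((Fin.cons d0 d : Fin (k + 1) → Gamma0 N) i))) := by
  classical
  haveI := Sy.factℓ s0
  haveI hfi : (GamH.GammaH θ).FiniteIndex := finiteIndex_GammaH θ
  haveI hfi' : (GamH.GammaH (π.comp θ)).FiniteIndex := finiteIndex_GammaH (π.comp θ)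
  haveI : Fintype (SL(2, ℤ) ⧸ kerSub (chi θ)) :=
    (GamH.GammaH θ).fintypeQuotientOfFiniteIndex
  haveI : Fintype (SL(2, ℤ) ⧸ kerSub (π.comp (chi θ))) :=
    (GamH.GammaH (π.comp θ)).fintypeQuotientOfFiniteIndex
  haveI : Module.Finite O (Additive (GamH.GammaH θ) →+ O) :=
    HomFree.homFinite_SL2Z (GamH.GammaH θ) O
  haveI : Module.Free O (Additive (GamH.GammaH θ) →+ O) :=
    HomFree.homFree_SL2Z (GamH.GammaH θ) O
  haveI : Module.Finite O (Additive (GamH.GammaH (π.comp θ)) →+ O) :=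
    HomFree.homFinite_SL2Z (GamH.GammaH (π.comp θ)) O
  haveI : Module.Free O (Additive (GamH.GammaH (π.comp θ)) →+ O) :=
    HomFree.homFree_SL2Z (GamH.GammaH (π.comp θ)) O
  have hq' : ∀ a : O, ((p ^ n : ℕ) : O) * a = 0 → a = 0 := fun a ha =>
    (mul_eq_zero.1 ha).resolve_left hq
  let CS : CycStep O (Additive (GamH.GammaH θ) →+ O) (Additive (GamH.GammaH (π.comp θ)) →+ O)
      (p ^ n) :=
    cycStepKKSL embR_injective (chi θ) π rep hrep (GamH.heckeSysD (Sy.hℓN s0))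
      (GamH.compat_heckeSysD θ (Sy.hℓN s0)) O (p ^ n) d0 hd0 hord hcard hq'
      (neg_one_mem_GammaH θ hneg) h2 h3
  have hDeq : CS.D = diaLin O θ d0 := rfl
  obtain ⟨F', ⟨R'⟩⟩ := StepAbs.exists_step 𝔪 F (actH Sy O θ) (actH Sy O (π.comp θ))
    (fun i => diaLin O θ (d i)) (fun i => diaLin O (π.comp θ) (d i)) R
    ϖ hϖ0 hmax p n hp hpϖ hq CS
    (fun a x => diaH_act Sy O θ d0 a x)
    (fun a x => coresHH_act Sy O θ π rep hrep a x)
    (tauOf Sy O s0) hτ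
    (fun x => by
      have h1 : CS.t x = GamH.TH θ O (Sy.hℓN s0) x
          - Fintype.card (GamH.heckeSysD (N := N) (Sy.hℓN s0)).ι • x := rfl
      rw [h1, tauOf, map_sub, LinearMap.sub_apply, actH_X_inl, actH_C, GamH.heckeSysD_card,
        Nat.cast_smul_eq_nsmul])
    (fun i => diaLin_pow O θ (d i) (Nk i) (hdpow i))
    (fun i j => diaLin_comm O θ (d i) (d j))
    (fun i => by rw [hDeq]; exact diaLin_comm O θ d0 (d i))
    (fun a i => by
      refine LinearMap.ext fun x => ?_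
      exact (diaH_act Sy O θ (d i) a x).symm)
    (fun i x => GamH.coresHH_diaH θ π rep hrep (d i) x)
  refine ⟨F', ⟨?_⟩⟩
  have hE : (Fin.cons CS.D (fun i => diaLin O θ (d i)) :
        Fin (k + 1) → Module.End O (Additive (GamH.GammaH θ) →+ O))
      = fun i => diaLin O θ ((Fin.cons d0 d : Fin (k + 1) → Gamma0 N) i) := by
    funext i
    refine Fin.cases ?_ (fun j => ?_) i
    · rw [Fin.cons_zero, Fin.cons_zero, hDeq]
    · rw [Fin.cons_succ, Fin.cons_succ]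
  rw [← hE]
  exact R'

/-- **the concrete step of the tower**, the section of `χ_θ` over the cyclic group `ker π` built
from the generator `d0` -/
theorem exists_step_inst'
    (d0 : Gamma0 N) (hd0 : chi θ d0 ∈ π.ker)
    (ϖ : O) (hϖ0 : ϖ ≠ 0) (hmax : IsLocalRing.maximalIdeal O = Ideal.span {ϖ})
    (p n : ℕ) (hp : p.Prime) (hpϖ : (p : O) ∈ Ideal.span {ϖ}) (hq : ((p ^ n : ℕ) : O) ≠ 0)
    (hord : orderOf (chi θ d0) = p ^ n) (hcard : Fintype.card π.ker = p ^ n)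
    (hneg : θ (-1) = 1) (h2 : ¬ 2 ∣ p ^ n) (h3 : ¬ 3 ∣ p ^ n)
    (s0 : Sy.ι₁) (hτ : tauOf Sy O s0 ∉ 𝔪)
    (d : Fin k → Gamma0 N) (hdpow : ∀ i, chi θ (d i ^ Nk i) = 1)
    (R : Realizes F (actH Sy O (π.comp θ)) 𝔪 (fun i => diaLin O (π.comp θ) (d i))) :
    ∃ F' : FreeLevel O (Sy.𝕋 O) M0 act0 (k + 1) (Fin.cons (p ^ n) Nk : Fin (k + 1) → ℕ),
      Nonempty (Realizes F' (actH Sy O θ) 𝔪
        (fun i => diaLin O θ ((Fin.cons d0 d : Fin (k + 1) → Gamma0 N) i))) := by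
  have hb := pow_bijectiveKK (chi θ) π (p ^ n) d0 hd0 hord hcard
  let rep : π.ker → Gamma0 N := fun δ => d0 ^ ((hb.2 δ).choose : ℕ)
  have hrep : ∀ δ : π.ker, chi θ (rep δ) = (δ : Δ) := by
    intro δ
    have h := (hb.2 δ).choose_spec
    show chi θ (d0 ^ ((hb.2 δ).choose : ℕ)) = (δ : Δ)
    rw [map_pow]
    exact congrArg Subtype.val h
  exact exists_step_inst Sy 𝔪 F θ π rep hrep d0 hd0 ϖ hϖ0 hmax p n hp hpϖ hq hord hcard hneg h2 h3
    s0 hτ d hdpow R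

end Main

end Fermat.Agent.GB.B3.StepInst
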