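import Mathlib
import Fermat.Agent.GB.B3.Eis
import Fermat.Agent.GM.B.Hecke
import Fermat.Agent.GM.EisClass.CohTEis

/-!
# GATE-B / B3-EIS (helper46): the Eisenstein relation on `Γ₀(N)` for an arbitrary quotient of
`(ℤ/N)ˣ`

Instance of `GB/B3/Eis` for the (untwisted) Hecke system `GM.B.heckeSys` on `Γ₀(N)`:
for `θ : (ZMod N)ˣ →* Δ` and `χ_θ := θ ∘ (d mod N)`, every `φ : Γ₀(N) → A` killing `ker χ_θ`
(i.e. killing `Γ_H`, `H = ker θ`) satisfies `T_ℓ φ = (ℓ + 1) φ`, `ℓ ∤ N`; consumer forms for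
helper95's freeness criterion (`[EIS]`): if `ψ` takes values in `q • A` on `Γ_H` then
`T_ℓ ψ - (ℓ + 1) ψ = q • ψ'`.

`θ = id` is `GM.EisClass.cohT_eq_smul_of_kills_Gamma1`.
-/

set_option autoImplicit false

open scoped MatrixGroups
open CongruenceSubgroup Matrix Matrix.SpecialLinearGroup
open P2MW.S_ModularForm_heckeT_slash_eq_self_of_mem_Gamma0.ModularForm.HeckeSlashInvariance
open Fermat.Agent.S16_helper49 Fermat.Agent.GM.B Fermat.Agent.GM.EisClass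

namespace Fermat.Agent.GB.B3.EisGamma0

variable {N : ℕ} {ℓ : ℕ} [Fact ℓ.Prime]

/-- `d mod N` as a homomorphism to the units of `ZMod N` -/
noncomputable def dUnits (N : ℕ) : Gamma0 N →* (ZMod N)ˣ := (Gamma0Map N).toHomUnits

theorem coe_dUnits (g : Gamma0 N) : ((dUnits N g : (ZMod N)ˣ) : ZMod N) = dN g := rfl

/-- the character `χ_θ = θ ∘ (d mod N)` of `Γ₀(N)` attached to a quotient `θ` of `(ℤ/N)ˣ` -/
noncomputable def chi {Δ : Type*} [CommGroup Δ] (θ : (ZMod N)ˣ →* Δ) : Gamma0 N →* Δ :=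
  θ.comp (dUnits N)

theorem chi_apply {Δ : Type*} [CommGroup Δ] (θ : (ZMod N)ˣ →* Δ) (g : Gamma0 N) :
    chi θ g = θ (dUnits N g) := rfl

theorem isUnit_dRep (hℓN : ¬ ℓ ∣ N) (x : OnePoint (ZMod ℓ)) :
    IsUnit (((dRep ℓ x : ℤ)) : ZMod N) := by
  induction x using OnePoint.rec with
  | infty =>
    change IsUnit (((1 : ℤ) : ℤ) : ZMod N)
    rw [Int.cast_one]
    exact isUnit_one
  | coe j =>
    change IsUnit (((ℓ : ℤ) : ℤ) : ZMod N)
    rw [Int.cast_natCast]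
    exact (ZMod.isUnit_iff_coprime ℓ N).mpr
      ((Nat.Prime.coprime_iff_not_dvd Fact.out).mpr hℓN)

/-- the unit `d(α_x) mod N` -/
noncomputable def deltaU (hℓN : ¬ ℓ ∣ N) (x : OnePoint (ZMod ℓ)) : (ZMod N)ˣ :=
  (isUnit_dRep hℓN x).unit

theorem coe_deltaU (hℓN : ¬ ℓ ∣ N) (x : OnePoint (ZMod ℓ)) :
    ((deltaU hℓN x : (ZMod N)ˣ) : ZMod N) = ((dRep ℓ x : ℤ) : ZMod N) := rfl

/-- the Borel-mod-`N` identity of the Hecke coset relation, in `(ZMod N)ˣ` -/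
theorem dUnits_relation (hℓN : ¬ ℓ ∣ N) (g : Gamma0 N) (x : OnePoint (ZMod ℓ)) :
    dUnits N ((heckeSys hℓN).c g x) * deltaU hℓN ((heckeSys hℓN).σ g x)
      = dUnits N g * deltaU hℓN x := by
  apply Units.ext
  rw [Units.val_mul, Units.val_mul, coe_dUnits, coe_dUnits, coe_deltaU, coe_deltaU]
  have h := dN_relation hℓN g x
  rw [mul_comm] at h
  exact h.symm

section Eis

variable {Δ : Type*} [CommGroup Δ] (θ : (ZMod N)ˣ →* Δ) {A : Type*} [AddCommGroup A]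

theorem chi_relation (hℓN : ¬ ℓ ∣ N) (g : Gamma0 N) (x : OnePoint (ZMod ℓ)) :
    chi θ ((heckeSys hℓN).c g x) * θ (deltaU hℓN ((heckeSys hℓN).σ g x))
      = chi θ g * θ (deltaU hℓN x) := by
  rw [chi_apply, chi_apply, ← map_mul, ← map_mul, dUnits_relation]

/-- **Eisenstein classes on `Γ₀(N)`**: a homomorphism killing `Γ_H = ker (θ ∘ d)` is an
eigenvector of `T_ℓ` with eigenvalue `ℓ + 1`. -/
theorem cohT_eq_smul_of_kills_ker (hℓN : ¬ ℓ ∣ N) (φ : Additive (Gamma0 N) →+ A)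
    (hφ : ∀ g : Gamma0 N, chi θ g = 1 → φ (Additive.ofMul g) = 0) :
    cohT hℓN A φ = (ℓ + 1) • φ := by
  have h := Eis.op_eq_card_nsmul_of_coboundary (heckeSys hℓN) (chi θ)
    (fun x => θ (deltaU hℓN x)) (chi_relation θ hℓN) φ hφ
  rw [heckeSys_op, heckeSys_card] at h
  exact h

/-- **consumer form** (`[EIS]` of the freeness criterion): if `ψ` takes values in `q • A` on
`Γ_H = ker (θ ∘ d)` and `A` has no `q`-torsion, then `T_ℓ ψ - (ℓ + 1) ψ = q • ψ'`. -/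
theorem exists_cohT_sub_eq_nsmul (hℓN : ¬ ℓ ∣ N) (q : ℕ) (hA : ∀ a : A, q • a = 0 → a = 0)
    (ψ : Additive (Gamma0 N) →+ A)
    (hψ : ∀ g : Gamma0 N, chi θ g = 1 → ∃ a : A, ψ (Additive.ofMul g) = q • a) :
    ∃ ψ' : Additive (Gamma0 N) →+ A, cohT hℓN A ψ - (ℓ + 1) • ψ = q • ψ' := by
  have h := Eis.exists_op_sub_card_nsmul_eq_nsmul (heckeSys hℓN) (chi θ)
    (fun x => θ (deltaU hℓN x)) (chi_relation θ hℓN) q hA ψ hψ
  rw [heckeSys_op, heckeSys_card] at h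
  exact h

/-- pointwise consumer form, no hypothesis on `A` -/
theorem cohT_sub_mem (hℓN : ¬ ℓ ∣ N) (q : ℕ) (ψ : Additive (Gamma0 N) →+ A)
    (hψ : ∀ g : Gamma0 N, chi θ g = 1 → ∃ a : A, ψ (Additive.ofMul g) = q • a)
    (g : Gamma0 N) :
    ∃ a : A, (cohT hℓN A ψ - (ℓ + 1) • ψ) (Additive.ofMul g) = q • a := by
  have h := Eis.op_sub_card_nsmul_mem (heckeSys hℓN) (chi θ)
    (fun x => θ (deltaU hℓN x)) (chi_relation θ hℓN) q ψ hψ g
  rw [heckeSys_op, heckeSys_card] at h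
  exact h

end Eis

end Fermat.Agent.GB.B3.EisGamma0
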