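import Mathlib
import Fermat.Agent.GB.B3.EisGamma0

/-!
# GATE-B / B3-HECKE, `T_ℓ` half (helper46): the `d`-normalised Hecke coset system on `Γ₀(N)`

`heckeSysD hℓN : CosetSys embR Γ₀(N) Γ₀(N)` is the twist of `GM.B.heckeSys hℓN` by elements
`e_x ∈ Γ₀(N)` with `d(e_x) ≡ d(α_x) (mod N)` (the `σ_ℓ`-normalisation of Diamond–Shurman):
representatives `e_x⁻¹ α_x`, same permutations.  Its cocycle preserves `d mod N`:

* `dUnits_c : dUnits N ((heckeSysD hℓN).c g x) = dUnits N g`,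

hence it is compatible with EVERY character `χ_θ = θ ∘ (d mod N)` (`chi_c`) and restricts to every
`Γ_H = ker χ_θ`; it defines the same operator `cohT hℓN` on `Hom(Γ₀(N), A)` (`heckeSysD_op`).
-/

set_option autoImplicit false

open scoped MatrixGroups
open CongruenceSubgroup Matrix Matrix.SpecialLinearGroup
open P2MW.S_ModularForm_heckeT_slash_eq_self_of_mem_Gamma0.ModularForm.HeckeSlashInvariance
open Fermat.Agent.S16_helper49 Fermat.Agent.GM.B Fermat.Agent.GM.EisClass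
open Fermat.Agent.GB.B3.EisGamma0

namespace Fermat.Agent.GB.B3.HeckeD

variable {N : ℕ} {ℓ : ℕ} [Fact ℓ.Prime]

theorem exists_dUnits_eq (hℓN : ¬ ℓ ∣ N) (x : OnePoint (ZMod ℓ)) :
    ∃ e : Gamma0 N, dUnits N e = deltaU hℓN x := by
  induction x using OnePoint.rec with
  | infty =>
    refine ⟨1, ?_⟩
    apply Units.ext
    rw [map_one, coe_deltaU]
    change (1 : ZMod N) = (((1 : ℤ) : ℤ) : ZMod N)
    rw [Int.cast_one]
  | coe j =>
    obtain ⟨e, he⟩ := exists_dN_eq (N := N) (ℓ := ℓ) hℓN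
    refine ⟨e, ?_⟩
    apply Units.ext
    rw [coe_dUnits, coe_deltaU, he]
    rfl

/-- elements `e_x ∈ Γ₀(N)` with `d(e_x) ≡ d(α_x) (mod N)` -/
noncomputable def eRep (hℓN : ¬ ℓ ∣ N) (x : OnePoint (ZMod ℓ)) : Gamma0 N :=
  (exists_dUnits_eq hℓN x).choose

theorem dUnits_eRep (hℓN : ¬ ℓ ∣ N) (x : OnePoint (ZMod ℓ)) :
    dUnits N (eRep hℓN x) = deltaU hℓN x :=
  (exists_dUnits_eq hℓN x).choose_spec

/-- the cocycle of the `d`-normalised system -/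
noncomputable def cD (hℓN : ¬ ℓ ∣ N) (g : Gamma0 N) (x : OnePoint (ZMod ℓ)) : Gamma0 N :=
  (eRep hℓN x)⁻¹ * (heckeSys hℓN).c g x * ((eRep hℓN ((heckeSys hℓN).σ g x))⁻¹)⁻¹

/-- **the `d`-normalised Hecke coset system** of `T_ℓ` at level `N`: representatives
`e_x⁻¹ α_x`. -/
noncomputable def heckeSysD (hℓN : ¬ ℓ ∣ N) : CosetSys embR (Gamma0 N) (Gamma0 N) :=
  (heckeSys hℓN).twist embR_injective 1 (fun x => (eRep hℓN x)⁻¹) (cD hℓN)
    (fun g x => by rw [mul_one, one_mul]; rfl)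

theorem heckeSysD_c (hℓN : ¬ ℓ ∣ N) (g : Gamma0 N) (x : OnePoint (ZMod ℓ)) :
    (heckeSysD hℓN).c g x = cD hℓN g x := rfl

theorem heckeSysD_σ (hℓN : ¬ ℓ ∣ N) (g : Gamma0 N) (x : OnePoint (ZMod ℓ)) :
    (heckeSysD hℓN).σ g x = (heckeSys hℓN).σ g x := rfl

theorem heckeSysD_a (hℓN : ¬ ℓ ∣ N) (x : OnePoint (ZMod ℓ)) :
    (heckeSysD hℓN).a x
      = 1 * embR (((eRep hℓN x)⁻¹ : Gamma0 N) : SL(2, ℤ)) * heckeRep ℓ x := rfl

/-- **the cocycle of `heckeSysD` preserves `d mod N`** -/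
theorem dUnits_c (hℓN : ¬ ℓ ∣ N) (g : Gamma0 N) (x : OnePoint (ZMod ℓ)) :
    dUnits N ((heckeSysD hℓN).c g x) = dUnits N g := by
  rw [heckeSysD_c, cD, inv_inv, map_mul, map_mul, map_inv, dUnits_eRep, dUnits_eRep,
    mul_assoc, dUnits_relation, mul_comm (dUnits N g), ← mul_assoc, inv_mul_cancel, one_mul]

/-- compatibility with every character `χ_θ = θ ∘ (d mod N)` -/
theorem chi_c {Δ : Type*} [CommGroup Δ] (θ : (ZMod N)ˣ →* Δ) (hℓN : ¬ ℓ ∣ N) (g : Gamma0 N)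
    (x : OnePoint (ZMod ℓ)) : chi θ ((heckeSysD hℓN).c g x) = chi θ g := by
  rw [chi_apply, chi_apply, dUnits_c]

/-- the lower right entry mod `N` is preserved -/
theorem dN_c (hℓN : ¬ ℓ ∣ N) (g : Gamma0 N) (x : OnePoint (ZMod ℓ)) :
    dN ((heckeSysD hℓN).c g x) = dN g := by
  rw [← coe_dUnits, ← coe_dUnits, dUnits_c]

/-- `heckeSysD` defines the same operator `T_ℓ` on `Hom(Γ₀(N), A)` -/
theorem heckeSysD_op (hℓN : ¬ ℓ ∣ N) (A : Type*) [AddCommGroup A] :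
    (heckeSysD hℓN).op A = cohT hℓN A := by
  rw [← heckeSys_op]
  refine AddMonoidHom.ext fun φ => ?_
  exact CosetSys.op_eq_of_equiv (heckeSys hℓN) (heckeSysD hℓN) embR_injective (Equiv.refl _) 1
    (fun x => by rw [one_mul, mul_one]) (fun x => (eRep hℓN x)⁻¹) (fun x => rfl)
    (fun g x => rfl) φ

theorem heckeSysD_card (hℓN : ¬ ℓ ∣ N) : Fintype.card (heckeSysD hℓN).ι = ℓ + 1 :=
  heckeSys_card hℓN

end Fermat.Agent.GB.B3.HeckeD
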