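import Mathlib
import Fermat.Agent.GB.B3.Realizes

/-!
GATE-B / B3 (helper95): **the base level of the Taylor–Wiles tower**, instance-free.

For an action `act : A →ₐ[O] End_O L` of a commutative `O`-algebra and an ideal `𝔪` of `A`:

* `locSub act 𝔪 : Submodule O L` — the `𝔪`-primary part `{x | IsLoc act 𝔪 x}`;
* `locSubAct act 𝔪 : A →ₐ[O] End_O (locSub act 𝔪)` — the restricted action;
* `baseLevel act 𝔪 b0 : FreeLevel O A (locSub act 𝔪) (locSubAct act 𝔪) 0 Fin.elim0` and
  `realizesBase : Realizes (baseLevel act 𝔪 b0) act 𝔪 elim0` — the input `F0`, `R0` of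
  `Tower.exists_tower`;
* `exists_basis_locSub` : over a principal ideal domain with `L` finite free, `locSub act 𝔪` has a
  finite basis.
-/

set_option autoImplicit false

namespace Fermat.Agent.GB.B3.Base

open Module Fermat.Agent.GB.B3.TWLevel Fermat.Agent.GB.B3.RealLevel

section Sub

variable {O : Type*} [CommRing O] {A : Type*} [CommRing A] [Algebra O A]
  {L : Type*} [AddCommGroup L] [Module O L] (act : A →ₐ[O] Module.End O L) (𝔪 : Ideal A)

/-- the `𝔪`-primary part of `L`, as an `O`-submodule (instance-free form of `Loc.locPart`) -/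
def locSub : Submodule O L where
  carrier := {x | IsLoc act 𝔪 x}
  add_mem' := by
    intro x y hx hy s hs
    obtain ⟨x', rfl⟩ := hx s hs
    obtain ⟨y', rfl⟩ := hy s hs
    exact ⟨x' + y', map_add _ _ _⟩
  zero_mem' := fun s _ => ⟨0, map_zero _⟩
  smul_mem' := by
    intro c x hx s hs
    obtain ⟨x', rfl⟩ := hx s hs
    exact ⟨c • x', map_smul _ _ _⟩

theorem mem_locSub {x : L} : x ∈ locSub act 𝔪 ↔ IsLoc act 𝔪 x := Iff.rfl

/-- the action preserves the primary part -/
theorem act_mem_locSub (t : A) {x : L} (hx : x ∈ locSub act 𝔪) : act t x ∈ locSub act 𝔪 := by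
  intro s hs
  obtain ⟨y, rfl⟩ := hx s hs
  refine ⟨act t y, ?_⟩
  rw [← Module.End.mul_apply, ← Module.End.mul_apply, ← map_mul, ← map_mul, mul_comm]

/-- the restricted action on the primary part -/
def locSubAct : A →ₐ[O] Module.End O (locSub act 𝔪) where
  toFun t := (act t).restrict fun _ hx => act_mem_locSub act 𝔪 t hx
  map_one' := by
    refine LinearMap.ext fun x => Subtype.ext ?_
    rw [LinearMap.coe_restrict_apply, map_one]
    rfl
  map_mul' s t := by
    refine LinearMap.ext fun x => Subtype.ext ?_
    rw [LinearMap.coe_restrict_apply, map_mul]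
    rfl
  map_zero' := by
    refine LinearMap.ext fun x => Subtype.ext ?_
    rw [LinearMap.coe_restrict_apply, map_zero]
    rfl
  map_add' s t := by
    refine LinearMap.ext fun x => Subtype.ext ?_
    rw [LinearMap.coe_restrict_apply, map_add]
    rfl
  commutes' c := by
    refine LinearMap.ext fun x => Subtype.ext ?_
    rw [LinearMap.coe_restrict_apply, AlgHom.commutes, Module.algebraMap_end_apply,
      Module.algebraMap_end_apply]
    rfl

@[simp] theorem coe_locSubAct (t : A) (x : locSub act 𝔪) :
    ((locSubAct act 𝔪 t x : locSub act 𝔪) : L) = act t (x : L) := rfl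

end Sub

section Level

variable {O : Type} [CommRing O] {A : Type} [CommRing A] [Algebra O A]
  {L : Type} [AddCommGroup L] [Module O L] (act : A →ₐ[O] Module.End O L) (𝔪 : Ideal A)

/-- **the base level** `Q = ∅` on the `𝔪`-primary part of `L` -/
noncomputable def baseLevel {d : ℕ} (b0 : Basis (Fin d) O (locSub act 𝔪)) :
    FreeLevel O A (locSub act 𝔪) (locSubAct act 𝔪) 0 Fin.elim0 :=
  FreeLevel.trivial O A (locSub act 𝔪) (locSubAct act 𝔪) b0

/-- the base level is realised in `L` -/
noncomputable def realizesBase {d : ℕ} (b0 : Basis (Fin d) O (locSub act 𝔪)) :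
    Realizes (baseLevel act 𝔪 b0) act 𝔪 (fun i => i.elim0) where
  ι := (locSub act 𝔪).subtype
  inj := Subtype.val_injective
  range x := by
    constructor
    · rintro ⟨y, rfl⟩
      exact (y : locSub act 𝔪).2
    · intro hx
      exact ⟨(⟨x, hx⟩ : locSub act 𝔪), rfl⟩
  ι_act _ _ := rfl
  ι_D i := i.elim0

variable [IsDomain O] [IsPrincipalIdealRing O] [Module.Finite O L] [Module.Free O L]

/-- over a principal ideal domain the primary part of a finite free module has a finite basis -/
theorem exists_basis_locSub : ∃ d : ℕ, Nonempty (Basis (Fin d) O (locSub act 𝔪)) :=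
  Submodule.nonempty_basis_of_pid (Module.Free.chooseBasis O L) (locSub act 𝔪)

end Level

end Fermat.Agent.GB.B3.Base
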