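import Mathlib
import Fermat.Agent.GB.B3.Base
import Fermat.Agent.GB.B3.HeckeActH

/-!
GATE-B / B3 (helper95): **the base level is `Hom(Γ₀(N), O)_𝔪`**.

The stage `0` of the tower is `GammaH θ` for a character `θ` with TRIVIAL target (`Theta Δs ψ 0`),
i.e. `Γ₀(N)` itself, but not definitionally.  This file transports along the restriction:

* `IsLoc_congr`, `locSubEquiv` : an equivariant `O`-linear equivalence `e : L ≃ L'` of Hecke modules
  restricts to `locSub act 𝔪 ≃ₗ[O] locSub act' 𝔪`, equivariantly (`locSubEquiv_act`);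
* `resEquiv θ O : Hom(Γ₀(N), O) ≃ₗ[O] Hom(GammaH θ, O)` for `[Subsingleton Δ]`, equal to `GamH.resH`
  (`resEquiv_apply`), equivariant for `act0`/`actH` (`resEquiv_act`);
* `baseEquiv Sy 𝔪 θ : locSub (act0 Sy O) 𝔪 ≃ₗ[O] locSub (actH Sy O θ) 𝔪` and `baseEquiv_act` —
  the interface for B8 (removal of the Taylor–Wiles primes from the level of the base module).
-/

set_option autoImplicit false
set_option linter.unusedSectionVars false

open scoped MatrixGroups
open CongruenceSubgroup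

namespace Fermat.Agent.GB.B3.BaseGamma0

open Fermat.Agent.GM.B Fermat.Agent.GB.B3 Fermat.Agent.GB.B3.EisGamma0
  Fermat.Agent.GB.B3.RealLevel Fermat.Agent.GB.B3.HeckeActH Fermat.Agent.GB.B3.Base

section Abstract

variable {O : Type*} [CommRing O] {A : Type*} [CommRing A] [Algebra O A]
  {L L' : Type*} [AddCommGroup L] [Module O L] [AddCommGroup L'] [Module O L']
  (act : A →ₐ[O] Module.End O L) (act' : A →ₐ[O] Module.End O L') (𝔪 : Ideal A)
  (e : L ≃ₗ[O] L') (he : ∀ a x, e (act a x) = act' a (e x))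

include he in
theorem IsLoc_congr (x : L) : IsLoc act 𝔪 x ↔ IsLoc act' 𝔪 (e x) := by
  constructor
  · intro h s hs
    obtain ⟨y, rfl⟩ := h s hs
    exact ⟨e y, (he s y).symm⟩
  · intro h s hs
    obtain ⟨y', hy'⟩ := h s hs
    refine ⟨e.symm y', e.injective ?_⟩
    rw [he, e.apply_symm_apply, hy']

/-- an equivariant equivalence restricts to the primary parts -/
noncomputable def locSubEquiv : locSub act 𝔪 ≃ₗ[O] locSub act' 𝔪 :=
  LinearEquiv.ofBijective
    (e.toLinearMap.restrict (p := locSub act 𝔪) (q := locSub act' 𝔪)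
      (fun x hx => (IsLoc_congr act act' 𝔪 e he x).1 hx))
    ⟨fun x y h => Subtype.ext (e.injective (congrArg Subtype.val h)),
      fun y => ⟨⟨e.symm y.1, (IsLoc_congr act act' 𝔪 e he _).2 (by
        rw [e.apply_symm_apply]; exact y.2)⟩, Subtype.ext (e.apply_symm_apply y.1)⟩⟩

@[simp] theorem coe_locSubEquiv (x : locSub act 𝔪) :
    ((locSubEquiv act act' 𝔪 e he x : locSub act' 𝔪) : L') = e (x : L) := rfl

theorem locSubEquiv_act (a : A) (x : locSub act 𝔪) :
    locSubEquiv act act' 𝔪 e he (locSubAct act 𝔪 a x)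
      = locSubAct act' 𝔪 a (locSubEquiv act act' 𝔪 e he x) :=
  Subtype.ext (he a x)

end Abstract

section Res

variable {N : ℕ} {Δ : Type} [CommGroup Δ] [Subsingleton Δ] (θ : (ZMod N)ˣ →* Δ)
  (O : Type*) [CommRing O]

/-- for a trivial target `GammaH θ` is `Γ₀(N)` -/
noncomputable def inclEquiv : GamH.GammaH θ ≃* Gamma0 N where
  toFun := kerIncl (chi θ)
  invFun g := kerMk (chi θ) g (Subsingleton.elim _ _)
  left_inv k := kerMk_kerIncl (chi θ) k
  right_inv g := kerIncl_kerMk (chi θ) g _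
  map_mul' := map_mul _

/-- restriction `Hom(Γ₀(N), O) → Hom(GammaH θ, O)` is an equivalence for a trivial target -/
noncomputable def resEquiv : (Additive (Gamma0 N) →+ O) ≃ₗ[O] (Additive (GamH.GammaH θ) →+ O) where
  toFun φ := φ.comp (MonoidHom.toAdditive (inclEquiv θ).toMonoidHom)
  invFun ψ := ψ.comp (MonoidHom.toAdditive (inclEquiv θ).symm.toMonoidHom)
  map_add' _ _ := rfl
  map_smul' _ _ := rfl
  left_inv φ := by
    refine AddMonoidHom.ext fun g => ?_
    obtain ⟨g, rfl⟩ : ∃ g' : Gamma0 N, Additive.ofMul g' = g := ⟨Additive.toMul g, rfl⟩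
    show φ (Additive.ofMul ((inclEquiv θ) ((inclEquiv θ).symm g))) = _
    rw [MulEquiv.apply_symm_apply]
  right_inv ψ := by
    refine AddMonoidHom.ext fun k => ?_
    obtain ⟨k, rfl⟩ : ∃ k' : GamH.GammaH θ, Additive.ofMul k' = k := ⟨Additive.toMul k, rfl⟩
    show ψ (Additive.ofMul ((inclEquiv θ).symm ((inclEquiv θ) k))) = _
    rw [MulEquiv.symm_apply_apply]

theorem resEquiv_apply (φ : Additive (Gamma0 N) →+ O) : resEquiv θ O φ = GamH.resH θ O φ := by
  refine AddMonoidHom.ext fun k => ?_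
  obtain ⟨k, rfl⟩ : ∃ k' : GamH.GammaH θ, Additive.ofMul k' = k := ⟨Additive.toMul k, rfl⟩
  rw [GamH.resH_apply]
  rfl

end Res

section Base

variable {N : ℕ} (Sy : Symbols N) {O : Type} [CommRing O] (𝔪 : Ideal (Sy.𝕋 O))
  {Δ : Type} [CommGroup Δ] [Subsingleton Δ] (θ : (ZMod N)ˣ →* Δ)

theorem resEquiv_act (a : Sy.𝕋 O) (φ : Additive (Gamma0 N) →+ O) :
    resEquiv θ O (act0 Sy O a φ) = actH Sy O θ a (resEquiv θ O φ) := by
  rw [resEquiv_apply, resEquiv_apply]
  exact resH_act Sy O θ a φ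

/-- **the base module of the tower is `Hom(Γ₀(N), O)_𝔪`** -/
noncomputable def baseEquiv : locSub (act0 Sy O) 𝔪 ≃ₗ[O] locSub (actH Sy O θ) 𝔪 :=
  locSubEquiv (act0 Sy O) (actH Sy O θ) 𝔪 (resEquiv θ O) (resEquiv_act Sy θ)

theorem coe_baseEquiv (x : locSub (act0 Sy O) 𝔪) :
    ((baseEquiv Sy 𝔪 θ x : locSub (actH Sy O θ) 𝔪) : Additive (GamH.GammaH θ) →+ O)
      = GamH.resH θ O (x : Additive (Gamma0 N) →+ O) :=
  resEquiv_apply θ O _

theorem baseEquiv_act (a : Sy.𝕋 O) (x : locSub (act0 Sy O) 𝔪) :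
    baseEquiv Sy 𝔪 θ (locSubAct (act0 Sy O) 𝔪 a x)
      = locSubAct (actH Sy O θ) 𝔪 a (baseEquiv Sy 𝔪 θ x) :=
  locSubEquiv_act _ _ 𝔪 _ _ a x

end Base

end Fermat.Agent.GB.B3.BaseGamma0
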