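/-
GATE-B / GB-B3-CHI (helper24): the `χ`-part of a module with an operator, node (B3-CHI) of
helper95's B3 plan (board 5122) and of CELL-B DESIGN v1 (board 4996 §4, "(χ-side)").
Mathlib only.

Setting.  `Λ` a commutative ring (think `𝒪` or `𝒪[Δ_Q]`), `P` a `Λ`-module
(think `H¹(Γ₀(M/q) ∩ Γ_H(q) ∩ Γ_H(Q), 𝒪)_𝔪`), `D : P →ₗ[Λ] P` the diamond generator of the cyclic
`p`-group `Δ_q`, `c : Λ` the value `χ(D)` of a character `χ : Δ_q → 𝒪ˣ`.

* `chiRange D c = (D - c) P`, `ChiCoinv D c = P ⧸ (D - c) P` the `χ`-coinvariants `M^χ`,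
  `ChiCoinvMod D c I = M^χ ⧸ I M^χ`.
* `chiRange_sup_smul_eq` : `c - c' ∈ I` ⟹ `(D - c) P + I P = (D - c') P + I P`.
* `chiCongr` : `c - c' ∈ I` ⟹ `M^χ ⧸ I ≃ₗ[Λ] M^χ' ⧸ I`, the identity on representatives
  (`chiCongr_mk_mk`); `chiCongrQ` the same as a `Λ ⧸ I`-linear equivalence;
  NO freeness is needed for this.
* equivariance: `chiCongr_comm_of_repr` (any pair of operators induced by one `t : P → P`),
  `chiCongr_comp_coinvModMap` (for `t` commuting with `D`).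
* `chiToBase` : with `cores : P → P₀` onto, `ker cores = (D - 1) P` (helper95 5122 STEP (i)/(iii))
  and `c - 1 ∈ I`:  `M^χ ⧸ I ≃ₗ[Λ] P₀ ⧸ I`, `[[x]] ↦ [cores x]`, equivariant
  (`chiToBase_comm_of_repr`).
* freeness: `basisChiCoinv` — if `P` has a `Λ`-basis `b (i, j) = D^j (v i)` (`j < q`), `D^q = 1`
  (i.e. `P` is free over `Λ[X]/(X^q - 1)`, `X ↦ D`, on the `v i`) and `c^q = 1`, then the classes of
  the `v i` are a `Λ`-basis of `M^χ`; so `M^χ` is free of the same rank for every `χ`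
  (`c = 1`: the rank of `M¹ = P₀`).
-/
import Mathlib

set_option autoImplicit false

namespace Fermat.Agent.GB.B3.Chi

open Submodule

variable {Λ : Type*} [CommRing Λ] {P : Type*} [AddCommGroup P] [Module Λ P]

/-- `(D - c) P`: the submodule whose quotient is the module of `χ`-coinvariants. -/
def chiRange (D : P →ₗ[Λ] P) (c : Λ) : Submodule Λ P :=
  LinearMap.range (D - c • LinearMap.id)

theorem mem_chiRange {D : P →ₗ[Λ] P} {c : Λ} {y : P} :
    y ∈ chiRange D c ↔ ∃ x, D x - c • x = y := by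
  simp [chiRange, LinearMap.mem_range]

theorem sub_smul_mem_chiRange (D : P →ₗ[Λ] P) (c : Λ) (x : P) : D x - c • x ∈ chiRange D c :=
  mem_chiRange.2 ⟨x, rfl⟩

theorem chiRange_one (D : P →ₗ[Λ] P) : chiRange D 1 = LinearMap.range (D - LinearMap.id) := by
  rw [chiRange, one_smul]

/-- `(D - c) P ⊆ (D - c') P + I P` when `c ≡ c' mod I`. -/
theorem chiRange_le_sup_smul (D : P →ₗ[Λ] P) (I : Ideal Λ) {c c' : Λ} (h : c - c' ∈ I) :
    chiRange D c ≤ chiRange D c' ⊔ I • (⊤ : Submodule Λ P) := by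
  intro y hy
  obtain ⟨x, rfl⟩ := mem_chiRange.1 hy
  have e : D x - c • x = (D x - c' • x) + (-(c - c')) • x := by
    rw [neg_smul, sub_smul]; abel
  rw [e]
  exact add_mem (mem_sup_left (sub_smul_mem_chiRange D c' x))
    (mem_sup_right (smul_mem_smul (I.neg_mem h) mem_top))

/-- **(B3-CHI), submodule form.**  `(D - c) P + I P = (D - c') P + I P` when `c ≡ c' mod I`. -/
theorem chiRange_sup_smul_eq (D : P →ₗ[Λ] P) (I : Ideal Λ) {c c' : Λ} (h : c - c' ∈ I) :
    chiRange D c ⊔ I • (⊤ : Submodule Λ P) = chiRange D c' ⊔ I • (⊤ : Submodule Λ P) := by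
  have h' : c' - c ∈ I := by rw [← neg_sub]; exact I.neg_mem h
  exact le_antisymm (sup_le (chiRange_le_sup_smul D I h) le_sup_right)
    (sup_le (chiRange_le_sup_smul D I h') le_sup_right)

/-- The `χ`-coinvariants `M^χ = P ⧸ (D - c) P`. -/
abbrev ChiCoinv (D : P →ₗ[Λ] P) (c : Λ) : Type _ := P ⧸ chiRange D c

/-- `M^χ ⧸ I M^χ`. -/
abbrev ChiCoinvMod (D : P →ₗ[Λ] P) (c : Λ) (I : Ideal Λ) : Type _ :=
  ChiCoinv D c ⧸ (I • ⊤ : Submodule Λ (ChiCoinv D c))

/-- The class of `x : P` in `M^χ`. -/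
abbrev cmk (D : P →ₗ[Λ] P) (c : Λ) (x : P) : ChiCoinv D c := Submodule.Quotient.mk x

/-- The class of `x : P` in `M^χ ⧸ I`. -/
abbrev cmkMod (D : P →ₗ[Λ] P) (c : Λ) (I : Ideal Λ) (x : P) : ChiCoinvMod D c I :=
  Submodule.Quotient.mk (cmk D c x)

theorem cmk_surjective (D : P →ₗ[Λ] P) (c : Λ) : Function.Surjective (cmk D c) :=
  Submodule.Quotient.mk_surjective _

theorem cmkMod_surjective (D : P →ₗ[Λ] P) (c : Λ) (I : Ideal Λ) :
    Function.Surjective (cmkMod D c I) :=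
  (Submodule.Quotient.mk_surjective _).comp (cmk_surjective D c)

/-- `D` acts on `M^χ` as the scalar `c`. -/
theorem cmk_apply (D : P →ₗ[Λ] P) (c : Λ) (x : P) : cmk D c (D x) = c • cmk D c x := by
  rw [cmk, cmk, ← Submodule.Quotient.mk_smul, Submodule.Quotient.eq]
  exact sub_smul_mem_chiRange D c x

theorem cmk_pow_apply (D : P →ₗ[Λ] P) (c : Λ) (n : ℕ) (x : P) :
    cmk D c ((D ^ n) x) = c ^ n • cmk D c x := by
  induction n with
  | zero => simp
  | succ n ih =>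
    rw [pow_succ', Module.End.mul_apply, cmk_apply, ih, smul_smul, pow_succ']

/-- `(M^χ) ⧸ I M^χ = P ⧸ ((D - c) P + I P)`. -/
noncomputable def chiCoinvModEquiv (D : P →ₗ[Λ] P) (c : Λ) (I : Ideal Λ) :
    ChiCoinvMod D c I ≃ₗ[Λ] P ⧸ (chiRange D c ⊔ I • (⊤ : Submodule Λ P)) :=
  quotEquivOfEq _ _ (by rw [Submodule.map_smul'', Submodule.map_top, Submodule.range_mkQ]) ≪≫ₗ
    quotientQuotientEquivQuotientSup (chiRange D c) (I • ⊤)

theorem chiCoinvModEquiv_cmkMod (D : P →ₗ[Λ] P) (c : Λ) (I : Ideal Λ) (x : P) :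
    chiCoinvModEquiv D c I (cmkMod D c I x) = Submodule.Quotient.mk x := rfl

theorem chiCoinvModEquiv_symm_mk (D : P →ₗ[Λ] P) (c : Λ) (I : Ideal Λ) (x : P) :
    (chiCoinvModEquiv D c I).symm (Submodule.Quotient.mk x) = cmkMod D c I x := by
  rw [LinearEquiv.symm_apply_eq, chiCoinvModEquiv_cmkMod]

/-- **(B3-CHI).**  For `c ≡ c' mod I` the reductions mod `I` of the `χ`- and `χ'`-coinvariants
are canonically isomorphic (identity on representatives).  No freeness needed. -/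
noncomputable def chiCongr (D : P →ₗ[Λ] P) (I : Ideal Λ) {c c' : Λ} (h : c - c' ∈ I) :
    ChiCoinvMod D c I ≃ₗ[Λ] ChiCoinvMod D c' I :=
  chiCoinvModEquiv D c I ≪≫ₗ quotEquivOfEq _ _ (chiRange_sup_smul_eq D I h) ≪≫ₗ
    (chiCoinvModEquiv D c' I).symm

@[simp] theorem chiCongr_mk_mk (D : P →ₗ[Λ] P) (I : Ideal Λ) {c c' : Λ} (h : c - c' ∈ I) (x : P) :
    chiCongr D I h (cmkMod D c I x) = cmkMod D c' I x := by
  simp only [chiCongr, LinearEquiv.trans_apply, chiCoinvModEquiv_cmkMod, quotEquivOfEq_mk,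
    chiCoinvModEquiv_symm_mk]

/-- The same isomorphism as a `Λ ⧸ I`-linear equivalence. -/
noncomputable def chiCongrQ (D : P →ₗ[Λ] P) (I : Ideal Λ) {c c' : Λ} (h : c - c' ∈ I) :
    ChiCoinvMod D c I ≃ₗ[Λ ⧸ I] ChiCoinvMod D c' I :=
  { chiCongr D I h with
    map_smul' := by
      intro r x
      obtain ⟨r, rfl⟩ := Ideal.Quotient.mk_surjective r
      exact (chiCongr D I h).map_smul r x }

@[simp] theorem chiCongrQ_apply (D : P →ₗ[Λ] P) (I : Ideal Λ) {c c' : Λ} (h : c - c' ∈ I)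
    (y : ChiCoinvMod D c I) : chiCongrQ D I h y = chiCongr D I h y := rfl

/-- **Equivariance, representative form.**  If `T` on `M^χ ⧸ I` and `T'` on `M^χ' ⧸ I` are both
induced by one and the same map `t : P → P` on representatives (Hecke operators, the action of the
deformation ring, ...), then `chiCongr` intertwines them. -/
theorem chiCongr_comm_of_repr (D : P →ₗ[Λ] P) (I : Ideal Λ) {c c' : Λ} (h : c - c' ∈ I)
    (t : P → P) (T : ChiCoinvMod D c I → ChiCoinvMod D c I)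
    (T' : ChiCoinvMod D c' I → ChiCoinvMod D c' I)
    (hT : ∀ x, T (cmkMod D c I x) = cmkMod D c I (t x))
    (hT' : ∀ x, T' (cmkMod D c' I x) = cmkMod D c' I (t x)) (y : ChiCoinvMod D c I) :
    chiCongr D I h (T y) = T' (chiCongr D I h y) := by
  obtain ⟨x, rfl⟩ := cmkMod_surjective D c I y
  rw [hT, chiCongr_mk_mk, chiCongr_mk_mk, hT']

section Induced

variable {D : P →ₗ[Λ] P}

theorem chiRange_le_comap {t : P →ₗ[Λ] P} (ht : t ∘ₗ D = D ∘ₗ t) (c : Λ) :
    chiRange D c ≤ (chiRange D c).comap t := by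
  intro y hy
  obtain ⟨x, rfl⟩ := mem_chiRange.1 hy
  rw [Submodule.mem_comap, map_sub, map_smul]
  have : t (D x) = D (t x) := LinearMap.congr_fun ht x
  rw [this]
  exact sub_smul_mem_chiRange D c (t x)

/-- The endomorphism of `M^χ` induced by an endomorphism `t` of `P` commuting with `D`. -/
def coinvMap {t : P →ₗ[Λ] P} (ht : t ∘ₗ D = D ∘ₗ t) (c : Λ) : ChiCoinv D c →ₗ[Λ] ChiCoinv D c :=
  mapQ _ _ t (chiRange_le_comap ht c)

@[simp] theorem coinvMap_cmk {t : P →ₗ[Λ] P} (ht : t ∘ₗ D = D ∘ₗ t) (c : Λ) (x : P) :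
    coinvMap ht c (cmk D c x) = cmk D c (t x) := rfl

/-- The endomorphism of `M^χ ⧸ I` induced by an endomorphism `t` of `P` commuting with `D`. -/
def coinvModMap {t : P →ₗ[Λ] P} (ht : t ∘ₗ D = D ∘ₗ t) (c : Λ) (I : Ideal Λ) :
    ChiCoinvMod D c I →ₗ[Λ] ChiCoinvMod D c I :=
  mapQ _ _ (coinvMap ht c) (smul_top_le_comap_smul_top I _)

@[simp] theorem coinvModMap_cmkMod {t : P →ₗ[Λ] P} (ht : t ∘ₗ D = D ∘ₗ t) (c : Λ) (I : Ideal Λ)
    (x : P) : coinvModMap ht c I (cmkMod D c I x) = cmkMod D c I (t x) := rfl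

/-- **Equivariance** of `chiCongr` for every endomorphism of `P` commuting with `D`. -/
theorem chiCongr_comp_coinvModMap {t : P →ₗ[Λ] P} (ht : t ∘ₗ D = D ∘ₗ t) (I : Ideal Λ)
    {c c' : Λ} (h : c - c' ∈ I) :
    (chiCongr D I h).toLinearMap ∘ₗ coinvModMap ht c I =
      coinvModMap ht c' I ∘ₗ (chiCongr D I h).toLinearMap := by
  refine LinearMap.ext fun y => ?_
  exact chiCongr_comm_of_repr D I h t _ _ (coinvModMap_cmkMod ht c I)
    (coinvModMap_cmkMod ht c' I) y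

end Induced

section Cores

variable {P₀ : Type*} [AddCommGroup P₀] [Module Λ P₀]

/-- `M¹ = P ⧸ (D - 1) P ≃ P₀` via a surjective `cores` with kernel `(D - 1) P`
(helper95, board 5122, STEP (i)/(iii)). -/
noncomputable def coresEquiv (D : P →ₗ[Λ] P) (cores : P →ₗ[Λ] P₀)
    (hsurj : Function.Surjective cores) (hker : LinearMap.ker cores = chiRange D 1) :
    ChiCoinv D 1 ≃ₗ[Λ] P₀ :=
  quotEquivOfEq _ _ hker.symm ≪≫ₗ cores.quotKerEquivOfSurjective hsurj

@[simp] theorem coresEquiv_cmk (D : P →ₗ[Λ] P) (cores : P →ₗ[Λ] P₀)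
    (hsurj : Function.Surjective cores) (hker : LinearMap.ker cores = chiRange D 1) (x : P) :
    coresEquiv D cores hsurj hker (cmk D 1 x) = cores x := rfl

/-- `M¹ ⧸ I ≃ P₀ ⧸ I`. -/
noncomputable def coresEquivMod (D : P →ₗ[Λ] P) (cores : P →ₗ[Λ] P₀)
    (hsurj : Function.Surjective cores) (hker : LinearMap.ker cores = chiRange D 1)
    (I : Ideal Λ) : ChiCoinvMod D 1 I ≃ₗ[Λ] P₀ ⧸ (I • ⊤ : Submodule Λ P₀) :=
  Submodule.Quotient.equiv _ _ (coresEquiv D cores hsurj hker) (by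
    rw [Submodule.map_smul'', Submodule.map_top, LinearMap.range_eq_top.2
      (coresEquiv D cores hsurj hker).surjective])

@[simp] theorem coresEquivMod_cmkMod (D : P →ₗ[Λ] P) (cores : P →ₗ[Λ] P₀)
    (hsurj : Function.Surjective cores) (hker : LinearMap.ker cores = chiRange D 1)
    (I : Ideal Λ) (x : P) :
    coresEquivMod D cores hsurj hker I (cmkMod D 1 I x) = Submodule.Quotient.mk (cores x) := rfl

/-- **(B3-CHI), consumer form** `M^χ ⧸ λ ≃ M¹ ⧸ λ`: `P₀ = M¹` the module at level `Γ₀`,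
`cores : P → P₀` onto with kernel `(D - 1) P`, `χ(D) = c ≡ 1 mod I`.  On representatives
`[[x]] ↦ [cores x]`. -/
noncomputable def chiToBase (D : P →ₗ[Λ] P) (cores : P →ₗ[Λ] P₀)
    (hsurj : Function.Surjective cores) (hker : LinearMap.ker cores = chiRange D 1)
    (I : Ideal Λ) {c : Λ} (h : c - 1 ∈ I) :
    ChiCoinvMod D c I ≃ₗ[Λ] P₀ ⧸ (I • ⊤ : Submodule Λ P₀) :=
  chiCongr D I h ≪≫ₗ coresEquivMod D cores hsurj hker I

@[simp] theorem chiToBase_cmkMod (D : P →ₗ[Λ] P) (cores : P →ₗ[Λ] P₀)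
    (hsurj : Function.Surjective cores) (hker : LinearMap.ker cores = chiRange D 1)
    (I : Ideal Λ) {c : Λ} (h : c - 1 ∈ I) (x : P) :
    chiToBase D cores hsurj hker I h (cmkMod D c I x) = Submodule.Quotient.mk (cores x) := by
  rw [chiToBase, LinearEquiv.trans_apply, chiCongr_mk_mk, coresEquivMod_cmkMod]

/-- The same as a `Λ ⧸ I`-linear equivalence. -/
noncomputable def chiToBaseQ (D : P →ₗ[Λ] P) (cores : P →ₗ[Λ] P₀)
    (hsurj : Function.Surjective cores) (hker : LinearMap.ker cores = chiRange D 1)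
    (I : Ideal Λ) {c : Λ} (h : c - 1 ∈ I) :
    ChiCoinvMod D c I ≃ₗ[Λ ⧸ I] P₀ ⧸ (I • ⊤ : Submodule Λ P₀) :=
  { chiToBase D cores hsurj hker I h with
    map_smul' := by
      intro r x
      obtain ⟨r, rfl⟩ := Ideal.Quotient.mk_surjective r
      exact (chiToBase D cores hsurj hker I h).map_smul r x }

@[simp] theorem chiToBaseQ_apply (D : P →ₗ[Λ] P) (cores : P →ₗ[Λ] P₀)
    (hsurj : Function.Surjective cores) (hker : LinearMap.ker cores = chiRange D 1)
    (I : Ideal Λ) {c : Λ} (h : c - 1 ∈ I) (y : ChiCoinvMod D c I) :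
    chiToBaseQ D cores hsurj hker I h y = chiToBase D cores hsurj hker I h y := rfl

/-- **Equivariance of `chiToBase`**: if `T` on `M^χ ⧸ I` is induced by `t : P → P` on
representatives, `T₀` on `P₀ ⧸ I` by `t₀ : P₀ → P₀`, and `cores ∘ t = t₀ ∘ cores`, then
`chiToBase` intertwines `T` and `T₀`. -/
theorem chiToBase_comm_of_repr (D : P →ₗ[Λ] P) (cores : P →ₗ[Λ] P₀)
    (hsurj : Function.Surjective cores) (hker : LinearMap.ker cores = chiRange D 1)
    (I : Ideal Λ) {c : Λ} (h : c - 1 ∈ I)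
    (t : P → P) (t₀ : P₀ → P₀) (htt : ∀ x, cores (t x) = t₀ (cores x))
    (T : ChiCoinvMod D c I → ChiCoinvMod D c I)
    (T₀ : P₀ ⧸ (I • ⊤ : Submodule Λ P₀) → P₀ ⧸ (I • ⊤ : Submodule Λ P₀))
    (hT : ∀ x, T (cmkMod D c I x) = cmkMod D c I (t x))
    (hT₀ : ∀ x₀, T₀ (Submodule.Quotient.mk x₀) = Submodule.Quotient.mk (t₀ x₀))
    (y : ChiCoinvMod D c I) :
    chiToBase D cores hsurj hker I h (T y) = T₀ (chiToBase D cores hsurj hker I h y) := by
  obtain ⟨x, rfl⟩ := cmkMod_surjective D c I y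
  rw [hT, chiToBase_cmkMod, chiToBase_cmkMod, hT₀, htt]

end Cores

section Free

variable {ι : Type*} {q : ℕ}

/-- The coordinate map `P → (ι →₀ Λ)`, `D^j (v i) ↦ c^j • e_i`. -/
noncomputable def chiCoord (b : Module.Basis (ι × Fin q) Λ P) (c : Λ) : P →ₗ[Λ] (ι →₀ Λ) :=
  b.constr Λ fun ij => Finsupp.single ij.1 (c ^ (ij.2 : ℕ))

@[simp] theorem chiCoord_basis (b : Module.Basis (ι × Fin q) Λ P) (c : Λ) (i : ι) (j : Fin q) :
    chiCoord b c (b (i, j)) = Finsupp.single i (c ^ (j : ℕ)) := by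
  rw [chiCoord, Module.Basis.constr_basis]

theorem chiCoord_apply_D {D : P →ₗ[Λ] P} {c : Λ} (v : ι → P)
    (b : Module.Basis (ι × Fin q) Λ P) (hb : ∀ i (j : Fin q), b (i, j) = (D ^ (j : ℕ)) (v i))
    (hD : D ^ q = 1) (hc : c ^ q = 1) (x : P) : chiCoord b c (D x) = c • chiCoord b c x := by
  have key : ∀ ij : ι × Fin q, chiCoord b c (D (b ij)) = c • chiCoord b c (b ij) := by
    rintro ⟨i, j⟩
    have hq : 0 < q := j.pos
    rw [chiCoord_basis, Finsupp.smul_single, smul_eq_mul, ← pow_succ']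
    by_cases hj : (j : ℕ) + 1 < q
    · have e : D (b (i, j)) = b (i, ⟨(j : ℕ) + 1, hj⟩) := by
        rw [hb, hb, ← Module.End.mul_apply, ← pow_succ']
      rw [e, chiCoord_basis]
    · have hj' : (j : ℕ) + 1 = q := by have := j.isLt; omega
      have e : D (b (i, j)) = b (i, ⟨0, hq⟩) := by
        rw [hb, hb, ← Module.End.mul_apply, ← pow_succ', hj', hD, pow_zero]
      rw [e, chiCoord_basis, hj', hc, pow_zero]
  have : (chiCoord b c) ∘ₗ D = c • chiCoord b c := by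
    refine b.ext fun ij => ?_
    rw [LinearMap.comp_apply, LinearMap.smul_apply]
    exact key ij
  exact LinearMap.congr_fun this x

/-- **Freeness of the `χ`-part.**  If `P` is free over `Λ[X]/(X^q - 1)` (`X ↦ D`) on the family
`v` — spelled: `(i, j) ↦ D^j (v i)`, `j < q`, is a `Λ`-basis and `D^q = 1` — and `c^q = 1`, then
`M^χ = P ⧸ (D - c) P ≃ₗ[Λ] (ι →₀ Λ)`, the class of `v i` going to the `i`-th unit vector. -/
noncomputable def chiCoinvEquivFinsupp {D : P →ₗ[Λ] P} {c : Λ} (hq : 0 < q) (v : ι → P)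
    (b : Module.Basis (ι × Fin q) Λ P) (hb : ∀ i (j : Fin q), b (i, j) = (D ^ (j : ℕ)) (v i))
    (hD : D ^ q = 1) (hc : c ^ q = 1) : ChiCoinv D c ≃ₗ[Λ] (ι →₀ Λ) :=
  LinearEquiv.ofLinearMap
    (liftQ _ (chiCoord b c) (by
      intro y hy
      obtain ⟨x, rfl⟩ := mem_chiRange.1 hy
      rw [LinearMap.mem_ker, map_sub, map_smul, chiCoord_apply_D v b hb hD hc, sub_self]))
    (Finsupp.linearCombination Λ fun i => cmk D c (v i))
    (by
      refine Finsupp.lhom_ext' fun i => LinearMap.ext_ring ?_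
      simp only [LinearMap.comp_apply, Finsupp.lsingle_apply, Finsupp.linearCombination_single,
        one_smul, LinearMap.id_apply]
      have : v i = b (i, ⟨0, hq⟩) := by rw [hb, pow_zero, Module.End.one_apply]
      rw [this]
      show chiCoord b c (b (i, ⟨0, hq⟩)) = _
      rw [chiCoord_basis, pow_zero])
    (by
      refine Submodule.linearMap_qext _ (b.ext fun ij => ?_)
      obtain ⟨i, j⟩ := ij
      simp only [LinearMap.comp_apply, mkQ_apply, liftQ_apply, LinearMap.id_apply,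
        chiCoord_basis, Finsupp.linearCombination_single]
      rw [hb]
      exact (cmk_pow_apply D c (j : ℕ) (v i)).symm)

theorem chiCoinvEquivFinsupp_cmk {D : P →ₗ[Λ] P} {c : Λ} (hq : 0 < q) (v : ι → P)
    (b : Module.Basis (ι × Fin q) Λ P) (hb : ∀ i (j : Fin q), b (i, j) = (D ^ (j : ℕ)) (v i))
    (hD : D ^ q = 1) (hc : c ^ q = 1) (x : P) :
    chiCoinvEquivFinsupp hq v b hb hD hc (cmk D c x) = chiCoord b c x := rfl

theorem chiCoinvEquivFinsupp_symm_single {D : P →ₗ[Λ] P} {c : Λ} (hq : 0 < q) (v : ι → P)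
    (b : Module.Basis (ι × Fin q) Λ P) (hb : ∀ i (j : Fin q), b (i, j) = (D ^ (j : ℕ)) (v i))
    (hD : D ^ q = 1) (hc : c ^ q = 1) (i : ι) :
    (chiCoinvEquivFinsupp hq v b hb hD hc).symm (Finsupp.single i 1) = cmk D c (v i) := by
  show Finsupp.linearCombination Λ (fun i => cmk D c (v i)) (Finsupp.single i 1) = _
  rw [Finsupp.linearCombination_single, one_smul]

/-- **Freeness of the `χ`-part, basis form**: the classes of the `v i` are a `Λ`-basis of
`M^χ = P ⧸ (D - c) P`, for every `c` with `c ^ q = 1`. -/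
noncomputable def basisChiCoinv {D : P →ₗ[Λ] P} {c : Λ} (hq : 0 < q) (v : ι → P)
    (b : Module.Basis (ι × Fin q) Λ P) (hb : ∀ i (j : Fin q), b (i, j) = (D ^ (j : ℕ)) (v i))
    (hD : D ^ q = 1) (hc : c ^ q = 1) : Module.Basis ι Λ (ChiCoinv D c) :=
  Module.Basis.ofRepr (chiCoinvEquivFinsupp hq v b hb hD hc)

@[simp] theorem basisChiCoinv_apply {D : P →ₗ[Λ] P} {c : Λ} (hq : 0 < q) (v : ι → P)
    (b : Module.Basis (ι × Fin q) Λ P) (hb : ∀ i (j : Fin q), b (i, j) = (D ^ (j : ℕ)) (v i))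
    (hD : D ^ q = 1) (hc : c ^ q = 1) (i : ι) :
    basisChiCoinv hq v b hb hD hc i = cmk D c (v i) :=
  chiCoinvEquivFinsupp_symm_single hq v b hb hD hc i

theorem free_chiCoinv {D : P →ₗ[Λ] P} {c : Λ} (hq : 0 < q) (v : ι → P)
    (b : Module.Basis (ι × Fin q) Λ P) (hb : ∀ i (j : Fin q), b (i, j) = (D ^ (j : ℕ)) (v i))
    (hD : D ^ q = 1) (hc : c ^ q = 1) : Module.Free Λ (ChiCoinv D c) :=
  Module.Free.of_basis (basisChiCoinv hq v b hb hD hc)

/-- `rank M^χ = #ι` for every `χ`: in particular `rank M^χ = rank M¹`. -/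
theorem finrank_chiCoinv [Nontrivial Λ] {D : P →ₗ[Λ] P} {c : Λ} (hq : 0 < q) (v : ι → P)
    (b : Module.Basis (ι × Fin q) Λ P) (hb : ∀ i (j : Fin q), b (i, j) = (D ^ (j : ℕ)) (v i))
    (hD : D ^ q = 1) (hc : c ^ q = 1) : Module.finrank Λ (ChiCoinv D c) = Nat.card ι :=
  Module.finrank_eq_nat_card_basis (basisChiCoinv hq v b hb hD hc)

theorem finrank_chiCoinv_eq [Nontrivial Λ] {D : P →ₗ[Λ] P} {c c' : Λ} (hq : 0 < q) (v : ι → P)
    (b : Module.Basis (ι × Fin q) Λ P) (hb : ∀ i (j : Fin q), b (i, j) = (D ^ (j : ℕ)) (v i))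
    (hD : D ^ q = 1) (hc : c ^ q = 1) (hc' : c' ^ q = 1) :
    Module.finrank Λ (ChiCoinv D c) = Module.finrank Λ (ChiCoinv D c') := by
  rw [finrank_chiCoinv hq v b hb hD hc, finrank_chiCoinv hq v b hb hD hc']

/-- Under `chiCongr` the reductions of the two bases `basisChiCoinv` correspond: in these bases the
comparison isomorphism `M^χ ⧸ I ≃ M^χ' ⧸ I` is the IDENTITY matrix. -/
theorem chiCongr_basisChiCoinv {D : P →ₗ[Λ] P} {c c' : Λ} (hq : 0 < q) (v : ι → P)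
    (b : Module.Basis (ι × Fin q) Λ P) (hb : ∀ i (j : Fin q), b (i, j) = (D ^ (j : ℕ)) (v i))
    (hD : D ^ q = 1) (hc : c ^ q = 1) (hc' : c' ^ q = 1) (I : Ideal Λ) (h : c - c' ∈ I) (i : ι) :
    chiCongr D I h (Submodule.Quotient.mk (basisChiCoinv hq v b hb hD hc i)) =
      Submodule.Quotient.mk (basisChiCoinv hq v b hb hD hc' i) := by
  rw [basisChiCoinv_apply, basisChiCoinv_apply]
  exact chiCongr_mk_mk D I h (v i)

end Free

end Fermat.Agent.GB.B3.Chi
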