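/-
GATE-B / GB-B3-CHILEVEL, part 1 (helper24): calculus of helper95's monomial operators
`TWLevel.mono D a = ∏ᵢ (D i)^(a i)` and the PRODUCT-GROUP coinvariant basis.
Mathlib + GB/B3/{TWLevel, Chi} only.

* `mono_succ`, `mono_congr`, `mono_zero`, `mul_mono` (`D i * mono D a = mono D (a + δ_i)` for
  commuting `D`), `mkQ_mono` (in a quotient where `D i` acts as the scalar `γ i`, `mono D a` acts as
  `∏ γ i ^ a i`).
* `exists_basis_quot` : commuting `D i`, `D i ^ N i = 1`, an `O`-basis of monomials
  `b (a, j) = mono D a (e j)` (`a i < N i`) — i.e. `M` free over `O[∏ ℤ/N i]` on the `e j` — and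
  scalars `γ i` with `γ i ^ N i = 1` (a character `χ` of the product group):
  the classes of the `e j` are an `O`-basis of the `χ`-coinvariants `M ⧸ ∑ᵢ (D i - γ i) M`.
-/
import Fermat.Agent.GB.B3.TWLevel
import Fermat.Agent.GB.B3.Chi

set_option autoImplicit false

namespace Fermat.Agent.GB.B3.MonoCoinv

open Module Fermat.Agent.GB.B3.TWLevel Fermat.Agent.GB.B3.Chi

variable {O M : Type*} [CommRing O] [AddCommGroup M] [Module O M]

theorem mono_succ {k : ℕ} (D : Fin (k + 1) → Module.End O M) (a : Fin (k + 1) → ℕ) :
    mono D a = D 0 ^ a 0 * mono (fun i => D i.succ) (fun i => a i.succ) := by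
  unfold mono
  rw [List.ofFn_succ, List.prod_cons]

theorem mono_fin_zero (D : Fin 0 → Module.End O M) (a : Fin 0 → ℕ) : mono D a = 1 := by
  simp [mono]

theorem mono_congr {k : ℕ} (D : Fin k → Module.End O M) (a a' : Fin k → ℕ)
    (h : ∀ i, D i ^ a i = D i ^ a' i) : mono D a = mono D a' := by
  unfold mono
  rw [show (fun i => D i ^ a i) = fun i => D i ^ a' i from funext h]

theorem mono_zero {k : ℕ} (D : Fin k → Module.End O M) : mono D (fun _ => 0) = 1 := by
  induction k with
  | zero => exact mono_fin_zero D _
  | succ k ih => rw [mono_succ, pow_zero, one_mul, ih]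

/-- `D i * ∏ D^a = ∏ D^(a + δ_i)` for commuting `D`. -/
theorem mul_mono {k : ℕ} (D : Fin k → Module.End O M) (hcomm : ∀ i j, D i * D j = D j * D i)
    (a : Fin k → ℕ) (i : Fin k) :
    D i * mono D a = mono D (Function.update a i (a i + 1)) := by
  induction k with
  | zero => exact i.elim0
  | succ k ih =>
    rw [mono_succ, mono_succ]
    refine Fin.cases ?_ (fun i' => ?_) i
    · have hfun : (fun i' : Fin k => Function.update a 0 (a 0 + 1) i'.succ) =
          fun i' => a i'.succ := by
        funext i'
        rw [Function.update_of_ne (Fin.succ_ne_zero i')]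
      rw [Function.update_self, ← mul_assoc, ← pow_succ', hfun]
    · have hc : Commute (D i'.succ) (D 0 ^ a 0) := Commute.pow_right (hcomm _ _) _
      rw [← mul_assoc, hc.eq, mul_assoc,
        ih (fun i => D i.succ) (fun i j => hcomm _ _) (fun i => a i.succ) i',
        Function.update_of_ne (Fin.succ_ne_zero i').symm]
      congr 2
      funext j
      by_cases hj : j = i'
      · subst hj
        rw [Function.update_self, Function.update_self]
      · rw [Function.update_of_ne hj, Function.update_of_ne (fun h => hj (Fin.succ_injective _ h))]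

/-- In a quotient where each `D i` acts as the scalar `γ i`, `mono D a` acts as `∏ γ i ^ a i`. -/
theorem mkQ_mono {k : ℕ} (W : Submodule O M) (D : Fin k → Module.End O M) (γ : Fin k → O)
    (h : ∀ i x, W.mkQ (D i x) = γ i • W.mkQ x) (a : Fin k → ℕ) (x : M) :
    W.mkQ (mono D a x) = (∏ i, γ i ^ a i) • W.mkQ x := by
  induction k generalizing x with
  | zero => simp [mono_fin_zero]
  | succ k ih =>
    have hpow : ∀ (n : ℕ) (y : M), W.mkQ ((D 0 ^ n) y) = γ 0 ^ n • W.mkQ y := by
      intro n
      induction n with
      | zero => intro y; simp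
      | succ n ihn =>
        intro y
        rw [pow_succ', Module.End.mul_apply, h, ihn, smul_smul, pow_succ']
    rw [mono_succ, Module.End.mul_apply, hpow,
      ih (fun i => D i.succ) (fun i => γ i.succ) (fun i x => h i.succ x) (fun i => a i.succ),
      smul_smul, Fin.prod_univ_succ]

/-- **Product-group coinvariants.**  If `M` has the `O`-basis of monomials
`b (a, j) = mono D a (e j)`, `a i < N i`, for commuting `D i` with `D i ^ N i = 1`, and
`γ i ^ N i = 1`, then the classes of the `e j` are an `O`-basis of `M ⧸ ∑ᵢ (D i - γ i) M`. -/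
theorem exists_basis_quot {k : ℕ} {N : Fin k → ℕ} (hN : ∀ i, 0 < N i)
    (D : Fin k → Module.End O M) (hpow : ∀ i, D i ^ N i = 1)
    (hcomm : ∀ i j, D i * D j = D j * D i) {ι : Type*} (e : ι → M)
    (b : Basis ((∀ i : Fin k, Fin (N i)) × ι) O M)
    (hb : ∀ a j, b (a, j) = mono D (fun i => (a i : ℕ)) (e j))
    (γ : Fin k → O) (hγ : ∀ i, γ i ^ N i = 1) :
    ∃ b' : Basis ι O (M ⧸ (⨆ i, chiRange (D i) (γ i))),
      ∀ j, b' j = Submodule.Quotient.mk (e j) := by
  classical
  set W : Submodule O M := ⨆ i, chiRange (D i) (γ i) with hW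
  -- the coordinate map
  let ε : M →ₗ[O] (ι →₀ O) :=
    b.constr O fun aj => Finsupp.single aj.2 (∏ i, γ i ^ ((aj.1 i : ℕ)))
  have hε : ∀ a j, ε (b (a, j)) = Finsupp.single j (∏ i, γ i ^ ((a i : ℕ))) := by
    intro a j
    exact b.constr_basis O _ (a, j)
  -- `ε ∘ D i = γ i • ε`
  have hεD : ∀ i x, ε (D i x) = γ i • ε x := by
    intro i
    have key : ε ∘ₗ D i = γ i • ε := by
      refine b.ext fun aj => ?_
      obtain ⟨a, j⟩ := aj
      rw [LinearMap.comp_apply, LinearMap.smul_apply, hε, Finsupp.smul_single, smul_eq_mul]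
      -- the shifted index
      let s : Fin (N i) := if h : (a i : ℕ) + 1 < N i then ⟨(a i : ℕ) + 1, h⟩ else ⟨0, hN i⟩
      let a' : ∀ i' : Fin k, Fin (N i') := Function.update a i s
      have hDs : D i ^ ((a i : ℕ) + 1) = D i ^ (s : ℕ) := by
        by_cases h : (a i : ℕ) + 1 < N i
        · simp only [s, dif_pos h]
        · have h' : (a i : ℕ) + 1 = N i := by have := (a i).isLt; omega
          simp only [s, dif_neg h]
          rw [h', hpow, pow_zero]
      have hγs : γ i * γ i ^ ((a i : ℕ)) = γ i ^ (s : ℕ) := by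
        by_cases h : (a i : ℕ) + 1 < N i
        · simp only [s, dif_pos h]
          rw [pow_succ']
        · have h' : (a i : ℕ) + 1 = N i := by have := (a i).isLt; omega
          simp only [s, dif_neg h]
          rw [← pow_succ', h', hγ, pow_zero]
      have h1 : D i (b (a, j)) = b (a', j) := by
        rw [hb, hb, ← Module.End.mul_apply, mul_mono D hcomm]
        congr 1
        refine mono_congr D _ _ fun i' => ?_
        by_cases hi : i' = i
        · subst hi
          simp only [a', Function.update_self]
          exact hDs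
        · simp only [a', Function.update_of_ne hi]
      rw [h1, hε]
      congr 1
      rw [← Finset.mul_prod_erase Finset.univ _ (Finset.mem_univ i),
        ← Finset.mul_prod_erase Finset.univ (fun i' => γ i' ^ ((a i' : ℕ))) (Finset.mem_univ i),
        ← mul_assoc, hγs]
      simp only [a', Function.update_self]
      congr 1
      refine Finset.prod_congr rfl fun i' hi' => ?_
      rw [Function.update_of_ne (Finset.ne_of_mem_erase hi')]
    intro x
    exact LinearMap.congr_fun key x
  -- `ε` kills `W`
  have hεW : W ≤ LinearMap.ker ε := by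
    rw [hW]
    refine iSup_le fun i => ?_
    intro y hy
    obtain ⟨x, rfl⟩ := mem_chiRange.1 hy
    rw [LinearMap.mem_ker, map_sub, map_smul, hεD, sub_self]
  -- in `M ⧸ W` each `D i` is the scalar `γ i`
  have hmk : ∀ i x, W.mkQ (D i x) = γ i • W.mkQ x := by
    intro i x
    rw [← map_smul, ← sub_eq_zero, ← map_sub, Submodule.mkQ_apply, Submodule.Quotient.mk_eq_zero]
    exact (le_iSup (fun i => chiRange (D i) (γ i)) i) (sub_smul_mem_chiRange (D i) (γ i) x)
  let z : ∀ i : Fin k, Fin (N i) := fun i => ⟨0, hN i⟩
  have hez : ∀ j, e j = b (z, j) := by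
    intro j
    rw [hb]
    have : mono D (fun i => ((z i : Fin (N i)) : ℕ)) = 1 := mono_zero D
    rw [this, Module.End.one_apply]
  let E : (M ⧸ W) ≃ₗ[O] (ι →₀ O) :=
    LinearEquiv.ofLinearMap (W.liftQ ε hεW)
      (Finsupp.linearCombination O fun j => W.mkQ (e j))
      (by
        refine Finsupp.lhom_ext' fun j => LinearMap.ext_ring ?_
        simp only [LinearMap.comp_apply, Finsupp.lsingle_apply, Finsupp.linearCombination_single,
          one_smul, LinearMap.id_apply, Submodule.mkQ_apply, Submodule.liftQ_apply]
        rw [hez, hε]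
        simp [z])
      (by
        refine Submodule.linearMap_qext _ (b.ext fun aj => ?_)
        obtain ⟨a, j⟩ := aj
        simp only [LinearMap.comp_apply, Submodule.mkQ_apply, Submodule.liftQ_apply,
          LinearMap.id_apply]
        rw [hε, Finsupp.linearCombination_single, hb]
        exact (mkQ_mono W D γ hmk _ (e j)).symm)
  refine ⟨Basis.ofRepr E, fun j => ?_⟩
  show E.symm (Finsupp.single j 1) = _
  show Finsupp.linearCombination O (fun j => W.mkQ (e j)) (Finsupp.single j 1) = _
  rw [Finsupp.linearCombination_single, one_smul]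
  rfl

end Fermat.Agent.GB.B3.MonoCoinv
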