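/-
GATE-B / GB-B3-CHILEVEL, part 2 (helper24): from the BIG Taylor–Wiles level to helper95's
`TWLevelData`.  Mathlib + GB/B3/{TWLevel, Chi, MonoCoinv} only.

Input: `B : FreeLevel O 𝕋 M0 act0 (k+1) N`, the big module
`P_Q = H¹(Γ₀(M/q) ∩ Γ_H(q) ∩ Γ_H(Q), O)_𝔪` with `k+1` commuting diamonds, `B.D 0` = the diamond
at `q`, free over `O[Δ_q × Δ_Q]` on `B.e`, coinvariants `B.π : P_Q → M0 = M¹_∅`;
`c : O` (`= χ(D 0)`) with `c ^ N 0 = 1`.

* `quotLevel B hN c hc act0c πc hsurj hker hact : FreeLevel O 𝕋 M0c act0c k (N ∘ succ)` —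
  the level `P_Q ⧸ (D 0 - c) P_Q` with the induced Hecke action and the induced diamonds
  `D 1, …, D k`, over ANY base `(M0c, act0c)` given with ONE map `πc : P_Q → M0c`, onto, Hecke
  equivariant, with kernel `(D 0 - c) P_Q + ∑_{i ≥ 1} (D i - 1) P_Q`.  The basis of `M0c` is DERIVED.
* `twLevelData … : TWLevelData O ϖ 𝕋 M0 act0 M0χ act0χ k (N ∘ succ)` — `L1 = quotLevel` at `c = 1`
  over `(M0, B.π)`, `Lχ = quotLevel` at `c` over `(M0χ, πχ)`, `U` = `Chi.chiCongr` for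
  `c ≡ 1 mod ϖ`, Hecke- and diamond-equivariant.
-/
import Fermat.Agent.GB.B3.MonoCoinv

set_option autoImplicit false

namespace Fermat.Agent.GB.B3.ChiLevel

open Module Submodule Fermat.Agent.GB.B3.TWLevel Fermat.Agent.GB.B3.Chi
  Fermat.Agent.GB.B3.MonoCoinv
open scoped Pointwise

/-! ### induced endomorphisms of the `χ`-coinvariants -/

section Ind

variable {O P : Type*} [CommRing O] [AddCommGroup P] [Module O P] (D₀ : Module.End O P) (c : O)

/-- The endomorphism of `P ⧸ (D₀ - c) P` induced by an endomorphism commuting with `D₀`. -/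
def ind (f : Module.End O P) (hf : f * D₀ = D₀ * f) : Module.End O (ChiCoinv D₀ c) :=
  coinvMap (D := D₀) (t := f) hf c

@[simp] theorem ind_cmk (f : Module.End O P) (hf : f * D₀ = D₀ * f) (x : P) :
    ind D₀ c f hf (cmk D₀ c x) = cmk D₀ c (f x) := rfl

theorem ind_ext {g g' : Module.End O (ChiCoinv D₀ c)}
    (h : ∀ x, g (cmk D₀ c x) = g' (cmk D₀ c x)) : g = g' := by
  refine LinearMap.ext fun y => ?_
  obtain ⟨x, rfl⟩ := cmk_surjective D₀ c y
  exact h x

theorem ind_one (h1 : (1 : Module.End O P) * D₀ = D₀ * 1) : ind D₀ c 1 h1 = 1 :=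
  ind_ext D₀ c fun _ => rfl

theorem ind_mul (f g : Module.End O P) (hf : f * D₀ = D₀ * f) (hg : g * D₀ = D₀ * g)
    (hfg : (f * g) * D₀ = D₀ * (f * g)) :
    ind D₀ c (f * g) hfg = ind D₀ c f hf * ind D₀ c g hg :=
  ind_ext D₀ c fun _ => rfl

theorem comm_pow {f : Module.End O P} (hf : f * D₀ = D₀ * f) (n : ℕ) :
    f ^ n * D₀ = D₀ * f ^ n :=
  (Commute.pow_left (show Commute f D₀ from hf) n).eq

theorem ind_pow_cmk (f : Module.End O P) (hf : f * D₀ = D₀ * f) (n : ℕ) (x : P) :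
    (ind D₀ c f hf ^ n) (cmk D₀ c x) = cmk D₀ c ((f ^ n) x) := by
  induction n with
  | zero => rfl
  | succ n ih =>
    rw [pow_succ', Module.End.mul_apply, ih, ind_cmk, pow_succ', Module.End.mul_apply]

theorem ind_pow (f : Module.End O P) (hf : f * D₀ = D₀ * f) (n : ℕ) :
    ind D₀ c (f ^ n) (comm_pow D₀ hf n) = ind D₀ c f hf ^ n :=
  ind_ext D₀ c fun x => by rw [ind_pow_cmk]; rfl

/-- **monomials pass to the coinvariants** -/
theorem mono_ind_cmk {k : ℕ} (D' : Fin k → Module.End O P) (h : ∀ i, D' i * D₀ = D₀ * D' i)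
    (a : Fin k → ℕ) (x : P) :
    mono (fun i => ind D₀ c (D' i) (h i)) a (cmk D₀ c x) = cmk D₀ c (mono D' a x) := by
  induction k generalizing x with
  | zero => simp [mono_fin_zero]
  | succ k ih =>
    rw [mono_succ, mono_succ, Module.End.mul_apply, Module.End.mul_apply,
      ih (fun i => D' i.succ) (fun i => h i.succ) (fun i => a i.succ), ind_pow_cmk]

/-- the range of `D̄ - 1` is the image of the range of `D - 1` -/
theorem range_ind_sub_one (f : Module.End O P) (hf : f * D₀ = D₀ * f) :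
    LinearMap.range (ind D₀ c f hf - 1) =
      (LinearMap.range (f - 1)).map (chiRange D₀ c).mkQ := by
  have h1 : (ind D₀ c f hf - 1) ∘ₗ (chiRange D₀ c).mkQ = (chiRange D₀ c).mkQ ∘ₗ (f - 1) := by
    refine LinearMap.ext fun x => ?_
    simp only [LinearMap.comp_apply, LinearMap.sub_apply, Module.End.one_apply, mkQ_apply,
      map_sub]
    rfl
  rw [← LinearMap.range_comp, ← h1, LinearMap.range_comp, range_mkQ, Submodule.map_top]

end Ind

/-! ### a lattice lemma -/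

theorem iSup_fin_succ_eq {α : Type*} [CompleteLattice α] {k : ℕ} (f : Fin (k + 1) → α) :
    (⨆ i, f i) = f 0 ⊔ ⨆ i : Fin k, f i.succ := by
  refine le_antisymm (iSup_le fun i => ?_) (sup_le (le_iSup f 0) (iSup_le fun i => le_iSup f i.succ))
  refine Fin.cases le_sup_left (fun i' => ?_) i
  exact le_sup_of_le_right (le_iSup (fun i : Fin k => f i.succ) i')

/-! ### the quotient level -/

section Level

variable {O : Type} [CommRing O] {𝕋 : Type} [CommRing 𝕋] [Algebra O 𝕋]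
  {M0 : Type} [AddCommGroup M0] [Module O M0] {act0 : 𝕋 →ₐ[O] Module.End O M0}
  {k : ℕ} {N : Fin (k + 1) → ℕ}

/-- the induced Hecke action on `P ⧸ (D 0 - c) P` -/
noncomputable def quotAct (B : FreeLevel O 𝕋 M0 act0 (k + 1) N) (c : O) :
    𝕋 →ₐ[O] Module.End O (ChiCoinv (B.D 0) c) where
  toFun t := ind (B.D 0) c (B.act t) (B.act_D t 0)
  map_one' := ind_ext _ _ fun x => by
    rw [ind_cmk, map_one]; rfl
  map_mul' s t := ind_ext _ _ fun x => by
    rw [ind_cmk, map_mul]; rfl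
  map_zero' := ind_ext _ _ fun x => by
    rw [ind_cmk, map_zero]; rfl
  map_add' s t := ind_ext _ _ fun x => by
    rw [ind_cmk, map_add]; rfl
  commutes' r := ind_ext _ _ fun x => by
    rw [ind_cmk, AlgHom.commutes, Module.algebraMap_end_apply, Module.algebraMap_end_apply]
    rfl

@[simp] theorem quotAct_cmk (B : FreeLevel O 𝕋 M0 act0 (k + 1) N) (c : O) (t : 𝕋) (x : B.M) :
    quotAct B c t (cmk (B.D 0) c x) = cmk (B.D 0) c (B.act t x) := rfl

/-- the induced diamonds `D 1, …, D k` on `P ⧸ (D 0 - c) P` -/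
noncomputable def quotD (B : FreeLevel O 𝕋 M0 act0 (k + 1) N) (c : O) (i : Fin k) :
    Module.End O (ChiCoinv (B.D 0) c) :=
  ind (B.D 0) c (B.D i.succ) (B.D_comm i.succ 0)

@[simp] theorem quotD_cmk (B : FreeLevel O 𝕋 M0 act0 (k + 1) N) (c : O) (i : Fin k) (x : B.M) :
    quotD B c i (cmk (B.D 0) c x) = cmk (B.D 0) c (B.D i.succ x) := rfl

/-- re-indexing of the monomial basis: split off the exponent of `D 0` -/
def splitEquiv (N : Fin (k + 1) → ℕ) (d : ℕ) :
    ((∀ i : Fin (k + 1), Fin (N i)) × Fin d) ≃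
      (((∀ i : Fin k, Fin (N i.succ)) × Fin d) × Fin (N 0)) where
  toFun aj := ((fun i => aj.1 i.succ, aj.2), aj.1 0)
  invFun x := (Fin.cons (α := fun i => Fin (N i)) x.2 x.1.1, x.1.2)
  left_inv aj := by
    obtain ⟨a, j⟩ := aj
    simp only [Prod.mk.injEq, and_true]
    exact Fin.cons_self_tail a
  right_inv x := by
    obtain ⟨⟨a', j⟩, a0⟩ := x
    simp only [Fin.cons_zero, Fin.cons_succ]

/-- the big basis as a shift basis for `D 0` -/
theorem basis_split (B : FreeLevel O 𝕋 M0 act0 (k + 1) N)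
    (x : (∀ i : Fin k, Fin (N i.succ)) × Fin B.d) (j : Fin (N 0)) :
    (B.basis.reindex (splitEquiv N B.d)) (x, j) =
      (B.D 0 ^ (j : ℕ)) (mono (fun i => B.D i.succ) (fun i => ((x.1 i : Fin (N i.succ)) : ℕ))
        (B.e x.2)) := by
  obtain ⟨a', j'⟩ := x
  rw [Basis.reindex_apply]
  show B.basis (Fin.cons (α := fun i => Fin (N i)) j a', j') = _
  rw [B.basis_eq, mono_succ, Module.End.mul_apply]
  simp only [Fin.cons_zero, Fin.cons_succ]

variable {M0c : Type} [AddCommGroup M0c] [Module O M0c]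

/-- the character `(c, 1, …, 1)` of `Δ_q × Δ_Q` -/
def gam (k : ℕ) (c : O) : Fin (k + 1) → O := Fin.cases c fun _ => 1

@[simp] theorem gam_zero (k : ℕ) (c : O) : gam k c 0 = c := rfl

@[simp] theorem gam_succ (k : ℕ) (c : O) (i : Fin k) : gam k c i.succ = 1 := rfl

theorem iSup_chiRange_gam (B : FreeLevel O 𝕋 M0 act0 (k + 1) N) (c : O) :
    (⨆ i, chiRange (B.D i) (gam k c i)) =
      chiRange (B.D 0) c ⊔ ⨆ i : Fin k, LinearMap.range (B.D i.succ - 1) := by
  rw [iSup_fin_succ_eq]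
  congr 1
  refine iSup_congr fun i => ?_
  rw [gam_succ, chiRange_one]
  rfl

/-- **The quotient level** `P_Q ⧸ (D 0 - c) P_Q` over a base `(M0c, act0c)` given with a map `πc`
from the big module. -/
noncomputable def quotLevel (B : FreeLevel O 𝕋 M0 act0 (k + 1) N) (hN : ∀ i, 0 < N i)
    (c : O) (hc : c ^ N 0 = 1) (act0c : 𝕋 →ₐ[O] Module.End O M0c) (πc : B.M →ₗ[O] M0c)
    (hsurj : Function.Surjective πc)
    (hker : ∀ x, πc x = 0 ↔
      x ∈ chiRange (B.D 0) c ⊔ ⨆ i : Fin k, LinearMap.range (B.D i.succ - 1))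
    (hact : ∀ t x, πc (B.act t x) = act0c t (πc x)) :
    FreeLevel O 𝕋 M0c act0c k (fun i => N i.succ) :=
  have hle : chiRange (B.D 0) c ≤ LinearMap.ker πc := fun x hx =>
    LinearMap.mem_ker.2 ((hker x).2 (mem_sup_left hx))
  have hγ : ∀ i, gam k c i ^ N i = 1 := fun i => by
    refine Fin.cases ?_ (fun i' => ?_) i
    · rw [gam_zero, hc]
    · rw [gam_succ, one_pow]
  have hkerW : LinearMap.ker πc = ⨆ i, chiRange (B.D i) (gam k c i) := by
    ext x
    rw [LinearMap.mem_ker, hker, iSup_chiRange_gam]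
  let b0' := Classical.choose
    (exists_basis_quot hN B.D B.D_pow B.D_comm B.e B.basis B.basis_eq (gam k c) hγ)
  have hb0' : ∀ j, b0' j = Submodule.Quotient.mk (B.e j) := Classical.choose_spec
    (exists_basis_quot hN B.D B.D_pow B.D_comm B.e B.basis B.basis_eq (gam k c) hγ)
  let E : (B.M ⧸ ⨆ i, chiRange (B.D i) (gam k c i)) ≃ₗ[O] M0c :=
    quotEquivOfEq _ _ hkerW.symm ≪≫ₗ πc.quotKerEquivOfSurjective hsurj
  { M := ChiCoinv (B.D 0) c
    act := quotAct B c
    D := quotD B c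
    D_pow := fun i => by
      show ind (B.D 0) c (B.D i.succ) _ ^ N i.succ = 1
      rw [← ind_pow]
      refine ind_ext _ _ fun x => ?_
      rw [ind_cmk, B.D_pow]
      rfl
    D_comm := fun i j => ind_ext _ _ fun x => by
      show cmk _ _ ((B.D i.succ * B.D j.succ) x) = cmk _ _ ((B.D j.succ * B.D i.succ) x)
      rw [B.D_comm]
    act_D := fun t i => ind_ext _ _ fun x => by
      show cmk _ _ ((B.act t * B.D i.succ) x) = cmk _ _ ((B.D i.succ * B.act t) x)
      rw [B.act_D]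
    d := B.d
    e := fun j => cmk (B.D 0) c (B.e j)
    basis := basisChiCoinv (hN 0)
      (fun x : (∀ i : Fin k, Fin (N i.succ)) × Fin B.d =>
        mono (fun i => B.D i.succ) (fun i => ((x.1 i : Fin (N i.succ)) : ℕ)) (B.e x.2))
      (B.basis.reindex (splitEquiv N B.d)) (fun x j => basis_split B x j) (B.D_pow 0) hc
    basis_eq := fun a j => by
      rw [basisChiCoinv_apply]
      exact (mono_ind_cmk (B.D 0) c (fun i => B.D i.succ) (fun i => B.D_comm i.succ 0)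
        (fun i => ((a i : Fin (N i.succ)) : ℕ)) (B.e j)).symm
    π := (chiRange (B.D 0) c).liftQ πc hle
    π_surjective := fun y => by
      obtain ⟨x, rfl⟩ := hsurj y
      exact ⟨cmk (B.D 0) c x, rfl⟩
    ker_π := fun y => by
      obtain ⟨x, rfl⟩ := cmk_surjective (B.D 0) c y
      have h1 : (⨆ i, LinearMap.range (quotD B c i - 1)) =
          (⨆ i : Fin k, LinearMap.range (B.D i.succ - 1)).map (chiRange (B.D 0) c).mkQ := by
        rw [Submodule.map_iSup]
        exact iSup_congr fun i => range_ind_sub_one (B.D 0) c (B.D i.succ) (B.D_comm i.succ 0)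
      rw [h1]
      show πc x = 0 ↔ (chiRange (B.D 0) c).mkQ x ∈ _
      rw [hker, ← Submodule.mem_comap, Submodule.comap_map_eq, ker_mkQ, sup_comm]
    π_act := fun t y => by
      obtain ⟨x, rfl⟩ := cmk_surjective (B.D 0) c y
      exact hact t x
    basis0 := b0'.map E
    basis0_eq := fun j => by
      rw [Basis.map_apply, hb0']
      rfl }

end Level

section Fields

variable {O : Type} [CommRing O] {𝕋 : Type} [CommRing 𝕋] [Algebra O 𝕋]
  {M0 : Type} [AddCommGroup M0] [Module O M0] {act0 : 𝕋 →ₐ[O] Module.End O M0}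
  {k : ℕ} {N : Fin (k + 1) → ℕ} {M0c : Type} [AddCommGroup M0c] [Module O M0c]
  (B : FreeLevel O 𝕋 M0 act0 (k + 1) N) (hN : ∀ i, 0 < N i)
  (c : O) (hc : c ^ N 0 = 1) (act0c : 𝕋 →ₐ[O] Module.End O M0c) (πc : B.M →ₗ[O] M0c)
  (hsurj : Function.Surjective πc)
  (hker : ∀ x, πc x = 0 ↔
    x ∈ chiRange (B.D 0) c ⊔ ⨆ i : Fin k, LinearMap.range (B.D i.succ - 1))
  (hact : ∀ t x, πc (B.act t x) = act0c t (πc x))

/-! The fields of `quotLevel`, on representatives (all `rfl`). -/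

theorem quotLevel_M : (quotLevel B hN c hc act0c πc hsurj hker hact).M = ChiCoinv (B.D 0) c := rfl

theorem quotLevel_d : (quotLevel B hN c hc act0c πc hsurj hker hact).d = B.d := rfl

theorem quotLevel_e (j : Fin B.d) :
    (quotLevel B hN c hc act0c πc hsurj hker hact).e j = cmk (B.D 0) c (B.e j) := rfl

theorem quotLevel_act (t : 𝕋) (x : B.M) :
    (quotLevel B hN c hc act0c πc hsurj hker hact).act t (cmk (B.D 0) c x) =
      cmk (B.D 0) c (B.act t x) := rfl

theorem quotLevel_D (i : Fin k) (x : B.M) :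
    (quotLevel B hN c hc act0c πc hsurj hker hact).D i (cmk (B.D 0) c x) =
      cmk (B.D 0) c (B.D i.succ x) := rfl

theorem quotLevel_π (x : B.M) :
    (quotLevel B hN c hc act0c πc hsurj hker hact).π (cmk (B.D 0) c x) = πc x := rfl

end Fields

/-! ### the comparison isomorphism in the `ϖ • ⊤` spelling of `TWLevelData` -/

section U

variable {O P : Type*} [CommRing O] [AddCommGroup P] [Module O P] (D₀ : Module.End O P)

theorem map_mem_smul_top {M M' : Type*} [AddCommGroup M] [Module O M] [AddCommGroup M']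
    [Module O M'] (f : M →ₗ[O] M') (ϖ : O) {z : M} (hz : z ∈ (ϖ • ⊤ : Submodule O M)) :
    f z ∈ (ϖ • ⊤ : Submodule O M') := by
  obtain ⟨w, -, rfl⟩ := hz
  show f (ϖ • w) ∈ _
  rw [map_smul]
  exact Submodule.smul_mem_pointwise_smul _ _ _ Submodule.mem_top

/-- `M¹ ⧸ ϖ ≃ M^χ ⧸ ϖ` for `c ≡ 1 mod ϖ`, identity on representatives. -/
noncomputable def chiU (ϖ c : O) (h : (1 : O) - c ∈ Ideal.span {ϖ}) :
    (ChiCoinv D₀ 1 ⧸ (ϖ • ⊤ : Submodule O (ChiCoinv D₀ 1))) ≃ₗ[O]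
      (ChiCoinv D₀ c ⧸ (ϖ • ⊤ : Submodule O (ChiCoinv D₀ c))) :=
  quotEquivOfEq _ _ (Submodule.ideal_span_singleton_smul ϖ ⊤).symm ≪≫ₗ
    chiCongr D₀ (Ideal.span {ϖ}) h ≪≫ₗ
      quotEquivOfEq _ _ (Submodule.ideal_span_singleton_smul ϖ ⊤)

theorem chiU_mk (ϖ c : O) (h : (1 : O) - c ∈ Ideal.span {ϖ}) (x : P) :
    chiU D₀ ϖ c h (Submodule.Quotient.mk (cmk D₀ 1 x)) = Submodule.Quotient.mk (cmk D₀ c x) := by
  simp only [chiU, LinearEquiv.trans_apply, quotEquivOfEq_mk]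
  rw [chiCongr_mk_mk, quotEquivOfEq_mk]

/-- `chiU` intertwines any two operators induced by the same operator of `P`. -/
theorem chiU_comm (ϖ c : O) (h : (1 : O) - c ∈ Ideal.span {ϖ})
    (f₁ : Module.End O (ChiCoinv D₀ 1)) (fχ : Module.End O (ChiCoinv D₀ c)) (f : P → P)
    (h1 : ∀ x, f₁ (cmk D₀ 1 x) = cmk D₀ 1 (f x)) (hχ : ∀ x, fχ (cmk D₀ c x) = cmk D₀ c (f x))
    (x : ChiCoinv D₀ 1) (y : ChiCoinv D₀ c)
    (hxy : chiU D₀ ϖ c h (Submodule.Quotient.mk x) = Submodule.Quotient.mk y) :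
    chiU D₀ ϖ c h (Submodule.Quotient.mk (f₁ x)) = Submodule.Quotient.mk (fχ y) := by
  obtain ⟨x₀, rfl⟩ := cmk_surjective D₀ 1 x
  rw [chiU_mk] at hxy
  rw [h1, chiU_mk, ← hχ, Submodule.Quotient.eq, ← map_sub]
  exact map_mem_smul_top fχ ϖ ((Submodule.Quotient.eq _).1 hxy)

end U

/-! ### the package -/

section Data

variable {O : Type} [CommRing O] {𝕋 : Type} [CommRing 𝕋] [Algebra O 𝕋]
  {M0 : Type} [AddCommGroup M0] [Module O M0] {act0 : 𝕋 →ₐ[O] Module.End O M0}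
  {M0χ : Type} [AddCommGroup M0χ] [Module O M0χ] {act0χ : 𝕋 →ₐ[O] Module.End O M0χ}
  {k : ℕ} {N : Fin (k + 1) → ℕ}

theorem ker_π_split (B : FreeLevel O 𝕋 M0 act0 (k + 1) N) (x : B.M) :
    B.π x = 0 ↔ x ∈ chiRange (B.D 0) 1 ⊔ ⨆ i : Fin k, LinearMap.range (B.D i.succ - 1) := by
  rw [B.ker_π, iSup_fin_succ_eq, chiRange_one]
  rfl

/-- `M¹_Q = P_Q ⧸ (D 0 - 1) P_Q` as a level over `M0 = M¹_∅`. -/
noncomputable def level1 (B : FreeLevel O 𝕋 M0 act0 (k + 1) N) (hN : ∀ i, 0 < N i) :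
    FreeLevel O 𝕋 M0 act0 k (fun i => N i.succ) :=
  quotLevel B hN 1 (one_pow _) act0 B.π B.π_surjective (ker_π_split B) B.π_act

/-- **`TWLevelData` from the big level.** -/
noncomputable def twLevelData (B : FreeLevel O 𝕋 M0 act0 (k + 1) N) (hN : ∀ i, 0 < N i)
    (ϖ c : O) (hc : c ^ N 0 = 1) (hc1 : (1 : O) - c ∈ Ideal.span {ϖ})
    (πχ : B.M →ₗ[O] M0χ) (hsurj : Function.Surjective πχ)
    (hker : ∀ x, πχ x = 0 ↔
      x ∈ chiRange (B.D 0) c ⊔ ⨆ i : Fin k, LinearMap.range (B.D i.succ - 1))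
    (hact : ∀ t x, πχ (B.act t x) = act0χ t (πχ x)) :
    TWLevelData O ϖ 𝕋 M0 act0 M0χ act0χ k (fun i => N i.succ) where
  L1 := level1 B hN
  Lχ := quotLevel B hN c hc act0χ πχ hsurj hker hact
  U := chiU (B.D 0) ϖ c hc1
  U_act := fun t x y hxy =>
    chiU_comm (B.D 0) ϖ c hc1 (quotAct B 1 t) (quotAct B c t) (B.act t)
      (fun _ => rfl) (fun _ => rfl) x y hxy
  U_D := fun i x y hxy =>
    chiU_comm (B.D 0) ϖ c hc1 (quotD B 1 i) (quotD B c i) (B.D i.succ)
      (fun _ => rfl) (fun _ => rfl) x y hxy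

theorem twLevelData_U_mk (B : FreeLevel O 𝕋 M0 act0 (k + 1) N) (hN : ∀ i, 0 < N i)
    (ϖ c : O) (hc : c ^ N 0 = 1) (hc1 : (1 : O) - c ∈ Ideal.span {ϖ})
    (πχ : B.M →ₗ[O] M0χ) (hsurj : Function.Surjective πχ)
    (hker : ∀ x, πχ x = 0 ↔
      x ∈ chiRange (B.D 0) c ⊔ ⨆ i : Fin k, LinearMap.range (B.D i.succ - 1))
    (hact : ∀ t x, πχ (B.act t x) = act0χ t (πχ x)) (x : B.M) :
    (twLevelData B hN ϖ c hc hc1 πχ hsurj hker hact).U
        (Submodule.Quotient.mk (cmk (B.D 0) 1 x)) =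
      Submodule.Quotient.mk (cmk (B.D 0) c x) :=
  chiU_mk (B.D 0) ϖ c hc1 x

end Data

end Fermat.Agent.GB.B3.ChiLevel
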