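/-
GATE-B / GB-B3-CHIMULTI, part 1 (helper24): reduction modulo an ideal of two quotients of one
module.  Mathlib + GB/B3/Chi only.

* `quotModEquiv W I : ((P ⧸ W) ⧸ I (P ⧸ W)) ≃ₗ P ⧸ (W + I P)`.
* `quotCongr W W' I h` : `W + I P = W' + I P` ⟹ `(P ⧸ W) ⧸ I ≃ₗ (P ⧸ W') ⧸ I`, the identity on
  representatives (`quotCongr_mk_mk`), `quotCongr_comm_of_repr` (equivariance for any pair of
  operators induced by one map of `P`).
* `iSup_chiRange_sup_smul_eq` : for a FAMILY of operators `D v` and two families of scalars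
  `c v ≡ c' v mod I`:  `∑_v (D v - c v) P + I P = ∑_v (D v - c' v) P + I P`  — the product-group
  version of `Chi.chiRange_sup_smul_eq`.
-/
import Fermat.Agent.GB.B3.Chi

set_option autoImplicit false

namespace Fermat.Agent.GB.B3.QuotCongr

open Submodule Fermat.Agent.GB.B3.Chi

variable {Λ : Type*} [CommRing Λ] {P : Type*} [AddCommGroup P] [Module Λ P]

/-- `(P ⧸ W) ⧸ I (P ⧸ W) = P ⧸ (W + I P)`. -/
noncomputable def quotModEquiv (W : Submodule Λ P) (I : Ideal Λ) :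
    ((P ⧸ W) ⧸ (I • ⊤ : Submodule Λ (P ⧸ W))) ≃ₗ[Λ] P ⧸ (W ⊔ I • (⊤ : Submodule Λ P)) :=
  quotEquivOfEq _ _ (by rw [Submodule.map_smul'', Submodule.map_top, Submodule.range_mkQ]) ≪≫ₗ
    quotientQuotientEquivQuotientSup W (I • ⊤)

theorem quotModEquiv_mk_mk (W : Submodule Λ P) (I : Ideal Λ) (x : P) :
    quotModEquiv W I (Submodule.Quotient.mk (Submodule.Quotient.mk x)) =
      Submodule.Quotient.mk x := rfl

theorem quotModEquiv_symm_mk (W : Submodule Λ P) (I : Ideal Λ) (x : P) :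
    (quotModEquiv W I).symm (Submodule.Quotient.mk x) =
      Submodule.Quotient.mk (Submodule.Quotient.mk x) := by
  rw [LinearEquiv.symm_apply_eq, quotModEquiv_mk_mk]

/-- `W + I P = W' + I P` ⟹ `(P ⧸ W) ⧸ I ≃ₗ (P ⧸ W') ⧸ I`, the identity on representatives. -/
noncomputable def quotCongr (W W' : Submodule Λ P) (I : Ideal Λ)
    (h : W ⊔ I • (⊤ : Submodule Λ P) = W' ⊔ I • (⊤ : Submodule Λ P)) :
    ((P ⧸ W) ⧸ (I • ⊤ : Submodule Λ (P ⧸ W))) ≃ₗ[Λ]
      ((P ⧸ W') ⧸ (I • ⊤ : Submodule Λ (P ⧸ W'))) :=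
  quotModEquiv W I ≪≫ₗ quotEquivOfEq _ _ h ≪≫ₗ (quotModEquiv W' I).symm

@[simp] theorem quotCongr_mk_mk (W W' : Submodule Λ P) (I : Ideal Λ)
    (h : W ⊔ I • (⊤ : Submodule Λ P) = W' ⊔ I • (⊤ : Submodule Λ P)) (x : P) :
    quotCongr W W' I h (Submodule.Quotient.mk (Submodule.Quotient.mk x)) =
      Submodule.Quotient.mk (Submodule.Quotient.mk x) := by
  simp only [quotCongr, LinearEquiv.trans_apply, quotModEquiv_mk_mk, quotEquivOfEq_mk,
    quotModEquiv_symm_mk]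

theorem mk_mk_surjective (W : Submodule Λ P) (I : Ideal Λ) :
    Function.Surjective fun x : P =>
      (Submodule.Quotient.mk (Submodule.Quotient.mk x : P ⧸ W) :
        (P ⧸ W) ⧸ (I • ⊤ : Submodule Λ (P ⧸ W))) :=
  (Submodule.Quotient.mk_surjective _).comp (Submodule.Quotient.mk_surjective _)

/-- **Equivariance, representative form.** -/
theorem quotCongr_comm_of_repr (W W' : Submodule Λ P) (I : Ideal Λ)
    (h : W ⊔ I • (⊤ : Submodule Λ P) = W' ⊔ I • (⊤ : Submodule Λ P))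
    (t : P → P) (T : (P ⧸ W) ⧸ (I • ⊤ : Submodule Λ (P ⧸ W)) →
      (P ⧸ W) ⧸ (I • ⊤ : Submodule Λ (P ⧸ W)))
    (T' : (P ⧸ W') ⧸ (I • ⊤ : Submodule Λ (P ⧸ W')) →
      (P ⧸ W') ⧸ (I • ⊤ : Submodule Λ (P ⧸ W')))
    (hT : ∀ x, T (Submodule.Quotient.mk (Submodule.Quotient.mk x)) =
      Submodule.Quotient.mk (Submodule.Quotient.mk (t x)))
    (hT' : ∀ x, T' (Submodule.Quotient.mk (Submodule.Quotient.mk x)) =
      Submodule.Quotient.mk (Submodule.Quotient.mk (t x)))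
    (y : (P ⧸ W) ⧸ (I • ⊤ : Submodule Λ (P ⧸ W))) :
    quotCongr W W' I h (T y) = T' (quotCongr W W' I h y) := by
  obtain ⟨x, rfl⟩ := mk_mk_surjective W I y
  simp only [hT, quotCongr_mk_mk, hT']

/-- **Product-group (B3-CHI), submodule form.** -/
theorem iSup_chiRange_sup_smul_eq {ι : Sort*} (D : ι → P →ₗ[Λ] P) (I : Ideal Λ) (c c' : ι → Λ)
    (h : ∀ v, c v - c' v ∈ I) :
    (⨆ v, chiRange (D v) (c v)) ⊔ I • (⊤ : Submodule Λ P) =
      (⨆ v, chiRange (D v) (c' v)) ⊔ I • (⊤ : Submodule Λ P) := by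
  have key : ∀ (c c' : ι → Λ), (∀ v, c v - c' v ∈ I) →
      (⨆ v, chiRange (D v) (c v)) ⊔ I • (⊤ : Submodule Λ P) ≤
        (⨆ v, chiRange (D v) (c' v)) ⊔ I • (⊤ : Submodule Λ P) := by
    intro c c' h
    refine sup_le (iSup_le fun v => ?_) le_sup_right
    exact (chiRange_le_sup_smul (D v) I (h v)).trans
      (sup_le_sup_right (le_iSup (fun v => chiRange (D v) (c' v)) v) _)
  refine le_antisymm (key c c' h) (key c' c fun v => ?_)
  rw [← neg_sub]
  exact I.neg_mem (h v)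

end Fermat.Agent.GB.B3.QuotCongr
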