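/-
GATE-B / GB-B3-CHIMULTI, part 2 (helper24): the PRODUCT-GROUP `χ`-level (helper53 R4, board 5608 §2:
`χ_v`-type at EVERY framed prime `v ∈ Σ_u`).  Mathlib + GB/B3/{TWLevel, Chi, MonoCoinv, ChiLevel,
QuotCongr} only.

Input: `B : FreeLevel O 𝕋 M0 act0 (s + k) N`, the big module `P_Q` with `s + k` commuting diamonds:
`B.D (castAdd k v)`, `v < s`, the diamonds at the framed primes (newest in front, as in helper95's
tower), `B.D (natAdd s i)`, `i < k`, the Taylor–Wiles diamonds; `c : Fin s → O`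
(`c v = χ_v(D_v)`) with `c v ^ N (castAdd k v) = 1`.

* `quotLevelMulti B hN c hc act0c πc hsurj hker hact : FreeLevel O 𝕋 M0c act0c k (N ∘ natAdd s)` —
  the level `P_Q ⧸ ∑_v (D_v - c v) P_Q` with the induced Hecke action and the induced TW diamonds, over
  ANY base `(M0c, act0c)` given with ONE map `πc : P_Q → M0c`, onto, Hecke equivariant, with kernel
  `∑_v (D_v - c v) P_Q + ∑_i (D_i - 1) P_Q`.  All bases are DERIVED from `B.basis`.
* `twLevelDataMulti … : TWLevelData O ϖ 𝕋 M0 act0 M0χ act0χ k (N ∘ natAdd s)` — `L1` at `c = 1` over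
  `(M0, B.π)`, `Lχ` at `c` over `(M0χ, πχ)`, `U` = the identity on representatives for
  `c v ≡ 1 mod ϖ`, Hecke- and diamond-equivariant.
* `twLevelDataMultiSelf` — the same with the `Q`-dependent `χ`-base
  `P_Q ⧸ (∑_v (D_v - c v) P_Q + ∑_i (D_i - 1) P_Q)` (no `πχ` binder).
-/
import Fermat.Agent.GB.B3.ChiLevel
import Fermat.Agent.GB.B3.QuotCongr

set_option autoImplicit false

namespace Fermat.Agent.GB.B3.ChiLevelMulti

open Module Submodule Fermat.Agent.GB.B3.TWLevel Fermat.Agent.GB.B3.Chi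
  Fermat.Agent.GB.B3.MonoCoinv Fermat.Agent.GB.B3.QuotCongr
open scoped Pointwise

/-! ### induced endomorphisms of the coinvariants for a family of characters -/

section Ind

variable {O P : Type*} [CommRing O] [AddCommGroup P] [Module O P] {ι : Type*}
  (D₀ : ι → Module.End O P) (c : ι → O)

/-- `∑_v (D₀ v - c v) P` -/
def famRange : Submodule O P := ⨆ v, chiRange (D₀ v) (c v)

/-- `P ⧸ ∑_v (D₀ v - c v) P`: the coinvariants for the character `(c v)` of the product group. -/
abbrev FamCoinv : Type _ := P ⧸ famRange D₀ c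

/-- the class of `x : P` -/
abbrev fmk (x : P) : FamCoinv D₀ c := Submodule.Quotient.mk x

theorem fmk_surjective : Function.Surjective (fmk D₀ c) := Submodule.Quotient.mk_surjective _

theorem chiRange_le_famRange (v : ι) : chiRange (D₀ v) (c v) ≤ famRange D₀ c :=
  le_iSup (fun v => chiRange (D₀ v) (c v)) v

theorem famRange_le_comap (f : Module.End O P) (hf : ∀ v, f * D₀ v = D₀ v * f) :
    famRange D₀ c ≤ (famRange D₀ c).comap f :=
  iSup_le fun v => (chiRange_le_comap (D := D₀ v) (t := f) (hf v) (c v)).trans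
    (Submodule.comap_mono (chiRange_le_famRange D₀ c v))

/-- The endomorphism of `P ⧸ ∑_v (D₀ v - c v) P` induced by an endomorphism commuting with all
`D₀ v`. -/
def indF (f : Module.End O P) (hf : ∀ v, f * D₀ v = D₀ v * f) : Module.End O (FamCoinv D₀ c) :=
  mapQ _ _ f (famRange_le_comap D₀ c f hf)

@[simp] theorem indF_fmk (f : Module.End O P) (hf : ∀ v, f * D₀ v = D₀ v * f) (x : P) :
    indF D₀ c f hf (fmk D₀ c x) = fmk D₀ c (f x) := rfl

theorem indF_ext {g g' : Module.End O (FamCoinv D₀ c)}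
    (h : ∀ x, g (fmk D₀ c x) = g' (fmk D₀ c x)) : g = g' := by
  refine LinearMap.ext fun y => ?_
  obtain ⟨x, rfl⟩ := fmk_surjective D₀ c y
  exact h x

theorem commF_pow {f : Module.End O P} (hf : ∀ v, f * D₀ v = D₀ v * f) (n : ℕ) (v : ι) :
    f ^ n * D₀ v = D₀ v * f ^ n :=
  (Commute.pow_left (show Commute f (D₀ v) from hf v) n).eq

theorem indF_pow_fmk (f : Module.End O P) (hf : ∀ v, f * D₀ v = D₀ v * f) (n : ℕ) (x : P) :
    (indF D₀ c f hf ^ n) (fmk D₀ c x) = fmk D₀ c ((f ^ n) x) := by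
  induction n with
  | zero => rfl
  | succ n ih =>
    rw [pow_succ', Module.End.mul_apply, ih, indF_fmk, pow_succ', Module.End.mul_apply]

theorem indF_pow (f : Module.End O P) (hf : ∀ v, f * D₀ v = D₀ v * f) (n : ℕ) :
    indF D₀ c (f ^ n) (commF_pow D₀ hf n) = indF D₀ c f hf ^ n :=
  indF_ext D₀ c fun x => by rw [indF_pow_fmk]; rfl

/-- **monomials pass to the coinvariants** -/
theorem mono_indF_fmk {k : ℕ} (D' : Fin k → Module.End O P)
    (h : ∀ i v, D' i * D₀ v = D₀ v * D' i) (a : Fin k → ℕ) (x : P) :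
    mono (fun i => indF D₀ c (D' i) (h i)) a (fmk D₀ c x) = fmk D₀ c (mono D' a x) := by
  induction k generalizing x with
  | zero => simp [mono_fin_zero]
  | succ k ih =>
    rw [mono_succ, mono_succ, Module.End.mul_apply, Module.End.mul_apply,
      ih (fun i => D' i.succ) (fun i => h i.succ) (fun i => a i.succ), indF_pow_fmk]

/-- the range of `D̄ - 1` is the image of the range of `D - 1` -/
theorem range_indF_sub_one (f : Module.End O P) (hf : ∀ v, f * D₀ v = D₀ v * f) :
    LinearMap.range (indF D₀ c f hf - 1) =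
      (LinearMap.range (f - 1)).map (famRange D₀ c).mkQ := by
  have h1 : (indF D₀ c f hf - 1) ∘ₗ (famRange D₀ c).mkQ = (famRange D₀ c).mkQ ∘ₗ (f - 1) := by
    refine LinearMap.ext fun x => ?_
    simp only [LinearMap.comp_apply, LinearMap.sub_apply, Module.End.one_apply, mkQ_apply,
      map_sub]
    rfl
  rw [← LinearMap.range_comp, ← h1, LinearMap.range_comp, range_mkQ, Submodule.map_top]

/-- `∑_v (D₀ v - c v) P + I P = ∑_v (D₀ v - c' v) P + I P` when `c v ≡ c' v mod I` -/
theorem famRange_sup_smul_eq (I : Ideal O) (c c' : ι → O) (h : ∀ v, c v - c' v ∈ I) :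
    famRange D₀ c ⊔ I • (⊤ : Submodule O P) = famRange D₀ c' ⊔ I • (⊤ : Submodule O P) :=
  iSup_chiRange_sup_smul_eq D₀ I c c' h

/-- each `D₀ v` acts on the coinvariants as the scalar `c v` -/
theorem fmk_apply (v : ι) (x : P) : fmk D₀ c (D₀ v x) = c v • fmk D₀ c x := by
  rw [fmk, fmk, ← Submodule.Quotient.mk_smul, Submodule.Quotient.eq]
  exact chiRange_le_famRange D₀ c v (sub_smul_mem_chiRange (D₀ v) (c v) x)

end Ind

/-! ### `Fin (s + k)` bookkeeping -/

theorem iSup_fin_add_eq {α : Type*} [CompleteLattice α] {s k : ℕ} (f : Fin (s + k) → α) :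
    (⨆ i, f i) = (⨆ v : Fin s, f (Fin.castAdd k v)) ⊔ ⨆ i : Fin k, f (Fin.natAdd s i) := by
  refine le_antisymm (iSup_le fun i => ?_)
    (sup_le (iSup_le fun v => le_iSup f _) (iSup_le fun i => le_iSup f _))
  induction i using Fin.addCases with
  | left v => exact le_sup_of_le_left (le_iSup (fun v : Fin s => f (Fin.castAdd k v)) v)
  | right i => exact le_sup_of_le_right (le_iSup (fun i : Fin k => f (Fin.natAdd s i)) i)

theorem mono_add {O M : Type*} [CommRing O] [AddCommGroup M] [Module O M] {s k : ℕ}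
    (D : Fin (s + k) → Module.End O M) (a : Fin (s + k) → ℕ) :
    mono D a = mono (fun v => D (Fin.castAdd k v)) (fun v => a (Fin.castAdd k v)) *
      mono (fun i => D (Fin.natAdd s i)) (fun i => a (Fin.natAdd s i)) := by
  unfold mono
  rw [List.ofFn_add, List.prod_append]
  rfl

/-- re-indexing of the monomial basis: split the exponents of the framed diamonds from the rest -/
def appendEquiv {s k : ℕ} (N : Fin (s + k) → ℕ) (d : ℕ) :
    ((∀ i : Fin (s + k), Fin (N i)) × Fin d) ≃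
      ((∀ v : Fin s, Fin (N (Fin.castAdd k v))) ×
        ((∀ i : Fin k, Fin (N (Fin.natAdd s i))) × Fin d)) where
  toFun aj := (fun v => aj.1 (Fin.castAdd k v), (fun i => aj.1 (Fin.natAdd s i), aj.2))
  invFun x := (Fin.addCases (motive := fun i => Fin (N i)) x.1 x.2.1, x.2.2)
  left_inv aj := by
    obtain ⟨a, j⟩ := aj
    simp only [Prod.mk.injEq, and_true]
    funext i
    induction i using Fin.addCases with
    | left v => rw [Fin.addCases_left]
    | right i => rw [Fin.addCases_right]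
  right_inv x := by
    obtain ⟨a_s, a', j⟩ := x
    simp only [Fin.addCases_left, Fin.addCases_right]

/-! ### the quotient level -/

section Level

variable {O : Type} [CommRing O] {𝕋 : Type} [CommRing 𝕋] [Algebra O 𝕋]
  {M0 : Type} [AddCommGroup M0] [Module O M0] {act0 : 𝕋 →ₐ[O] Module.End O M0}
  {s k : ℕ} {N : Fin (s + k) → ℕ}

/-- the diamonds at the framed primes -/
abbrev frD (B : FreeLevel O 𝕋 M0 act0 (s + k) N) (v : Fin s) : Module.End O B.M :=
  B.D (Fin.castAdd k v)

/-- the Taylor–Wiles diamonds -/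
abbrev twD (B : FreeLevel O 𝕋 M0 act0 (s + k) N) (i : Fin k) : Module.End O B.M :=
  B.D (Fin.natAdd s i)

/-- the big basis as a monomial basis for the framed diamonds -/
theorem basis_split (B : FreeLevel O 𝕋 M0 act0 (s + k) N)
    (a_s : ∀ v : Fin s, Fin (N (Fin.castAdd k v)))
    (x : (∀ i : Fin k, Fin (N (Fin.natAdd s i))) × Fin B.d) :
    (B.basis.reindex (appendEquiv N B.d)) (a_s, x) =
      mono (frD B) (fun v => ((a_s v : Fin (N (Fin.castAdd k v))) : ℕ))
        (mono (twD B) (fun i => ((x.1 i : Fin (N (Fin.natAdd s i))) : ℕ)) (B.e x.2)) := by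
  obtain ⟨a', j⟩ := x
  rw [Basis.reindex_apply]
  show B.basis (Fin.addCases (motive := fun i => Fin (N i)) a_s a', j) = _
  rw [B.basis_eq, mono_add, Module.End.mul_apply]
  simp only [Fin.addCases_left, Fin.addCases_right]

/-- the induced Hecke action on `P ⧸ ∑_v (D_v - c v) P` -/
noncomputable def quotActM (B : FreeLevel O 𝕋 M0 act0 (s + k) N) (c : Fin s → O) :
    𝕋 →ₐ[O] Module.End O (FamCoinv (frD B) c) where
  toFun t := indF (frD B) c (B.act t) (fun v => B.act_D t _)
  map_one' := indF_ext _ _ fun x => by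
    rw [indF_fmk, map_one]; rfl
  map_mul' t t' := indF_ext _ _ fun x => by
    rw [indF_fmk, map_mul]; rfl
  map_zero' := indF_ext _ _ fun x => by
    rw [indF_fmk, map_zero]; rfl
  map_add' t t' := indF_ext _ _ fun x => by
    rw [indF_fmk, map_add]; rfl
  commutes' r := indF_ext _ _ fun x => by
    rw [indF_fmk, AlgHom.commutes, Module.algebraMap_end_apply, Module.algebraMap_end_apply]
    rfl

@[simp] theorem quotActM_fmk (B : FreeLevel O 𝕋 M0 act0 (s + k) N) (c : Fin s → O) (t : 𝕋)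
    (x : B.M) : quotActM B c t (fmk (frD B) c x) = fmk (frD B) c (B.act t x) := rfl

/-- the induced Taylor–Wiles diamonds on `P ⧸ ∑_v (D_v - c v) P` -/
noncomputable def quotDM (B : FreeLevel O 𝕋 M0 act0 (s + k) N) (c : Fin s → O) (i : Fin k) :
    Module.End O (FamCoinv (frD B) c) :=
  indF (frD B) c (twD B i) (fun _ => B.D_comm _ _)

@[simp] theorem quotDM_fmk (B : FreeLevel O 𝕋 M0 act0 (s + k) N) (c : Fin s → O) (i : Fin k)
    (x : B.M) : quotDM B c i (fmk (frD B) c x) = fmk (frD B) c (twD B i x) := rfl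

variable {M0c : Type} [AddCommGroup M0c] [Module O M0c]

/-- the character `(c, 1, …, 1)` of `∏_v Δ_v × Δ_Q` -/
def gamM (s k : ℕ) (c : Fin s → O) : Fin (s + k) → O := Fin.addCases c fun _ => 1

@[simp] theorem gamM_castAdd (c : Fin s → O) (v : Fin s) : gamM s k c (Fin.castAdd k v) = c v :=
  Fin.addCases_left v

@[simp] theorem gamM_natAdd (c : Fin s → O) (i : Fin k) : gamM s k c (Fin.natAdd s i) = 1 :=
  Fin.addCases_right i

/-- `∑_v (D_v - c v) P + ∑_i (D_i - 1) P` -/
def baseKerM (B : FreeLevel O 𝕋 M0 act0 (s + k) N) (c : Fin s → O) : Submodule O B.M :=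
  famRange (frD B) c ⊔ ⨆ i : Fin k, LinearMap.range (twD B i - 1)

theorem iSup_chiRange_gamM (B : FreeLevel O 𝕋 M0 act0 (s + k) N) (c : Fin s → O) :
    (⨆ i, chiRange (B.D i) (gamM s k c i)) = baseKerM B c := by
  rw [iSup_fin_add_eq, baseKerM, famRange]
  congr 1
  · refine iSup_congr fun v => ?_
    rw [gamM_castAdd]
  · refine iSup_congr fun i => ?_
    rw [gamM_natAdd, chiRange_one]
    rfl

/-- **The quotient level** `P_Q ⧸ ∑_v (D_v - c v) P_Q` over a base `(M0c, act0c)` given with a map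
`πc` from the big module. -/
noncomputable def quotLevelMulti (B : FreeLevel O 𝕋 M0 act0 (s + k) N) (hN : ∀ i, 0 < N i)
    (c : Fin s → O) (hc : ∀ v, c v ^ N (Fin.castAdd k v) = 1)
    (act0c : 𝕋 →ₐ[O] Module.End O M0c) (πc : B.M →ₗ[O] M0c)
    (hsurj : Function.Surjective πc)
    (hker : ∀ x, πc x = 0 ↔ x ∈ baseKerM B c)
    (hact : ∀ t x, πc (B.act t x) = act0c t (πc x)) :
    FreeLevel O 𝕋 M0c act0c k (fun i => N (Fin.natAdd s i)) :=
  have hle : famRange (frD B) c ≤ LinearMap.ker πc := fun x hx =>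
    LinearMap.mem_ker.2 ((hker x).2 (mem_sup_left hx))
  have hγ : ∀ i, gamM s k c i ^ N i = 1 := fun i => by
    induction i using Fin.addCases with
    | left v => rw [gamM_castAdd, hc]
    | right i => rw [gamM_natAdd, one_pow]
  have hkerW : LinearMap.ker πc = ⨆ i, chiRange (B.D i) (gamM s k c i) := by
    ext x
    rw [LinearMap.mem_ker, hker, iSup_chiRange_gamM]
  let b0' := Classical.choose
    (exists_basis_quot hN B.D B.D_pow B.D_comm B.e B.basis B.basis_eq (gamM s k c) hγ)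
  have hb0' : ∀ j, b0' j = Submodule.Quotient.mk (B.e j) := Classical.choose_spec
    (exists_basis_quot hN B.D B.D_pow B.D_comm B.e B.basis B.basis_eq (gamM s k c) hγ)
  let E : (B.M ⧸ ⨆ i, chiRange (B.D i) (gamM s k c i)) ≃ₗ[O] M0c :=
    quotEquivOfEq _ _ hkerW.symm ≪≫ₗ πc.quotKerEquivOfSurjective hsurj
  have hex := exists_basis_quot (k := s) (N := fun v => N (Fin.castAdd k v)) (fun v => hN _)
    (frD B) (fun _ => B.D_pow _) (fun _ _ => B.D_comm _ _)
    (fun x : (∀ i : Fin k, Fin (N (Fin.natAdd s i))) × Fin B.d =>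
      mono (twD B) (fun i => ((x.1 i : Fin (N (Fin.natAdd s i))) : ℕ)) (B.e x.2))
    (B.basis.reindex (appendEquiv N B.d)) (fun a_s x => basis_split B a_s x) c hc
  let bq : Basis ((∀ i : Fin k, Fin (N (Fin.natAdd s i))) × Fin B.d) O (FamCoinv (frD B) c) :=
    Classical.choose hex
  have hbq : ∀ x, bq x = fmk (frD B) c
      (mono (twD B) (fun i => ((x.1 i : Fin (N (Fin.natAdd s i))) : ℕ)) (B.e x.2)) :=
    Classical.choose_spec hex
  { M := FamCoinv (frD B) c
    act := quotActM B c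
    D := quotDM B c
    D_pow := fun i => by
      show indF (frD B) c (twD B i) _ ^ N (Fin.natAdd s i) = 1
      rw [← indF_pow]
      refine indF_ext _ _ fun x => ?_
      rw [indF_fmk]
      have : twD B i ^ N (Fin.natAdd s i) = 1 := B.D_pow _
      rw [this]
      rfl
    D_comm := fun i j => indF_ext _ _ fun x => by
      show fmk _ _ ((twD B i * twD B j) x) = fmk _ _ ((twD B j * twD B i) x)
      rw [show twD B i * twD B j = twD B j * twD B i from B.D_comm _ _]
    act_D := fun t i => indF_ext _ _ fun x => by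
      show fmk _ _ ((B.act t * twD B i) x) = fmk _ _ ((twD B i * B.act t) x)
      rw [show B.act t * twD B i = twD B i * B.act t from B.act_D t _]
    d := B.d
    e := fun j => fmk (frD B) c (B.e j)
    basis := bq
    basis_eq := fun a j => by
      rw [hbq]
      exact (mono_indF_fmk (frD B) c (twD B) (fun i v => B.D_comm _ _)
        (fun i => ((a i : Fin (N (Fin.natAdd s i))) : ℕ)) (B.e j)).symm
    π := (famRange (frD B) c).liftQ πc hle
    π_surjective := fun y => by
      obtain ⟨x, rfl⟩ := hsurj y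
      exact ⟨fmk (frD B) c x, rfl⟩
    ker_π := fun y => by
      obtain ⟨x, rfl⟩ := fmk_surjective (frD B) c y
      have h1 : (⨆ i, LinearMap.range (quotDM B c i - 1)) =
          (⨆ i : Fin k, LinearMap.range (twD B i - 1)).map (famRange (frD B) c).mkQ := by
        rw [Submodule.map_iSup]
        exact iSup_congr fun i => range_indF_sub_one (frD B) c (twD B i) (fun v => B.D_comm _ _)
      rw [h1]
      show πc x = 0 ↔ (famRange (frD B) c).mkQ x ∈ _
      rw [hker, ← Submodule.mem_comap, Submodule.comap_map_eq, ker_mkQ, sup_comm]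
      rfl
    π_act := fun t y => by
      obtain ⟨x, rfl⟩ := fmk_surjective (frD B) c y
      exact hact t x
    basis0 := b0'.map E
    basis0_eq := fun j => by
      rw [Basis.map_apply, hb0']
      rfl }

end Level

section Fields

variable {O : Type} [CommRing O] {𝕋 : Type} [CommRing 𝕋] [Algebra O 𝕋]
  {M0 : Type} [AddCommGroup M0] [Module O M0] {act0 : 𝕋 →ₐ[O] Module.End O M0}
  {s k : ℕ} {N : Fin (s + k) → ℕ} {M0c : Type} [AddCommGroup M0c] [Module O M0c]
  (B : FreeLevel O 𝕋 M0 act0 (s + k) N) (hN : ∀ i, 0 < N i)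
  (c : Fin s → O) (hc : ∀ v, c v ^ N (Fin.castAdd k v) = 1)
  (act0c : 𝕋 →ₐ[O] Module.End O M0c) (πc : B.M →ₗ[O] M0c)
  (hsurj : Function.Surjective πc) (hker : ∀ x, πc x = 0 ↔ x ∈ baseKerM B c)
  (hact : ∀ t x, πc (B.act t x) = act0c t (πc x))

/-! The fields of `quotLevelMulti`, on representatives (all `rfl`). -/

theorem quotLevelMulti_M :
    (quotLevelMulti B hN c hc act0c πc hsurj hker hact).M = FamCoinv (frD B) c := rfl

theorem quotLevelMulti_d : (quotLevelMulti B hN c hc act0c πc hsurj hker hact).d = B.d := rfl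

theorem quotLevelMulti_e (j : Fin B.d) :
    (quotLevelMulti B hN c hc act0c πc hsurj hker hact).e j = fmk (frD B) c (B.e j) := rfl

theorem quotLevelMulti_act (t : 𝕋) (x : B.M) :
    (quotLevelMulti B hN c hc act0c πc hsurj hker hact).act t (fmk (frD B) c x) =
      fmk (frD B) c (B.act t x) := rfl

theorem quotLevelMulti_D (i : Fin k) (x : B.M) :
    (quotLevelMulti B hN c hc act0c πc hsurj hker hact).D i (fmk (frD B) c x) =
      fmk (frD B) c (B.D (Fin.natAdd s i) x) := rfl

theorem quotLevelMulti_π (x : B.M) :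
    (quotLevelMulti B hN c hc act0c πc hsurj hker hact).π (fmk (frD B) c x) = πc x := rfl

end Fields

/-! ### the comparison isomorphism in the `ϖ • ⊤` spelling of `TWLevelData` -/

section U

variable {O P : Type*} [CommRing O] [AddCommGroup P] [Module O P] {ι : Type*}
  (D₀ : ι → Module.End O P)

/-- `M¹ ⧸ ϖ ≃ M^χ ⧸ ϖ` when every `c v ≡ 1 mod ϖ`, identity on representatives. -/
noncomputable def chiUM (ϖ : O) (c : ι → O) (h : ∀ v, (1 : O) - c v ∈ Ideal.span {ϖ}) :
    (FamCoinv D₀ (fun _ => 1) ⧸ (ϖ • ⊤ : Submodule O (FamCoinv D₀ fun _ => 1))) ≃ₗ[O]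
      (FamCoinv D₀ c ⧸ (ϖ • ⊤ : Submodule O (FamCoinv D₀ c))) :=
  quotEquivOfEq _ _ (Submodule.ideal_span_singleton_smul ϖ ⊤).symm ≪≫ₗ
    quotCongr (famRange D₀ fun _ => 1) (famRange D₀ c) (Ideal.span {ϖ})
      (famRange_sup_smul_eq D₀ (Ideal.span {ϖ}) (fun _ => 1) c h) ≪≫ₗ
      quotEquivOfEq _ _ (Submodule.ideal_span_singleton_smul ϖ ⊤)

theorem chiUM_mk (ϖ : O) (c : ι → O) (h : ∀ v, (1 : O) - c v ∈ Ideal.span {ϖ}) (x : P) :
    chiUM D₀ ϖ c h (Submodule.Quotient.mk (fmk D₀ (fun _ => 1) x)) =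
      Submodule.Quotient.mk (fmk D₀ c x) := by
  simp only [chiUM, LinearEquiv.trans_apply, quotEquivOfEq_mk]
  rw [quotCongr_mk_mk, quotEquivOfEq_mk]

/-- `chiUM` intertwines any two operators induced by the same operator of `P`. -/
theorem chiUM_comm (ϖ : O) (c : ι → O) (h : ∀ v, (1 : O) - c v ∈ Ideal.span {ϖ})
    (f₁ : Module.End O (FamCoinv D₀ fun _ => 1)) (fχ : Module.End O (FamCoinv D₀ c)) (f : P → P)
    (h1 : ∀ x, f₁ (fmk D₀ (fun _ => 1) x) = fmk D₀ (fun _ => 1) (f x))
    (hχ : ∀ x, fχ (fmk D₀ c x) = fmk D₀ c (f x))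
    (x : FamCoinv D₀ fun _ => 1) (y : FamCoinv D₀ c)
    (hxy : chiUM D₀ ϖ c h (Submodule.Quotient.mk x) = Submodule.Quotient.mk y) :
    chiUM D₀ ϖ c h (Submodule.Quotient.mk (f₁ x)) = Submodule.Quotient.mk (fχ y) := by
  obtain ⟨x₀, rfl⟩ := fmk_surjective D₀ (fun _ => 1) x
  rw [chiUM_mk] at hxy
  rw [h1, chiUM_mk, ← hχ, Submodule.Quotient.eq, ← map_sub]
  exact ChiLevel.map_mem_smul_top fχ ϖ ((Submodule.Quotient.eq _).1 hxy)

end U

/-! ### the package -/

section Data

variable {O : Type} [CommRing O] {𝕋 : Type} [CommRing 𝕋] [Algebra O 𝕋]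
  {M0 : Type} [AddCommGroup M0] [Module O M0] {act0 : 𝕋 →ₐ[O] Module.End O M0}
  {M0χ : Type} [AddCommGroup M0χ] [Module O M0χ] {act0χ : 𝕋 →ₐ[O] Module.End O M0χ}
  {s k : ℕ} {N : Fin (s + k) → ℕ}

theorem ker_π_splitM (B : FreeLevel O 𝕋 M0 act0 (s + k) N) (x : B.M) :
    B.π x = 0 ↔ x ∈ baseKerM B (fun _ => 1) := by
  rw [B.ker_π, iSup_fin_add_eq, baseKerM, famRange]
  simp only [chiRange_one]
  rfl

/-- `M¹_Q = P_Q ⧸ ∑_v (D_v - 1) P_Q` as a level over `M0 = M¹_∅`. -/
noncomputable def level1M (B : FreeLevel O 𝕋 M0 act0 (s + k) N) (hN : ∀ i, 0 < N i) :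
    FreeLevel O 𝕋 M0 act0 k (fun i => N (Fin.natAdd s i)) :=
  quotLevelMulti B hN (fun _ => 1) (fun _ => one_pow _) act0 B.π B.π_surjective (ker_π_splitM B)
    B.π_act

/-- **`TWLevelData` from the big level, several framed primes.** -/
noncomputable def twLevelDataMulti (B : FreeLevel O 𝕋 M0 act0 (s + k) N) (hN : ∀ i, 0 < N i)
    (ϖ : O) (c : Fin s → O) (hc : ∀ v, c v ^ N (Fin.castAdd k v) = 1)
    (hc1 : ∀ v, (1 : O) - c v ∈ Ideal.span {ϖ})
    (πχ : B.M →ₗ[O] M0χ) (hsurj : Function.Surjective πχ)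
    (hker : ∀ x, πχ x = 0 ↔ x ∈ baseKerM B c)
    (hact : ∀ t x, πχ (B.act t x) = act0χ t (πχ x)) :
    TWLevelData O ϖ 𝕋 M0 act0 M0χ act0χ k (fun i => N (Fin.natAdd s i)) where
  L1 := level1M B hN
  Lχ := quotLevelMulti B hN c hc act0χ πχ hsurj hker hact
  U := chiUM (frD B) ϖ c hc1
  U_act := fun t x y hxy =>
    chiUM_comm (frD B) ϖ c hc1 (quotActM B (fun _ => 1) t) (quotActM B c t) (B.act t)
      (fun _ => rfl) (fun _ => rfl) x y hxy
  U_D := fun i x y hxy =>
    chiUM_comm (frD B) ϖ c hc1 (quotDM B (fun _ => 1) i) (quotDM B c i) (twD B i)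
      (fun _ => rfl) (fun _ => rfl) x y hxy

theorem twLevelDataMulti_U_mk (B : FreeLevel O 𝕋 M0 act0 (s + k) N) (hN : ∀ i, 0 < N i)
    (ϖ : O) (c : Fin s → O) (hc : ∀ v, c v ^ N (Fin.castAdd k v) = 1)
    (hc1 : ∀ v, (1 : O) - c v ∈ Ideal.span {ϖ})
    (πχ : B.M →ₗ[O] M0χ) (hsurj : Function.Surjective πχ)
    (hker : ∀ x, πχ x = 0 ↔ x ∈ baseKerM B c)
    (hact : ∀ t x, πχ (B.act t x) = act0χ t (πχ x)) (x : B.M) :
    (twLevelDataMulti B hN ϖ c hc hc1 πχ hsurj hker hact).U
        (Submodule.Quotient.mk (fmk (frD B) (fun _ => 1) x)) =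
      Submodule.Quotient.mk (fmk (frD B) c x) :=
  chiUM_mk (frD B) ϖ c hc1 x

/-! ### the `Q`-dependent `χ`-base -/

/-- the `χ`-coinvariants of the big module for the whole group, `χ = (c, 1, …, 1)` -/
abbrev ChiBaseM (B : FreeLevel O 𝕋 M0 act0 (s + k) N) (c : Fin s → O) : Type :=
  B.M ⧸ baseKerM B c

theorem baseKerM_le_comap (B : FreeLevel O 𝕋 M0 act0 (s + k) N) (c : Fin s → O) (t : 𝕋) :
    baseKerM B c ≤ (baseKerM B c).comap (B.act t) := by
  refine sup_le ?_ (iSup_le fun i => ?_)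
  · exact (famRange_le_comap (frD B) c (B.act t) (fun _ => B.act_D t _)).trans
      (Submodule.comap_mono le_sup_left)
  · rintro _ ⟨m, rfl⟩
    rw [Submodule.mem_comap]
    refine mem_sup_right ((le_iSup (fun i : Fin k => LinearMap.range (twD B i - 1)) i) ?_)
    refine ⟨B.act t m, ?_⟩
    have h := LinearMap.congr_fun (B.act_D t (Fin.natAdd s i)) m
    simp only [Module.End.mul_apply] at h
    simp only [LinearMap.sub_apply, Module.End.one_apply, map_sub, h]

/-- the induced Hecke action on the `χ`-base -/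
noncomputable def chiBaseActM (B : FreeLevel O 𝕋 M0 act0 (s + k) N) (c : Fin s → O) :
    𝕋 →ₐ[O] Module.End O (ChiBaseM B c) where
  toFun t := mapQ _ _ (B.act t) (baseKerM_le_comap B c t)
  map_one' := by
    refine Submodule.linearMap_qext _ (LinearMap.ext fun x => ?_)
    simp only [LinearMap.comp_apply, mkQ_apply, mapQ_apply, map_one, Module.End.one_apply]
  map_mul' t t' := by
    refine Submodule.linearMap_qext _ (LinearMap.ext fun x => ?_)
    simp only [LinearMap.comp_apply, mkQ_apply, mapQ_apply, map_mul, Module.End.mul_apply]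
  map_zero' := by
    refine Submodule.linearMap_qext _ (LinearMap.ext fun x => ?_)
    simp only [LinearMap.comp_apply, mkQ_apply, mapQ_apply, map_zero, LinearMap.zero_apply,
      Submodule.Quotient.mk_zero]
  map_add' t t' := by
    refine Submodule.linearMap_qext _ (LinearMap.ext fun x => ?_)
    simp only [LinearMap.comp_apply, mkQ_apply, mapQ_apply, map_add, LinearMap.add_apply,
      Submodule.Quotient.mk_add]
  commutes' r := by
    refine Submodule.linearMap_qext _ (LinearMap.ext fun x => ?_)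
    simp only [LinearMap.comp_apply, mkQ_apply, mapQ_apply, AlgHom.commutes,
      Module.algebraMap_end_apply, Submodule.Quotient.mk_smul]

@[simp] theorem chiBaseActM_mk (B : FreeLevel O 𝕋 M0 act0 (s + k) N) (c : Fin s → O) (t : 𝕋)
    (x : B.M) :
    chiBaseActM B c t (Submodule.Quotient.mk x) = Submodule.Quotient.mk (B.act t x) := rfl

/-- **`TWLevelData` from the big level alone, several framed primes** (`χ`-base := the
coinvariants themselves). -/
noncomputable def twLevelDataMultiSelf (B : FreeLevel O 𝕋 M0 act0 (s + k) N)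
    (hN : ∀ i, 0 < N i) (ϖ : O) (c : Fin s → O) (hc : ∀ v, c v ^ N (Fin.castAdd k v) = 1)
    (hc1 : ∀ v, (1 : O) - c v ∈ Ideal.span {ϖ}) :
    TWLevelData O ϖ 𝕋 M0 act0 (ChiBaseM B c) (chiBaseActM B c) k
      (fun i => N (Fin.natAdd s i)) :=
  twLevelDataMulti B hN ϖ c hc hc1 (baseKerM B c).mkQ (Submodule.mkQ_surjective _)
    (fun x => by rw [mkQ_apply, Submodule.Quotient.mk_eq_zero]) (fun _ _ => rfl)

end Data

end Fermat.Agent.GB.B3.ChiLevelMulti
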