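/-
GATE-B / GB-B3-CHILEVEL, part 3 (helper24): `TWLevelData` from the big level with the
`Q`-DEPENDENT `χ`-base (helper49, board 5452 (1)(b)): `M0χ := P_Q ⧸ ((D 0 - c) P_Q + ∑_{i ≥ 1}
(D i - 1) P_Q)` with the induced Hecke action — no `πχ` binder at all.
Mathlib + GB/B3/{TWLevel, Chi, MonoCoinv, ChiLevel} only.
-/
import Fermat.Agent.GB.B3.ChiLevel

set_option autoImplicit false

namespace Fermat.Agent.GB.B3.ChiLevel

open Module Submodule Fermat.Agent.GB.B3.TWLevel Fermat.Agent.GB.B3.Chi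

variable {O : Type} [CommRing O] {𝕋 : Type} [CommRing 𝕋] [Algebra O 𝕋]
  {M0 : Type} [AddCommGroup M0] [Module O M0] {act0 : 𝕋 →ₐ[O] Module.End O M0}
  {k : ℕ} {N : Fin (k + 1) → ℕ}

/-- `(D 0 - c) P + ∑_{i ≥ 1} (D i - 1) P` -/
def chiBaseKer (B : FreeLevel O 𝕋 M0 act0 (k + 1) N) (c : O) : Submodule O B.M :=
  chiRange (B.D 0) c ⊔ ⨆ i : Fin k, LinearMap.range (B.D i.succ - 1)

/-- the `χ`-coinvariants of the big module for the whole group `Δ_q × Δ_Q`, `χ = (c, 1, …, 1)` -/
abbrev ChiBase (B : FreeLevel O 𝕋 M0 act0 (k + 1) N) (c : O) : Type := B.M ⧸ chiBaseKer B c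

theorem chiBaseKer_le_comap (B : FreeLevel O 𝕋 M0 act0 (k + 1) N) (c : O) (t : 𝕋) :
    chiBaseKer B c ≤ (chiBaseKer B c).comap (B.act t) := by
  refine sup_le ?_ (iSup_le fun i => ?_)
  · exact (chiRange_le_comap (D := B.D 0) (t := B.act t) (B.act_D t 0) c).trans
      (Submodule.comap_mono le_sup_left)
  · rintro _ ⟨m, rfl⟩
    rw [Submodule.mem_comap]
    refine mem_sup_right ((le_iSup (fun i : Fin k => LinearMap.range (B.D i.succ - 1)) i) ?_)
    refine ⟨B.act t m, ?_⟩
    have h := LinearMap.congr_fun (B.act_D t i.succ) m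
    simp only [Module.End.mul_apply] at h
    simp only [LinearMap.sub_apply, Module.End.one_apply, map_sub, h]

/-- the induced Hecke action on the `χ`-base -/
noncomputable def chiBaseAct (B : FreeLevel O 𝕋 M0 act0 (k + 1) N) (c : O) :
    𝕋 →ₐ[O] Module.End O (ChiBase B c) where
  toFun t := mapQ _ _ (B.act t) (chiBaseKer_le_comap B c t)
  map_one' := by
    refine Submodule.linearMap_qext _ (LinearMap.ext fun x => ?_)
    simp only [LinearMap.comp_apply, mkQ_apply, mapQ_apply, map_one, Module.End.one_apply]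
  map_mul' s t := by
    refine Submodule.linearMap_qext _ (LinearMap.ext fun x => ?_)
    simp only [LinearMap.comp_apply, mkQ_apply, mapQ_apply, map_mul, Module.End.mul_apply]
  map_zero' := by
    refine Submodule.linearMap_qext _ (LinearMap.ext fun x => ?_)
    simp only [LinearMap.comp_apply, mkQ_apply, mapQ_apply, map_zero, LinearMap.zero_apply,
      Submodule.Quotient.mk_zero]
  map_add' s t := by
    refine Submodule.linearMap_qext _ (LinearMap.ext fun x => ?_)
    simp only [LinearMap.comp_apply, mkQ_apply, mapQ_apply, map_add, LinearMap.add_apply,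
      Submodule.Quotient.mk_add]
  commutes' r := by
    refine Submodule.linearMap_qext _ (LinearMap.ext fun x => ?_)
    simp only [LinearMap.comp_apply, mkQ_apply, mapQ_apply, AlgHom.commutes,
      Module.algebraMap_end_apply, Submodule.Quotient.mk_smul]

@[simp] theorem chiBaseAct_mk (B : FreeLevel O 𝕋 M0 act0 (k + 1) N) (c : O) (t : 𝕋) (x : B.M) :
    chiBaseAct B c t (Submodule.Quotient.mk x) = Submodule.Quotient.mk (B.act t x) := rfl

/-- **`TWLevelData` from the big level alone** (`χ`-base := the coinvariants themselves). -/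
noncomputable def twLevelDataSelf (B : FreeLevel O 𝕋 M0 act0 (k + 1) N) (hN : ∀ i, 0 < N i)
    (ϖ c : O) (hc : c ^ N 0 = 1) (hc1 : (1 : O) - c ∈ Ideal.span {ϖ}) :
    TWLevelData O ϖ 𝕋 M0 act0 (ChiBase B c) (chiBaseAct B c) k (fun i => N i.succ) :=
  twLevelData B hN ϖ c hc hc1 (chiBaseKer B c).mkQ (Submodule.mkQ_surjective _)
    (fun x => by rw [mkQ_apply, Submodule.Quotient.mk_eq_zero]; rfl) (fun _ _ => rfl)

end Fermat.Agent.GB.B3.ChiLevel
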