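import Mathlib
import Fermat.Agent.GB.B3.GammaH

/-!
# GATE-B / B3 (helper46): the characters and diamond generators of the Taylor–Wiles primes

The arithmetic input of the tower (`exists_tower`): for a level `N` and a prime `r ∥ N` with
`p ^ n ∣ r - 1`,

* `cycChar G m hm` : a SURJECTIVE character of a finite cyclic group `G` onto the cyclic group
  `Multiplicative (ZMod m)`, `m ∣ Nat.card G`;
* `psiR hrN hpn : (ZMod N)ˣ →* Multiplicative (ZMod (p ^ n))` : the character of `(ℤ/N)ˣ` factoring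
  through the cyclic quotient of order `p ^ n` of `(ℤ/r)ˣ`; `psiR_neg_one` (`p` odd),
  `psiR_eq_one_of_unitsMap` (trivial on units `≡ 1 mod r`), `psiR_surjective`;
* `exists_unit_crt` : Chinese remainder for units: `N = r * N'`, `r`, `N'` coprime, `g` a unit
  mod `r` ⟹ a unit `u` mod `N` with `u ≡ g (r)`, `u ≡ 1 (N')`;
* `exists_dd` : a matrix `dd ∈ Γ₀(N)` with `psiR (d(dd))` of exact order `p ^ n` and
  `d(dd) ≡ 1 mod N'` — the diamond generator at `r`.
-/

set_option autoImplicit false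

open scoped MatrixGroups
open CongruenceSubgroup

namespace Fermat.Agent.GB.B3.TWChars

open Fermat.Agent.GB.B3.EisGamma0 Fermat.Agent.GB.B3.GamH

/-! ### cyclic quotients of cyclic groups -/

section Cyc

variable (G : Type*) [Group G] [hG : IsCyclic G] (m : ℕ) (hm : m ∣ Nat.card G)

/-- a character of a cyclic group onto the cyclic group of order `m ∣ |G|` -/
noncomputable def cycChar : G →* Multiplicative (ZMod m) :=
  (AddMonoidHom.toMultiplicative (ZMod.castHom hm (ZMod m)).toAddMonoidHom).comp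
    (zmodCyclicMulEquiv hG).symm.toMonoidHom

theorem cycChar_surjective : Function.Surjective (cycChar G m hm) := by
  intro y
  obtain ⟨x, hx⟩ := ZMod.castHom_surjective hm (Multiplicative.toAdd y)
  refine ⟨zmodCyclicMulEquiv hG (Multiplicative.ofAdd x), ?_⟩
  show Multiplicative.ofAdd ((ZMod.castHom hm (ZMod m))
    (Multiplicative.toAdd ((zmodCyclicMulEquiv hG).symm
      (zmodCyclicMulEquiv hG (Multiplicative.ofAdd x))))) = y
  rw [MulEquiv.symm_apply_apply, toAdd_ofAdd, hx, ofAdd_toAdd]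

end Cyc

/-- in a group of odd order `m`, an involution is trivial -/
theorem eq_one_of_sq_eq_one_of_odd {m : ℕ} [NeZero m] (hm : ¬ 2 ∣ m)
    (x : Multiplicative (ZMod m)) (hx : x ^ 2 = 1) : x = 1 := by
  have h1 : orderOf x ∣ 2 := orderOf_dvd_of_pow_eq_one hx
  have h2 : orderOf x ∣ m := by
    have := orderOf_dvd_card (x := x)
    rwa [Fintype.card_multiplicative, ZMod.card] at this
  have h3 : orderOf x ∣ Nat.gcd 2 m := Nat.dvd_gcd h1 h2
  have h4 : Nat.gcd 2 m = 1 := by
    have : Nat.Coprime 2 m := (Nat.Prime.coprime_iff_not_dvd Nat.prime_two).mpr hm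
    exact this
  rw [h4, Nat.dvd_one] at h3
  exact orderOf_eq_one_iff.mp h3

/-! ### the character at a prime `r ∣ N`, `p ^ n ∣ r - 1` -/

section Psi

variable {N r p n : ℕ} [hr : Fact r.Prime]

theorem card_units_zmod_prime : Nat.card (ZMod r)ˣ = r - 1 := by
  rw [Nat.card_eq_fintype_card, ZMod.card_units_eq_totient, Nat.totient_prime hr.out]

variable (hrN : r ∣ N) (hpn : p ^ n ∣ r - 1)

/-- **the Taylor–Wiles character at `r`**: `(ℤ/N)ˣ → (ℤ/r)ˣ → ` its cyclic quotient of order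
`p ^ n` -/
noncomputable def psiR : (ZMod N)ˣ →* Multiplicative (ZMod (p ^ n)) :=
  (cycChar (ZMod r)ˣ (p ^ n) (by rw [card_units_zmod_prime]; exact hpn)).comp (ZMod.unitsMap hrN)

theorem psiR_apply (u : (ZMod N)ˣ) :
    psiR hrN hpn u = cycChar (ZMod r)ˣ (p ^ n) (by rw [card_units_zmod_prime]; exact hpn)
      (ZMod.unitsMap hrN u) := rfl

/-- trivial on the units `≡ 1 mod r` -/
theorem psiR_eq_one_of_unitsMap (u : (ZMod N)ˣ) (hu : ZMod.unitsMap hrN u = 1) :
    psiR hrN hpn u = 1 := by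
  rw [psiR_apply, hu, map_one]

theorem psiR_surjective [NeZero N] : Function.Surjective (psiR hrN hpn) := by
  intro y
  obtain ⟨g, hg⟩ := cycChar_surjective (ZMod r)ˣ (p ^ n)
    (by rw [card_units_zmod_prime]; exact hpn) y
  obtain ⟨u, hu⟩ := ZMod.unitsMap_surjective hrN g
  exact ⟨u, by rw [psiR_apply, hu, hg]⟩

/-- **`ψ_r (-1) = 1`** for `p` odd -/
theorem psiR_neg_one (hp : p.Prime) (hp2 : p ≠ 2) : psiR hrN hpn (-1) = 1 := by
  have : NeZero (p ^ n) := ⟨pow_ne_zero _ hp.ne_zero⟩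
  refine eq_one_of_sq_eq_one_of_odd ?_ _ ?_
  · intro h2
    have := (Nat.Prime.dvd_of_dvd_pow Nat.prime_two h2)
    exact hp2 ((Nat.prime_dvd_prime_iff_eq Nat.prime_two hp).mp this).symm
  · rw [← map_pow, neg_one_sq, map_one]

end Psi

/-! ### Chinese remainder for units -/

/-- **CRT for units**: `r`, `N'` coprime, `g` a unit mod `r` ⟹ a unit `u` mod `r * N'` with
`u ≡ g (r)` and `u ≡ 1 (N')`. -/
theorem exists_unit_crt {r N' : ℕ} [NeZero r] (hc : Nat.Coprime r N') (g : (ZMod r)ˣ) :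
    ∃ u : (ZMod (r * N'))ˣ, ZMod.unitsMap (Dvd.intro N' rfl) u = g ∧
      ZMod.unitsMap (Dvd.intro_left r rfl) u = 1 := by
  obtain ⟨k, hk1, hk2⟩ := Nat.chineseRemainder hc (g : ZMod r).val 1
  have hkr : Nat.Coprime k r := by
    have h1 : Nat.Coprime (g : ZMod r).val r := ZMod.val_coe_unit_coprime g
    rw [Nat.Coprime, ← hk1.gcd_eq] at h1
    exact h1
  have hkN' : Nat.Coprime k N' := by
    have h1 : Nat.Coprime 1 N' := Nat.coprime_one_left N'
    rw [Nat.Coprime, ← hk2.gcd_eq] at h1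
    exact h1
  have hk : Nat.Coprime k (r * N') := Nat.Coprime.mul_right hkr hkN'
  refine ⟨ZMod.unitOfCoprime k hk, ?_, ?_⟩
  · apply Units.ext
    rw [ZMod.unitsMap_val, ZMod.coe_unitOfCoprime, ZMod.cast_natCast (Dvd.intro N' rfl)]
    rw [(ZMod.natCast_eq_natCast_iff _ _ _).mpr hk1, ZMod.natCast_zmod_val]
  · apply Units.ext
    rw [ZMod.unitsMap_val, ZMod.coe_unitOfCoprime, ZMod.cast_natCast (Dvd.intro_left r rfl)]
    rw [(ZMod.natCast_eq_natCast_iff _ _ _).mpr hk2, Nat.cast_one, Units.val_one]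

/-! ### the diamond generator at `r` -/

section DD

variable {N r N' p n : ℕ} [hr : Fact r.Prime] [NeZero N]

/-- **the diamond generator at `r ∥ N`**: a matrix `dd ∈ Γ₀(N)` with `ψ_r (d(dd))` of exact order
`p ^ n` and `d(dd) ≡ 1` modulo the cofactor `N'` of `r` in `N`. -/
theorem exists_dd (hN : N = r * N') (hc : Nat.Coprime r N') (hpn : p ^ n ∣ r - 1)
    (hp : p.Prime) :
    ∃ dd : Gamma0 N,
      orderOf (psiR (N := N) (Dvd.intro N' hN.symm) hpn (dUnits N dd)) = p ^ n ∧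
      ZMod.unitsMap (Dvd.intro_left r hN.symm) (dUnits N dd) = 1 := by
  subst hN
  have : NeZero (p ^ n) := ⟨pow_ne_zero _ hp.ne_zero⟩
  have : NeZero r := ⟨hr.out.ne_zero⟩
  -- a generator of the target
  have hcyc : IsCyclic (Multiplicative (ZMod (p ^ n))) := inferInstance
  obtain ⟨y, hy⟩ := hcyc.exists_generator
  have hyord : orderOf y = p ^ n := by
    have := orderOf_eq_card_of_forall_mem_zpowers hy
    rwa [Nat.card_eq_fintype_card, Fintype.card_multiplicative, ZMod.card] at this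
  obtain ⟨g, hg⟩ := cycChar_surjective (ZMod r)ˣ (p ^ n)
    (by rw [card_units_zmod_prime]; exact hpn) y
  obtain ⟨u, hu1, hu2⟩ := exists_unit_crt hc g
  obtain ⟨dd, hdd⟩ := dUnits_surjective (N := r * N') u
  refine ⟨dd, ?_, ?_⟩
  · rw [hdd, psiR_apply, hu1, hg, hyord]
  · rw [hdd, hu2]

end DD

/-! ### assembly over a finite family of primes `r i ∥ N`, `i < k` -/

section Family

variable (N p : ℕ) [NeZero N] (k : ℕ) (r e N' : ℕ → ℕ)

/-- **Taylor–Wiles prime data**: distinct primes `r i ∥ N` (`i < k`, cofactor `N' i`) with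
`p ^ e i ∣ r i - 1`; `e i = 0` outside the range (so that all indices `i : ℕ` are uniform). -/
structure PrimeData : Prop where
  prime : ∀ i, i < k → (r i).Prime
  fact : ∀ i, i < k → N = r i * N' i
  cop : ∀ i, i < k → Nat.Coprime (r i) (N' i)
  cong : ∀ i, i < k → p ^ e i ∣ r i - 1
  inj : ∀ i j, i < k → j < k → i ≠ j → r i ≠ r j
  e_out : ∀ i, k ≤ i → e i = 0

variable {N p k r e N'}

namespace PrimeData

variable (H : PrimeData N p k r e N')
include H

theorem dvd (i : ℕ) (hi : i < k) : r i ∣ N := Dvd.intro (N' i) (H.fact i hi).symm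

theorem dvd' (i : ℕ) (hi : i < k) : N' i ∣ N := Dvd.intro_left (r i) (H.fact i hi).symm

/-- another prime of the family divides the cofactor -/
theorem dvd_cofactor (i j : ℕ) (hi : i < k) (hj : j < k) (hij : i ≠ j) : r i ∣ N' j := by
  have h1 : r i ∣ r j * N' j := (H.fact j hj) ▸ H.dvd i hi
  have h2 : Nat.Coprime (r i) (r j) :=
    (Nat.coprime_primes (H.prime i hi) (H.prime j hj)).mpr (H.inj i j hi hj hij)
  exact h2.dvd_of_dvd_mul_left h1

/-- **the family of characters** `ψ i : (ℤ/N)ˣ → ℤ/p^(e i)` (trivial outside the range) -/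
noncomputable def psi (i : ℕ) : (ZMod N)ˣ →* Multiplicative (ZMod (p ^ e i)) :=
  if hi : i < k then
    @psiR N (r i) p (e i) ⟨H.prime i hi⟩ (H.dvd i hi) (H.cong i hi)
  else 1

theorem psi_of_lt (i : ℕ) (hi : i < k) :
    H.psi i = @psiR N (r i) p (e i) ⟨H.prime i hi⟩ (H.dvd i hi) (H.cong i hi) := dif_pos hi

theorem psi_of_le (i : ℕ) (hi : k ≤ i) : H.psi i = 1 := dif_neg (not_lt.mpr hi)

/-- **the family of diamond generators** -/
noncomputable def dd (hp : p.Prime) (i : ℕ) : Gamma0 N :=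
  if hi : i < k then
    (@exists_dd N (r i) (N' i) p (e i) ⟨H.prime i hi⟩ _ (H.fact i hi) (H.cop i hi) (H.cong i hi)
      hp).choose
  else 1

theorem dd_of_le (hp : p.Prime) (i : ℕ) (hi : k ≤ i) : H.dd hp i = 1 := dif_neg (not_lt.mpr hi)

theorem dd_spec (hp : p.Prime) (i : ℕ) (hi : i < k) :
    orderOf (@psiR N (r i) p (e i) ⟨H.prime i hi⟩ (H.dvd i hi) (H.cong i hi)
      (dUnits N (H.dd hp i))) = p ^ e i ∧
    ZMod.unitsMap (H.dvd' i hi) (dUnits N (H.dd hp i)) = 1 := by
  have h := (@exists_dd N (r i) (N' i) p (e i) ⟨H.prime i hi⟩ _ (H.fact i hi) (H.cop i hi)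
    (H.cong i hi) hp).choose_spec
  have h2 : H.dd hp i = (@exists_dd N (r i) (N' i) p (e i) ⟨H.prime i hi⟩ _ (H.fact i hi)
    (H.cop i hi) (H.cong i hi) hp).choose := dif_pos hi
  rw [h2]
  exact h

/-- `hcard`, instance-free form -/
theorem card_target (hp : p.Prime) (i : ℕ) :
    Nat.card (Multiplicative (ZMod (p ^ e i))) = p ^ e i := by
  haveI : NeZero (p ^ e i) := ⟨pow_ne_zero _ hp.ne_zero⟩
  rw [Nat.card_eq_fintype_card, Fintype.card_multiplicative, ZMod.card]

/-- **`hord`** -/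
theorem orderOf_psi_dd (hp : p.Prime) (i : ℕ) :
    orderOf (H.psi i (dUnits N (H.dd hp i))) = p ^ e i := by
  by_cases hi : i < k
  · rw [H.psi_of_lt i hi]
    exact (H.dd_spec hp i hi).1
  · rw [H.psi_of_le i (not_lt.mp hi), H.e_out i (not_lt.mp hi), pow_zero, MonoidHom.one_apply,
      orderOf_one]

/-- **`hoff`** -/
theorem psi_dd_of_ne (hp : p.Prime) (i j : ℕ) (hij : i ≠ j) :
    H.psi i (dUnits N (H.dd hp j)) = 1 := by
  by_cases hi : i < k
  · by_cases hj : j < k
    · rw [H.psi_of_lt i hi]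
      haveI : Fact (r i).Prime := ⟨H.prime i hi⟩
      apply psiR_eq_one_of_unitsMap
      have h1 := (H.dd_spec hp j hj).2
      have h2 := ZMod.unitsMap_comp (H.dvd_cofactor i j hi hj hij) (H.dvd' j hj)
      have h3 := congrArg (fun f => f (dUnits N (H.dd hp j))) h2
      simp only [MonoidHom.comp_apply] at h3
      rw [← h3, h1, map_one]
    · rw [H.dd_of_le hp j (not_lt.mp hj), map_one, map_one]
  · rw [H.psi_of_le i (not_lt.mp hi), MonoidHom.one_apply]

/-- **`hneg`** -/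
theorem psi_neg_one (hp : p.Prime) (hp2 : p ≠ 2) (i : ℕ) : H.psi i (-1) = 1 := by
  by_cases hi : i < k
  · rw [H.psi_of_lt i hi]
    haveI : Fact (r i).Prime := ⟨H.prime i hi⟩
    exact psiR_neg_one (H.dvd i hi) (H.cong i hi) hp hp2
  · rw [H.psi_of_le i (not_lt.mp hi), MonoidHom.one_apply]

/-- the characters in the range are onto -/
theorem psi_surjective (i : ℕ) (hi : i < k) : Function.Surjective (H.psi i) := by
  rw [H.psi_of_lt i hi]
  haveI : Fact (r i).Prime := ⟨H.prime i hi⟩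
  exact psiR_surjective (H.dvd i hi) (H.cong i hi)

/-- the characters factor through `(ℤ/r i)ˣ` -/
theorem psi_eq_one_of_unitsMap (i : ℕ) (hi : i < k) (u : (ZMod N)ˣ)
    (hu : ZMod.unitsMap (H.dvd i hi) u = 1) : H.psi i u = 1 := by
  rw [H.psi_of_lt i hi]
  haveI : Fact (r i).Prime := ⟨H.prime i hi⟩
  exact psiR_eq_one_of_unitsMap (H.dvd i hi) (H.cong i hi) u hu

end PrimeData

/-- **the arithmetic input of `exists_tower`**, existential form -/
theorem exists_tw_family (H : PrimeData N p k r e N') (hp : p.Prime) (hp2 : p ≠ 2) :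
    ∃ (ψ : ∀ i, (ZMod N)ˣ →* Multiplicative (ZMod (p ^ e i))) (dd : ℕ → Gamma0 N),
      (∀ i, Nat.card (Multiplicative (ZMod (p ^ e i))) = p ^ e i) ∧
      (∀ i, orderOf (ψ i (dUnits N (dd i))) = p ^ e i) ∧
      (∀ i j, i ≠ j → ψ i (dUnits N (dd j)) = 1) ∧
      (∀ i, ψ i (-1) = 1) ∧
      (∀ i, i < k → Function.Surjective (ψ i)) :=
  ⟨H.psi, H.dd hp, H.card_target hp, H.orderOf_psi_dd hp, H.psi_dd_of_ne hp,
    H.psi_neg_one hp hp2, H.psi_surjective⟩

end Family

end Fermat.Agent.GB.B3.TWChars
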