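import Mathlib
import Fermat.Agent.GB.B3.FinalTW
import Fermat.Agent.GB.B3.BaseGamma0

/-!
GATE-B / B3 (helper95): **the named objects of B3 at one Taylor–Wiles set** — the plug for the
B3 fields `𝕋 M0 act0 M0χ act0χ tw hd₁ hd₂` of `GB/B9/ModOfTW.TWInput`, and the canonical names the
other field owners (B4 `T a₁ a₂`, UNIT, B7 `kill₁`, B5 `kill₂`) state their plug theorems against.

Standing data: `Sy : Symbols N`, `𝔪` maximal in `Sy.𝕋 O`, `H : TWChars.PrimeData N p K r e N'`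
(steps `0..k-1` Taylor–Wiles primes, steps `k..k+s-1` framed primes), `h : Hyp Sy 𝔪 ϖ s0`.

* `bigLevel Sy 𝔪 H h j`, `bigReal Sy 𝔪 H h j` : THE big level with `j` diamonds and its realisation in
  `Hom(GammaH (Theta (Δs p e) H.psi j), O)_𝔪` (`Classical.choose` of `exists_bigLevel_primeData`);
* `rank_eq` : its rank over `O[Δ]` is `finrank O (M0 …)`, the rank of the base module — the SAME for
  all `j`; `rank_eq_gamma0` : `= finrank O (Hom(Γ₀(N), O)_𝔪)`;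
* `tw Sy 𝔪 H h s k c hc hc1` : the `TWLevelData` (helper24's `twLevelDataMultiSelf`), with
  `tw_L1_d`, `tw_Lχ_d`, `tw_L1_M`, `tw_Lχ_M` (all `rfl`);
* `Nfun_natAdd`, `Nfun_natAdd_eq_const` : the orders of the Taylor–Wiles diamonds of `tw` are
  `p ^ e (k - 1 - i)`, `= p ^ n` when `e i = n` for `i < k` — cast the whole `TWInput` along it.
-/

set_option autoImplicit false
set_option linter.unusedSectionVars false
set_option linter.style.haveILetI false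

open scoped MatrixGroups
open CongruenceSubgroup

namespace Fermat.Agent.GB.B3.Plug

open Fermat.Agent.GM.B Fermat.Agent.GB.B3 Fermat.Agent.GB.B3.EisGamma0
  Fermat.Agent.GB.B3.TWLevel Fermat.Agent.GB.B3.RealLevel Fermat.Agent.GB.B3.HeckeActH
  Fermat.Agent.GB.B3.StepInst Fermat.Agent.GB.B3.Tower Fermat.Agent.GB.B3.Final
  Fermat.Agent.GB.B3.TWChars Fermat.Agent.GB.B3.ChiLevelMulti Fermat.Agent.GB.B3.FinalTW

variable {N p : ℕ} [NeZero N] [hpF : Fact p.Prime] {K : ℕ} {r e N' : ℕ → ℕ}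
variable (Sy : Symbols N)
variable {O : Type} [CommRing O] [IsDomain O] [IsPrincipalIdealRing O] [IsLocalRing O]
  [IsAdicComplete (IsLocalRing.maximalIdeal O) O] [Module.IsTorsionFree ℤ O]
variable (𝔪 : Ideal (Sy.𝕋 O)) [𝔪.IsMaximal]

/-- the standing hypotheses of B3 on the coefficient ring, `p` and the non-Eisenstein ideal -/
structure Hyp (p : ℕ) (ϖ : O) (s0 : Sy.ι₁) : Prop where
  hϖ0 : ϖ ≠ 0
  hmax : IsLocalRing.maximalIdeal O = Ideal.span {ϖ}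
  hpϖ : (p : O) ∈ Ideal.span {ϖ}
  hp0 : (p : O) ≠ 0
  hp2 : p ≠ 2
  hp3 : p ≠ 3
  hτ : tauOf Sy O s0 ∉ 𝔪

variable (H : PrimeData N p K r e N') {ϖ : O} {s0 : Sy.ι₁} (h : Hyp Sy 𝔪 p ϖ s0)

/-- **THE big level** with `j` diamonds -/
noncomputable def bigLevel (j : ℕ) :
    FreeLevel O (Sy.𝕋 O) (M0 Sy 𝔪 (Δs p e) H.psi) (act0 Sy 𝔪 (Δs p e) H.psi) j (Nfun p e j) :=
  (exists_bigLevel_primeData Sy 𝔪 H ϖ h.hϖ0 h.hmax h.hpϖ h.hp0 h.hp2 h.hp3 s0 h.hτ j).choose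

/-- **its realisation** in `Hom(GammaH (Theta j), O)_𝔪` -/
noncomputable def bigReal (j : ℕ) :
    Realizes (bigLevel Sy 𝔪 H h j) (actH Sy O (Theta (Δs p e) H.psi j)) 𝔪
      (fun i => diaLin O (Theta (Δs p e) H.psi j) (dfun (H.dd hpF.out) j i)) :=
  (exists_bigLevel_primeData Sy 𝔪 H ϖ h.hϖ0 h.hmax h.hpϖ h.hp0 h.hp2 h.hp3 s0 h.hτ
    j).choose_spec.some

/-- the rank over `O[Δ]` of every level of the tower is the `O`-rank of the base module -/
theorem rank_eq (j : ℕ) :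
    (bigLevel Sy 𝔪 H h j).d = Module.finrank O (M0 Sy 𝔪 (Δs p e) H.psi) := by
  rw [Module.finrank_eq_card_basis (bigLevel Sy 𝔪 H h j).basis0, Fintype.card_fin]

/-- … which is the `O`-rank of `Hom(Γ₀(N), O)_𝔪` -/
theorem rank_eq_gamma0 (j : ℕ) :
    (bigLevel Sy 𝔪 H h j).d = Module.finrank O (Base.locSub (HeckeActH.act0 Sy O) 𝔪) := by
  rw [rank_eq]
  exact (LinearEquiv.finrank_eq
    (BaseGamma0.baseEquiv Sy 𝔪 (Theta (Δs p e) H.psi 0))).symm

/-! ### the orders of the diamonds -/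

theorem Nfun_natAdd (s k : ℕ) (i : Fin k) :
    Nfun p e (s + k) (Fin.natAdd s i) = p ^ e (k - 1 - i) := by
  rw [Nfun_apply, Fin.val_natAdd]
  congr 2
  have := i.2
  omega

theorem Nfun_castAdd (s k : ℕ) (v : Fin s) :
    Nfun p e (s + k) (Fin.castAdd k v) = p ^ e (s + k - 1 - v) := by
  rw [Nfun_apply, Fin.val_castAdd]

theorem Nfun_natAdd_eq_const (s k n : ℕ) (he : ∀ i, i < k → e i = n) :
    (fun i : Fin k => Nfun p e (s + k) (Fin.natAdd s i)) = fun _ => p ^ n := by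
  funext i
  rw [Nfun_natAdd, he]
  have := i.2
  omega

/-! ### the `TWLevelData` -/

variable (s k : ℕ) (c : Fin s → O) (hc : ∀ v : Fin s, c v ^ p ^ e (s + k - 1 - v) = 1)
  (hc1 : ∀ v, (1 : O) - c v ∈ Ideal.span {ϖ})

include hc in
theorem hc_Nfun (v : Fin s) : c v ^ Nfun p e (s + k) (Fin.castAdd k v) = 1 := by
  rw [Nfun_castAdd]
  exact hc v

/-- **THE `TWLevelData` of B3** at the Taylor–Wiles set `H` (`k` Taylor–Wiles primes, `s` framed
primes with characters `c v`) -/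
noncomputable def tw :
    TWLevelData O ϖ (Sy.𝕋 O) (M0 Sy 𝔪 (Δs p e) H.psi) (act0 Sy 𝔪 (Δs p e) H.psi)
      (ChiBaseM (bigLevel Sy 𝔪 H h (s + k)) c) (chiBaseActM (bigLevel Sy 𝔪 H h (s + k)) c) k
      (fun i => Nfun p e (s + k) (Fin.natAdd s i)) :=
  twLevelDataMultiSelf (bigLevel Sy 𝔪 H h (s + k)) (Nfun_pos hpF.out e (s + k)) ϖ c
    (hc_Nfun s k c hc) hc1

theorem tw_L1_d : (tw Sy 𝔪 H h s k c hc hc1).L1.d = (bigLevel Sy 𝔪 H h (s + k)).d := rfl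

theorem tw_Lχ_d : (tw Sy 𝔪 H h s k c hc hc1).Lχ.d = (bigLevel Sy 𝔪 H h (s + k)).d := rfl

theorem tw_L1_M : (tw Sy 𝔪 H h s k c hc hc1).L1.M
    = FamCoinv (frD (bigLevel Sy 𝔪 H h (s + k))) (fun _ => (1 : O)) := rfl

theorem tw_Lχ_M : (tw Sy 𝔪 H h s k c hc hc1).Lχ.M
    = FamCoinv (frD (bigLevel Sy 𝔪 H h (s + k))) c := rfl

/-- the common rank `d` of `M¹_Q` and `M^χ_Q` is the rank of `Hom(Γ₀(N), O)_𝔪` -/
theorem tw_d_eq :
    (tw Sy 𝔪 H h s k c hc hc1).L1.d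
      = Module.finrank O (Base.locSub (HeckeActH.act0 Sy O) 𝔪) :=
  rank_eq_gamma0 Sy 𝔪 H h (s + k)

end Fermat.Agent.GB.B3.Plug
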