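/-
GATE-B / S43, node GB-B3-LOCRING (helper74): **ring form of the localisation of `GB/B3/Loc.lean`**.

`𝒪` complete noetherian local, `A` a commutative `𝒪`-algebra, FINITE as an `𝒪`-module, `𝔪` a maximal
ideal of `A`.  `LocRing 𝔪 := A ⧸ awayPart 𝔪 A` (the kernel of `A → A_𝔪` is `{a | ∃ s ∉ 𝔪, s a = 0}`,
and `A → A_𝔪` is onto since `A` is a finite product of local rings).  It carries all the instances
of the frozen `CuspForm.HeckeGaloisRepDatum`:

* `isLocalRing`, `mem_maximalIdeal_iff`, `isUnit_mk`;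
* `finite`, `isNoetherianRing`, `free`, `equivLocPart : LocRing 𝔪 ≃ₗ[A] locPart 𝔪 A`;
* `isLocalHom : IsLocalHom (algebraMap 𝒪 (LocRing 𝔪))`;
* `isAdicComplete : IsAdicComplete (maximalIdeal (LocRing 𝔪)) (LocRing 𝔪)`;
* `lift` : `𝒪`-algebra maps `χ : A → B` inverting `A ∖ 𝔪` factor through `LocRing 𝔪`;
* `residue_comp_algebraMap_surjective`;
* `smul_eq_zero_of_mem_awayPart` : `awayPart 𝔪 A` kills `locPart 𝔪 L` for EVERY `A`-module `L`, hence
  `locPart 𝔪 L` is a `LocRing 𝔪`-module (`moduleLocPart`).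

General lemmas (reusable): `isAdicComplete_of_ringEquiv`, `isAdicComplete_of_finite_of_isLocalRing`
(a LOCAL ring finite over a complete noetherian local ring is complete for its own maximal ideal),
`isLocalHom_algebraMap_of_finite`.
-/
import Mathlib
import Fermat.Prelude.Thm_Algebra_finite_maximalSpectrum_and_bijective_localization_of_module_finite
import Fermat.Agent.GB.B3.Loc
import Fermat.Agent.GB.B3.Loc2

set_option autoImplicit false
set_option linter.dupNamespace false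

namespace Fermat.Agent.GB.B3.LocRing

open Fermat.Agent.GB.B3.Loc Fermat.Agent.GB.B3.Loc2

/-! ### Transfer of adic completeness along a ring isomorphism -/

section Transfer

variable {R R' : Type*} [CommRing R] [CommRing R']

theorem mem_pow_iff_of_ringEquiv (e : R ≃+* R') {I : Ideal R} {I' : Ideal R'}
    (h : ∀ x, x ∈ I ↔ e x ∈ I') (n : ℕ) (x : R) : x ∈ I ^ n ↔ e x ∈ I' ^ n := by
  have hI' : I' = I.map e := by
    ext y
    rw [Ideal.mem_map_of_equiv]
    constructor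
    · intro hy
      exact ⟨e.symm y, (h _).2 (by rwa [RingEquiv.apply_symm_apply]), e.apply_symm_apply y⟩
    · rintro ⟨x, hx, rfl⟩
      exact (h x).1 hx
  rw [hI', ← Ideal.map_pow, Ideal.mem_map_of_equiv]
  constructor
  · intro hx
    exact ⟨x, hx, rfl⟩
  · rintro ⟨y, hy, hxy⟩
    rwa [← e.injective hxy]

theorem smodEq_pow_iff {I : Ideal R} (n : ℕ) (x y : R) :
    x ≡ y [SMOD (I ^ n • ⊤ : Submodule R R)] ↔ x - y ∈ I ^ n := by
  rw [SModEq.sub_mem, smul_eq_mul, Ideal.mul_top]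

/-- adic completeness is transported by ring isomorphisms -/
theorem isAdicComplete_of_ringEquiv (e : R ≃+* R') (I : Ideal R) (I' : Ideal R')
    (h : ∀ x, x ∈ I ↔ e x ∈ I') [hc : IsAdicComplete I' R'] : IsAdicComplete I R := by
  have hp := mem_pow_iff_of_ringEquiv e h
  refine { haus' := ?_, prec' := ?_ }
  · intro x hx
    have : e x = 0 := by
      apply IsHausdorff.haus hc.toIsHausdorff
      intro n
      rw [smodEq_pow_iff, sub_zero, ← hp]
      have := hx n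
      rwa [smodEq_pow_iff, sub_zero] at this
    exact (map_eq_zero_iff e e.injective).1 this
  · intro f hf
    obtain ⟨L, hL⟩ := IsPrecomplete.prec hc.toIsPrecomplete (f := fun n => e (f n)) (by
      intro m n hmn
      rw [smodEq_pow_iff, ← map_sub, ← hp]
      have := hf hmn
      rwa [smodEq_pow_iff] at this)
    refine ⟨e.symm L, fun n => ?_⟩
    rw [smodEq_pow_iff, hp, map_sub, e.apply_symm_apply]
    have := hL n
    rwa [smodEq_pow_iff] at this

end Transfer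

/-! ### Finite local algebras over a complete noetherian local ring -/

section FiniteLocal

variable (𝒪 : Type) [CommRing 𝒪] [IsLocalRing 𝒪] [IsNoetherianRing 𝒪]
  [IsAdicComplete (IsLocalRing.maximalIdeal 𝒪) 𝒪]
variable (T : Type) [CommRing T] [Algebra 𝒪 T] [Module.Finite 𝒪 T]

omit [IsNoetherianRing 𝒪] [IsAdicComplete (IsLocalRing.maximalIdeal 𝒪) 𝒪] in
/-- a nonzero finite algebra over a local ring: the structure map is a local homomorphism -/
theorem isLocalHom_algebraMap_of_finite [Nontrivial T] : IsLocalHom (algebraMap 𝒪 T) := by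
  constructor
  intro c hc
  by_contra hcu
  have hcm : c ∈ IsLocalRing.maximalIdeal 𝒪 := (IsLocalRing.mem_maximalIdeal c).2 hcu
  obtain ⟨v, hv⟩ := hc.exists_right_inv
  have htop : (⊤ : Submodule 𝒪 T) ≤ IsLocalRing.maximalIdeal 𝒪 • (⊤ : Submodule 𝒪 T) := by
    intro t _
    have : t = c • (v * t) := by
      rw [Algebra.smul_def, ← mul_assoc, hv, one_mul]
    rw [this]
    exact Submodule.smul_mem_smul hcm trivial
  have hbot := Submodule.eq_bot_of_le_smul_of_le_jacobson_bot (IsLocalRing.maximalIdeal 𝒪)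
    (⊤ : Submodule 𝒪 T) Module.Finite.fg_top htop
    (by rw [IsLocalRing.jacobson_eq_maximalIdeal ⊥ bot_ne_top])
  have h1 : (1 : T) ∈ (⊥ : Submodule 𝒪 T) := by rw [← hbot]; trivial
  exact one_ne_zero ((Submodule.mem_bot 𝒪).1 h1)

include 𝒪 in
/-- **a local ring which is finite over a complete noetherian local ring is complete** -/
theorem isAdicComplete_of_finite_of_isLocalRing [IsLocalRing T] :
    IsAdicComplete (IsLocalRing.maximalIdeal T) T := by
  obtain ⟨-, -, -, hcomp⟩ :=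
    Algebra.finite_maximalSpectrum_and_bijective_localization_of_module_finite (𝒪 := 𝒪) T
  let J : MaximalSpectrum T := ⟨IsLocalRing.maximalIdeal T, inferInstance⟩
  have hJ := hcomp J
  have H : (IsLocalRing.maximalIdeal T).primeCompl ≤ IsUnit.submonoid T := by
    intro x hx
    exact IsLocalRing.notMem_maximalIdeal.1 hx
  let e : T ≃+* Localization.AtPrime (IsLocalRing.maximalIdeal T) :=
    (IsLocalization.atUnits T (IsLocalRing.maximalIdeal T).primeCompl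
      (S := Localization.AtPrime (IsLocalRing.maximalIdeal T)) H).toRingEquiv
  refine isAdicComplete_of_ringEquiv e (IsLocalRing.maximalIdeal T)
    (IsLocalRing.maximalIdeal (Localization.AtPrime (IsLocalRing.maximalIdeal T))) ?_ (hc := hJ)
  intro x
  rw [IsLocalRing.mem_maximalIdeal, IsLocalRing.mem_maximalIdeal, mem_nonunits_iff,
    mem_nonunits_iff, not_iff_not]
  exact (isUnit_map_iff e x).symm

end FiniteLocal

/-! ### The module side: `awayPart 𝔪 A` kills `locPart 𝔪 L` -/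

section ModuleSide

variable {A : Type*} [CommRing A] (𝔪 : Ideal A) [𝔪.IsPrime]
variable {L : Type*} [AddCommGroup L] [Module A L]

theorem smul_eq_zero_of_mem_awayPart {a : A} (ha : a ∈ awayPart 𝔪 A) {x : L}
    (hx : x ∈ locPart 𝔪 L) : a • x = 0 := by
  obtain ⟨s, hs, hsa⟩ := mem_awayPart.1 ha
  obtain ⟨y, rfl⟩ := mem_locPart.1 hx s hs
  rw [← mul_smul, mul_comm]
  have : s * a = 0 := hsa
  rw [this, zero_smul]

theorem awayPart_le : (awayPart 𝔪 A : Ideal A) ≤ 𝔪 := by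
  intro a ha
  obtain ⟨s, hs, hsa⟩ := mem_awayPart.1 ha
  have h0 : s * a ∈ 𝔪 := by
    have : s * a = 0 := hsa
    rw [this]; exact 𝔪.zero_mem
  exact (Ideal.IsPrime.mem_or_mem inferInstance h0).resolve_left hs

/-- the ring `A ⧸ awayPart 𝔪 A` (`= A_𝔪` in the finite complete case) -/
abbrev LocRing : Type _ := A ⧸ (awayPart 𝔪 A : Ideal A)

/-- `locPart 𝔪 L` is a module over `LocRing 𝔪` -/
@[instance_reducible]
def moduleLocPart : Module (LocRing 𝔪) (locPart 𝔪 L) :=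
  Module.IsTorsionBySet.module (R := A) (M := locPart 𝔪 L) (I := (awayPart 𝔪 A : Ideal A))
    (by
      intro x a
      apply Subtype.ext
      exact smul_eq_zero_of_mem_awayPart 𝔪 a.2 x.2)

theorem moduleLocPart_mk_smul (a : A) (x : locPart 𝔪 L) :
    letI := moduleLocPart 𝔪 (L := L)
    (Ideal.Quotient.mk (awayPart 𝔪 A : Ideal A) a) • x = a • x := rfl

end ModuleSide

/-! ### The ring `LocRing 𝔪` -/

section Ring

variable (𝒪 : Type) [CommRing 𝒪] [IsLocalRing 𝒪] [IsNoetherianRing 𝒪]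
  [IsAdicComplete (IsLocalRing.maximalIdeal 𝒪) 𝒪]
variable {A : Type} [CommRing A] [Algebra 𝒪 A] [Module.Finite 𝒪 A]
variable (𝔪 : Ideal A) [h𝔪 : 𝔪.IsMaximal]

include 𝒪

/-- every `s ∉ 𝔪` becomes a unit in `LocRing 𝔪` -/
theorem isUnit_mk {s : A} (hs : s ∉ 𝔪) :
    IsUnit (Ideal.Quotient.mk (awayPart 𝔪 A : Ideal A) s) := by
  obtain ⟨u, hu⟩ := exists_inv_on_locPart 𝒪 (L := A) 𝔪 hs
  refine IsUnit.of_mul_eq_one (Ideal.Quotient.mk _ u) ?_
  rw [← map_mul, ← map_one (Ideal.Quotient.mk _), Ideal.Quotient.eq]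
  have h1 : (1 : A) ∈ locPart 𝔪 A ⊔ awayPart 𝔪 A := by
    rw [codisjoint_iff.1 (isCompl_locPart_awayPart 𝒪 (L := A) 𝔪).codisjoint]; trivial
  obtain ⟨x₁, hx₁, x₂, hx₂, h12⟩ := Submodule.mem_sup.1 h1
  have e1 : (s * u - 1) * x₁ = 0 := by
    have := hu x₁ hx₁
    rw [smul_eq_mul, smul_eq_mul] at this
    rw [sub_mul, one_mul, mul_comm s u, mul_assoc, this, sub_self]
  have : s * u - 1 = (s * u - 1) * x₂ := by
    calc s * u - 1 = (s * u - 1) * 1 := (mul_one _).symm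
      _ = (s * u - 1) * (x₁ + x₂) := by rw [h12]
      _ = (s * u - 1) * x₂ := by rw [mul_add, e1, zero_add]
  rw [this]
  exact (awayPart 𝔪 A).smul_mem _ hx₂

theorem isLocalRing : IsLocalRing (LocRing 𝔪) := by
  have hle : (awayPart 𝔪 A : Ideal A) ≤ 𝔪 := awayPart_le 𝔪
  have : Nontrivial (LocRing 𝔪) :=
    Ideal.Quotient.nontrivial_iff.2 (fun h => h𝔪.ne_top (top_le_iff.1 (h ▸ hle)))
  refine IsLocalRing.of_nonunits_add ?_
  have key : ∀ t : LocRing 𝔪, t ∈ nonunits _ → ∃ a ∈ 𝔪, Ideal.Quotient.mk _ a = t := by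
    intro t ht
    obtain ⟨a, rfl⟩ := Ideal.Quotient.mk_surjective t
    refine ⟨a, ?_, rfl⟩
    by_contra ha
    exact ht (isUnit_mk 𝒪 𝔪 ha)
  intro a b ha hb
  obtain ⟨a', ha', rfl⟩ := key a ha
  obtain ⟨b', hb', rfl⟩ := key b hb
  rw [← map_add]
  intro hu
  have hmem : a' + b' ∈ 𝔪 := 𝔪.add_mem ha' hb'
  obtain ⟨v, hv⟩ := hu.exists_right_inv
  obtain ⟨v', rfl⟩ := Ideal.Quotient.mk_surjective v
  rw [← map_mul, ← map_one (Ideal.Quotient.mk _), Ideal.Quotient.eq] at hv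
  have h1 : (a' + b') * v' - 1 ∈ 𝔪 := hle hv
  have h2 : (a' + b') * v' ∈ 𝔪 := 𝔪.mul_mem_right _ hmem
  have h3 : (1 : A) ∈ 𝔪 := by
    have := 𝔪.sub_mem h2 h1
    rwa [sub_sub_cancel] at this
  exact h𝔪.ne_top ((Ideal.eq_top_iff_one _).2 h3)

/-- the maximal ideal of `LocRing 𝔪` is the image of `𝔪` -/
theorem mem_maximalIdeal_iff (a : A) :
    haveI := isLocalRing 𝒪 𝔪
    Ideal.Quotient.mk (awayPart 𝔪 A : Ideal A) a ∈ IsLocalRing.maximalIdeal (LocRing 𝔪) ↔
      a ∈ 𝔪 := by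
  have := isLocalRing 𝒪 𝔪
  have hle : (awayPart 𝔪 A : Ideal A) ≤ 𝔪 := awayPart_le 𝔪
  rw [IsLocalRing.mem_maximalIdeal, mem_nonunits_iff]
  constructor
  · intro h
    by_contra ha
    exact h (isUnit_mk 𝒪 𝔪 ha)
  · intro ha hu
    obtain ⟨v, hv⟩ := hu.exists_right_inv
    obtain ⟨v', rfl⟩ := Ideal.Quotient.mk_surjective v
    rw [← map_mul, ← map_one (Ideal.Quotient.mk _), Ideal.Quotient.eq] at hv
    have h1 : a * v' - 1 ∈ 𝔪 := hle hv
    have h2 : a * v' ∈ 𝔪 := 𝔪.mul_mem_right _ ha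
    have h3 : (1 : A) ∈ 𝔪 := by
      have := 𝔪.sub_mem h2 h1
      rwa [sub_sub_cancel] at this
    exact h𝔪.ne_top ((Ideal.eq_top_iff_one _).2 h3)

omit [IsLocalRing 𝒪] [IsNoetherianRing 𝒪] [IsAdicComplete (IsLocalRing.maximalIdeal 𝒪) 𝒪] in
theorem finite : Module.Finite 𝒪 (LocRing 𝔪) :=
  Module.Finite.of_surjective
    ((Ideal.Quotient.mkₐ 𝒪 (awayPart 𝔪 A : Ideal A)).toLinearMap)
    (Ideal.Quotient.mkₐ_surjective 𝒪 _)

omit [IsLocalRing 𝒪] [IsAdicComplete (IsLocalRing.maximalIdeal 𝒪) 𝒪] in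
theorem isNoetherianRing : IsNoetherianRing (LocRing 𝔪) := by
  have : IsNoetherianRing A := IsNoetherianRing.of_finite 𝒪 A
  infer_instance

theorem isLocalHom : IsLocalHom (algebraMap 𝒪 (LocRing 𝔪)) := by
  have := isLocalRing 𝒪 𝔪
  have := finite 𝒪 𝔪
  exact isLocalHom_algebraMap_of_finite 𝒪 (LocRing 𝔪)

theorem isAdicComplete :
    haveI := isLocalRing 𝒪 𝔪
    IsAdicComplete (IsLocalRing.maximalIdeal (LocRing 𝔪)) (LocRing 𝔪) := by
  have := isLocalRing 𝒪 𝔪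
  have := finite 𝒪 𝔪
  exact isAdicComplete_of_finite_of_isLocalRing 𝒪 (LocRing 𝔪)

/-- `LocRing 𝔪 ≃ locPart 𝔪 A` (`A`-linearly) -/
noncomputable def equivLocPart : LocRing 𝔪 ≃ₗ[A] locPart 𝔪 A :=
  Submodule.quotientEquivOfIsCompl (awayPart 𝔪 A) (locPart 𝔪 A)
    (isCompl_locPart_awayPart 𝒪 (L := A) 𝔪).symm

theorem free [Module.Free 𝒪 A] : Module.Free 𝒪 (LocRing 𝔪) := by
  have : Module.Free 𝒪 (locPart 𝔪 A) := free_locPart 𝒪 𝔪
  exact Module.Free.of_equiv ((equivLocPart 𝒪 𝔪).restrictScalars 𝒪).symm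

omit [IsLocalRing 𝒪] [IsNoetherianRing 𝒪] [IsAdicComplete (IsLocalRing.maximalIdeal 𝒪) 𝒪]
  [Module.Finite 𝒪 A] in
/-- **universal property**: an `𝒪`-algebra map inverting `A ∖ 𝔪` factors through `LocRing 𝔪` -/
def lift {B : Type*} [CommRing B] [Algebra 𝒪 B] (χ : A →ₐ[𝒪] B)
    (hχ : ∀ s : A, s ∉ 𝔪 → IsUnit (χ s)) : LocRing 𝔪 →ₐ[𝒪] B :=
  Ideal.Quotient.liftₐ (awayPart 𝔪 A : Ideal A) χ (by
    intro a ha
    obtain ⟨s, hs, hsa⟩ := mem_awayPart.1 ha
    have h0 : χ s * χ a = 0 := by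
      have : s * a = 0 := hsa
      rw [← map_mul, this, map_zero]
    exact (hχ s hs).mul_right_eq_zero.1 h0)

omit [IsLocalRing 𝒪] [IsNoetherianRing 𝒪] [IsAdicComplete (IsLocalRing.maximalIdeal 𝒪) 𝒪]
  [Module.Finite 𝒪 A] in
@[simp] theorem lift_mk {B : Type*} [CommRing B] [Algebra 𝒪 B] (χ : A →ₐ[𝒪] B)
    (hχ : ∀ s : A, s ∉ 𝔪 → IsUnit (χ s)) (a : A) :
    lift 𝒪 𝔪 χ hχ (Ideal.Quotient.mk _ a) = χ a := rfl

/-- the residue field of `LocRing 𝔪` is generated by `𝒪` as soon as `A ⧸ 𝔪` is -/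
theorem residue_comp_algebraMap_surjective
    (h : ∀ a : A, ∃ c : 𝒪, a - algebraMap 𝒪 A c ∈ 𝔪) :
    haveI := isLocalRing 𝒪 𝔪
    Function.Surjective
      (IsLocalRing.residue (LocRing 𝔪) ∘ algebraMap 𝒪 (LocRing 𝔪)) := by
  have := isLocalRing 𝒪 𝔪
  intro y
  obtain ⟨t, rfl⟩ := IsLocalRing.residue_surjective y
  obtain ⟨a, rfl⟩ := Ideal.Quotient.mk_surjective t
  obtain ⟨c, hc⟩ := h a
  refine ⟨c, ?_⟩
  show IsLocalRing.residue (LocRing 𝔪) (algebraMap 𝒪 (LocRing 𝔪) c) = _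
  symm
  have : algebraMap 𝒪 (LocRing 𝔪) c = Ideal.Quotient.mk _ (algebraMap 𝒪 A c) := rfl
  rw [← sub_eq_zero, ← map_sub, IsLocalRing.residue_eq_zero_iff, this, ← map_sub]
  exact (mem_maximalIdeal_iff 𝒪 𝔪 _).2 hc

end Ring

end Fermat.Agent.GB.B3.LocRing
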