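import Mathlib
import Fermat.Agent.GB.B3.LocTransport
import Fermat.Agent.GB.B7.UqEquiv

/-!
GATE-B / B3 (helper95): **the transfer `coresq` kills the primary part over a zero base**
(helper32 5850 (L1)+(L2-eq), helper15 5901) — the instance of `LocTransport` for helper83's
`UqSq.coresq` (level `N q → N` at `Γ_H`), with helper97's equivariance `UqEquiv.coresq_TH`,
`UqEquiv.coresq_UH`.

* `op_smul` : coset operators are homogeneous;
* `isLoc_coresq` : `coresq` carries `Hom(Γ_H(thQ θ' q), O)_𝔪` into `Hom(Γ_H(θ'), O)_𝔪`;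
* `coresq_eq_zero` : … and kills it when `Hom(Γ_H(θ'), O)_𝔪 = 0`;
* `coresq_eq_zero_of_tower` : for `θ'` a stage of the B3 tower at level `N` over
  `Hom(Γ₀(N), O)_𝔪 = 0`;
* `isLoc_of_commutes`, `eq_zero_of_commutes` : the same for ANY additive `D` between the same
  modules commuting with `TH`, `UH` in the `coresq_TH`/`coresq_UH` spelling (for `coresDq`).
-/

set_option autoImplicit false
set_option linter.unusedSectionVars false
set_option linter.style.haveILetI false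

open scoped MatrixGroups
open CongruenceSubgroup

namespace Fermat.Agent.GB.B3.LocTransportInst

open Fermat.Agent.GM.B Fermat.Agent.GB.B3 Fermat.Agent.GB.B3.EisGamma0
  Fermat.Agent.GB.B3.TWLevel Fermat.Agent.GB.B3.RealLevel
  Fermat.Agent.GB.B3.HeckeActH Fermat.Agent.GB.B3.TWChars Fermat.Agent.GB.B3.FinalTW
  Fermat.Agent.GB.B3.Tower Fermat.Agent.GB.B3.StepInst Fermat.Agent.GB.B3.LocTransport
  Fermat.Agent.GB.B7.UqSq Fermat.Agent.GB.B7.UqEquiv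

/-- coset operators are homogeneous -/
theorem op_smul {H G : Type*} [Group H] [Group G] {emb : H →* G} {Γ₁ Γ₂ : Subgroup H}
    (S : CosetSys emb Γ₁ Γ₂) {O : Type*} [CommRing O] (c : O) (φ : Additive Γ₁ →+ O) :
    S.op O (c • φ) = c • S.op O φ :=
  CosetSys.op_comp_hom S (DistribSMul.toAddMonoidHom O c) φ

section Cores

variable {N q : ℕ} [Fact q.Prime] (Sy : Symbols (N * q)) (hrN : ∀ j, Sy.r j ∣ N)
variable {Δ : Type} [CommGroup Δ] (θ' : (ZMod N)ˣ →* Δ) (hqN : ¬ q ∣ N)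
variable {O : Type} [CommRing O]

theorem coresq_smul (c : O) (ν : Additive (GamH.GammaH (thQ θ' q)) →+ O) :
    coresq θ' hqN O (c • ν) = c • coresq θ' hqN O ν :=
  op_smul _ c ν

theorem coresDq_smul (c : O) (ν : Additive (GamH.GammaH (thQ θ' q)) →+ O) :
    coresDq θ' hqN O (c • ν) = c • coresDq θ' hqN O ν :=
  op_smul _ c ν

/-- any additive map commuting with `T_ℓ`, `U_r` (in helper97's spelling) carries `IsLoc` to
`IsLoc` -/
theorem isLoc_of_commutes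
    (D : (Additive (GamH.GammaH (thQ θ' q)) →+ O) →+ (Additive (GamH.GammaH θ') →+ O))
    (hsmul : ∀ (c : O) ν, D (c • ν) = c • D ν)
    (hT : ∀ {ℓ : ℕ} [Fact ℓ.Prime] (hℓ : ¬ ℓ ∣ N * q) ν,
      D (GamH.TH (thQ θ' q) O hℓ ν) = GamH.TH θ' O (not_dvd_of_not_dvd_mul hℓ) (D ν))
    (hU : ∀ {r : ℕ} [Fact r.Prime] [NeZero r] (hr : r ∣ N) ν,
      D (GamH.UH (thQ θ' q) O (Dvd.dvd.mul_right hr q) ν) = GamH.UH θ' O hr (D ν))
    (𝔪 : Ideal (Sy.𝕋 O)) {x : Additive (GamH.GammaH (thQ θ' q)) →+ O}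
    (hx : IsLoc (actH Sy O (thQ θ' q)) 𝔪 x) :
    IsLoc (actH (restrict Sy hrN) O θ') 𝔪 (D x) := by
  refine isLoc_degeneracy Sy hrN (thQ θ' q) θ' D hsmul ?_ ?_ 𝔪 hx
  · intro i ν
    haveI := Sy.factℓ i
    exact hT (Sy.hℓN i) ν
  · intro j ν
    haveI : Fact (Sy.r j).Prime := ⟨Sy.hr j⟩
    haveI := Sy.neZeroR j
    exact hU (hrN j) ν

/-- … and kills the primary part when `Hom(Γ_H(θ'), O)_𝔪 = 0` -/
theorem eq_zero_of_commutes
    (D : (Additive (GamH.GammaH (thQ θ' q)) →+ O) →+ (Additive (GamH.GammaH θ') →+ O))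
    (hsmul : ∀ (c : O) ν, D (c • ν) = c • D ν)
    (hT : ∀ {ℓ : ℕ} [Fact ℓ.Prime] (hℓ : ¬ ℓ ∣ N * q) ν,
      D (GamH.TH (thQ θ' q) O hℓ ν) = GamH.TH θ' O (not_dvd_of_not_dvd_mul hℓ) (D ν))
    (hU : ∀ {r : ℕ} [Fact r.Prime] [NeZero r] (hr : r ∣ N) ν,
      D (GamH.UH (thQ θ' q) O (Dvd.dvd.mul_right hr q) ν) = GamH.UH θ' O hr (D ν))
    (𝔪 : Ideal (Sy.𝕋 O))
    (hzero : ∀ y : Additive (GamH.GammaH θ') →+ O,
      IsLoc (actH (restrict Sy hrN) O θ') 𝔪 y → y = 0)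
    {x : Additive (GamH.GammaH (thQ θ' q)) →+ O}
    (hx : IsLoc (actH Sy O (thQ θ' q)) 𝔪 x) : D x = 0 :=
  hzero _ (isLoc_of_commutes Sy hrN θ' D hsmul hT hU 𝔪 hx)

/-- **`coresq` carries the primary part at level `N q` into the primary part at level `N`** -/
theorem isLoc_coresq (𝔪 : Ideal (Sy.𝕋 O)) {x : Additive (GamH.GammaH (thQ θ' q)) →+ O}
    (hx : IsLoc (actH Sy O (thQ θ' q)) 𝔪 x) :
    IsLoc (actH (restrict Sy hrN) O θ') 𝔪 (coresq θ' hqN O x) :=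
  isLoc_of_commutes Sy hrN θ' (coresq θ' hqN O) (coresq_smul θ' hqN)
    (fun hℓ ν => coresq_TH θ' hqN hℓ ν) (fun hr ν => coresq_UH θ' hqN hr ν) 𝔪 hx

/-- … and kills it when `Hom(Γ_H(θ'), O)_𝔪 = 0` -/
theorem coresq_eq_zero (𝔪 : Ideal (Sy.𝕋 O))
    (hzero : ∀ y : Additive (GamH.GammaH θ') →+ O,
      IsLoc (actH (restrict Sy hrN) O θ') 𝔪 y → y = 0)
    {x : Additive (GamH.GammaH (thQ θ' q)) →+ O}
    (hx : IsLoc (actH Sy O (thQ θ' q)) 𝔪 x) : coresq θ' hqN O x = 0 :=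
  hzero _ (isLoc_coresq Sy hrN θ' hqN 𝔪 hx)

end Cores

section Tower

variable {N q p : ℕ} [NeZero N] [Fact q.Prime] [hpF : Fact p.Prime] {K : ℕ} {r e N' : ℕ → ℕ}
variable (Sy : Symbols (N * q)) (hrN : ∀ j, Sy.r j ∣ N) (hqN : ¬ q ∣ N)
variable {O : Type} [CommRing O] [IsDomain O] [IsPrincipalIdealRing O] [IsLocalRing O]
  [IsAdicComplete (IsLocalRing.maximalIdeal O) O] [Module.IsTorsionFree ℤ O]
variable (𝔪 : Ideal (Sy.𝕋 O)) [𝔪.IsMaximal]
variable (H : PrimeData N p K r e N') {ϖ : O} {s0 : Sy.ι₁}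
  (h : Plug.Hyp (restrict Sy hrN) 𝔪 p ϖ s0)

include h in
/-- the primary part of every stage of the tower at level `N` vanishes over a zero base -/
theorem tower_zero
    (hbase : ∀ y : Additive (Gamma0 N) →+ O,
      IsLoc (HeckeActH.act0 (restrict Sy hrN) O) 𝔪 y → y = 0) (j : ℕ)
    (y : Additive (GamH.GammaH (Theta (Δs p e) H.psi j)) →+ O)
    (hy : IsLoc (actH (restrict Sy hrN) O (Theta (Δs p e) H.psi j)) 𝔪 y) : y = 0 := by
  have hmax : Ideal.IsMaximal (show Ideal ((restrict Sy hrN).𝕋 O) from 𝔪) := ‹𝔪.IsMaximal›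
  exact @PlugZero.isLoc_eq_zero N p _ hpF K r e N' (restrict Sy hrN) O _ _ _ _ _ _ 𝔪 hmax
    H ϖ s0 h hbase j y hy

include h in
/-- **(L1)+(L2-eq) for `coresq`**: if `Hom(Γ₀(N), O)_𝔪 = 0` then `coresq` kills the `𝔪`-primary
part of `Hom(Γ_H(thQ θ' q), O)`, `θ' = Theta (Δs p e) H.psi j` any stage of the tower -/
theorem coresq_eq_zero_of_tower
    (hbase : ∀ y : Additive (Gamma0 N) →+ O,
      IsLoc (HeckeActH.act0 (restrict Sy hrN) O) 𝔪 y → y = 0) (j : ℕ)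
    {x : Additive (GamH.GammaH (thQ (Theta (Δs p e) H.psi j) q)) →+ O}
    (hx : IsLoc (actH Sy O (thQ (Theta (Δs p e) H.psi j) q)) 𝔪 x) :
    coresq (Theta (Δs p e) H.psi j) hqN O x = 0 :=
  coresq_eq_zero Sy hrN (Theta (Δs p e) H.psi j) hqN 𝔪
    (tower_zero Sy hrN 𝔪 H h hbase j) hx

include h in
/-- the same for any `D` commuting with `T_ℓ`, `U_r` (e.g. `coresDq`, up to a unit) -/
theorem eq_zero_of_tower
    (hbase : ∀ y : Additive (Gamma0 N) →+ O,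
      IsLoc (HeckeActH.act0 (restrict Sy hrN) O) 𝔪 y → y = 0) (j : ℕ)
    (D : (Additive (GamH.GammaH (thQ (Theta (Δs p e) H.psi j) q)) →+ O) →+
      (Additive (GamH.GammaH (Theta (Δs p e) H.psi j)) →+ O))
    (hsmul : ∀ (c : O) ν, D (c • ν) = c • D ν)
    (hT : ∀ {ℓ : ℕ} [Fact ℓ.Prime] (hℓ : ¬ ℓ ∣ N * q) ν,
      D (GamH.TH (thQ (Theta (Δs p e) H.psi j) q) O hℓ ν)
        = GamH.TH (Theta (Δs p e) H.psi j) O (not_dvd_of_not_dvd_mul hℓ) (D ν))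
    (hU : ∀ {r' : ℕ} [Fact r'.Prime] [NeZero r'] (hr : r' ∣ N) ν,
      D (GamH.UH (thQ (Theta (Δs p e) H.psi j) q) O (Dvd.dvd.mul_right hr q) ν)
        = GamH.UH (Theta (Δs p e) H.psi j) O hr (D ν))
    {x : Additive (GamH.GammaH (thQ (Theta (Δs p e) H.psi j) q)) →+ O}
    (hx : IsLoc (actH Sy O (thQ (Theta (Δs p e) H.psi j) q)) 𝔪 x) : D x = 0 :=
  eq_zero_of_commutes Sy hrN (Theta (Δs p e) H.psi j) D hsmul hT hU 𝔪
    (tower_zero Sy hrN 𝔪 H h hbase j) hx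

end Tower

end Fermat.Agent.GB.B3.LocTransportInst
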