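import Mathlib
import Fermat.Agent.GB.B3.LocTransportInst
import Fermat.Agent.GB.B7.UqEquivAll

/-!
GATE-B / B3 (helper95): **both `q`-degeneracy transfers kill the primary part over a zero base** —
the `coresDq` twin of `LocTransportInst` (helper83's `UqEquivAll.coresDq_TH`, `coresDq_UH`), and the
consequence for helper83's `UqSq.UH_UH_of_ker`-type consumers: over a zero base at level `N` the
whole `𝔪`-primary part of `Hom(Γ_H(thQ θ' q), O)` is `q`-new.

* `isLoc_coresDq`, `coresDq_eq_zero`, `coresDq_eq_zero_of_tower`;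
* `new_of_tower` : `coresq x = 0 ∧ coresDq x = 0` for every `IsLoc x`.
-/

set_option autoImplicit false
set_option linter.unusedSectionVars false
set_option linter.style.haveILetI false

open scoped MatrixGroups
open CongruenceSubgroup

namespace Fermat.Agent.GB.B3.LocTransportInstD

open Fermat.Agent.GM.B Fermat.Agent.GB.B3 Fermat.Agent.GB.B3.EisGamma0
  Fermat.Agent.GB.B3.TWLevel Fermat.Agent.GB.B3.RealLevel
  Fermat.Agent.GB.B3.HeckeActH Fermat.Agent.GB.B3.TWChars Fermat.Agent.GB.B3.FinalTW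
  Fermat.Agent.GB.B3.Tower Fermat.Agent.GB.B3.StepInst Fermat.Agent.GB.B3.LocTransport
  Fermat.Agent.GB.B3.LocTransportInst Fermat.Agent.GB.B7.UqSq

section Cores

variable {N q : ℕ} [Fact q.Prime] (Sy : Symbols (N * q)) (hrN : ∀ j, Sy.r j ∣ N)
variable {Δ : Type} [CommGroup Δ] (θ' : (ZMod N)ˣ →* Δ) (hqN : ¬ q ∣ N)
variable {O : Type} [CommRing O]

/-- **`coresDq` carries the primary part at level `N q` into the primary part at level `N`** -/
theorem isLoc_coresDq (𝔪 : Ideal (Sy.𝕋 O)) {x : Additive (GamH.GammaH (thQ θ' q)) →+ O}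
    (hx : IsLoc (actH Sy O (thQ θ' q)) 𝔪 x) :
    IsLoc (actH (restrict Sy hrN) O θ') 𝔪 (coresDq θ' hqN O x) :=
  isLoc_of_commutes Sy hrN θ' (coresDq θ' hqN O) (coresDq_smul θ' hqN)
    (fun hℓ ν => Fermat.Agent.GB.B7.UqEquivAll.coresDq_TH θ' hqN hℓ ν)
    (fun hr ν => Fermat.Agent.GB.B7.UqEquivAll.coresDq_UH θ' hqN hr ν) 𝔪 hx

/-- … and kills it when `Hom(Γ_H(θ'), O)_𝔪 = 0` -/
theorem coresDq_eq_zero (𝔪 : Ideal (Sy.𝕋 O))
    (hzero : ∀ y : Additive (GamH.GammaH θ') →+ O,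
      IsLoc (actH (restrict Sy hrN) O θ') 𝔪 y → y = 0)
    {x : Additive (GamH.GammaH (thQ θ' q)) →+ O}
    (hx : IsLoc (actH Sy O (thQ θ' q)) 𝔪 x) : coresDq θ' hqN O x = 0 :=
  hzero _ (isLoc_coresDq Sy hrN θ' hqN 𝔪 hx)

end Cores

section Tower

variable {N q p : ℕ} [NeZero N] [Fact q.Prime] [hpF : Fact p.Prime] {K : ℕ} {r e N' : ℕ → ℕ}
variable (Sy : Symbols (N * q)) (hrN : ∀ j, Sy.r j ∣ N) (hqN : ¬ q ∣ N)
variable {O : Type} [CommRing O] [IsDomain O] [IsPrincipalIdealRing O] [IsLocalRing O]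
  [IsAdicComplete (IsLocalRing.maximalIdeal O) O] [Module.IsTorsionFree ℤ O]
variable (𝔪 : Ideal (Sy.𝕋 O)) [𝔪.IsMaximal]
variable (H : PrimeData N p K r e N') {ϖ : O} {s0 : Sy.ι₁}
  (h : Plug.Hyp (restrict Sy hrN) 𝔪 p ϖ s0)

include h in
/-- **(L1)+(L2-eq) for `coresDq`** -/
theorem coresDq_eq_zero_of_tower
    (hbase : ∀ y : Additive (Gamma0 N) →+ O,
      IsLoc (HeckeActH.act0 (restrict Sy hrN) O) 𝔪 y → y = 0) (j : ℕ)
    {x : Additive (GamH.GammaH (thQ (Theta (Δs p e) H.psi j) q)) →+ O}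
    (hx : IsLoc (actH Sy O (thQ (Theta (Δs p e) H.psi j) q)) 𝔪 x) :
    coresDq (Theta (Δs p e) H.psi j) hqN O x = 0 :=
  coresDq_eq_zero Sy hrN (Theta (Δs p e) H.psi j) hqN 𝔪
    (tower_zero Sy hrN 𝔪 H h hbase j) hx

include h in
/-- **over a zero base at level `N` the `𝔪`-primary part at level `N q` is `q`-new**: both
degeneracy transfers vanish on it -/
theorem new_of_tower
    (hbase : ∀ y : Additive (Gamma0 N) →+ O,
      IsLoc (HeckeActH.act0 (restrict Sy hrN) O) 𝔪 y → y = 0) (j : ℕ)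
    {x : Additive (GamH.GammaH (thQ (Theta (Δs p e) H.psi j) q)) →+ O}
    (hx : IsLoc (actH Sy O (thQ (Theta (Δs p e) H.psi j) q)) 𝔪 x) :
    coresq (Theta (Δs p e) H.psi j) hqN O x = 0 ∧
      coresDq (Theta (Δs p e) H.psi j) hqN O x = 0 :=
  ⟨coresq_eq_zero_of_tower Sy hrN hqN 𝔪 H h hbase j hx,
    coresDq_eq_zero_of_tower Sy hrN hqN 𝔪 H h hbase j hx⟩

include h hqN in
/-- **`U_q² = ⟨q⟩` on the `𝔪`-primary part of `Hom(Γ_H(thQ θ' q), O)` over a zero base at level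
`N`** (helper83 `UqSq.UH_UH_of_ker` on `new_of_tower`): the (U2) input of B7 (kill₁). -/
theorem UH_UH_of_tower
    (hbase : ∀ y : Additive (Gamma0 N) →+ O,
      IsLoc (HeckeActH.act0 (restrict Sy hrN) O) 𝔪 y → y = 0) (j : ℕ)
    {x : Additive (GamH.GammaH (thQ (Theta (Δs p e) H.psi j) q)) →+ O}
    (hx : IsLoc (actH Sy O (thQ (Theta (Δs p e) H.psi j) q)) 𝔪 x)
    (u : (ZMod N)ˣ) (hu : (u : ZMod N) = (q : ZMod N))
    (dq : Gamma0 (N * q))
    (hdq : EisGamma0.chi (thQ (Theta (Δs p e) H.psi j) q) dq = Theta (Δs p e) H.psi j u) :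
    GamH.UH (thQ (Theta (Δs p e) H.psi j) q) O
        (Fermat.Agent.GM.B5.dvd_mul_self_right (N := N) (q := q))
        (GamH.UH (thQ (Theta (Δs p e) H.psi j) q) O
          (Fermat.Agent.GM.B5.dvd_mul_self_right (N := N) (q := q)) x)
      = GamH.diaH (thQ (Theta (Δs p e) H.psi j) q) O dq x := by
  obtain ⟨h1, h2⟩ := new_of_tower Sy hrN hqN 𝔪 H h hbase j hx
  exact UH_UH_of_ker (Theta (Δs p e) H.psi j) hqN x h1 h2 u hu dq hdq

end Tower

end Fermat.Agent.GB.B3.LocTransportInstD
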