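/-
GATE-B / S43, B3 ↔ B4 ↔ B9 seam (helper74): **the Hecke algebra of an `𝔪`-primary module, in
operator vocabulary** (no `Module 𝕋 M` instance is asked from the user).

`O` complete noetherian local, `𝕋` a commutative `O`-algebra of Hecke symbols (e.g. a polynomial
ring), `M` a finite `O`-module with an action `act : 𝕋 →ₐ[O] Module.End O M` (e.g. `FreeLevel.act`,
or `prodAct act₁ act₂` on `M¹_Q × M^χ_Q`), `𝔪` a maximal ideal of `𝕋`.

* `IsPrimary act 𝔪` : every `s ∉ 𝔪` acts surjectively (true for `M = locPart 𝔪 L`);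
* `Hecke act := 𝕋 ⧸ ker act`, `heckeAct : Hecke act →ₐ[O] Module.End O M` (injective);
* for `M ≠ 0` primary: `isLocalRing`, `mem_maximalIdeal_iff`, `finite`, `isNoetherianRing`,
  `isLocalHom`, `isAdicComplete`, `free` (`O` a PID, `M` torsion-free), residue field statement;
* `heckeMap` : functoriality in the module (`ker act ≤ ker act'`), a local homomorphism;
* `prodAct`, `isPrimary_prodAct` : ONE Hecke algebra on a sum of two modules.
-/
import Mathlib
import Fermat.Agent.GB.B3.Loc
import Fermat.Agent.GB.B3.Loc2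
import Fermat.Agent.GB.B3.LocRing

set_option autoImplicit false
set_option linter.style.haveILetI false

namespace Fermat.Agent.GB.B3.TQ

open Fermat.Agent.GB.B3.Loc Fermat.Agent.GB.B3.Loc2 Fermat.Agent.GB.B3.LocRing

/-! ### A general criterion for a quotient to be local -/

section Crit

variable {A : Type*} [CommRing A] (I 𝔪 : Ideal A) [h𝔪 : 𝔪.IsMaximal]

theorem isLocalRing_quotient_of_isUnit (hle : I ≤ 𝔪)
    (hunit : ∀ s : A, s ∉ 𝔪 → IsUnit (Ideal.Quotient.mk I s)) : IsLocalRing (A ⧸ I) := by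
  have : Nontrivial (A ⧸ I) :=
    Ideal.Quotient.nontrivial_iff.2 (fun h => h𝔪.ne_top (top_le_iff.1 (h ▸ hle)))
  refine IsLocalRing.of_nonunits_add ?_
  have key : ∀ t : A ⧸ I, t ∈ nonunits _ → ∃ a ∈ 𝔪, Ideal.Quotient.mk I a = t := by
    intro t ht
    obtain ⟨a, rfl⟩ := Ideal.Quotient.mk_surjective t
    refine ⟨a, ?_, rfl⟩
    by_contra ha
    exact ht (hunit a ha)
  intro a b ha hb
  obtain ⟨a', ha', rfl⟩ := key a ha
  obtain ⟨b', hb', rfl⟩ := key b hb
  rw [← map_add]
  intro hu
  have hmem : a' + b' ∈ 𝔪 := 𝔪.add_mem ha' hb'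
  obtain ⟨v, hv⟩ := hu.exists_right_inv
  obtain ⟨v', rfl⟩ := Ideal.Quotient.mk_surjective v
  rw [← map_mul, ← map_one (Ideal.Quotient.mk I), Ideal.Quotient.eq] at hv
  have h1 : (a' + b') * v' - 1 ∈ 𝔪 := hle hv
  have h2 : (a' + b') * v' ∈ 𝔪 := 𝔪.mul_mem_right _ hmem
  have h3 : (1 : A) ∈ 𝔪 := by
    have := 𝔪.sub_mem h2 h1
    rwa [sub_sub_cancel] at this
  exact h𝔪.ne_top ((Ideal.eq_top_iff_one _).2 h3)

theorem mem_maximalIdeal_quotient_iff_of_isUnit (hle : I ≤ 𝔪)
    (hunit : ∀ s : A, s ∉ 𝔪 → IsUnit (Ideal.Quotient.mk I s)) (a : A) :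
    haveI := isLocalRing_quotient_of_isUnit I 𝔪 hle hunit
    Ideal.Quotient.mk I a ∈ IsLocalRing.maximalIdeal (A ⧸ I) ↔ a ∈ 𝔪 := by
  have := isLocalRing_quotient_of_isUnit I 𝔪 hle hunit
  rw [IsLocalRing.mem_maximalIdeal, mem_nonunits_iff]
  constructor
  · intro h
    by_contra ha
    exact h (hunit a ha)
  · intro ha hu
    obtain ⟨v, hv⟩ := hu.exists_right_inv
    obtain ⟨v', rfl⟩ := Ideal.Quotient.mk_surjective v
    rw [← map_mul, ← map_one (Ideal.Quotient.mk I), Ideal.Quotient.eq] at hv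
    have h1 : a * v' - 1 ∈ 𝔪 := hle hv
    have h2 : a * v' ∈ 𝔪 := 𝔪.mul_mem_right _ ha
    have h3 : (1 : A) ∈ 𝔪 := by
      have := 𝔪.sub_mem h2 h1
      rwa [sub_sub_cancel] at this
    exact h𝔪.ne_top ((Ideal.eq_top_iff_one _).2 h3)

end Crit

/-! ### The Hecke algebra of an action -/

section Defs

variable {O : Type*} [CommRing O] {𝕋 : Type*} [CommRing 𝕋] [Algebra O 𝕋]
variable {M : Type*} [AddCommGroup M] [Module O M]

/-- the kernel of the action -/
def heckeIdeal (act : 𝕋 →ₐ[O] Module.End O M) : Ideal 𝕋 :=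
  RingHom.ker (act : 𝕋 →+* Module.End O M)

theorem mem_heckeIdeal {act : 𝕋 →ₐ[O] Module.End O M} {a : 𝕋} :
    a ∈ heckeIdeal act ↔ act a = 0 := Iff.rfl

/-- **the Hecke algebra**: the image of the symbols in `End_O M` -/
abbrev Hecke (act : 𝕋 →ₐ[O] Module.End O M) : Type _ := 𝕋 ⧸ heckeIdeal act

/-- the faithful action of the Hecke algebra -/
def heckeAct (act : 𝕋 →ₐ[O] Module.End O M) : Hecke act →ₐ[O] Module.End O M :=
  Ideal.Quotient.liftₐ (heckeIdeal act) act (fun _ ha => ha)

@[simp] theorem heckeAct_mk (act : 𝕋 →ₐ[O] Module.End O M) (a : 𝕋) :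
    heckeAct act (Ideal.Quotient.mk _ a) = act a := rfl

theorem heckeAct_injective (act : 𝕋 →ₐ[O] Module.End O M) :
    Function.Injective (heckeAct act) := by
  rw [injective_iff_map_eq_zero]
  intro t ht
  obtain ⟨a, rfl⟩ := Ideal.Quotient.mk_surjective t
  rw [heckeAct_mk] at ht
  exact Ideal.Quotient.eq_zero_iff_mem.2 ht

/-- every `s ∉ 𝔪` acts surjectively: `M` is `𝔪`-primary -/
def IsPrimary (act : 𝕋 →ₐ[O] Module.End O M) (𝔪 : Ideal 𝕋) : Prop :=
  ∀ s : 𝕋, s ∉ 𝔪 → Function.Surjective (act s)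

/-- primary-ness passes to equivariant quotients -/
theorem IsPrimary.of_surjective {M' : Type*} [AddCommGroup M'] [Module O M']
    {act : 𝕋 →ₐ[O] Module.End O M} {act' : 𝕋 →ₐ[O] Module.End O M'} {𝔪 : Ideal 𝕋}
    (h : IsPrimary act 𝔪) (g : M →ₗ[O] M') (hg : Function.Surjective g)
    (hga : ∀ a x, g (act a x) = act' a (g x)) : IsPrimary act' 𝔪 := by
  intro s hs y
  obtain ⟨x, rfl⟩ := hg y
  obtain ⟨x', hx'⟩ := h s hs x
  exact ⟨g x', by rw [← hga, hx']⟩

/-- primary-ness is transported by equivariant isomorphisms -/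
theorem IsPrimary.of_equiv {M' : Type*} [AddCommGroup M'] [Module O M']
    {act : 𝕋 →ₐ[O] Module.End O M} {act' : 𝕋 →ₐ[O] Module.End O M'} {𝔪 : Ideal 𝕋}
    (h : IsPrimary act 𝔪) (e : M ≃ₗ[O] M') (hea : ∀ a x, e (act a x) = act' a (e x)) :
    IsPrimary act' 𝔪 :=
  h.of_surjective e.toLinearMap e.surjective hea

/-- functoriality in the module -/
def heckeMap {M' : Type*} [AddCommGroup M'] [Module O M'] (act : 𝕋 →ₐ[O] Module.End O M)
    (act' : 𝕋 →ₐ[O] Module.End O M') (h : heckeIdeal act ≤ heckeIdeal act') :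
    Hecke act →ₐ[O] Hecke act' :=
  Ideal.Quotient.factorₐ O h

@[simp] theorem heckeMap_mk {M' : Type*} [AddCommGroup M'] [Module O M']
    (act : 𝕋 →ₐ[O] Module.End O M) (act' : 𝕋 →ₐ[O] Module.End O M')
    (h : heckeIdeal act ≤ heckeIdeal act') (a : 𝕋) :
    heckeMap act act' h (Ideal.Quotient.mk _ a) = Ideal.Quotient.mk _ a := rfl

theorem heckeMap_surjective {M' : Type*} [AddCommGroup M'] [Module O M']
    (act : 𝕋 →ₐ[O] Module.End O M) (act' : 𝕋 →ₐ[O] Module.End O M')
    (h : heckeIdeal act ≤ heckeIdeal act') : Function.Surjective (heckeMap act act' h) := by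
  intro t
  obtain ⟨a, rfl⟩ := Ideal.Quotient.mk_surjective t
  exact ⟨Ideal.Quotient.mk _ a, rfl⟩

/-- a surjective intertwiner gives an inclusion of Hecke ideals -/
theorem heckeIdeal_le_of_surjective {M' : Type*} [AddCommGroup M'] [Module O M']
    (act : 𝕋 →ₐ[O] Module.End O M) (act' : 𝕋 →ₐ[O] Module.End O M') (g : M →ₗ[O] M')
    (hg : Function.Surjective g) (hga : ∀ a x, g (act a x) = act' a (g x)) :
    heckeIdeal act ≤ heckeIdeal act' := by
  intro a ha
  rw [mem_heckeIdeal] at ha ⊢
  ext y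
  obtain ⟨x, rfl⟩ := hg y
  rw [← hga, ha, LinearMap.zero_apply, map_zero, LinearMap.zero_apply]

/-- an injective intertwiner gives the reverse inclusion -/
theorem heckeIdeal_le_of_injective {M' : Type*} [AddCommGroup M'] [Module O M']
    (act : 𝕋 →ₐ[O] Module.End O M) (act' : 𝕋 →ₐ[O] Module.End O M') (g : M →ₗ[O] M')
    (hg : Function.Injective g) (hga : ∀ a x, g (act a x) = act' a (g x)) :
    heckeIdeal act' ≤ heckeIdeal act := by
  intro a ha
  rw [mem_heckeIdeal] at ha ⊢
  ext x
  apply hg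
  rw [hga, ha, LinearMap.zero_apply, LinearMap.zero_apply, map_zero]

/-- the action on a product -/
def prodAct {M' : Type*} [AddCommGroup M'] [Module O M'] (act : 𝕋 →ₐ[O] Module.End O M)
    (act' : 𝕋 →ₐ[O] Module.End O M') : 𝕋 →ₐ[O] Module.End O (M × M') where
  toFun a := (act a).prodMap (act' a)
  map_one' := by
    ext x <;> simp
  map_mul' a b := by
    ext x <;> simp [map_mul]
  map_zero' := by
    ext x <;> simp
  map_add' a b := by
    ext x <;> simp [map_add]
  commutes' c := by
    ext x <;> simp [Algebra.algebraMap_eq_smul_one]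

@[simp] theorem prodAct_apply {M' : Type*} [AddCommGroup M'] [Module O M']
    (act : 𝕋 →ₐ[O] Module.End O M) (act' : 𝕋 →ₐ[O] Module.End O M') (a : 𝕋) (x : M × M') :
    prodAct act act' a x = (act a x.1, act' a x.2) := rfl

theorem heckeIdeal_prodAct {M' : Type*} [AddCommGroup M'] [Module O M']
    (act : 𝕋 →ₐ[O] Module.End O M) (act' : 𝕋 →ₐ[O] Module.End O M') :
    heckeIdeal (prodAct act act') = heckeIdeal act ⊓ heckeIdeal act' := by
  ext a
  rw [Ideal.mem_inf, mem_heckeIdeal, mem_heckeIdeal, mem_heckeIdeal]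
  constructor
  · intro h
    constructor
    · ext x
      have := congrArg Prod.fst (LinearMap.congr_fun h (x, 0))
      simpa using this
    · ext x
      have := congrArg Prod.snd (LinearMap.congr_fun h (0, x))
      simpa using this
  · rintro ⟨h1, h2⟩
    refine LinearMap.ext fun x => ?_
    rw [prodAct_apply, h1, h2]
    rfl

theorem isPrimary_prodAct {M' : Type*} [AddCommGroup M'] [Module O M']
    {act : 𝕋 →ₐ[O] Module.End O M} {act' : 𝕋 →ₐ[O] Module.End O M'} {𝔪 : Ideal 𝕋}
    (h : IsPrimary act 𝔪) (h' : IsPrimary act' 𝔪) : IsPrimary (prodAct act act') 𝔪 := by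
  intro s hs x
  obtain ⟨y₁, hy₁⟩ := h s hs x.1
  obtain ⟨y₂, hy₂⟩ := h' s hs x.2
  exact ⟨(y₁, y₂), by rw [prodAct_apply]; exact Prod.ext hy₁ hy₂⟩

theorem heckeAct_commute (act : 𝕋 →ₐ[O] Module.End O M) (D : Module.End O M)
    (h : ∀ a, act a * D = D * act a) (t : Hecke act) : heckeAct act t * D = D * heckeAct act t := by
  obtain ⟨a, rfl⟩ := Ideal.Quotient.mk_surjective t
  exact h a

section Pair

variable {M' : Type*} [AddCommGroup M'] [Module O M']
variable (act : 𝕋 →ₐ[O] Module.End O M) (act' : 𝕋 →ₐ[O] Module.End O M')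

theorem heckeIdeal_prodAct_le_left : heckeIdeal (prodAct act act') ≤ heckeIdeal act := by
  rw [heckeIdeal_prodAct]; exact inf_le_left

theorem heckeIdeal_prodAct_le_right : heckeIdeal (prodAct act act') ≤ heckeIdeal act' := by
  rw [heckeIdeal_prodAct]; exact inf_le_right

/-- the action of the joint Hecke algebra on the first module -/
def actLeft : Hecke (prodAct act act') →ₐ[O] Module.End O M :=
  (heckeAct act).comp (heckeMap _ _ (heckeIdeal_prodAct_le_left act act'))

/-- the action of the joint Hecke algebra on the second module -/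
def actRight : Hecke (prodAct act act') →ₐ[O] Module.End O M' :=
  (heckeAct act').comp (heckeMap _ _ (heckeIdeal_prodAct_le_right act act'))

@[simp] theorem actLeft_mk (a : 𝕋) : actLeft act act' (Ideal.Quotient.mk _ a) = act a := rfl

@[simp] theorem actRight_mk (a : 𝕋) : actRight act act' (Ideal.Quotient.mk _ a) = act' a := rfl

/-- the two actions are jointly faithful -/
theorem eq_zero_of_actLeft_of_actRight (t : Hecke (prodAct act act'))
    (h1 : actLeft act act' t = 0) (h2 : actRight act act' t = 0) : t = 0 := by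
  obtain ⟨a, rfl⟩ := Ideal.Quotient.mk_surjective t
  rw [actLeft_mk] at h1
  rw [actRight_mk] at h2
  rw [Ideal.Quotient.eq_zero_iff_mem, heckeIdeal_prodAct]
  exact ⟨h1, h2⟩

theorem heckeAct_prodAct_apply (t : Hecke (prodAct act act')) (x : M × M') :
    heckeAct (prodAct act act') t x = (actLeft act act' t x.1, actRight act act' t x.2) := by
  obtain ⟨a, rfl⟩ := Ideal.Quotient.mk_surjective t
  rfl

end Pair

end Defs

/-! ### The complete local case -/

section Main

variable (O : Type) [CommRing O] [IsLocalRing O] [IsNoetherianRing O]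
  [IsAdicComplete (IsLocalRing.maximalIdeal O) O]
variable {𝕋 : Type} [CommRing 𝕋] [Algebra O 𝕋]
variable {M : Type*} [AddCommGroup M] [Module O M] [Module.Finite O M]
variable (act : 𝕋 →ₐ[O] Module.End O M) (𝔪 : Ideal 𝕋) [h𝔪 : 𝔪.IsMaximal]

/-- the `𝕋`-module structure given by the action (NOT an instance) -/
@[instance_reducible]
def actModule : Module 𝕋 M := Module.compHom M (act : 𝕋 →+* Module.End O M)

omit [IsLocalRing O] [IsNoetherianRing O] [IsAdicComplete (IsLocalRing.maximalIdeal O) O]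
  [Module.Finite O M] in
theorem actModule_smul (a : 𝕋) (x : M) :
    letI := actModule O act
    a • x = act a x := rfl

omit [IsLocalRing O] [IsNoetherianRing O] [IsAdicComplete (IsLocalRing.maximalIdeal O) O]
  [Module.Finite O M] in
theorem actModule_isScalarTower :
    letI := actModule O act
    IsScalarTower O 𝕋 M := by
  letI := actModule O act
  constructor
  intro c a x
  show act (c • a) x = c • act a x
  rw [map_smul, LinearMap.smul_apply]

omit [IsLocalRing O] [IsNoetherianRing O] [IsAdicComplete (IsLocalRing.maximalIdeal O) O]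
  [Module.Finite O M] in
theorem annihilator_actModule :
    letI := actModule O act
    Module.annihilator 𝕋 M = heckeIdeal act := by
  letI := actModule O act
  ext a
  rw [Module.mem_annihilator, mem_heckeIdeal]
  constructor
  · intro h
    ext x
    exact h x
  · intro h x
    show act a x = 0
    rw [h, LinearMap.zero_apply]

omit [IsLocalRing O] [IsNoetherianRing O] [IsAdicComplete (IsLocalRing.maximalIdeal O) O]
  [Module.Finite O M] h𝔪 in
theorem locPart_eq_top_of_isPrimary [𝔪.IsPrime] (hprim : IsPrimary act 𝔪) :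
    letI := actModule O act
    locPart 𝔪 M = ⊤ := by
  letI := actModule O act
  rw [eq_top_iff]
  intro x _
  rw [mem_locPart]
  intro s hs
  obtain ⟨y, hy⟩ := hprim s hs x
  exact ⟨y, hy⟩

include O in
/-- in the primary case every `s ∉ 𝔪` has an inverse on `M` coming from `𝕋` -/
theorem exists_inv_of_isPrimary (hprim : IsPrimary act 𝔪) {s : 𝕋} (hs : s ∉ 𝔪) :
    ∃ u : 𝕋, act (u * s) = 1 := by
  letI := actModule O act
  haveI := actModule_isScalarTower O act
  obtain ⟨u, hu⟩ := exists_inv_on_locPart O (L := M) 𝔪 hs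
  refine ⟨u, ?_⟩
  ext x
  have hx : x ∈ locPart 𝔪 M := by rw [locPart_eq_top_of_isPrimary O act 𝔪 hprim]; trivial
  have := hu x hx
  rw [map_mul]
  exact this

include O in
theorem isUnit_mk (hprim : IsPrimary act 𝔪) {s : 𝕋} (hs : s ∉ 𝔪) :
    IsUnit (Ideal.Quotient.mk (heckeIdeal act) s) := by
  obtain ⟨u, hu⟩ := exists_inv_of_isPrimary O act 𝔪 hprim hs
  refine IsUnit.of_mul_eq_one (Ideal.Quotient.mk _ u) ?_
  rw [← map_mul, ← map_one (Ideal.Quotient.mk _), Ideal.Quotient.eq, mem_heckeIdeal, map_sub,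
    map_one, mul_comm, hu, sub_self]

include O in
/-- for `M ≠ 0` primary, the Hecke ideal is contained in `𝔪` -/
theorem heckeIdeal_le [Nontrivial M] (hprim : IsPrimary act 𝔪) : heckeIdeal act ≤ 𝔪 := by
  intro s hs
  by_contra hs'
  obtain ⟨u, hu⟩ := exists_inv_of_isPrimary O act 𝔪 hprim hs'
  rw [mem_heckeIdeal] at hs
  rw [map_mul, hs, mul_zero] at hu
  obtain ⟨x, hx⟩ := exists_ne (0 : M)
  apply hx
  have := LinearMap.congr_fun hu x
  rw [LinearMap.zero_apply, Module.End.one_apply] at this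
  exact this.symm

include O in
/-- **the Hecke algebra of a nonzero primary module is local** -/
theorem isLocalRing [Nontrivial M] (hprim : IsPrimary act 𝔪) : IsLocalRing (Hecke act) :=
  isLocalRing_quotient_of_isUnit (heckeIdeal act) 𝔪 (heckeIdeal_le O act 𝔪 hprim)
    (fun _ hs => isUnit_mk O act 𝔪 hprim hs)

include O in
theorem mem_maximalIdeal_iff [Nontrivial M] (hprim : IsPrimary act 𝔪) (a : 𝕋) :
    haveI := isLocalRing O act 𝔪 hprim
    Ideal.Quotient.mk (heckeIdeal act) a ∈ IsLocalRing.maximalIdeal (Hecke act) ↔ a ∈ 𝔪 :=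
  mem_maximalIdeal_quotient_iff_of_isUnit (heckeIdeal act) 𝔪 (heckeIdeal_le O act 𝔪 hprim)
    (fun _ hs => isUnit_mk O act 𝔪 hprim hs) a

omit [IsLocalRing O] [IsAdicComplete (IsLocalRing.maximalIdeal O) O] in
/-- the Hecke algebra is finite over `O` -/
theorem finite : Module.Finite O (Hecke act) := by
  have : Module.Finite O (Module.End O M) := inferInstance
  have : IsNoetherian O (Module.End O M) := isNoetherian_of_isNoetherianRing_of_finite O _
  exact Module.Finite.of_injective (heckeAct act).toLinearMap (heckeAct_injective act)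

omit [IsLocalRing O] [IsAdicComplete (IsLocalRing.maximalIdeal O) O] in
theorem isNoetherianRing : IsNoetherianRing (Hecke act) := by
  have := finite O act
  exact IsNoetherianRing.of_finite O (Hecke act)

theorem isLocalHom [Nontrivial M] (hprim : IsPrimary act 𝔪) :
    IsLocalHom (algebraMap O (Hecke act)) := by
  have := isLocalRing O act 𝔪 hprim
  have := finite O act
  exact isLocalHom_algebraMap_of_finite O (Hecke act)

theorem isAdicComplete [Nontrivial M] (hprim : IsPrimary act 𝔪) :
    haveI := isLocalRing O act 𝔪 hprim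
    IsAdicComplete (IsLocalRing.maximalIdeal (Hecke act)) (Hecke act) := by
  have := isLocalRing O act 𝔪 hprim
  have := finite O act
  exact isAdicComplete_of_finite_of_isLocalRing O (Hecke act)

omit [IsLocalRing O] [IsAdicComplete (IsLocalRing.maximalIdeal O) O] in
/-- over a PID, the Hecke algebra of a torsion-free module is free -/
theorem free [IsDomain O] [IsPrincipalIdealRing O] [Module.IsTorsionFree O M] :
    Module.Free O (Hecke act) := by
  have := finite O act
  have : Module.IsTorsionFree O (Hecke act) := by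
    refine ⟨fun c hc t₁ t₂ h => ?_⟩
    apply heckeAct_injective act
    have h' : c • heckeAct act t₁ = c • heckeAct act t₂ := by
      rw [← map_smul, ← map_smul]; exact congrArg _ h
    ext x
    have hx := LinearMap.congr_fun h' x
    rw [LinearMap.smul_apply, LinearMap.smul_apply] at hx
    exact (Module.IsTorsionFree.isSMulRegular (M := M) hc) hx
  exact Module.free_of_finite_type_torsion_free'

include O in
/-- the residue field of the Hecke algebra is generated by `O` as soon as `𝕋 ⧸ 𝔪` is -/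
theorem residue_comp_algebraMap_surjective [Nontrivial M] (hprim : IsPrimary act 𝔪)
    (h : ∀ a : 𝕋, ∃ c : O, a - algebraMap O 𝕋 c ∈ 𝔪) :
    haveI := isLocalRing O act 𝔪 hprim
    Function.Surjective (IsLocalRing.residue (Hecke act) ∘ algebraMap O (Hecke act)) := by
  have := isLocalRing O act 𝔪 hprim
  intro y
  obtain ⟨t, rfl⟩ := IsLocalRing.residue_surjective y
  obtain ⟨a, rfl⟩ := Ideal.Quotient.mk_surjective t
  obtain ⟨c, hc⟩ := h a
  refine ⟨c, ?_⟩
  show IsLocalRing.residue (Hecke act) (algebraMap O (Hecke act) c) = _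
  symm
  have : algebraMap O (Hecke act) c = Ideal.Quotient.mk _ (algebraMap O 𝕋 c) := rfl
  rw [← sub_eq_zero, ← map_sub, IsLocalRing.residue_eq_zero_iff, this, ← map_sub]
  exact (mem_maximalIdeal_iff O act 𝔪 hprim _).2 hc

include O in
/-- the comparison maps between Hecke algebras of primary modules are local homomorphisms -/
theorem isLocalHom_heckeMap {M' : Type*} [AddCommGroup M'] [Module O M'] [Module.Finite O M']
    [Nontrivial M] [Nontrivial M'] (act' : 𝕋 →ₐ[O] Module.End O M')
    (hprim : IsPrimary act 𝔪) (hprim' : IsPrimary act' 𝔪)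
    (h : heckeIdeal act ≤ heckeIdeal act') :
    IsLocalHom (heckeMap act act' h : Hecke act →+* Hecke act') := by
  have := isLocalRing O act 𝔪 hprim
  have := isLocalRing O act' 𝔪 hprim'
  constructor
  intro t ht
  obtain ⟨a, rfl⟩ := Ideal.Quotient.mk_surjective t
  by_contra hnu
  have h1 : Ideal.Quotient.mk (heckeIdeal act) a ∈ IsLocalRing.maximalIdeal (Hecke act) :=
    (IsLocalRing.mem_maximalIdeal _).2 hnu
  have h2 : a ∈ 𝔪 := (mem_maximalIdeal_iff O act 𝔪 hprim a).1 h1
  have h3 : Ideal.Quotient.mk (heckeIdeal act') a ∈ IsLocalRing.maximalIdeal (Hecke act') :=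
    (mem_maximalIdeal_iff O act' 𝔪 hprim' a).2 h2
  exact (IsLocalRing.mem_maximalIdeal _).1 h3 ht

end Main

/-! ### The action on `locPart 𝔪 L` is primary -/

section LocAct

variable (O : Type) [CommRing O] [IsLocalRing O] [IsNoetherianRing O]
  [IsAdicComplete (IsLocalRing.maximalIdeal O) O]
variable {𝕋 : Type} [CommRing 𝕋] [Algebra O 𝕋]
variable {L : Type*} [AddCommGroup L] [Module O L] [Module 𝕋 L] [IsScalarTower O 𝕋 L]
variable (𝔪 : Ideal 𝕋) [h𝔪 : 𝔪.IsMaximal]

omit [IsLocalRing O] [IsNoetherianRing O] [IsAdicComplete (IsLocalRing.maximalIdeal O) O] h𝔪 in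
/-- the operator action of `𝕋` on the `𝔪`-primary part -/
def locAct [𝔪.IsPrime] : 𝕋 →ₐ[O] Module.End O (locPart 𝔪 L) where
  toFun a :=
    { toFun := fun x => a • x
      map_add' := fun x y => smul_add a x y
      map_smul' := fun c x => smul_comm a c x }
  map_one' := by
    ext x; simp
  map_mul' a b := by
    ext x; simp [mul_smul]
  map_zero' := by
    ext x; simp
  map_add' a b := by
    ext x; simp [add_smul]
  commutes' c := by
    ext x
    simp [Algebra.algebraMap_eq_smul_one]

omit [IsLocalRing O] [IsNoetherianRing O] [IsAdicComplete (IsLocalRing.maximalIdeal O) O] h𝔪 in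
@[simp] theorem locAct_apply [𝔪.IsPrime] (a : 𝕋) (x : locPart 𝔪 L) :
    locAct O 𝔪 a x = a • x := rfl

theorem isPrimary_locAct [Module.Finite O L] : IsPrimary (locAct O (L := L) 𝔪) 𝔪 := by
  intro s hs x
  obtain ⟨y, hy⟩ := (bijective_smul_locPart O (L := L) 𝔪 hs).2 x
  exact ⟨y, hy⟩

end LocAct

end Fermat.Agent.GB.B3.TQ
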