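/-
GATE-B / GB-B3-CHI, matrix adapter (helper24).  Mathlib only.

From a module isomorphism modulo an ideal to the matrices `U`, `V` of helper9's
`GB/PatchSupp/Datum` (B9 DESIGN NOTE N1, board 5224, items (2) and (4)).

`A` a commutative ring, `I` an ideal, `ψ : A →+* A'` a ring homomorphism killing `I`
(think `A = S ⧸ c n`, `A' = (S ⧸ λ) ⧸ c̄ n`, `I = (λ)`), `M₁`, `M₂` free `A`-modules with bases
`b₁`, `b₂` indexed by the same finite type `ι`, and an `A`-linear isomorphism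
`e : M₁ ⧸ I M₁ ≃ M₂ ⧸ I M₂` (e.g. `Chi.chiToBase.symm`, `Chi.chiCongr`).

* `exists_lift_of_equiv_mod` : `e` lifts to `A`-linear maps `u : M₁ → M₂`, `w : M₂ → M₁`
  (`[u x] = e [x]`, `[w y] = e⁻¹ [y]`).
* `exists_matrix_of_equiv_mod` : matrices `U V : Matrix ι ι A'` with `U * V = 1`, `V * U = 1`
  and, for EVERY pair of endomorphisms `t₁` of `M₁`, `t₂` of `M₂` intertwined by `e`,
  `U * (toMatrix b₁ b₁ t₁).map ψ = (toMatrix b₂ b₂ t₂).map ψ * U` — the fields `UV`, `VU`, `conj`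
  of `PatchSupp.Datum.IsValid` (there `ρ₁ r = toMatrix b₁ b₁ (action of r on M₁)` etc.).
-/
import Mathlib

set_option autoImplicit false
set_option linter.unusedSectionVars false

namespace Fermat.Agent.GB.B3.ChiMat

open Submodule Matrix

variable {A : Type*} [CommRing A] (I : Ideal A)

section Repr

variable {ι : Type*} {M : Type*} [AddCommGroup M] [Module A M]

/-- Coordinates of an element of `I M` lie in `I`. -/
theorem repr_mem_of_mem_smul_top (b : Module.Basis ι A M) {z : M}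
    (hz : z ∈ (I • ⊤ : Submodule A M)) (i : ι) : b.repr z i ∈ I := by
  refine Submodule.smul_induction_on hz ?_ ?_
  · intro a ha m _
    rw [map_smul, Finsupp.smul_apply, smul_eq_mul]
    exact I.mul_mem_right _ ha
  · intro x y hx hy
    rw [map_add, Finsupp.add_apply]
    exact I.add_mem hx hy

variable {ι' : Type*} [Finite ι'] {M' : Type*} [AddCommGroup M'] [Module A M']
  [Fintype ι] [DecidableEq ι]

/-- The matrix of a linear map with values in `I M'` has entries in `I`. -/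
theorem toMatrix_mem_of_range_le (b : Module.Basis ι A M) (b' : Module.Basis ι' A M')
    (f : M →ₗ[A] M') (hf : ∀ x, f x ∈ (I • ⊤ : Submodule A M')) (i : ι') (j : ι) :
    LinearMap.toMatrix b b' f i j ∈ I := by
  rw [LinearMap.toMatrix_apply]
  exact repr_mem_of_mem_smul_top I b' (hf _) i

end Repr

variable {A' : Type*} [CommRing A'] (ψ : A →+* A')
  {ι : Type*} [Fintype ι] [DecidableEq ι]
  {M₁ M₂ : Type*} [AddCommGroup M₁] [Module A M₁] [AddCommGroup M₂] [Module A M₂]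

/-- A linear map out of a free module into a quotient lifts. -/
theorem exists_lift_mod {N : Type*} [AddCommGroup N] [Module A N] (b₁ : Module.Basis ι A M₁)
    (S : Submodule A N) (f : M₁ →ₗ[A] N ⧸ S) :
    ∃ u : M₁ →ₗ[A] N, ∀ x, (Submodule.Quotient.mk (u x) : N ⧸ S) = f x := by
  choose y hy using fun j => Submodule.Quotient.mk_surjective S (f (b₁ j))
  refine ⟨b₁.constr A y, fun x => ?_⟩
  have : S.mkQ ∘ₗ b₁.constr A y = f := by
    refine b₁.ext fun j => ?_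
    rw [LinearMap.comp_apply, Module.Basis.constr_basis, mkQ_apply, hy]
  exact LinearMap.congr_fun this x

/-- An isomorphism `M₁ ⧸ I ≃ M₂ ⧸ I` of reductions of free modules lifts to a pair of linear maps. -/
theorem exists_lift_of_equiv_mod (b₁ : Module.Basis ι A M₁) (b₂ : Module.Basis ι A M₂)
    (e : (M₁ ⧸ (I • ⊤ : Submodule A M₁)) ≃ₗ[A] (M₂ ⧸ (I • ⊤ : Submodule A M₂))) :
    ∃ (u : M₁ →ₗ[A] M₂) (w : M₂ →ₗ[A] M₁),
      (∀ x, (Submodule.Quotient.mk (u x) : M₂ ⧸ (I • ⊤ : Submodule A M₂)) =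
        e (Submodule.Quotient.mk x)) ∧
      (∀ y, (Submodule.Quotient.mk (w y) : M₁ ⧸ (I • ⊤ : Submodule A M₁)) =
        e.symm (Submodule.Quotient.mk y)) := by
  obtain ⟨u, hu⟩ := exists_lift_mod b₁ (I • ⊤ : Submodule A M₂)
    (e.toLinearMap ∘ₗ (I • ⊤ : Submodule A M₁).mkQ)
  obtain ⟨w, hw⟩ := exists_lift_mod b₂ (I • ⊤ : Submodule A M₁)
    (e.symm.toLinearMap ∘ₗ (I • ⊤ : Submodule A M₂).mkQ)
  exact ⟨u, w, fun x => hu x, fun y => hw y⟩

/-- Two matrices congruent modulo `I` entrywise have the same image under `ψ`. -/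
theorem map_eq_of_sub_mem (hψ : ∀ a ∈ I, ψ a = 0) {κ κ' : Type*} (X Y : Matrix κ κ' A)
    (h : ∀ i j, X i j - Y i j ∈ I) : X.map ψ = Y.map ψ := by
  ext i j
  rw [Matrix.map_apply, Matrix.map_apply, ← sub_eq_zero, ← map_sub]
  exact hψ _ (h i j)

/-- **Matrix adapter.**  The reduction mod `I` of an isomorphism `e : M₁ ⧸ I ≃ M₂ ⧸ I` between
reductions of free modules, written in bases `b₁`, `b₂`: invertible `U` (inverse `V`) over `A'`
conjugating the matrix of `t₁` into the matrix of `t₂` for every pair `(t₁, t₂)` intertwined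
by `e`. -/
theorem exists_matrix_of_equiv_mod (hψ : ∀ a ∈ I, ψ a = 0)
    (b₁ : Module.Basis ι A M₁) (b₂ : Module.Basis ι A M₂)
    (e : (M₁ ⧸ (I • ⊤ : Submodule A M₁)) ≃ₗ[A] (M₂ ⧸ (I • ⊤ : Submodule A M₂))) :
    ∃ U V : Matrix ι ι A', U * V = 1 ∧ V * U = 1 ∧
      ∀ (t₁ : M₁ →ₗ[A] M₁) (t₂ : M₂ →ₗ[A] M₂),
        (∀ x, e (Submodule.Quotient.mk (t₁ x)) =
          (I • ⊤ : Submodule A M₂).mapQ (I • ⊤ : Submodule A M₂) t₂
            (smul_top_le_comap_smul_top I t₂) (e (Submodule.Quotient.mk x))) →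
        U * (LinearMap.toMatrix b₁ b₁ t₁).map ψ = (LinearMap.toMatrix b₂ b₂ t₂).map ψ * U := by
  obtain ⟨u, w, hu, hw⟩ := exists_lift_of_equiv_mod I b₁ b₂ e
  have hone : ((1 : Matrix ι ι A).map ψ) = 1 := Matrix.map_one _ (map_zero ψ) (map_one ψ)
  refine ⟨(LinearMap.toMatrix b₁ b₂ u).map ψ, (LinearMap.toMatrix b₂ b₁ w).map ψ, ?_, ?_, ?_⟩
  · -- `u ∘ w ≡ id`
    rw [← Matrix.map_mul, ← LinearMap.toMatrix_comp b₂ b₁ b₂ u w, ← hone,
      ← LinearMap.toMatrix_id b₂]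
    refine map_eq_of_sub_mem I ψ hψ _ _ fun i j => ?_
    rw [← Matrix.sub_apply, ← map_sub]
    refine toMatrix_mem_of_range_le I b₂ b₂ _ (fun y => ?_) i j
    rw [← Submodule.Quotient.mk_eq_zero, LinearMap.sub_apply, LinearMap.comp_apply,
      LinearMap.id_apply, Submodule.Quotient.mk_sub, hu, hw, LinearEquiv.apply_symm_apply,
      sub_self]
  · -- `w ∘ u ≡ id`
    rw [← Matrix.map_mul, ← LinearMap.toMatrix_comp b₁ b₂ b₁ w u, ← hone,
      ← LinearMap.toMatrix_id b₁]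
    refine map_eq_of_sub_mem I ψ hψ _ _ fun i j => ?_
    rw [← Matrix.sub_apply, ← map_sub]
    refine toMatrix_mem_of_range_le I b₁ b₁ _ (fun x => ?_) i j
    rw [← Submodule.Quotient.mk_eq_zero, LinearMap.sub_apply, LinearMap.comp_apply,
      LinearMap.id_apply, Submodule.Quotient.mk_sub, hw, hu, LinearEquiv.symm_apply_apply,
      sub_self]
  · intro t₁ t₂ ht
    rw [← Matrix.map_mul, ← Matrix.map_mul, ← LinearMap.toMatrix_comp b₁ b₁ b₂ u t₁,
      ← LinearMap.toMatrix_comp b₁ b₂ b₂ t₂ u]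
    refine map_eq_of_sub_mem I ψ hψ _ _ fun i j => ?_
    rw [← Matrix.sub_apply, ← map_sub]
    refine toMatrix_mem_of_range_le I b₁ b₂ _ (fun x => ?_) i j
    rw [← Submodule.Quotient.mk_eq_zero, LinearMap.sub_apply, LinearMap.comp_apply,
      LinearMap.comp_apply, Submodule.Quotient.mk_sub, hu, ht x, ← hu x, mapQ_apply, sub_self]

/-- Variant with the intertwining condition on representatives: `e [x] = [y] ⟹ e [t₁ x] = [t₂ y]`. -/
theorem exists_matrix_of_equiv_mod' (hψ : ∀ a ∈ I, ψ a = 0)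
    (b₁ : Module.Basis ι A M₁) (b₂ : Module.Basis ι A M₂)
    (e : (M₁ ⧸ (I • ⊤ : Submodule A M₁)) ≃ₗ[A] (M₂ ⧸ (I • ⊤ : Submodule A M₂))) :
    ∃ U V : Matrix ι ι A', U * V = 1 ∧ V * U = 1 ∧
      ∀ (t₁ : M₁ →ₗ[A] M₁) (t₂ : M₂ →ₗ[A] M₂),
        (∀ x y, e (Submodule.Quotient.mk x) = Submodule.Quotient.mk y →
          e (Submodule.Quotient.mk (t₁ x)) = Submodule.Quotient.mk (t₂ y)) →
        U * (LinearMap.toMatrix b₁ b₁ t₁).map ψ = (LinearMap.toMatrix b₂ b₂ t₂).map ψ * U := by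
  obtain ⟨U, V, hUV, hVU, h⟩ := exists_matrix_of_equiv_mod I ψ hψ b₁ b₂ e
  refine ⟨U, V, hUV, hVU, fun t₁ t₂ ht => h t₁ t₂ fun x => ?_⟩
  obtain ⟨y, hy⟩ := Submodule.Quotient.mk_surjective _ (e (Submodule.Quotient.mk x))
  rw [ht x y hy.symm, ← hy, mapQ_apply]

end Fermat.Agent.GB.B3.ChiMat
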