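/-
GATE-B / GB-B3-CHI, datum adapter (helper24).  Mathlib + helper9's `GB/PatchSupp/Datum` only.

**From two modules to a valid level datum.**  `A`, `A'` commutative rings, `ψ : A →+* A'` killing
an ideal `I` of `A`; `M₁`, `M₂` free `A`-modules with bases indexed by the same finite `ι`; a
commutative ring `R` acting on both (`φ₁`, `φ₂`, ring homs into the `A`-linear endomorphisms); an
`A`-linear isomorphism `e : M₁ ⧸ I ≃ M₂ ⧸ I` intertwining the two actions (e.g. `Chi.chiToBase`,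
`Chi.chiCongr` and their inverses); killing ideals `J₁`, `J₂`; `h` generators of each `Mᵢ` over `R`.
Then `exists_datum_isValid` produces a `PatchSupp.Datum R A A' ι h`, valid for `ψ`, `J₁`, `J₂`,
whose `ρᵢ r` is the matrix of `φᵢ r` in the given bases (this last clause is what the uniform
continuity hypothesis `hcont` of `PatchSupp.exists_patched` is checked on).
-/
import Fermat.Agent.GB.B3.ChiMat
import Fermat.Agent.GB.PatchSupp.Datum

set_option autoImplicit false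
set_option linter.unusedSectionVars false

namespace Fermat.Agent.GB.B3.ChiDatum

open Submodule Matrix Fermat.Agent.GB.PatchSupp

variable {R : Type*} [CommRing R] {A A' : Type*} [CommRing A] [CommRing A']
  {ι : Type*} [Fintype ι] [DecidableEq ι]
  {M : Type*} [AddCommGroup M] [Module A M]

/-- The matrix representation of a ring action on a free module with a basis. -/
noncomputable def matAction (b : Module.Basis ι A M) (φ : R →+* Module.End A M) :
    R →+* Matrix ι ι A :=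
  ((LinearMap.toMatrixAlgEquiv b : Module.End A M ≃ₐ[A] Matrix ι ι A) : Module.End A M →+*
    Matrix ι ι A).comp φ

theorem matAction_apply (b : Module.Basis ι A M) (φ : R →+* Module.End A M) (r : R) :
    matAction b φ r = LinearMap.toMatrix b b (φ r) := rfl

/-- In coordinates the action is `mulVec`. -/
theorem matAction_mulVec_repr (b : Module.Basis ι A M) (φ : R →+* Module.End A M) (r : R)
    (x : M) : matAction b φ r *ᵥ (⇑(b.repr x)) = ⇑(b.repr (φ r x)) := by
  rw [matAction_apply]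
  exact LinearMap.toMatrix_mulVec_repr b b (φ r) x

/-- Generation over `R` passes to coordinates. -/
theorem gen_matAction (b : Module.Basis ι A M) (φ : R →+* Module.End A M) {h : ℕ}
    (g : Fin h → M) (hg : ∀ x : M, ∃ r : Fin h → R, x = ∑ i, φ (r i) (g i)) (w : ι → A) :
    ∃ r : Fin h → R, w = ∑ i, matAction b φ (r i) *ᵥ
      (Matrix.of (fun i j => b.repr (g i) j) : Matrix (Fin h) ι A) i := by
  obtain ⟨r, hr⟩ := hg (b.equivFun.symm w)
  refine ⟨r, ?_⟩
  have h1 : w = ⇑(b.repr (b.equivFun.symm w)) :=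
    (b.equivFun.apply_symm_apply w).symm
  rw [h1, hr, map_sum]
  ext j
  rw [Finsupp.coe_finsetSum, Finset.sum_apply, Finset.sum_apply]
  refine Finset.sum_congr rfl fun i _ => ?_
  rw [← matAction_mulVec_repr b φ (r i) (g i)]
  rfl

variable {M₁ M₂ : Type*} [AddCommGroup M₁] [Module A M₁] [AddCommGroup M₂] [Module A M₂]

/-- **Modules ⟹ valid datum.** -/
theorem exists_datum_isValid (ψ : A →+* A') (I : Ideal A) (hψ : ∀ a ∈ I, ψ a = 0)
    (J₁ J₂ : Ideal R) (b₁ : Module.Basis ι A M₁) (b₂ : Module.Basis ι A M₂)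
    (φ₁ : R →+* Module.End A M₁) (φ₂ : R →+* Module.End A M₂)
    (e : (M₁ ⧸ (I • ⊤ : Submodule A M₁)) ≃ₗ[A] (M₂ ⧸ (I • ⊤ : Submodule A M₂)))
    (he : ∀ r x y, e (Submodule.Quotient.mk x) = Submodule.Quotient.mk y →
      e (Submodule.Quotient.mk (φ₁ r x)) = Submodule.Quotient.mk (φ₂ r y))
    (hk₁ : ∀ r ∈ J₁, φ₁ r = 0) (hk₂ : ∀ r ∈ J₂, φ₂ r = 0) {h : ℕ}
    (g₁ : Fin h → M₁) (hg₁ : ∀ x : M₁, ∃ r : Fin h → R, x = ∑ i, φ₁ (r i) (g₁ i))
    (g₂ : Fin h → M₂) (hg₂ : ∀ x : M₂, ∃ r : Fin h → R, x = ∑ i, φ₂ (r i) (g₂ i)) :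
    ∃ D : Datum R A A' ι h, D.IsValid ψ J₁ J₂ ∧
      (∀ r, D.ρ₁ r = LinearMap.toMatrix b₁ b₁ (φ₁ r)) ∧
      (∀ r, D.ρ₂ r = LinearMap.toMatrix b₂ b₂ (φ₂ r)) ∧
      (∀ i j, D.v₁ i j = b₁.repr (g₁ i) j) ∧ (∀ i j, D.v₂ i j = b₂.repr (g₂ i) j) := by
  obtain ⟨U, V, hUV, hVU, hconj⟩ := ChiMat.exists_matrix_of_equiv_mod' I ψ hψ b₁ b₂ e
  refine ⟨⟨matAction b₁ φ₁, matAction b₂ φ₂, U, V, Matrix.of fun i j => b₁.repr (g₁ i) j,
    Matrix.of fun i j => b₂.repr (g₂ i) j⟩, ⟨hUV, hVU, ?_, ?_, ?_, ?_, ?_⟩,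
    fun r => rfl, fun r => rfl, fun i j => rfl, fun i j => rfl⟩
  · intro r
    exact hconj (φ₁ r) (φ₂ r) (he r)
  · intro r hr
    show matAction b₁ φ₁ r = 0
    rw [matAction_apply, hk₁ r hr, map_zero]
  · intro r hr
    show matAction b₂ φ₂ r = 0
    rw [matAction_apply, hk₂ r hr, map_zero]
  · exact gen_matAction b₁ φ₁ g₁ hg₁
  · exact gen_matAction b₂ φ₂ g₂ hg₂

end Fermat.Agent.GB.B3.ChiDatum
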