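import Mathlib
import Fermat.Agent.GB.B3.TowerStep
import Fermat.Agent.GB.B3.LocSummand

/-!
# GATE-B / B3 (helper46): the abstract producer of one tower step

`TowerStep.StepData` (helper22) produced from

* ONE cyclic step `S : FreeCyclic.CycStep O L L0 q`, `q = p ^ n` (helper95; concrete instance:
  `CycInst.cycStep` / `CycPlug.cycStepSL`),
* a commutative `O`-algebra `A` of Hecke symbols acting on `L` and `L0`, a maximal ideal `𝔪` of `A`
  and `τ ∉ 𝔪` with `S.t = τ • ·` (`Loc.locPart`, `LocSummand.summandOfLoc`, helper74),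
* the diamond operators of the old Taylor–Wiles primes on `L` and on `L0`,
* a realisation `R : Realizes 𝔪 j F L0 Dold0` of the level `F` below as `locPart 𝔪 L0`.

Output: `stepLoc … : StepData N' F` with `M := ↥(locPart 𝔪 L)` (definitionally), and
`realizesExtend … : Realizes 𝔪 j (stepLoc …).extend L (Fin.cons D DoldL)` with `e = refl`, so that the
tower is a plain induction on the number of Taylor–Wiles primes.  No group theory in this file.
-/

set_option autoImplicit false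

namespace Fermat.Agent.GB.B3.StepLoc

open Module Fermat.Agent.GB.B3.TWLevel Fermat.Agent.GB.B3.TowerStep Fermat.Agent.GB.B3.Loc
  Fermat.Agent.GB.B3.Loc2 Fermat.Agent.GB.B3.FreeCyclic Fermat.Agent.GB.B3.LocSummand

/-! ### restriction of `A`-linear maps to the `𝔪`-primary parts, as `O`-linear maps -/

section LocEnd

variable {O : Type*} [CommRing O] {A : Type*} [CommRing A] [Algebra O A] (𝔪 : Ideal A) [𝔪.IsPrime]
variable {L L' L'' : Type*} [AddCommGroup L] [Module O L] [Module A L] [IsScalarTower O A L]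
  [AddCommGroup L'] [Module O L'] [Module A L'] [IsScalarTower O A L']
  [AddCommGroup L''] [Module O L''] [Module A L''] [IsScalarTower O A L'']

/-- the restriction of an `A`-linear map to the `𝔪`-primary parts, as an `O`-linear map -/
def locLin (f : L →ₗ[A] L') : ↥(locPart 𝔪 L) →ₗ[O] ↥(locPart 𝔪 L') :=
  (locMap (𝔪 := 𝔪) f).restrictScalars O

@[simp] theorem coe_locLin (f : L →ₗ[A] L') (x : locPart 𝔪 L) :
    ((locLin (O := O) 𝔪 f x : locPart 𝔪 L') : L') = f (x : L) := rfl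

theorem coe_locLin_pow (f : L →ₗ[A] L) (n : ℕ) (x : locPart 𝔪 L) :
    (((locLin (O := O) 𝔪 f ^ n) x : locPart 𝔪 L) : L) = (f ^ n) (x : L) := by
  induction n generalizing x with
  | zero => rfl
  | succ n ih =>
    rw [pow_succ, Module.End.mul_apply, ih, pow_succ, Module.End.mul_apply]
    rfl

/-- the action of `A` on the `𝔪`-primary part by `O`-linear endomorphisms -/
def locAct : A →ₐ[O] Module.End O ↥(locPart 𝔪 L) := Algebra.lsmul O O ↥(locPart 𝔪 L)

@[simp] theorem coe_locAct (a : A) (x : locPart 𝔪 L) :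
    ((locAct (O := O) 𝔪 a x : locPart 𝔪 L) : L) = a • (x : L) := rfl

end LocEnd

/-! ### the realisation of a level as an `𝔪`-primary part -/

section Realizes

variable {O : Type} [CommRing O] {A : Type} [CommRing A] [Algebra O A] (𝔪 : Ideal A) [𝔪.IsPrime]
variable {𝕋 : Type} [CommRing 𝕋] [Algebra O 𝕋] (j : 𝕋 →ₐ[O] A)
variable {M0 : Type} [AddCommGroup M0] [Module O M0] {act0 : 𝕋 →ₐ[O] Module.End O M0}

/-- **A level `F` realised as the `𝔪`-primary part of an `A`-module `L`** (`= Hom(Γ_H, O)`): the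
Hecke symbols `t : 𝕋` act through `j t : A`, the diamond generators through the `A`-linear
operators `Dd i` of `L`. -/
structure Realizes {k : ℕ} {N : Fin k → ℕ} (F : FreeLevel O 𝕋 M0 act0 k N)
    (L : Type) [AddCommGroup L] [Module O L] [Module A L] [IsScalarTower O A L]
    (Dd : Fin k → L →ₗ[A] L) where
  /-- the identification -/
  e : F.M ≃ₗ[O] ↥(locPart 𝔪 L)
  e_act : ∀ (t : 𝕋) (x : F.M), ((e (F.act t x) : locPart 𝔪 L) : L) = j t • ((e x : locPart 𝔪 L) : L)
  e_D : ∀ (i : Fin k) (x : F.M), ((e (F.D i x) : locPart 𝔪 L) : L) = Dd i ((e x : locPart 𝔪 L) : L)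

end Realizes

/-! ### the producer -/

section BasisTransport

variable {O : Type*} [CommRing O] [IsDomain O] [IsPrincipalIdealRing O] [IsLocalRing O]
variable {L L0 : Type*} [AddCommGroup L] [Module O L] [Module.Free O L] [Module.Finite O L]
  [AddCommGroup L0] [Module O L0] [Module.Free O L0] [Module.Finite O L0]

/-- `CycStep.Summand.exists_basis` for a step of order `q = p ^ n` -/
theorem exists_basis_of_eq (ϖ : O) (hϖ0 : ϖ ≠ 0)
    (hmax : IsLocalRing.maximalIdeal O = Ideal.span {ϖ})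
    (p n : ℕ) (hp : p.Prime) (hpϖ : (p : O) ∈ Ideal.span {ϖ}) (hq : ((p ^ n : ℕ) : O) ≠ 0)
    (q : ℕ) (hqq : q = p ^ n) {S : CycStep O L L0 q} (Z : S.Summand)
    {ι : Type*} [Fintype ι] (w : ι → L) (hw : ∀ m, w m ∈ Z.P)
    (b0 : Basis ι O Z.P0) (hb0 : ∀ m, (b0 m : L0) = S.cores (w m)) :
    ∃ b : Basis (Fin q × ι) O Z.P, ∀ a m, (b (a, m) : L) = (S.D ^ (a : ℕ)) (w m) := by
  subst hqq
  exact CycStep.Summand.exists_basis ϖ hϖ0 hmax p n hp hpϖ hq Z w hw b0 hb0

end BasisTransport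

section Producer

variable {O : Type} [CommRing O] [IsDomain O] [IsPrincipalIdealRing O] [IsLocalRing O]
  [IsAdicComplete (IsLocalRing.maximalIdeal O) O]
variable {A : Type} [CommRing A] [Algebra O A] (𝔪 : Ideal A) [𝔪.IsMaximal]
variable {𝕋 : Type} [CommRing 𝕋] [Algebra O 𝕋] (j : 𝕋 →ₐ[O] A)
variable {M0 : Type} [AddCommGroup M0] [Module O M0] {act0 : 𝕋 →ₐ[O] Module.End O M0}
variable {L L0 : Type} [AddCommGroup L] [Module O L] [Module A L] [IsScalarTower O A L]
  [Module.Finite O L] [Module.Free O L]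
  [AddCommGroup L0] [Module O L0] [Module A L0] [IsScalarTower O A L0]
  [Module.Finite O L0] [Module.Free O L0]
variable {k : ℕ} {N' : Fin (k + 1) → ℕ} {F : FreeLevel O 𝕋 M0 act0 k (fun i => N' i.succ)}

/-- **One tower step from one cyclic step and the localisation at `𝔪`.** -/
noncomputable def stepLoc (ϖ : O) (hϖ0 : ϖ ≠ 0)
    (hmax : IsLocalRing.maximalIdeal O = Ideal.span {ϖ})
    (p n : ℕ) (hp : p.Prime) (hpϖ : (p : O) ∈ Ideal.span {ϖ}) (hq : ((p ^ n : ℕ) : O) ≠ 0)
    (hN0 : N' 0 = p ^ n)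
    (S : CycStep O L L0 (N' 0))
    (hD : ∀ (a : A) (x : L), S.D (a • x) = a • S.D x)
    (hcores : ∀ (a : A) (x : L), S.cores (a • x) = a • S.cores x)
    (τ : A) (hτ : τ ∉ 𝔪) (ht : ∀ x : L, S.t x = τ • x)
    (DoldL : Fin k → L →ₗ[A] L) (Dold0 : Fin k → L0 →ₗ[A] L0)
    (hpow : ∀ i x, (DoldL i ^ N' i.succ) x = x)
    (hcomm : ∀ i i' x, DoldL i (DoldL i' x) = DoldL i' (DoldL i x))
    (hcommD : ∀ i x, S.D (DoldL i x) = DoldL i (S.D x))
    (hcd : ∀ i x, S.cores (DoldL i x) = Dold0 i (S.cores x))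
    (R : Realizes 𝔪 j F L0 Dold0) : StepData N' F where
  M := ↥(locPart 𝔪 L)
  act := (locAct (O := O) 𝔪).comp j
  Dnew := locLin 𝔪 (toLin S.D hD)
  Dold i := locLin 𝔪 (DoldL i)
  Dnew_pow := by
    refine LinearMap.ext fun x => Subtype.ext ?_
    rw [coe_locLin_pow]
    have h1 : ∀ (m : ℕ) (y : L), ((toLin S.D hD : L →ₗ[A] L) ^ m) y = (S.D ^ m) y := by
      intro m
      induction m with
      | zero => intro y; rfl
      | succ m ih =>
        intro y
        rw [pow_succ, Module.End.mul_apply, ih, pow_succ, Module.End.mul_apply]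
        rfl
    rw [h1, S.D_pow]
    rfl
  Dold_pow i := by
    refine LinearMap.ext fun x => Subtype.ext ?_
    rw [coe_locLin_pow, hpow]
    rfl
  Dold_comm i i' := by
    refine LinearMap.ext fun x => Subtype.ext ?_
    exact hcomm i i' x
  Dnew_comm i := by
    refine LinearMap.ext fun x => Subtype.ext ?_
    exact hcommD i x
  act_Dnew t := by
    refine LinearMap.ext fun x => Subtype.ext ?_
    exact (hD (j t) x).symm
  act_Dold t i := by
    refine LinearMap.ext fun x => Subtype.ext ?_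
    exact ((DoldL i).map_smul (j t) x).symm
  cores := R.e.symm.toLinearMap ∘ₗ locLin 𝔪 (toLin S.cores hcores)
  cores_surjective := by
    intro y
    have hqO : ((N' 0 : ℕ) : O) ≠ 0 := by rw [hN0]; exact hq
    obtain ⟨x, hx, hxy⟩ := (summandOfLoc S 𝔪 hD hcores τ hτ ht).cores_surjOn
      (x0 := ((R.e y : locPart 𝔪 L0) : L0)) (R.e y).2
    refine ⟨⟨x, hx⟩, ?_⟩
    rw [LinearMap.comp_apply, LinearEquiv.coe_coe, LinearEquiv.symm_apply_eq]
    exact Subtype.ext hxy
  ker_cores := by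
    intro x
    have hqO : ((N' 0 : ℕ) : O) ≠ 0 := by rw [hN0]; exact hq
    rw [LinearMap.comp_apply, LinearEquiv.coe_coe, LinearEquiv.map_eq_zero_iff]
    constructor
    · intro h
      have h0 : S.cores (x : L) = 0 := congrArg Subtype.val h
      obtain ⟨y, hy, hxy⟩ := (summandOfLoc S 𝔪 hD hcores τ hτ ht).ker_cores_on x.2 h0
      refine ⟨⟨y, hy⟩, Subtype.ext ?_⟩
      rw [hxy]
      rfl
    · rintro ⟨y, rfl⟩
      apply Subtype.ext
      show S.cores (S.D (y : L) - (y : L)) = 0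
      rw [map_sub, S.cores_D hqO, sub_self]
  cores_Dold i x := by
    rw [LinearMap.comp_apply, LinearMap.comp_apply, LinearEquiv.coe_coe,
      LinearEquiv.symm_apply_eq]
    apply Subtype.ext
    rw [R.e_D, LinearEquiv.apply_symm_apply]
    exact hcd i x
  cores_act t x := by
    rw [LinearMap.comp_apply, LinearMap.comp_apply, LinearEquiv.coe_coe,
      LinearEquiv.symm_apply_eq]
    apply Subtype.ext
    rw [R.e_act, LinearEquiv.apply_symm_apply]
    exact hcores (j t) x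
  basis_of_lift := by
    intro ι _ w b hb
    set Z := summandOfLoc S 𝔪 hD hcores τ hτ ht with hZ
    -- the basis of `P0`
    let e0 : F.M ≃ₗ[O] ↥Z.P0 :=
      R.e ≪≫ₗ ((Submodule.restrictScalarsEquiv O A L0 (locPart 𝔪 L0)).restrictScalars O).symm
    obtain ⟨b', hb'⟩ := exists_basis_of_eq ϖ hϖ0 hmax p n hp hpϖ hq (N' 0) hN0 Z
      (fun m => ((w m : locPart 𝔪 L) : L)) (fun m => (w m).2) (b.map e0) (by
        intro m
        rw [Basis.map_apply, hb]
        show ((R.e (R.e.symm _) : locPart 𝔪 L0) : L0) = _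
        rw [LinearEquiv.apply_symm_apply]
        rfl)
    refine ⟨b'.map ((Submodule.restrictScalarsEquiv O A L (locPart 𝔪 L)).restrictScalars O), ?_⟩
    intro a m
    apply Subtype.ext
    rw [Basis.map_apply, coe_locLin_pow]
    have h1 : ∀ (i : ℕ) (y : L), ((toLin S.D hD : L →ₗ[A] L) ^ i) y = (S.D ^ i) y := by
      intro i
      induction i with
      | zero => intro y; rfl
      | succ i ih =>
        intro y
        rw [pow_succ, Module.End.mul_apply, ih, pow_succ, Module.End.mul_apply]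
        rfl
    rw [h1, ← hb' a m]
    rfl

/-- the module of the new level is the `𝔪`-primary part of `L`, definitionally -/
theorem stepLoc_M (ϖ : O) (hϖ0 : ϖ ≠ 0)
    (hmax : IsLocalRing.maximalIdeal O = Ideal.span {ϖ})
    (p n : ℕ) (hp : p.Prime) (hpϖ : (p : O) ∈ Ideal.span {ϖ}) (hq : ((p ^ n : ℕ) : O) ≠ 0)
    (hN0 : N' 0 = p ^ n)
    (S : CycStep O L L0 (N' 0))
    (hD : ∀ (a : A) (x : L), S.D (a • x) = a • S.D x)
    (hcores : ∀ (a : A) (x : L), S.cores (a • x) = a • S.cores x)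
    (τ : A) (hτ : τ ∉ 𝔪) (ht : ∀ x : L, S.t x = τ • x)
    (DoldL : Fin k → L →ₗ[A] L) (Dold0 : Fin k → L0 →ₗ[A] L0)
    (hpow : ∀ i x, (DoldL i ^ N' i.succ) x = x)
    (hcomm : ∀ i i' x, DoldL i (DoldL i' x) = DoldL i' (DoldL i x))
    (hcommD : ∀ i x, S.D (DoldL i x) = DoldL i (S.D x))
    (hcd : ∀ i x, S.cores (DoldL i x) = Dold0 i (S.cores x))
    (R : Realizes 𝔪 j F L0 Dold0) :
    (stepLoc 𝔪 j ϖ hϖ0 hmax p n hp hpϖ hq hN0 S hD hcores τ hτ ht DoldL Dold0 hpow hcomm hcommD hcd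
      R).M = ↥(locPart 𝔪 L) := rfl

/-- the transfer of the new level is the transfer of the cyclic step, through the realisation of
the level below -/
theorem coe_e_cores (ϖ : O) (hϖ0 : ϖ ≠ 0)
    (hmax : IsLocalRing.maximalIdeal O = Ideal.span {ϖ})
    (p n : ℕ) (hp : p.Prime) (hpϖ : (p : O) ∈ Ideal.span {ϖ}) (hq : ((p ^ n : ℕ) : O) ≠ 0)
    (hN0 : N' 0 = p ^ n)
    (S : CycStep O L L0 (N' 0))
    (hD : ∀ (a : A) (x : L), S.D (a • x) = a • S.D x)
    (hcores : ∀ (a : A) (x : L), S.cores (a • x) = a • S.cores x)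
    (τ : A) (hτ : τ ∉ 𝔪) (ht : ∀ x : L, S.t x = τ • x)
    (DoldL : Fin k → L →ₗ[A] L) (Dold0 : Fin k → L0 →ₗ[A] L0)
    (hpow : ∀ i x, (DoldL i ^ N' i.succ) x = x)
    (hcomm : ∀ i i' x, DoldL i (DoldL i' x) = DoldL i' (DoldL i x))
    (hcommD : ∀ i x, S.D (DoldL i x) = DoldL i (S.D x))
    (hcd : ∀ i x, S.cores (DoldL i x) = Dold0 i (S.cores x))
    (R : Realizes 𝔪 j F L0 Dold0) (x : locPart 𝔪 L) :
    ((R.e ((stepLoc 𝔪 j ϖ hϖ0 hmax p n hp hpϖ hq hN0 S hD hcores τ hτ ht DoldL Dold0 hpow hcomm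
      hcommD hcd R).cores x) : locPart 𝔪 L0) : L0) = S.cores (x : L) := by
  show ((R.e (R.e.symm _) : locPart 𝔪 L0) : L0) = _
  rw [LinearEquiv.apply_symm_apply]
  rfl

/-- **the new level is again realised as an `𝔪`-primary part** (`e = refl`), with the diamond
operators `Fin.cons D DoldL`: the induction closes. -/
noncomputable def realizesExtend (ϖ : O) (hϖ0 : ϖ ≠ 0)
    (hmax : IsLocalRing.maximalIdeal O = Ideal.span {ϖ})
    (p n : ℕ) (hp : p.Prime) (hpϖ : (p : O) ∈ Ideal.span {ϖ}) (hq : ((p ^ n : ℕ) : O) ≠ 0)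
    (hN0 : N' 0 = p ^ n)
    (S : CycStep O L L0 (N' 0))
    (hD : ∀ (a : A) (x : L), S.D (a • x) = a • S.D x)
    (hcores : ∀ (a : A) (x : L), S.cores (a • x) = a • S.cores x)
    (τ : A) (hτ : τ ∉ 𝔪) (ht : ∀ x : L, S.t x = τ • x)
    (DoldL : Fin k → L →ₗ[A] L) (Dold0 : Fin k → L0 →ₗ[A] L0)
    (hpow : ∀ i x, (DoldL i ^ N' i.succ) x = x)
    (hcomm : ∀ i i' x, DoldL i (DoldL i' x) = DoldL i' (DoldL i x))
    (hcommD : ∀ i x, S.D (DoldL i x) = DoldL i (S.D x))
    (hcd : ∀ i x, S.cores (DoldL i x) = Dold0 i (S.cores x))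
    (R : Realizes 𝔪 j F L0 Dold0) :
    Realizes 𝔪 j (stepLoc 𝔪 j ϖ hϖ0 hmax p n hp hpϖ hq hN0 S hD hcores τ hτ ht DoldL Dold0 hpow
      hcomm hcommD hcd R).extend L
      (Fin.cons (toLin S.D hD) DoldL : Fin (k + 1) → L →ₗ[A] L) where
  e := LinearEquiv.refl O ↥(locPart 𝔪 L)
  e_act _ _ := rfl
  e_D i x := by
    refine Fin.cases ?_ (fun i' => ?_) i
    · rfl
    · rw [Fin.cons_succ]
      rfl

end Producer

/-! ### the base of the tower -/

section Base

variable {O : Type} [CommRing O] [IsDomain O] [IsPrincipalIdealRing O] [IsLocalRing O]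
  [IsAdicComplete (IsLocalRing.maximalIdeal O) O]
variable {A : Type} [CommRing A] [Algebra O A] (𝔪 : Ideal A) [𝔪.IsMaximal]
variable {𝕋 : Type} [CommRing 𝕋] [Algebra O 𝕋] (j : 𝕋 →ₐ[O] A)
variable (L0 : Type) [AddCommGroup L0] [Module O L0] [Module A L0] [IsScalarTower O A L0]
  [Module.Finite O L0] [Module.Free O L0]

/-- the `𝔪`-primary part of a finite free `O`-module has a finite basis -/
theorem exists_basis_locPart : ∃ d : ℕ, Nonempty (Basis (Fin d) O ↥(locPart 𝔪 L0)) := by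
  have : Module.Finite O ↥(locPart 𝔪 L0) := finite_locPart O 𝔪
  have : Module.Free O ↥(locPart 𝔪 L0) := free_locPart O 𝔪
  exact ⟨_, ⟨Module.finBasis O ↥(locPart 𝔪 L0)⟩⟩

variable {L0}

/-- **the level `k = 0`**: the `𝔪`-primary part of `L0` over itself, for ANY (empty) family of
orders `N : Fin 0 → ℕ` (so that it can be fed to `StepData` at `fun i => N' i.succ`) -/
noncomputable def baseLevel (N : Fin 0 → ℕ) {d : ℕ} (b0 : Basis (Fin d) O ↥(locPart 𝔪 L0)) :
    FreeLevel O 𝕋 ↥(locPart 𝔪 L0) ((locAct (O := O) 𝔪).comp j) 0 N where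
  M := ↥(locPart 𝔪 L0)
  act := (locAct (O := O) 𝔪).comp j
  D := fun i => i.elim0
  D_pow := fun i => i.elim0
  D_comm := fun i => i.elim0
  act_D := fun _ i => i.elim0
  d := d
  e := b0
  basis := b0.reindex (Equiv.uniqueProd (Fin d) (∀ i : Fin 0, Fin (N i))).symm
  basis_eq := by
    intro a j
    simp [mono]
  π := LinearMap.id
  π_surjective := Function.surjective_id
  ker_π := by
    intro x
    rw [iSup_of_empty, Submodule.mem_bot]
    rfl
  π_act := fun _ _ => rfl
  basis0 := b0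
  basis0_eq := fun _ => rfl

/-- the base level is realised by the identity -/
noncomputable def realizesBase (N : Fin 0 → ℕ) {d : ℕ} (b0 : Basis (Fin d) O ↥(locPart 𝔪 L0)) :
    Realizes 𝔪 j (baseLevel 𝔪 j N b0) L0 (fun i => i.elim0) where
  e := LinearEquiv.refl O ↥(locPart 𝔪 L0)
  e_act _ _ := rfl
  e_D i := i.elim0

end Base

end Fermat.Agent.GB.B3.StepLoc
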