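/-
GATE-B / S43, node GB-B3-LOCBRIDGE (helper74, asked by helper95): **the two vocabularies of the
Taylor–Wiles tower invariant are the same**.

* helper95's instance-free form (`GB/B3/Realizes.lean`): an action `act : A →ₐ[O] End_O L`,
  `RealLevel.IsLoc act 𝔪 x`, `RealLevel.Realizes F actL 𝔪 E` (injective `ι` with range the
  `𝔪`-primary part);
* the module form (`GB/B3/Loc.lean`, helper46's `GB/B3/StepLoc.lean`): `[Module A L]`,
  `Loc.locPart 𝔪 L`, `StepLoc.Realizes 𝔪 j F L Dd` (an equivalence `e : F.M ≃ ↥(locPart 𝔪 L)`).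

Everything is stated for an ARBITRARY `[Module A L] [IsScalarTower O A L]` together with the
compatibility `hact : ∀ a x, act a x = a • x`; for the canonical choice
`Module.compHom L act.toRingHom` (`moduleOfAct`) the compatibility is `rfl`
(`moduleOfAct_smul`), and the scalar tower is `isScalarTower_moduleOfAct`.
-/
import Mathlib
import Fermat.Agent.GB.B3.Realizes
import Fermat.Agent.GB.B3.StepLoc

set_option autoImplicit false
set_option linter.style.haveILetI false

namespace Fermat.Agent.GB.B3.LocBridge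

open Module Fermat.Agent.GB.B3.TWLevel Fermat.Agent.GB.B3.Loc Fermat.Agent.GB.B3.Loc2
  Fermat.Agent.GB.B3.LocSummand Fermat.Agent.GB.B3.RealLevel

/-! ### the module structure of an action -/

section ModuleOfAct

variable {O A L : Type*} [CommRing O] [CommRing A] [Algebra O A] [AddCommGroup L] [Module O L]

/-- the `A`-module structure on `L` defined by an action `act : A →ₐ[O] End_O L` -/
@[reducible] def moduleOfAct (act : A →ₐ[O] Module.End O L) : Module A L :=
  Module.compHom L act.toRingHom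

/-- for `moduleOfAct act` the scalar action IS the action, definitionally -/
theorem moduleOfAct_smul (act : A →ₐ[O] Module.End O L) (a : A) (x : L) :
    letI := moduleOfAct act
    act a x = a • x := rfl

/-- `moduleOfAct act` is compatible with the `O`-module structure -/
theorem isScalarTower_moduleOfAct (act : A →ₐ[O] Module.End O L) :
    letI := moduleOfAct act
    IsScalarTower O A L := by
  letI := moduleOfAct act
  refine IsScalarTower.of_algebraMap_smul fun r x => ?_
  show act (algebraMap O A r) x = r • x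
  rw [AlgHom.commutes, Module.algebraMap_end_apply]

/-- the action attached to a module structure -/
theorem lsmul_apply' [Module A L] [IsScalarTower O A L] (a : A) (x : L) :
    (Algebra.lsmul O O L : A →ₐ[O] Module.End O L) a x = a • x := rfl

end ModuleOfAct

/-! ### `IsLoc` is membership of `locPart` -/

section IsLoc

variable {O A L : Type*} [CommRing O] [CommRing A] [Algebra O A] [AddCommGroup L] [Module O L]
  [Module A L] [IsScalarTower O A L]

omit [IsScalarTower O A L] in
/-- **`IsLoc act 𝔪 x ↔ x ∈ locPart 𝔪 L`** for any module structure inducing the action -/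
theorem isLoc_iff_mem_locPart (act : A →ₐ[O] Module.End O L) (hact : ∀ a x, act a x = a • x)
    (𝔪 : Ideal A) [𝔪.IsPrime] (x : L) : IsLoc act 𝔪 x ↔ x ∈ locPart 𝔪 L := by
  rw [mem_locPart]
  constructor
  · intro h s hs
    obtain ⟨y, hy⟩ := h s hs
    exact ⟨y, by rw [← hact, hy]⟩
  · intro h s hs
    obtain ⟨y, hy⟩ := h s hs
    exact ⟨y, by rw [hact, hy]⟩

omit [IsScalarTower O A L] in
theorem IsLoc.mem_locPart {act : A →ₐ[O] Module.End O L} (hact : ∀ a x, act a x = a • x)
    {𝔪 : Ideal A} [𝔪.IsPrime] {x : L} (h : IsLoc act 𝔪 x) : x ∈ locPart 𝔪 L :=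
  (isLoc_iff_mem_locPart act hact 𝔪 x).1 h

omit [IsScalarTower O A L] in
theorem isLoc_of_mem_locPart {act : A →ₐ[O] Module.End O L} (hact : ∀ a x, act a x = a • x)
    {𝔪 : Ideal A} [𝔪.IsPrime] {x : L} (h : x ∈ locPart 𝔪 L) : IsLoc act 𝔪 x :=
  (isLoc_iff_mem_locPart act hact 𝔪 x).2 h

/-- the case of the tautological action `Algebra.lsmul` -/
theorem isLoc_lsmul_iff (𝔪 : Ideal A) [𝔪.IsPrime] (x : L) :
    IsLoc (Algebra.lsmul O O L : A →ₐ[O] Module.End O L) 𝔪 x ↔ x ∈ locPart 𝔪 L :=
  isLoc_iff_mem_locPart _ (fun _ _ => rfl) 𝔪 x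

omit [Module A L] [IsScalarTower O A L] in
/-- `IsLoc` through a surjection of symbol algebras `j : 𝕋 → A`, at `𝔪.comap j` -/
theorem isLoc_comp_iff {𝕋 : Type*} [CommRing 𝕋] [Algebra O 𝕋] (j : 𝕋 →ₐ[O] A)
    (hj : Function.Surjective j) (act : A →ₐ[O] Module.End O L) (𝔪 : Ideal A) (x : L) :
    IsLoc (act.comp j) (𝔪.comap j) x ↔ IsLoc act 𝔪 x := by
  constructor
  · intro h s hs
    obtain ⟨t, rfl⟩ := hj s
    exact h t (fun ht => hs (Ideal.mem_comap.1 ht))
  · intro h t ht
    exact h (j t) (fun hjt => ht (Ideal.mem_comap.2 hjt))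

end IsLoc

/-! ### the instance-free `𝔪`-primary part as an `O`-submodule -/

section LocSub

variable {O A L : Type*} [CommRing O] [CommRing A] [Algebra O A] [AddCommGroup L] [Module O L]

/-- the `𝔪`-primary part of `L` for the action `act`, as an `O`-submodule (no `Module A L`
instance in the statement) -/
def locSub (act : A →ₐ[O] Module.End O L) (𝔪 : Ideal A) [𝔪.IsPrime] : Submodule O L :=
  letI := moduleOfAct act
  haveI := isScalarTower_moduleOfAct act
  (locPart 𝔪 L).restrictScalars O

theorem mem_locSub (act : A →ₐ[O] Module.End O L) (𝔪 : Ideal A) [𝔪.IsPrime] (x : L) :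
    x ∈ locSub act 𝔪 ↔ IsLoc act 𝔪 x := by
  letI := moduleOfAct act
  haveI := isScalarTower_moduleOfAct act
  exact (isLoc_iff_mem_locPart act (fun _ _ => rfl) 𝔪 x).symm

/-- for any module structure inducing `act`, `locSub` is `locPart` -/
theorem locSub_eq [Module A L] [IsScalarTower O A L] (act : A →ₐ[O] Module.End O L)
    (hact : ∀ a x, act a x = a • x) (𝔪 : Ideal A) [𝔪.IsPrime] :
    locSub act 𝔪 = (locPart 𝔪 L).restrictScalars O := by
  ext x
  rw [mem_locSub, isLoc_iff_mem_locPart act hact 𝔪 x]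
  rfl

/-- the action preserves the `𝔪`-primary part -/
theorem act_mem_locSub (act : A →ₐ[O] Module.End O L) (𝔪 : Ideal A) [𝔪.IsPrime] (a : A) {x : L}
    (hx : x ∈ locSub act 𝔪) : act a x ∈ locSub act 𝔪 := by
  letI := moduleOfAct act
  haveI := isScalarTower_moduleOfAct act
  exact (locPart 𝔪 L).smul_mem a hx

/-- an endomorphism commuting with the action preserves the `𝔪`-primary part -/
theorem apply_mem_locSub (act : A →ₐ[O] Module.End O L) (𝔪 : Ideal A) [𝔪.IsPrime]
    (f : Module.End O L) (hf : ∀ a x, f (act a x) = act a (f x)) {x : L}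
    (hx : x ∈ locSub act 𝔪) : f x ∈ locSub act 𝔪 := by
  letI := moduleOfAct act
  haveI := isScalarTower_moduleOfAct act
  exact apply_mem_locPart (toLin f hf) hx

/-- a map intertwining two actions maps the `𝔪`-primary part into the `𝔪`-primary part -/
theorem map_mem_locSub {L' : Type*} [AddCommGroup L'] [Module O L']
    (act : A →ₐ[O] Module.End O L) (act' : A →ₐ[O] Module.End O L') (𝔪 : Ideal A) [𝔪.IsPrime]
    (f : L →ₗ[O] L') (hf : ∀ a x, f (act a x) = act' a (f x)) {x : L}
    (hx : x ∈ locSub act 𝔪) : f x ∈ locSub act' 𝔪 := by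
  rw [mem_locSub] at hx ⊢
  intro s hs
  obtain ⟨y, hy⟩ := hx s hs
  exact ⟨f y, by rw [← hf, hy]⟩

end LocSub

/-! ### the two `Realizes` -/

section Realizes

variable {O : Type} [CommRing O] {A : Type} [CommRing A] [Algebra O A] (𝔪 : Ideal A) [𝔪.IsPrime]
variable {M0 : Type} [AddCommGroup M0] [Module O M0] {act0 : A →ₐ[O] Module.End O M0}
variable {k : ℕ} {N : Fin k → ℕ} {F : FreeLevel O A M0 act0 k N}
variable {L : Type} [AddCommGroup L] [Module O L] [Module A L] [IsScalarTower O A L]

/-- **instance-free ⟹ module form**: a `RealLevel.Realizes` is a `StepLoc.Realizes` with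
`𝕋 := A`, `j := id`, for any module structure inducing the action and any `A`-linear forms `Dd i`
of the diamonds `E i` -/
noncomputable def toStepLoc {actL : A →ₐ[O] Module.End O L} (hact : ∀ a x, actL a x = a • x)
    {E : Fin k → Module.End O L} (R : RealLevel.Realizes F actL 𝔪 E)
    (Dd : Fin k → L →ₗ[A] L) (hDd : ∀ i x, Dd i x = E i x) :
    StepLoc.Realizes 𝔪 (AlgHom.id O A) F L Dd where
  e := LinearEquiv.ofInjective R.ι R.inj ≪≫ₗ LinearEquiv.ofEq (LinearMap.range R.ι)
      ((locPart 𝔪 L).restrictScalars O) (by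
        ext x
        rw [R.range, isLoc_iff_mem_locPart actL hact 𝔪 x]
        rfl) ≪≫ₗ
      (Submodule.restrictScalarsEquiv O A L (locPart 𝔪 L)).restrictScalars O
  e_act t x := by
    show R.ι (F.act t x) = (AlgHom.id O A t) • R.ι x
    rw [R.ι_act, hact]
    rfl
  e_D i x := by
    show R.ι (F.D i x) = Dd i (R.ι x)
    rw [R.ι_D, hDd]

@[simp] theorem coe_toStepLoc_e {actL : A →ₐ[O] Module.End O L} (hact : ∀ a x, actL a x = a • x)
    {E : Fin k → Module.End O L} (R : RealLevel.Realizes F actL 𝔪 E)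
    (Dd : Fin k → L →ₗ[A] L) (hDd : ∀ i x, Dd i x = E i x) (x : F.M) :
    (((toStepLoc 𝔪 hact R Dd hDd).e x : locPart 𝔪 L) : L) = R.ι x := rfl

/-- the version with the `A`-linear forms built by `LocSummand.toLin` from the commutation of the
diamonds with the action -/
noncomputable def toStepLoc' {actL : A →ₐ[O] Module.End O L} (hact : ∀ a x, actL a x = a • x)
    {E : Fin k → Module.End O L} (R : RealLevel.Realizes F actL 𝔪 E)
    (hE : ∀ i (a : A) (x : L), E i (a • x) = a • E i x) :
    StepLoc.Realizes 𝔪 (AlgHom.id O A) F L (fun i => toLin (E i) (hE i)) :=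
  toStepLoc 𝔪 hact R _ (fun _ _ => rfl)

/-- **module form ⟹ instance-free**: a `StepLoc.Realizes` (with `𝕋 := A`, `j := id`) is a
`RealLevel.Realizes` -/
def ofStepLoc {actL : A →ₐ[O] Module.End O L} (hact : ∀ a x, actL a x = a • x)
    {Dd : Fin k → L →ₗ[A] L} (R : StepLoc.Realizes 𝔪 (AlgHom.id O A) F L Dd)
    (E : Fin k → Module.End O L) (hDd : ∀ i x, Dd i x = E i x) :
    RealLevel.Realizes F actL 𝔪 E where
  ι := ((locPart 𝔪 L).restrictScalars O).subtype ∘ₗ
    ((Submodule.restrictScalarsEquiv O A L (locPart 𝔪 L)).restrictScalars O).symm.toLinearMap ∘ₗ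
      R.e.toLinearMap
  inj := by
    intro x y h
    apply R.e.injective
    apply Subtype.ext
    exact h
  range x := by
    rw [isLoc_iff_mem_locPart actL hact 𝔪 x]
    constructor
    · rintro ⟨y, rfl⟩
      exact (R.e y).2
    · intro hx
      exact ⟨R.e.symm ⟨x, hx⟩, by
        show ((R.e (R.e.symm ⟨x, hx⟩) : locPart 𝔪 L) : L) = x
        rw [LinearEquiv.apply_symm_apply]⟩
  ι_act t x := by
    show ((R.e (F.act t x) : locPart 𝔪 L) : L) = actL t ((R.e x : locPart 𝔪 L) : L)
    rw [R.e_act, hact]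
    rfl
  ι_D i x := by
    show ((R.e (F.D i x) : locPart 𝔪 L) : L) = E i ((R.e x : locPart 𝔪 L) : L)
    rw [R.e_D, hDd]

@[simp] theorem ofStepLoc_ι {actL : A →ₐ[O] Module.End O L} (hact : ∀ a x, actL a x = a • x)
    {Dd : Fin k → L →ₗ[A] L} (R : StepLoc.Realizes 𝔪 (AlgHom.id O A) F L Dd)
    (E : Fin k → Module.End O L) (hDd : ∀ i x, Dd i x = E i x) (x : F.M) :
    (ofStepLoc 𝔪 hact R E hDd).ι x = ((R.e x : locPart 𝔪 L) : L) := rfl

/-- the version with `E i := (Dd i).restrictScalars O` -/
def ofStepLoc' {actL : A →ₐ[O] Module.End O L} (hact : ∀ a x, actL a x = a • x)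
    {Dd : Fin k → L →ₗ[A] L} (R : StepLoc.Realizes 𝔪 (AlgHom.id O A) F L Dd) :
    RealLevel.Realizes F actL 𝔪 (fun i => (Dd i).restrictScalars O) :=
  ofStepLoc 𝔪 hact R _ (fun _ _ => rfl)

end Realizes

/-! ### transport of `RealLevel.Realizes` along equalities of the data -/

section Congr

variable {O : Type} [CommRing O] {A : Type} [CommRing A] [Algebra O A] {𝔪 : Ideal A}
variable {M0 : Type} [AddCommGroup M0] [Module O M0] {act0 : A →ₐ[O] Module.End O M0}
variable {k : ℕ} {N : Fin k → ℕ} {F : FreeLevel O A M0 act0 k N}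
variable {L : Type} [AddCommGroup L] [Module O L]

/-- change the diamond operators to pointwise equal ones -/
def Realizes.congrE {actL : A →ₐ[O] Module.End O L} {E E' : Fin k → Module.End O L}
    (R : RealLevel.Realizes F actL 𝔪 E) (h : ∀ i x, E i x = E' i x) :
    RealLevel.Realizes F actL 𝔪 E' where
  ι := R.ι
  inj := R.inj
  range := R.range
  ι_act := R.ι_act
  ι_D i x := by rw [R.ι_D, h]

/-- change the action to a pointwise equal one -/
def Realizes.congrAct {actL actL' : A →ₐ[O] Module.End O L} {E : Fin k → Module.End O L}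
    (R : RealLevel.Realizes F actL 𝔪 E) (h : ∀ a x, actL a x = actL' a x) :
    RealLevel.Realizes F actL' 𝔪 E where
  ι := R.ι
  inj := R.inj
  range x := by
    rw [R.range]
    constructor
    · intro hx s hs
      obtain ⟨y, hy⟩ := hx s hs
      exact ⟨y, by rw [← h, hy]⟩
    · intro hx s hs
      obtain ⟨y, hy⟩ := hx s hs
      exact ⟨y, by rw [h, hy]⟩
  ι_act t x := by rw [R.ι_act, h]
  ι_D := R.ι_D

/-- transport along an `O`-linear equivalence of ambient modules intertwining the actions and the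
diamonds -/
def Realizes.map {L' : Type} [AddCommGroup L'] [Module O L'] {actL : A →ₐ[O] Module.End O L}
    {actL' : A →ₐ[O] Module.End O L'} {E : Fin k → Module.End O L}
    {E' : Fin k → Module.End O L'} (R : RealLevel.Realizes F actL 𝔪 E) (f : L ≃ₗ[O] L')
    (hact : ∀ a x, f (actL a x) = actL' a (f x)) (hE : ∀ i x, f (E i x) = E' i (f x)) :
    RealLevel.Realizes F actL' 𝔪 E' where
  ι := f.toLinearMap ∘ₗ R.ι
  inj := f.injective.comp R.inj
  range x := by
    constructor
    · rintro ⟨y, rfl⟩
      have hy : IsLoc actL 𝔪 (R.ι y) := (R.range _).1 ⟨y, rfl⟩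
      intro s hs
      obtain ⟨z, hz⟩ := hy s hs
      exact ⟨f z, by rw [← hact, hz]; rfl⟩
    · intro hx
      have hy : IsLoc actL 𝔪 (f.symm x) := by
        intro s hs
        obtain ⟨z, hz⟩ := hx s hs
        refine ⟨f.symm z, ?_⟩
        apply f.injective
        rw [hact, LinearEquiv.apply_symm_apply, LinearEquiv.apply_symm_apply, hz]
      obtain ⟨y, hy'⟩ := (R.range _).2 hy
      exact ⟨y, by
        show f (R.ι y) = x
        rw [hy', LinearEquiv.apply_symm_apply]⟩
  ι_act t x := by
    show f (R.ι (F.act t x)) = actL' t (f (R.ι x))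
    rw [R.ι_act, hact]
  ι_D i x := by
    show f (R.ι (F.D i x)) = E' i (f (R.ι x))
    rw [R.ι_D, hE]

end Congr

end Fermat.Agent.GB.B3.LocBridge
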