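/-
GATE-B / S43, B3 ↔ B9 seam (helper74): **ONE Hecke algebra `T_Q` on `M¹_Q ⊕ M^χ_Q`** from a
`TWLevelData` whose two levels are `𝔪`-primary (board 5224 N1 (2), the `T_Q` object of helper55's
`TQPkg`): a local, noetherian, complete, finite `O`-algebra `T` with `IsLocalHom (algebraMap O T)`,
a surjection `π : 𝕋 →ₐ[O] T` from the Hecke symbols, actions on both modules extending the
`𝕋`-actions, commuting with the diamonds, compatible with `U` modulo `ϖ`, jointly faithful; free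
over `O` when `O` is a PID.
-/
import Mathlib
import Fermat.Agent.GB.B3.TQ
import Fermat.Agent.GB.B3.TWLevel

set_option autoImplicit false
set_option linter.style.haveILetI false

namespace Fermat.Agent.GB.B3.TQofTW

open Fermat.Agent.GB.B3.TQ Fermat.Agent.GB.B3.TWLevel

variable (O : Type) [CommRing O] [IsLocalRing O] [IsNoetherianRing O]
  [IsAdicComplete (IsLocalRing.maximalIdeal O) O] {ϖ : O} {𝕋 : Type} [CommRing 𝕋] [Algebra O 𝕋]
  {M0 : Type} [AddCommGroup M0] [Module O M0] {act0 : 𝕋 →ₐ[O] Module.End O M0}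
  {M0χ : Type} [AddCommGroup M0χ] [Module O M0χ] {act0χ : 𝕋 →ₐ[O] Module.End O M0χ}
  {k : ℕ} {N : Fin k → ℕ}

omit [IsLocalRing O] [IsNoetherianRing O] [IsAdicComplete (IsLocalRing.maximalIdeal O) O] in
/-- a `FreeLevel` is finite over `O` as soon as the orders `N i` are positive -/
theorem finite_of_freeLevel [∀ i, NeZero (N i)] (F : FreeLevel O 𝕋 M0 act0 k N) :
    Module.Finite O F.M :=
  Module.Finite.of_basis F.basis

/-- **the Hecke algebra `T_Q` of a Taylor–Wiles level** -/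
theorem exists_TQ_of_TW [∀ i, NeZero (N i)] (TW : TWLevelData O ϖ 𝕋 M0 act0 M0χ act0χ k N)
    (𝔪 : Ideal 𝕋) [𝔪.IsMaximal] (h1 : IsPrimary TW.L1.act 𝔪) (hχ : IsPrimary TW.Lχ.act 𝔪)
    [Nontrivial TW.L1.M] :
    ∃ (T : Type) (_ : CommRing T) (_ : Algebra O T) (_ : IsLocalRing T) (_ : IsNoetherianRing T)
      (_ : Module.Finite O T) (_ : IsLocalHom (algebraMap O T))
      (_ : IsAdicComplete (IsLocalRing.maximalIdeal T) T)
      (a1 : T →ₐ[O] Module.End O TW.L1.M) (aχ : T →ₐ[O] Module.End O TW.Lχ.M) (π : 𝕋 →ₐ[O] T),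
      Function.Surjective π ∧ (∀ t, a1 (π t) = TW.L1.act t) ∧ (∀ t, aχ (π t) = TW.Lχ.act t) ∧
      (∀ t : 𝕋, π t ∈ IsLocalRing.maximalIdeal T ↔ t ∈ 𝔪) ∧
      (∀ t i, a1 t * TW.L1.D i = TW.L1.D i * a1 t) ∧
      (∀ t i, aχ t * TW.Lχ.D i = TW.Lχ.D i * aχ t) ∧
      (∀ t, a1 t = 0 → aχ t = 0 → t = 0) ∧
      (∀ (t : T) (x : TW.L1.M) (y : TW.Lχ.M),
        TW.U (Submodule.Quotient.mk x) = Submodule.Quotient.mk y →
          TW.U (Submodule.Quotient.mk (a1 t x)) = Submodule.Quotient.mk (aχ t y)) := by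
  haveI : Module.Finite O TW.L1.M := finite_of_freeLevel O TW.L1
  haveI : Module.Finite O TW.Lχ.M := finite_of_freeLevel O TW.Lχ
  haveI : Nontrivial (TW.L1.M × TW.Lχ.M) := inferInstance
  have hprim := isPrimary_prodAct h1 hχ
  refine ⟨Hecke (prodAct TW.L1.act TW.Lχ.act), inferInstance, inferInstance,
    isLocalRing O _ 𝔪 hprim, isNoetherianRing O _, finite O _, isLocalHom O _ 𝔪 hprim,
    isAdicComplete O _ 𝔪 hprim, actLeft _ _, actRight _ _, Ideal.Quotient.mkₐ O _,
    Ideal.Quotient.mkₐ_surjective O _, fun _ => rfl, fun _ => rfl, ?_, ?_, ?_, ?_, ?_⟩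
  · intro t
    exact mem_maximalIdeal_iff O _ 𝔪 hprim t
  · intro t i
    obtain ⟨a, rfl⟩ := Ideal.Quotient.mk_surjective t
    exact TW.L1.act_D a i
  · intro t i
    obtain ⟨a, rfl⟩ := Ideal.Quotient.mk_surjective t
    exact TW.Lχ.act_D a i
  · exact eq_zero_of_actLeft_of_actRight _ _
  · intro t x y hxy
    obtain ⟨a, rfl⟩ := Ideal.Quotient.mk_surjective t
    exact TW.U_act a x y hxy

omit [IsLocalRing O] [IsAdicComplete (IsLocalRing.maximalIdeal O) O] in
/-- over a PID the Hecke algebra of a level is `O`-free (the modules are free, hence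
torsion-free) -/
theorem free_hecke_of_TW [IsDomain O] [IsPrincipalIdealRing O] [∀ i, NeZero (N i)]
    (TW : TWLevelData O ϖ 𝕋 M0 act0 M0χ act0χ k N) :
    Module.Free O (Hecke (prodAct TW.L1.act TW.Lχ.act)) := by
  haveI : Module.Finite O TW.L1.M := finite_of_freeLevel O TW.L1
  haveI : Module.Finite O TW.Lχ.M := finite_of_freeLevel O TW.Lχ
  haveI : Module.Free O TW.L1.M := Module.Free.of_basis TW.L1.basis
  haveI : Module.Free O TW.Lχ.M := Module.Free.of_basis TW.Lχ.basis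
  haveI : Module.IsTorsionFree O (TW.L1.M × TW.Lχ.M) := inferInstance
  exact free O _

end Fermat.Agent.GB.B3.TQofTW
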