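/-
GATE-B / GB-B3-CHI, bridge (helper24): helper95's one-step `Δ`-freeness (`GB/B3/FreeCyclic`)
plugged into `GB/B3/Chi`.  Mathlib + those two files only.

For one cyclic step `S : CycStep O L L0 (p^n)` with a non-Eisenstein summand `Z : S.Summand`
(`P = Z.P ⊆ L = Hom(Γ_H, O)`, `P0 = Z.P0 ⊆ L0 = Hom(Γ, O)`), a family `w m ∈ P` lifting an
`O`-basis `b0` of `P0` along `cores`, and `c : O` with `c^(p^n) = 1` (a value `χ(D)`):

* `exists_basis_chi` : the classes of the `w m` are an `O`-basis of `M^χ = P ⧸ (D - c) P`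
  — so `M^χ` is `O`-free of rank `rank P0 = rank M¹` for EVERY character `χ` of `⟨D⟩`;
* `exists_chi_equiv` : for `c ≡ 1 mod I` an `O`-linear isomorphism
  `M^χ ⧸ I ≃ P0 ⧸ I`, `[[x]] ↦ [cores x]` (so it commutes with every pair of operators
  compatible with `cores`: `Chi.chiToBase_comm_of_repr`).
-/
import Fermat.Agent.GB.B3.Chi
import Fermat.Agent.GB.B3.FreeCyclic

set_option autoImplicit false
set_option linter.unusedSectionVars false

namespace Fermat.Agent.GB.B3.ChiFree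

open Module Fermat.Agent.GB.B3.Chi Fermat.Agent.GB.B3.FreeCyclic
open Fermat.Agent.GB.B3.FreeCyclic.CycStep Fermat.Agent.GB.B3.FreeCyclic.CycStep.Summand

section General

variable {O : Type*} [CommRing O] [IsDomain O] [IsPrincipalIdealRing O]
variable {L L0 : Type*} [AddCommGroup L] [Module O L] [Module.Free O L] [Module.Finite O L]
  [AddCommGroup L0] [Module O L0] [Module.Free O L0] [Module.Finite O L0]
variable {q : ℕ} {S : CycStep O L L0 q} (Z : S.Summand)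

/-- `cores : P → P0` is onto. -/
theorem coresP_surjective : Function.Surjective Z.coresP := by
  rintro ⟨x0, hx0⟩
  obtain ⟨x, hx, hxx⟩ := Z.cores_surjOn hx0
  exact ⟨⟨x, hx⟩, Subtype.ext hxx⟩

/-- `ker (cores : P → P0) = (D - 1) P`. -/
theorem ker_coresP (hq : (q : O) ≠ 0) : LinearMap.ker Z.coresP = chiRange Z.DP 1 := by
  ext x
  rw [LinearMap.mem_ker, mem_chiRange]
  constructor
  · intro h
    have h0 : S.cores (x : L) = 0 := congrArg Subtype.val h
    obtain ⟨y, hy, hxy⟩ := Z.ker_cores_on x.2 h0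
    refine ⟨⟨y, hy⟩, Subtype.ext ?_⟩
    rw [one_smul]
    exact hxy.symm
  · rintro ⟨y, rfl⟩
    refine Subtype.ext ?_
    rw [one_smul]
    show S.cores (S.D (y : L) - (y : L)) = 0
    rw [map_sub, S.cores_D hq, sub_self]

/-- **`M^χ ⧸ I ≃ M¹ ⧸ I`** for one cyclic step: `[[x]] ↦ [cores x]`. -/
noncomputable def chiEquiv (hq : (q : O) ≠ 0) (I : Ideal O) {c : O} (hc : c - 1 ∈ I) :
    ChiCoinvMod Z.DP c I ≃ₗ[O] (Z.P0 ⧸ (I • ⊤ : Submodule O Z.P0)) :=
  chiToBase Z.DP Z.coresP (coresP_surjective Z) (ker_coresP Z hq) I hc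

theorem chiEquiv_cmkMod (hq : (q : O) ≠ 0) (I : Ideal O) {c : O} (hc : c - 1 ∈ I) (x : Z.P) :
    chiEquiv Z hq I hc (cmkMod Z.DP c I x) = Submodule.Quotient.mk (Z.coresP x) :=
  chiToBase_cmkMod _ _ _ _ _ _ _

end General

section Free

variable {O : Type*} [CommRing O] [IsDomain O] [IsPrincipalIdealRing O] [IsLocalRing O]
variable {L L0 : Type*} [AddCommGroup L] [Module O L] [Module.Free O L] [Module.Finite O L]
  [AddCommGroup L0] [Module O L0] [Module.Free O L0] [Module.Finite O L0]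

/-- **Freeness of every `χ`-part of one cyclic step** (helper95's `exists_basis` + `Chi`). -/
theorem exists_basis_chi (ϖ : O) (hϖ0 : ϖ ≠ 0)
    (hmax : IsLocalRing.maximalIdeal O = Ideal.span {ϖ})
    (p n : ℕ) (hp : p.Prime) (hpϖ : (p : O) ∈ Ideal.span {ϖ}) (hq : ((p ^ n : ℕ) : O) ≠ 0)
    {S : CycStep O L L0 (p ^ n)} (Z : S.Summand)
    {ι : Type*} [Fintype ι] (w : ι → L) (hw : ∀ m, w m ∈ Z.P)
    (b0 : Basis ι O Z.P0) (hb0 : ∀ m, (b0 m : L0) = S.cores (w m))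
    (c : O) (hc : c ^ (p ^ n) = 1) :
    ∃ bχ : Basis ι O (ChiCoinv Z.DP c), ∀ m, bχ m = cmk Z.DP c ⟨w m, hw m⟩ := by
  obtain ⟨b, hb⟩ := CycStep.Summand.exists_basis ϖ hϖ0 hmax p n hp hpϖ hq Z w hw b0 hb0
  have hqpos : 0 < p ^ n := Nat.pos_of_ne_zero (pow_ne_zero _ hp.ne_zero)
  let b' : Basis (ι × Fin (p ^ n)) O Z.P := b.reindex (Equiv.prodComm _ _)
  have hb' : ∀ i (j : Fin (p ^ n)), b' (i, j) = (Z.DP ^ (j : ℕ)) ⟨w i, hw i⟩ := by
    intro i j
    refine Subtype.ext ?_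
    rw [Z.coe_DP_pow]
    show ((b.reindex (Equiv.prodComm _ _)) (i, j) : L) = _
    rw [Basis.reindex_apply]
    exact hb j i
  exact ⟨basisChiCoinv hqpos (fun i => (⟨w i, hw i⟩ : Z.P)) b' hb' Z.DP_pow hc,
    fun m => basisChiCoinv_apply hqpos _ b' hb' Z.DP_pow hc m⟩

/-- Rank of the `χ`-part = rank of the level-`Γ` module `P0`, for every `χ`. -/
theorem finrank_chi (ϖ : O) (hϖ0 : ϖ ≠ 0)
    (hmax : IsLocalRing.maximalIdeal O = Ideal.span {ϖ})
    (p n : ℕ) (hp : p.Prime) (hpϖ : (p : O) ∈ Ideal.span {ϖ}) (hq : ((p ^ n : ℕ) : O) ≠ 0)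
    {S : CycStep O L L0 (p ^ n)} (Z : S.Summand)
    {ι : Type*} [Fintype ι] (w : ι → L) (hw : ∀ m, w m ∈ Z.P)
    (b0 : Basis ι O Z.P0) (hb0 : ∀ m, (b0 m : L0) = S.cores (w m))
    (c : O) (hc : c ^ (p ^ n) = 1) :
    finrank O (ChiCoinv Z.DP c) = finrank O Z.P0 := by
  obtain ⟨bχ, -⟩ := exists_basis_chi ϖ hϖ0 hmax p n hp hpϖ hq Z w hw b0 hb0 c hc
  rw [finrank_eq_card_basis bχ, finrank_eq_card_basis b0]

end Free

end Fermat.Agent.GB.B3.ChiFree
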