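import Mathlib
import Fermat.Agent.GB.B3.ChiLevelMulti
import Fermat.Agent.GB.B3.Realizes
import Fermat.Agent.GB.B3.Base

/-!
GATE-B / B3 (helper95): **descent of operators from the ambient Hecke module to `M¹_Q` and `M^χ_Q`**
— the B3-shaped core of the hole "the twisted action `tw` on `tw.L1.M` and `tw.Lχ.M`" (ProviderFlat
G2 / H2): a ring of operators acting on the `𝔪`-primary part of the ambient module (e.g. helper52's
`UqOne.twLoc`, helper44's `tw` restricted under (BND)) and commuting with the diamonds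

1. is carried to the realised level `B.M` along `B.M ≃ Base.locSub actL 𝔪` (`Realizes.equivLocSub`,
   `conjHom`, `ι_conjHom`);
2. descends to every quotient `FamCoinv (frD B) c = B.M ⧸ ∑_v (D_v - c v) B.M` (`quotHom`,
   `quotHom_fmk`), commuting with the induced Taylor–Wiles diamonds and Hecke symbols;
3. is compatible with the comparison isomorphism `U` modulo `ϖ` of `twLevelDataMultiSelf`:
   **`exists_descend`** produces `a₁ a₂` with `a₁_D a₂_D a_U` in the field shapes of
   `GB/B9/ModOfTW.TWInput` (for ring homs; `TQFields.exists_fields` turns them into the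
   `T_Q`-algebra maps).
-/

set_option autoImplicit false

namespace Fermat.Agent.GB.B3.DescendEnd

open Module Submodule Fermat.Agent.GB.B3.TWLevel Fermat.Agent.GB.B3.RealLevel
  Fermat.Agent.GB.B3.Chi Fermat.Agent.GB.B3.ChiLevelMulti

/-! ### from the ambient primary part to the realised level -/

section Conj

variable {O : Type} [CommRing O] {A : Type} [CommRing A] [Algebra O A]
  {M0 : Type} [AddCommGroup M0] [Module O M0] {act0 : A →ₐ[O] Module.End O M0}
  {k : ℕ} {N : Fin k → ℕ} {F : FreeLevel O A M0 act0 k N}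
  {L : Type} [AddCommGroup L] [Module O L] {actL : A →ₐ[O] Module.End O L} {𝔪 : Ideal A}
  {E : Fin k → Module.End O L}

/-- a realised level is the `𝔪`-primary part of the ambient module -/
noncomputable def equivLocSub (R : Realizes F actL 𝔪 E) : F.M ≃ₗ[O] Base.locSub actL 𝔪 :=
  LinearEquiv.ofBijective
    (R.ι.codRestrict (Base.locSub actL 𝔪) (fun x => (R.range _).1 ⟨x, rfl⟩))
    ⟨fun x y h => R.inj (congrArg Subtype.val h), fun y => by
      obtain ⟨x, hx⟩ := (R.range (y : L)).2 y.2
      exact ⟨x, Subtype.ext hx⟩⟩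

@[simp] theorem coe_equivLocSub (R : Realizes F actL 𝔪 E) (x : F.M) :
    ((equivLocSub R x : Base.locSub actL 𝔪) : L) = R.ι x := rfl

theorem ι_equivLocSub_symm (R : Realizes F actL 𝔪 E) (y : Base.locSub actL 𝔪) :
    R.ι ((equivLocSub R).symm y) = (y : L) := by
  rw [← coe_equivLocSub, LinearEquiv.apply_symm_apply]

theorem equivLocSub_act (R : Realizes F actL 𝔪 E) (s : A) (x : F.M) :
    equivLocSub R (F.act s x) = Base.locSubAct actL 𝔪 s (equivLocSub R x) :=
  Subtype.ext (R.ι_act s x)

/-- operators of the primary part carried to the realised level -/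
noncomputable def conjHom (R : Realizes F actL 𝔪 E) {A' : Type*} [Semiring A']
    (σ : A' →+* Module.End O (Base.locSub actL 𝔪)) : A' →+* Module.End O F.M :=
  ((equivLocSub R).symm.conjRingEquiv : Module.End O (Base.locSub actL 𝔪) ≃+* Module.End O F.M)
    |>.toRingHom.comp σ

theorem conjHom_apply (R : Realizes F actL 𝔪 E) {A' : Type*} [Semiring A']
    (σ : A' →+* Module.End O (Base.locSub actL 𝔪)) (t : A') (x : F.M) :
    conjHom R σ t x = (equivLocSub R).symm (σ t (equivLocSub R x)) := rfl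

/-- **`ι (τ t x) = σ t (ι x)`** -/
theorem ι_conjHom (R : Realizes F actL 𝔪 E) {A' : Type*} [Semiring A']
    (σ : A' →+* Module.End O (Base.locSub actL 𝔪)) (t : A') (x : F.M) :
    R.ι (conjHom R σ t x) = ((σ t (equivLocSub R x) : Base.locSub actL 𝔪) : L) := by
  rw [conjHom_apply, ι_equivLocSub_symm]

/-- commutation with the diamonds passes to the realised level -/
theorem conjHom_comm_D (R : Realizes F actL 𝔪 E) {A' : Type*} [Semiring A']
    (σ : A' →+* Module.End O (Base.locSub actL 𝔪))
    (hσE : ∀ (t : A') (i : Fin k) (y y' : Base.locSub actL 𝔪), (y' : L) = E i (y : L) →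
      ((σ t y' : Base.locSub actL 𝔪) : L) = E i ((σ t y : Base.locSub actL 𝔪) : L))
    (t : A') (i : Fin k) : conjHom R σ t * F.D i = F.D i * conjHom R σ t := by
  refine LinearMap.ext fun x => R.inj ?_
  rw [Module.End.mul_apply, Module.End.mul_apply, ι_conjHom, R.ι_D, ι_conjHom]
  exact hσE t i (equivLocSub R x) (equivLocSub R (F.D i x)) (R.ι_D i x)

/-- commutation with the Hecke symbols passes to the realised level -/
theorem conjHom_comm_act (R : Realizes F actL 𝔪 E) {A' : Type*} [Semiring A']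
    (σ : A' →+* Module.End O (Base.locSub actL 𝔪)) (t : A') (s : A)
    (h : Commute (σ t) (Base.locSubAct actL 𝔪 s)) :
    conjHom R σ t * F.act s = F.act s * conjHom R σ t := by
  refine LinearMap.ext fun x => (equivLocSub R).injective ?_
  rw [Module.End.mul_apply, Module.End.mul_apply, equivLocSub_act, conjHom_apply, conjHom_apply,
    LinearEquiv.apply_symm_apply, LinearEquiv.apply_symm_apply, equivLocSub_act]
  exact LinearMap.congr_fun h.eq (equivLocSub R x)

end Conj

/-! ### from the big level to the coinvariants -/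

section Quot

variable {O : Type} [CommRing O] {𝕋 : Type} [CommRing 𝕋] [Algebra O 𝕋]
  {M0 : Type} [AddCommGroup M0] [Module O M0] {act0 : 𝕋 →ₐ[O] Module.End O M0}
  {s k : ℕ} {N : Fin (s + k) → ℕ} (B : FreeLevel O 𝕋 M0 act0 (s + k) N)
  {A' : Type*} [Semiring A'] (τ : A' →+* Module.End O B.M)
  (hτD : ∀ t i, τ t * B.D i = B.D i * τ t) (c : Fin s → O)

/-- the induced action on `B.M ⧸ ∑_v (D_v - c v) B.M` -/
noncomputable def quotHom : A' →+* Module.End O (FamCoinv (frD B) c) where
  toFun t := indF (frD B) c (τ t) (fun v => hτD t _)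
  map_one' := indF_ext _ _ fun x => by
    rw [indF_fmk, map_one]; rfl
  map_mul' t t' := indF_ext _ _ fun x => by
    rw [indF_fmk, map_mul]; rfl
  map_zero' := indF_ext _ _ fun x => by
    rw [indF_fmk, map_zero]; rfl
  map_add' t t' := indF_ext _ _ fun x => by
    rw [indF_fmk, map_add]; rfl

@[simp] theorem quotHom_fmk (t : A') (x : B.M) :
    quotHom B τ hτD c t (fmk (frD B) c x) = fmk (frD B) c (τ t x) := rfl

theorem quotHom_comm_D (t : A') (i : Fin k) :
    quotHom B τ hτD c t * quotDM B c i = quotDM B c i * quotHom B τ hτD c t :=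
  indF_ext _ _ fun x => by
    show fmk _ _ ((τ t * twD B i) x) = fmk _ _ ((twD B i * τ t) x)
    rw [show τ t * twD B i = twD B i * τ t from hτD t _]

theorem quotHom_comm_act (t : A') (u : 𝕋) (h : τ t * B.act u = B.act u * τ t) :
    quotHom B τ hτD c t * quotActM B c u = quotActM B c u * quotHom B τ hτD c t :=
  indF_ext _ _ fun x => by
    show fmk _ _ ((τ t * B.act u) x) = fmk _ _ ((B.act u * τ t) x)
    rw [h]

end Quot

/-! ### the fields of `TWInput` -/

section Fields

variable {O : Type} [CommRing O] {𝕋 : Type} [CommRing 𝕋] [Algebra O 𝕋]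
  {M0 : Type} [AddCommGroup M0] [Module O M0] {act0 : 𝕋 →ₐ[O] Module.End O M0}
  {s k : ℕ} {N : Fin (s + k) → ℕ} (B : FreeLevel O 𝕋 M0 act0 (s + k) N) (hN : ∀ i, 0 < N i)
  (ϖ : O) (c : Fin s → O) (hc : ∀ v, c v ^ N (Fin.castAdd k v) = 1)
  (hc1 : ∀ v, (1 : O) - c v ∈ Ideal.span {ϖ})
  {A' : Type*} [Semiring A'] (τ : A' →+* Module.End O B.M)
  (hτD : ∀ t i, τ t * B.D i = B.D i * τ t)

include hτD in
/-- **operators of the big level commuting with all diamonds act on `M¹_Q` and `M^χ_Q`**,
compatibly with the Taylor–Wiles diamonds and with the comparison `U` modulo `ϖ` — the fields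
`a₁ a₂ a₁_D a₂_D a_U` of `TWInput` (ring hom form) for `twLevelDataMultiSelf B hN ϖ c hc hc1` -/
theorem exists_descend :
    ∃ (a₁ : A' →+* Module.End O (twLevelDataMultiSelf B hN ϖ c hc hc1).L1.M)
      (a₂ : A' →+* Module.End O (twLevelDataMultiSelf B hN ϖ c hc hc1).Lχ.M),
      (∀ t x, a₁ t (fmk (frD B) (fun _ => (1 : O)) x) = fmk (frD B) (fun _ => (1 : O)) (τ t x)) ∧
      (∀ t x, a₂ t (fmk (frD B) c x) = fmk (frD B) c (τ t x)) ∧
      (∀ t i, a₁ t * (twLevelDataMultiSelf B hN ϖ c hc hc1).L1.D i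
        = (twLevelDataMultiSelf B hN ϖ c hc hc1).L1.D i * a₁ t) ∧
      (∀ t i, a₂ t * (twLevelDataMultiSelf B hN ϖ c hc hc1).Lχ.D i
        = (twLevelDataMultiSelf B hN ϖ c hc hc1).Lχ.D i * a₂ t) ∧
      (∀ t u, τ t * B.act u = B.act u * τ t →
        a₁ t * (twLevelDataMultiSelf B hN ϖ c hc hc1).L1.act u
          = (twLevelDataMultiSelf B hN ϖ c hc hc1).L1.act u * a₁ t ∧
        a₂ t * (twLevelDataMultiSelf B hN ϖ c hc hc1).Lχ.act u
          = (twLevelDataMultiSelf B hN ϖ c hc hc1).Lχ.act u * a₂ t) ∧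
      (∀ (t : A') (x : (twLevelDataMultiSelf B hN ϖ c hc hc1).L1.M)
          (y : (twLevelDataMultiSelf B hN ϖ c hc hc1).Lχ.M),
        (twLevelDataMultiSelf B hN ϖ c hc hc1).U (Submodule.Quotient.mk x)
            = Submodule.Quotient.mk y →
          (twLevelDataMultiSelf B hN ϖ c hc hc1).U (Submodule.Quotient.mk (a₁ t x))
            = Submodule.Quotient.mk (a₂ t y)) :=
  ⟨quotHom B τ hτD (fun _ => (1 : O)), quotHom B τ hτD c, fun _ _ => rfl, fun _ _ => rfl,
    fun t i => quotHom_comm_D B τ hτD (fun _ => (1 : O)) t i,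
    fun t i => quotHom_comm_D B τ hτD c t i,
    fun t u h => ⟨quotHom_comm_act B τ hτD (fun _ => (1 : O)) t u h,
      quotHom_comm_act B τ hτD c t u h⟩,
    fun t x y hxy =>
      chiUM_comm (frD B) ϖ c hc1 (quotHom B τ hτD (fun _ => (1 : O)) t) (quotHom B τ hτD c t)
        (τ t) (fun _ => rfl) (fun _ => rfl) x y hxy⟩

end Fields

end Fermat.Agent.GB.B3.DescendEnd
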