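/-
GATE-B / B3 : **finiteness, freeness and nontriviality of the Taylor–Wiles modules**
`L1.M`, `Lχ.M` and `L1.M × Lχ.M` of a `TWLevelData` (helper32) — the instance binders
`[Module.Finite O Mod] [Module.Free O Mod] [Nontrivial Mod]` of `ProviderFlat.G3Pkg.exists_psi_pkg` /
`ProviderNew.G3Pkg.exists_psi_pkg_strict` at `Mod := tw.L1.M × tw.Lχ.M` (shared by both branches).
-/
import Fermat.Agent.GB.B3.TWLevel

set_option autoImplicit false
set_option linter.style.haveILetI false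

namespace Fermat.Agent.GB.B3.FreeLevelInst

open Fermat.Agent.GB.B3.TWLevel

section Free

variable {O : Type} [CommRing O] {𝕋 : Type} [CommRing 𝕋] [Algebra O 𝕋]
  {M0 : Type} [AddCommGroup M0] [Module O M0] {act0 : 𝕋 →ₐ[O] Module.End O M0}
  {k : ℕ} {N : Fin k → ℕ} (F : FreeLevel O 𝕋 M0 act0 k N)

theorem finite_M : Module.Finite O F.M := Module.Finite.of_basis F.basis

theorem free_M : Module.Free O F.M := Module.Free.of_basis F.basis

theorem nontrivial_M [Nontrivial O] (hN : ∀ i, 0 < N i) (hd : 0 < F.d) : Nontrivial F.M := by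
  haveI : Nonempty ((∀ i : Fin k, Fin (N i)) × Fin F.d) :=
    ⟨(fun i => ⟨0, hN i⟩, ⟨0, hd⟩)⟩
  exact F.basis.repr.toEquiv.nontrivial

end Free

section TW

variable {O : Type} [CommRing O] {ϖ : O} {𝕋 : Type} [CommRing 𝕋] [Algebra O 𝕋]
  {M0 : Type} [AddCommGroup M0] [Module O M0] {act0 : 𝕋 →ₐ[O] Module.End O M0}
  {M0χ : Type} [AddCommGroup M0χ] [Module O M0χ] {act0χ : 𝕋 →ₐ[O] Module.End O M0χ}
  {k : ℕ} {N : Fin k → ℕ} (tw : TWLevelData O ϖ 𝕋 M0 act0 M0χ act0χ k N)

theorem finite_prod : Module.Finite O (tw.L1.M × tw.Lχ.M) := by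
  haveI := finite_M tw.L1
  haveI := finite_M tw.Lχ
  infer_instance

theorem free_prod : Module.Free O (tw.L1.M × tw.Lχ.M) := by
  haveI := free_M tw.L1
  haveI := free_M tw.Lχ
  infer_instance

theorem nontrivial_prod [Nontrivial O] (hN : ∀ i, 0 < N i) (hd : 0 < tw.L1.d) :
    Nontrivial (tw.L1.M × tw.Lχ.M) := by
  haveI := nontrivial_M tw.L1 hN hd
  infer_instance

end TW

end Fermat.Agent.GB.B3.FreeLevelInst
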