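import Mathlib
import Fermat.Agent.GB.B3.KerSys

/-!
# GATE-B / B3 (helper46): outer conjugation on the stages of a normal tower

`Γ ≤ H` the TOP group, `K ≤ Γ` a subgroup normalised by `Γ` (`NormalIn K Γ`): every stage
`Γ_H(r₁,…,r_j)` of the Taylor–Wiles tower is of this form.

* `outK hK d : CosetSys emb K K` (`d ∈ Γ`) : conjugation by `d` on `Hom(K, A)` — the diamond operator
  of `d`, also for `d ∉ K`; `out_of_mem`, `out_mul`, `out_congr`, `out_comm`, `out_iterate`.
* `normal_kerSub` : for a `Γ`-invariant character `χ : K →* Δ`, `kerSub χ` is again normal in `Γ`;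
  `dia_eq_out` : helper2's `diaK χ d0` (`d0 ∈ K`) is `outK (kerSub χ) d0`.
* `cores_out`, `res_out` : the transfer and the restriction of the step `kerSub χ ⊆ K` commute with
  the outer conjugations.
* `StrongCompat S K` (`S` a coset system on the top group: `c g i * g⁻¹ ∈ K`), `restrictSys S K`:
  the restriction of a top-level Hecke system to `K`; `out_restrict_comm` (diamonds commute with
  restricted Hecke systems), `compat_restrict`, `kerSys_restrict_op` (restricting in two steps is
  restricting in one step), `restrict_op_res`.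
-/

set_option autoImplicit false

namespace Fermat.Agent.GB.B3.Outer

open Fermat.Agent.GM.B Fermat.Agent.GB.B3

variable {H G : Type*} [Group H] [Group G] {emb : H →* G}

/-- `K ≤ Γ` is normalised by `Γ` -/
structure NormalIn (K Γ : Subgroup H) : Prop where
  le : K ≤ Γ
  conj : ∀ d : H, d ∈ Γ → ∀ k : H, k ∈ K → d * k * d⁻¹ ∈ K

section Out

variable {K Γ : Subgroup H} (hK : NormalIn K Γ)

/-- conjugation by `d ∈ Γ` on `K` -/
def conjN (d : Γ) : K →* K where
  toFun k := ⟨(d : H) * (k : H) * (d : H)⁻¹, hK.conj d d.2 k k.2⟩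
  map_one' := by
    apply Subtype.ext
    show (d : H) * ((1 : K) : H) * (d : H)⁻¹ = 1
    rw [Subgroup.coe_one, mul_one, mul_inv_cancel]
  map_mul' k k' := by
    apply Subtype.ext
    show (d : H) * ((k * k' : K) : H) * (d : H)⁻¹
      = ((d : H) * (k : H) * (d : H)⁻¹) * ((d : H) * (k' : H) * (d : H)⁻¹)
    rw [Subgroup.coe_mul]
    group

theorem coe_conjN (d : Γ) (k : K) : ((conjN hK d k : K) : H) = (d : H) * (k : H) * (d : H)⁻¹ := rfl

/-- **the outer conjugation system** of `d ∈ Γ` on `K`: the single representative `emb d` -/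
def outK (emb : H →* G) (d : Γ) : CosetSys emb K K :=
  CosetSys.single emb (emb (d : H)) (conjN hK d) (fun k => by
    rw [← map_mul, ← map_mul]
    congr 1
    rw [coe_conjN, inv_mul_cancel_right])

theorem outK_op_apply (d : Γ) {A : Type*} [AddCommGroup A] (ψ : Additive K →+ A) (k : K) :
    (outK hK emb d).op A ψ (Additive.ofMul k) = ψ (Additive.ofMul (conjN hK d k)) :=
  CosetSys.single_op_apply _ _ _ ψ k

theorem outK_a (d : Γ) (u : Unit) : (outK hK emb d).a u = emb (d : H) := rfl

theorem outK_c (d : Γ) (k : K) (u : Unit) : (outK hK emb d).c k u = conjN hK d k := rfl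

/-- conjugation by an element of `K` is the identity on `Hom(K, A)` -/
theorem out_of_mem (d : Γ) (hd : (d : H) ∈ K) {A : Type*} [AddCommGroup A]
    (ψ : Additive K →+ A) : (outK hK emb d).op A ψ = ψ := by
  refine AddMonoidHom.ext fun k => ?_
  obtain ⟨k, rfl⟩ : ∃ k' : K, Additive.ofMul k' = k := ⟨Additive.toMul k, rfl⟩
  rw [outK_op_apply]
  have e : conjN hK d k = (⟨(d : H), hd⟩ : K) * k * (⟨(d : H), hd⟩ : K)⁻¹ := by
    apply Subtype.ext
    rfl
  rw [e, ofMul_mul, ofMul_mul, ofMul_inv, map_add, map_add, map_neg]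
  abel

theorem out_one {A : Type*} [AddCommGroup A] (ψ : Additive K →+ A) :
    (outK hK emb (1 : Γ)).op A ψ = ψ :=
  out_of_mem hK 1 (by rw [Subgroup.coe_one]; exact K.one_mem) ψ

/-- composition of outer conjugations -/
theorem out_mul (d d' : Γ) {A : Type*} [AddCommGroup A] (ψ : Additive K →+ A) :
    (outK hK emb (d' * d)).op A ψ = (outK hK emb d).op A ((outK hK emb d').op A ψ) := by
  refine AddMonoidHom.ext fun k => ?_
  obtain ⟨k, rfl⟩ : ∃ k' : K, Additive.ofMul k' = k := ⟨Additive.toMul k, rfl⟩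
  rw [outK_op_apply, outK_op_apply, outK_op_apply]
  congr 2
  apply Subtype.ext
  rw [coe_conjN, coe_conjN, coe_conjN, Subgroup.coe_mul]
  group

/-- the outer conjugation depends only on the class of `d` modulo `K` -/
theorem out_congr (d d' : Γ) (hd : ((d' : H))⁻¹ * (d : H) ∈ K) {A : Type*} [AddCommGroup A]
    (ψ : Additive K →+ A) : (outK hK emb d).op A ψ = (outK hK emb d').op A ψ := by
  have e : d = d' * (d'⁻¹ * d) := by group
  have hk : (((d'⁻¹ * d : Γ)) : H) ∈ K := by
    rw [Subgroup.coe_mul, Subgroup.coe_inv]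
    exact hd
  rw [e, out_mul, out_of_mem hK _ hk]

/-- outer conjugations commute when the commutator lies in `K` -/
theorem out_comm (d d' : Γ) (hc : ((d' : H) * (d : H))⁻¹ * ((d : H) * (d' : H)) ∈ K)
    {A : Type*} [AddCommGroup A] (ψ : Additive K →+ A) :
    (outK hK emb d).op A ((outK hK emb d').op A ψ)
      = (outK hK emb d').op A ((outK hK emb d).op A ψ) := by
  rw [← out_mul, ← out_mul]
  refine (out_congr hK (d * d') (d' * d) ?_ ψ).symm
  rw [Subgroup.coe_mul, Subgroup.coe_mul]
  exact hc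

/-- iterates of an outer conjugation -/
theorem out_iterate (d : Γ) (n : ℕ) {A : Type*} [AddCommGroup A] (ψ : Additive K →+ A) :
    (fun φ => (outK hK emb d).op A φ)^[n] ψ = (outK hK emb (d ^ n)).op A ψ := by
  induction n generalizing ψ with
  | zero =>
    rw [Function.iterate_zero, id_eq, pow_zero, out_one]
  | succ n ih =>
    rw [Function.iterate_succ, Function.comp_apply, ih, pow_succ', out_mul]

end Out

section Step

variable {K Γ : Subgroup H} (hK : NormalIn K Γ) {Δ : Type} [CommGroup Δ] (χ : K →* Δ)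
  (hχ : ∀ (d : Γ) (k : K), χ (conjN hK d k) = χ k)

include hχ in
/-- the kernel of a `Γ`-invariant character of `K` is again normal in `Γ` -/
theorem normal_kerSub : NormalIn (kerSub χ) Γ where
  le := le_trans (kerSub_le χ) hK.le
  conj d hd x hx := by
    obtain ⟨k, hk, rfl⟩ := hx
    have hk' : χ k = 1 := hk
    refine ⟨conjN hK ⟨d, hd⟩ k, ?_, rfl⟩
    show χ (conjN hK ⟨d, hd⟩ k) = 1
    rw [hχ, hk']

/-- helper2's diamond operator `diaK χ d0` (`d0 ∈ K`) is the outer conjugation by `d0` -/
theorem dia_eq_out (d0 : K) {A : Type*} [AddCommGroup A] (ψ : Additive (kerSub χ) →+ A) :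
    (diaK emb χ d0).op A ψ
      = (outK (normal_kerSub hK χ hχ) emb ⟨(d0 : H), hK.le d0.2⟩).op A ψ := by
  refine AddMonoidHom.ext fun k => ?_
  obtain ⟨k, rfl⟩ : ∃ k' : kerSub χ, Additive.ofMul k' = k := ⟨Additive.toMul k, rfl⟩
  rw [diaK_op_apply, outK_op_apply]
  congr 2

/-- **restriction commutes with the outer conjugations** -/
theorem res_out (d : Γ) {A : Type*} [AddCommGroup A] (φ : Additive K →+ A) :
    (resK emb χ).op A ((outK hK emb d).op A φ)
      = (outK (normal_kerSub hK χ hχ) emb d).op A ((resK emb χ).op A φ) := by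
  refine AddMonoidHom.ext fun k => ?_
  obtain ⟨k, rfl⟩ : ∃ k' : kerSub χ, Additive.ofMul k' = k := ⟨Additive.toMul k, rfl⟩
  rw [resK_op_apply, outK_op_apply, outK_op_apply, resK_op_apply]
  congr 2

variable [Fintype Δ] (r : Δ → K) (hr : ∀ δ, χ (r δ) = δ)

/-- **the transfer commutes with the outer conjugations** -/
theorem cores_out (hemb : Function.Injective emb) (d : Γ) {A : Type*} [AddCommGroup A]
    (ψ : Additive (kerSub χ) →+ A) :
    (coresK χ r hr emb).op A ((outK (normal_kerSub hK χ hχ) emb d).op A ψ)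
      = (outK hK emb d).op A ((coresK χ r hr emb).op A ψ) := by
  rw [← CosetSys.op_comp, ← CosetSys.op_comp]
  refine CosetSys.op_eq_of_equiv ((coresK χ r hr emb).comp (outK hK emb d))
    ((outK (normal_kerSub hK χ hχ) emb d).comp (coresK χ r hr emb)) hemb
    (Equiv.prodComm Δ Unit) 1 (fun x => by rw [one_mul, mul_one])
    (fun p => kerMk χ (conjN hK d (r p.1) * (r p.1)⁻¹) (by
      rw [map_mul, hχ, map_inv, mul_inv_cancel])) ?_ ?_ ψ
  · rintro ⟨(δ : Δ), u⟩
    show emb (d : H) * emb ((r δ : K) : H)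
      = 1 * emb (((conjN hK d (r δ) * (r δ)⁻¹ : K)) : H) * (emb ((r δ : K) : H) * emb (d : H))
    rw [one_mul, ← map_mul, ← map_mul, ← map_mul]
    congr 1
    rw [Subgroup.coe_mul, Subgroup.coe_inv, coe_conjN]
    group
  · rintro g ⟨(δ : Δ), u⟩
    show ((), δ * χ g) = ((), δ * χ (conjN hK d g))
    rw [hχ]

end Step

section Restrict

variable {K Γ : Subgroup H}

/-- a coset system on the top group whose cocycle is the identity modulo `K` -/
def StrongCompat (S : CosetSys emb Γ Γ) (K : Subgroup H) : Prop :=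
  ∀ (g : Γ) (i : S.ι), (((S.c g i : Γ) : H)) * (g : H)⁻¹ ∈ K

variable (S : CosetSys emb Γ Γ) (hKle : K ≤ Γ) (hS : StrongCompat S K)

/-- the inclusion `K → Γ` -/
def inclK : K →* Γ := Subgroup.inclusion hKle

theorem coe_inclK (k : K) : ((inclK hKle k : Γ) : H) = (k : H) := rfl

include hS in
theorem c_mem (k : K) (i : S.ι) : ((S.c (inclK hKle k) i : Γ) : H) ∈ K := by
  have h1 := hS (inclK hKle k) i
  have h2 := K.mul_mem h1 k.2
  rw [coe_inclK, inv_mul_cancel_right] at h2
  exact h2

/-- **the restriction of a top-level system to `K`** (same representatives) -/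
def restrictSys : CosetSys emb K K where
  ι := S.ι
  a := S.a
  σ k := S.σ (inclK hKle k)
  c k i := ⟨((S.c (inclK hKle k) i : Γ) : H), c_mem S hKle hS k i⟩
  rel k i := S.rel (inclK hKle k) i
  hσ k k' i := by rw [map_mul]; exact S.hσ _ _ i
  hc k k' i := by
    apply Subtype.ext
    show ((S.c (inclK hKle (k * k')) i : Γ) : H)
      = ((S.c (inclK hKle k) i : Γ) : H) * ((S.c (inclK hKle k') (S.σ (inclK hKle k) i) : Γ) : H)
    rw [map_mul, S.hc]
    rfl

theorem restrictSys_a (i : S.ι) : (restrictSys S hKle hS).a i = S.a i := rfl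

theorem restrictSys_σ (k : K) (i : S.ι) :
    (restrictSys S hKle hS).σ k i = S.σ (inclK hKle k) i := rfl

theorem coe_restrictSys_c (k : K) (i : S.ι) :
    (((restrictSys S hKle hS).c k i : K) : H) = ((S.c (inclK hKle k) i : Γ) : H) := rfl

/-- restriction `Hom(Γ, A) → Hom(K, A)` as a coset system -/
def resTop (emb : H →* G) (hKle : K ≤ Γ) : CosetSys emb Γ K :=
  CosetSys.single emb 1 (inclK hKle) (fun g => by rw [one_mul, mul_one]; rfl)

theorem resTop_op_apply {A : Type*} [AddCommGroup A] (φ : Additive Γ →+ A) (k : K) :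
    (resTop emb hKle).op A φ (Additive.ofMul k) = φ (Additive.ofMul (inclK hKle k)) :=
  CosetSys.single_op_apply _ _ _ φ k

/-- restriction commutes with the restricted system -/
theorem restrict_op_res {A : Type*} [AddCommGroup A] (φ : Additive Γ →+ A) :
    (restrictSys S hKle hS).op A ((resTop emb hKle).op A φ)
      = (resTop emb hKle).op A (S.op A φ) := by
  refine AddMonoidHom.ext fun k => ?_
  obtain ⟨k, rfl⟩ : ∃ k' : K, Additive.ofMul k' = k := ⟨Additive.toMul k, rfl⟩
  rw [CosetSys.op_apply, resTop_op_apply, CosetSys.op_apply]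
  refine Finset.sum_congr rfl fun i _ => ?_
  rw [resTop_op_apply]
  rfl

/-- **the outer conjugations commute with the restricted systems** -/
theorem out_restrict_comm (hK : NormalIn K Γ) (hemb : Function.Injective emb) (d : Γ)
    {A : Type*} [AddCommGroup A] (ψ : Additive K →+ A) :
    (outK hK emb d).op A ((restrictSys S hKle hS).op A ψ)
      = (restrictSys S hKle hS).op A ((outK hK emb d).op A ψ) := by
  rw [← CosetSys.op_comp, ← CosetSys.op_comp]
  refine CosetSys.op_eq_of_equiv ((outK hK emb d).comp (restrictSys S hKle hS))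
    ((restrictSys S hKle hS).comp (outK hK emb d)) hemb
    ((Equiv.prodComm Unit S.ι).trans (Equiv.prodCongr (S.σ d).symm (Equiv.refl Unit)))
    1 (fun x => by rw [one_mul, mul_one])
    (fun p => (⟨((S.c d ((S.σ d).symm p.2) : Γ) : H) * (d : H)⁻¹, hS d _⟩ : K)) ?_ ?_ ψ
  · rintro ⟨u, j⟩
    show S.a ((S.σ d).symm j) * emb (d : H)
      = 1 * emb (((S.c d ((S.σ d).symm j) : Γ) : H) * (d : H)⁻¹) * (emb (d : H) * S.a j)
    rw [one_mul, S.rel d ((S.σ d).symm j), Equiv.apply_symm_apply, ← mul_assoc, ← map_mul,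
      inv_mul_cancel_right]
  · rintro k ⟨u, j⟩
    show (S.σ (inclK hKle (conjN hK d k)) ((S.σ d).symm j), u)
      = ((S.σ d).symm (S.σ (inclK hKle k) j), u)
    have e : inclK hKle (conjN hK d k) = d * inclK hKle k * d⁻¹ := by
      apply Subtype.ext
      rfl
    rw [e, S.hσ, S.hσ, Equiv.apply_symm_apply, sigma_inv_eq_symm]

section TwoSteps

variable {Δ : Type} [CommGroup Δ] (χ : K →* Δ)
  (hS' : StrongCompat S (kerSub χ))

include hS' in
/-- a top-level system which is the identity modulo `kerSub χ` restricts to a `χ`-compatible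
system on `K` -/
theorem compat_restrict : Compat (restrictSys S hKle hS) χ := by
  intro k i
  have h1 := hS' (inclK hKle k) i
  obtain ⟨κ, hκ, hκe⟩ := h1
  have hκ' : χ κ = 1 := hκ
  have e : (restrictSys S hKle hS).c k i = κ * k := by
    apply Subtype.ext
    rw [Subgroup.coe_mul, coe_restrictSys_c]
    have : ((κ : K) : H) = ((S.c (inclK hKle k) i : Γ) : H) * ((inclK hKle k : Γ) : H)⁻¹ := hκe
    rw [this, coe_inclK, inv_mul_cancel_right]
  rw [e, map_mul, hκ', one_mul]

/-- **restricting in two steps is restricting in one step** -/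
theorem kerSys_restrict_op {A : Type*} [AddCommGroup A] (ψ : Additive (kerSub χ) →+ A) :
    (kerSys (restrictSys S hKle hS) χ (compat_restrict S hKle hS χ hS')).op A ψ
      = (restrictSys S (le_trans (kerSub_le χ) hKle) hS').op A ψ := by
  refine AddMonoidHom.ext fun k => ?_
  obtain ⟨k, rfl⟩ : ∃ k' : kerSub χ, Additive.ofMul k' = k := ⟨Additive.toMul k, rfl⟩
  rw [CosetSys.op_apply, CosetSys.op_apply]
  refine Finset.sum_congr rfl fun i _ => ?_
  congr 2

end TwoSteps

end Restrict

end Fermat.Agent.GB.B3.Outer
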