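/-
GATE-B / B3 (helper80): GB-B3-HECKEALG — the algebra of Hecke symbols acting on `Hom(K, O)` for
EVERY stage `Γ₁(N) ≤ K ≤ Γ₀(N)`, in the unbundled generic shape of helper95's ruling (board 5500
(3)), over helper46's `Outer.restrictSys`.

GENERIC (`Sys : σ → CosetSys embR Γ₀(N) Γ₀(N)` with `dUnits N ((Sys s).c g i) = dUnits N g`):
* (a) `strongCompat_of_dcompat`, `sysK`, `opK` : the restricted systems / operators at the stage `K`;
* (b) `actK` : `MvPolynomial σ O →ₐ[O] End_O Hom(K, O)` from the commutation of the `opK`;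
* (c) `actK_intertwine`, `actK_commute_of` : linear maps commuting with the generators are linear
  over the symbols;
* (e) the step `K' = kerSub χ ≤ K` (`χ : K →* Δ'`): `opK_kerSub_eq` (restricting in two steps),
  `resK_actK`, `coresK_actK`, `diaK_actK`, `outK_actK`.

CONCRETE:
* (d) `sysD Sy` (`GamH.heckeSysD` at the good primes, `uSys` at the primes dividing `N`, indexed by
  `HeckeActH.Symbols N`; `fullSymbols N` = all primes), `hd_sysD`, and **`opK_comm_sysD`** : the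
  operators commute at every stage `K` (by cosets: `restrict_op_comm_of_isA1`, the connecting
  elements lie in `Γ₁(N) ≤ K`); `actD` : the resulting action.
-/
import Mathlib
import Fermat.Agent.GB.B3.HeckeActH
import Fermat.Agent.GB.B3.Outer

set_option autoImplicit false
set_option linter.unusedSectionVars false
set_option linter.style.haveILetI false

open scoped MatrixGroups
open CongruenceSubgroup Matrix Matrix.SpecialLinearGroup
open Fermat.Agent.S16_helper49 Fermat.Agent.GM.B Fermat.Agent.GM.B5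
open Fermat.Agent.GB.B3.EisGamma0 Fermat.Agent.GB.B3.HeckeAct Fermat.Agent.GB.B3.CycInst
open Fermat.Agent.GB.B3.HeckeActH

namespace Fermat.Agent.GB.B3.HeckeAlg

variable {N : ℕ}

/-! ### `Γ₁(N)` as a kernel -/

/-- `Γ₁(N)` as the kernel of `d mod N` on `Γ₀(N)` -/
noncomputable abbrev Gam1 (N : ℕ) : Subgroup SL(2, ℤ) := kerSub (dUnits N)

theorem Gamma1_le_Gam1 : Gamma1 N ≤ Gam1 N := by
  intro g hg
  have h0 : g ∈ Gamma0 N := Gamma1_in_Gamma0 N hg
  refine ⟨⟨g, h0⟩, ?_, rfl⟩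
  show dUnits N ⟨g, h0⟩ = 1
  apply Units.ext
  rw [coe_dUnits, Units.val_one]
  exact ((Gamma1_mem N g).mp hg).2.1

/-! ### (a) the restricted systems at a stage -/

section Generic

variable {σ : Type*} (Sys : σ → CosetSys embR (Gamma0 N) (Gamma0 N))
  (hd : ∀ s g i, dUnits N ((Sys s).c g i) = dUnits N g)
  {K : Subgroup SL(2, ℤ)} (hK0 : K ≤ Gamma0 N) (hK1 : Gam1 N ≤ K)

include hd hK1 in
/-- (a) a system whose cocycle preserves `d mod N` is the identity modulo every `K ⊇ Γ₁(N)` -/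
theorem strongCompat_of_dcompat (s : σ) : Outer.StrongCompat (Sys s) K := by
  intro g i
  apply hK1
  refine ⟨(Sys s).c g i * g⁻¹, ?_, rfl⟩
  show dUnits N ((Sys s).c g i * g⁻¹) = 1
  rw [map_mul, hd, map_inv, mul_inv_cancel]

/-- the restricted system at the stage `K` -/
noncomputable def sysK (s : σ) : CosetSys embR K K :=
  Outer.restrictSys (Sys s) hK0 (strongCompat_of_dcompat Sys hd hK1 s)

variable (O : Type*) [CommRing O]

/-- (a) the operator of the symbol `s` on `Hom(K, O)` -/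
noncomputable def opK (s : σ) : Module.End O (Additive K →+ O) :=
  opLin O (sysK Sys hd hK0 hK1 s)

theorem opK_apply (s : σ) (φ : Additive K →+ O) :
    opK Sys hd hK0 hK1 O s φ = (sysK Sys hd hK0 hK1 s).op O φ := rfl

/-- (b) **the action of the algebra of symbols on `Hom(K, O)`** -/
noncomputable def actK
    (hcomm : ∀ s s', opK Sys hd hK0 hK1 O s * opK Sys hd hK0 hK1 O s'
      = opK Sys hd hK0 hK1 O s' * opK Sys hd hK0 hK1 O s) :
    MvPolynomial σ O →ₐ[O] Module.End O (Additive K →+ O) :=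
  polyAct (opK Sys hd hK0 hK1 O) hcomm

variable {O}
variable (hcomm : ∀ s s', opK Sys hd hK0 hK1 O s * opK Sys hd hK0 hK1 O s'
      = opK Sys hd hK0 hK1 O s' * opK Sys hd hK0 hK1 O s)

theorem actK_X (s : σ) : actK Sys hd hK0 hK1 O hcomm (MvPolynomial.X s) = opK Sys hd hK0 hK1 O s :=
  polyAct_X _ _ s

theorem actK_C_apply (a : O) (φ : Additive K →+ O) :
    actK Sys hd hK0 hK1 O hcomm (MvPolynomial.C a) φ = a • φ :=
  polyAct_C_apply _ _ a φ

theorem actK_comm (p q : MvPolynomial σ O) :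
    actK Sys hd hK0 hK1 O hcomm p * actK Sys hd hK0 hK1 O hcomm q
      = actK Sys hd hK0 hK1 O hcomm q * actK Sys hd hK0 hK1 O hcomm p :=
  polyAct_comm _ _ p q

/-- (c) **intertwining** between two stages -/
theorem actK_intertwine {K' : Subgroup SL(2, ℤ)} (hK0' : K' ≤ Gamma0 N) (hK1' : Gam1 N ≤ K')
    (hcomm' : ∀ s s', opK Sys hd hK0' hK1' O s * opK Sys hd hK0' hK1' O s'
      = opK Sys hd hK0' hK1' O s' * opK Sys hd hK0' hK1' O s)
    (f : (Additive K →+ O) →ₗ[O] (Additive K' →+ O))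
    (h : ∀ s x, f (opK Sys hd hK0 hK1 O s x) = opK Sys hd hK0' hK1' O s (f x))
    (a : MvPolynomial σ O) (x : Additive K →+ O) :
    f (actK Sys hd hK0 hK1 O hcomm a x) = actK Sys hd hK0' hK1' O hcomm' a (f x) :=
  polyAct_intertwine _ _ _ _ f h a x

/-- (c) an endomorphism commuting with the generators commutes with the action -/
theorem actK_commute_of (D : Module.End O (Additive K →+ O))
    (h : ∀ s, D * opK Sys hd hK0 hK1 O s = opK Sys hd hK0 hK1 O s * D) (a : MvPolynomial σ O) :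
    D * actK Sys hd hK0 hK1 O hcomm a = actK Sys hd hK0 hK1 O hcomm a * D :=
  polyAct_commute_of _ _ D h a

/-! ### (e) the step `K' = kerSub χ ≤ K` -/

section Step

variable {Δ' : Type} [CommGroup Δ'] (χ : K →* Δ') (hK1' : Gam1 N ≤ kerSub χ)

include hK0 in
theorem kerSub_le_Gamma0 : kerSub χ ≤ Gamma0 N := le_trans (kerSub_le χ) hK0

include hK1' in
/-- the restricted systems at the stage `K` are compatible with `χ` -/
theorem compat_sysK (s : σ) : Compat (sysK Sys hd hK0 hK1 s) χ :=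
  Outer.compat_restrict (Sys s) hK0 (strongCompat_of_dcompat Sys hd hK1 s) χ
    (strongCompat_of_dcompat Sys hd hK1' s)

/-- (e) restricting in two steps is restricting in one step -/
theorem opK_kerSub_eq (s : σ) (ψ : Additive (kerSub χ) →+ O) :
    opK Sys hd (kerSub_le_Gamma0 hK0 χ) hK1' O s ψ
      = (kerSys (sysK Sys hd hK0 hK1 s) χ (compat_sysK Sys hd hK0 hK1 χ hK1' s)).op O ψ :=
  (Outer.kerSys_restrict_op (Sys s) hK0 (strongCompat_of_dcompat Sys hd hK1 s) χ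
    (strongCompat_of_dcompat Sys hd hK1' s) ψ).symm

variable (hcomm' : ∀ s s', opK Sys hd (kerSub_le_Gamma0 hK0 χ) hK1' O s
      * opK Sys hd (kerSub_le_Gamma0 hK0 χ) hK1' O s'
    = opK Sys hd (kerSub_le_Gamma0 hK0 χ) hK1' O s'
      * opK Sys hd (kerSub_le_Gamma0 hK0 χ) hK1' O s)

/-- (e) **restriction `Hom(K, O) → Hom(K', O)` is linear over the symbols** -/
theorem resK_actK (a : MvPolynomial σ O) (φ : Additive K →+ O) :
    (resK embR χ).op O (actK Sys hd hK0 hK1 O hcomm a φ)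
      = actK Sys hd (kerSub_le_Gamma0 hK0 χ) hK1' O hcomm' a ((resK embR χ).op O φ) := by
  refine actK_intertwine Sys hd hK0 hK1 hcomm (kerSub_le_Gamma0 hK0 χ) hK1' hcomm'
    (opLin O (resK embR χ)) ?_ a φ
  intro s x
  show (resK embR χ).op O ((sysK Sys hd hK0 hK1 s).op O x) = _
  rw [opK_kerSub_eq Sys hd hK0 hK1 χ hK1' s]
  exact (kerSys_op_res (sysK Sys hd hK0 hK1 s) χ (compat_sysK Sys hd hK0 hK1 χ hK1' s) x).symm

/-- (e) **the diamond operators `diaK χ d` (`d ∈ K`) are linear over the symbols** -/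
theorem diaK_actK (d : K) (a : MvPolynomial σ O) (ψ : Additive (kerSub χ) →+ O) :
    (diaK embR χ d).op O (actK Sys hd (kerSub_le_Gamma0 hK0 χ) hK1' O hcomm' a ψ)
      = actK Sys hd (kerSub_le_Gamma0 hK0 χ) hK1' O hcomm' a ((diaK embR χ d).op O ψ) := by
  have hK1 : Gam1 N ≤ K := le_trans hK1' (kerSub_le χ)
  refine actK_intertwine Sys hd (kerSub_le_Gamma0 hK0 χ) hK1' hcomm' (kerSub_le_Gamma0 hK0 χ) hK1'
    hcomm' (opLin O (diaK embR χ d)) ?_ a ψ
  intro s x
  show (diaK embR χ d).op O (opK Sys hd (kerSub_le_Gamma0 hK0 χ) hK1' O s x) = _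
  rw [opK_kerSub_eq Sys hd hK0 hK1 χ hK1' s, opK_kerSub_eq Sys hd hK0 hK1 χ hK1' s]
  exact dia_kerSys_op embR_injective (sysK Sys hd hK0 hK1 s) χ
    (compat_sysK Sys hd hK0 hK1 χ hK1' s) d x

section Cores

variable [Fintype Δ'] (r : Δ' → K) (hr : ∀ δ, χ (r δ) = δ)

/-- (e) **the transfer `Hom(K', O) → Hom(K, O)` is linear over the symbols** -/
theorem coresK_actK (a : MvPolynomial σ O) (ψ : Additive (kerSub χ) →+ O) :
    (coresK χ r hr embR).op O (actK Sys hd (kerSub_le_Gamma0 hK0 χ) hK1' O hcomm' a ψ)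
      = actK Sys hd hK0 hK1 O hcomm a ((coresK χ r hr embR).op O ψ) := by
  refine actK_intertwine Sys hd (kerSub_le_Gamma0 hK0 χ) hK1' hcomm' hK0 hK1 hcomm
    (opLin O (coresK χ r hr embR)) ?_ a ψ
  intro s x
  show (coresK χ r hr embR).op O (opK Sys hd (kerSub_le_Gamma0 hK0 χ) hK1' O s x) = _
  rw [opK_kerSub_eq Sys hd hK0 hK1 χ hK1' s]
  exact cores_kerSys_op χ r hr embR_injective (sysK Sys hd hK0 hK1 s)
    (compat_sysK Sys hd hK0 hK1 χ hK1' s) x

end Cores

end Step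

/-- (e) **the outer conjugations by `d ∈ Γ₀(N)` are linear over the symbols** -/
theorem outK_actK (hKn : Outer.NormalIn K (Gamma0 N)) (d : Gamma0 N) (a : MvPolynomial σ O)
    (ψ : Additive K →+ O) :
    (Outer.outK hKn embR d).op O (actK Sys hd hK0 hK1 O hcomm a ψ)
      = actK Sys hd hK0 hK1 O hcomm a ((Outer.outK hKn embR d).op O ψ) := by
  refine actK_intertwine Sys hd hK0 hK1 hcomm hK0 hK1 hcomm (opLin O (Outer.outK hKn embR d)) ?_ a ψ
  intro s x
  exact Outer.out_restrict_comm (Sys s) hK0 (strongCompat_of_dcompat Sys hd hK1 s) hKn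
    embR_injective d x

end Generic

/-! ### (d) the concrete family: commutation at every stage -/

section Commute

variable {K : Subgroup SL(2, ℤ)} (hK0 : K ≤ Gamma0 N) (hK1 : Gamma1 N ≤ K)

include hK1 in
/-- **commutation of two restricted systems at a stage `K ⊇ Γ₁(N)`** (same hypotheses as
`CommGammaH.kerSys_op_comm_of_isA1`) -/
theorem restrict_op_comm_of_isA1 (S S' St S't : CosetSys embR (Gamma0 N) (Gamma0 N))
    (e : St.ι ≃ S.ι) (g : St.ι → Gamma0 N)
    (ha : ∀ k, St.a k = embR ((g k : Gamma0 N) : SL(2, ℤ)) * S.a (e k))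
    (e' : S't.ι ≃ S'.ι) (g' : S't.ι → Gamma0 N)
    (ha' : ∀ l, S't.a l = embR ((g' l : Gamma0 N) : SL(2, ℤ)) * S'.a (e' l))
    (hA : ∀ k, CommGammaH.IsA1 N (St.a k)) (hA' : ∀ l, CommGammaH.IsA1 N (S't.a l))
    (hS : Outer.StrongCompat St K) (hS' : Outer.StrongCompat S't K)
    (hd1 : (S'.comp S).Distinct) (hd2 : (S.comp S').Distinct)
    (hrep : ∀ (j : S'.ι) (i : S.ι), ∃ (i' : S.ι) (j' : S'.ι) (γ : Gamma0 N),
      S.a i' * S'.a j' = embR ((γ : Gamma0 N) : SL(2, ℤ)) * (S'.a j * S.a i))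
    {A : Type*} [AddCommGroup A] (ψ : Additive K →+ A) :
    (Outer.restrictSys S't hK0 hS').op A ((Outer.restrictSys St hK0 hS).op A ψ)
      = (Outer.restrictSys St hK0 hS).op A ((Outer.restrictSys S't hK0 hS').op A ψ) := by
  refine CommAbs.op_comm_of_exists (Outer.restrictSys St hK0 hS) (Outer.restrictSys S't hK0 hS')
    embR_injective ?_ ?_ ?_ ψ
  · have h := CommTwist.comp_distinct_of_twist S' S S't St e' g' ha' e g ha hd1
    rintro ⟨l, k⟩ ⟨l', k'⟩ κ hκ
    exact h (l, k) (l', k') (Outer.inclK hK0 κ) hκ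
  · have h := CommTwist.comp_distinct_of_twist S S' St S't e g ha e' g' ha' hd2
    rintro ⟨k, l⟩ ⟨k', l'⟩ κ hκ
    exact h (k, l) (k', l') (Outer.inclK hK0 κ) hκ
  · intro l k
    obtain ⟨k', l', γ, h⟩ :=
      CommTwist.exists_match_of_twist S S' St S't e g ha e' g' ha' hrep l k
    have hγ : ((γ : Gamma0 N) : SL(2, ℤ)) ∈ Gamma1 N :=
      CommGammaH.mem_Gamma1_of_isA1 ((hA' l).mul (hA k)) ((hA k').mul (hA' l')) _ h
    exact ⟨k', l', ⟨((γ : Gamma0 N) : SL(2, ℤ)), hK1 hγ⟩, h⟩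

variable (A : Type*) [AddCommGroup A]

include hK1 in
/-- `T_ℓ' T_ℓ = T_ℓ T_ℓ'` at the stage `K` -/
theorem restrict_TT_comm {ℓ ℓ' : ℕ} [Fact ℓ.Prime] [Fact ℓ'.Prime] (hℓN : ¬ ℓ ∣ N)
    (hℓ'N : ¬ ℓ' ∣ N) (hS : Outer.StrongCompat (GamH.heckeSysD hℓN) K)
    (hS' : Outer.StrongCompat (GamH.heckeSysD hℓ'N) K) (ψ : Additive K →+ A) :
    (Outer.restrictSys (GamH.heckeSysD hℓ'N) hK0 hS').op A
        ((Outer.restrictSys (GamH.heckeSysD hℓN) hK0 hS).op A ψ)
      = (Outer.restrictSys (GamH.heckeSysD hℓN) hK0 hS).op A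
        ((Outer.restrictSys (GamH.heckeSysD hℓ'N) hK0 hS').op A ψ) := by
  by_cases hne : ℓ = ℓ'
  · subst hne
    rfl
  exact restrict_op_comm_of_isA1 hK0 hK1 (heckeSys hℓN) (heckeSys hℓ'N) (GamH.heckeSysD hℓN)
    (GamH.heckeSysD hℓ'N) (Equiv.refl _) (GamH.twG hℓN) (CommGammaH.heckeSysD_twist hℓN)
    (Equiv.refl _) (GamH.twG hℓ'N) (CommGammaH.heckeSysD_twist hℓ'N)
    (CommGammaH.isA1_heckeSysD hℓN) (CommGammaH.isA1_heckeSysD hℓ'N) hS hS'
    (CommGamma0.heckeSys_comp_distinctMod hℓ'N hℓN (Ne.symm hne) _).distinct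
    (CommGamma0.heckeSys_comp_distinctMod hℓN hℓ'N hne _).distinct
    (fun j i => by
      obtain ⟨i', j', γ, -, h⟩ := CommGamma0.heckeSys_match hℓN hℓ'N hne j i
      exact ⟨i', j', γ, h⟩) ψ

include hK1 in
/-- `U_r T_ℓ = T_ℓ U_r` at the stage `K` -/
theorem restrict_UT_comm {ℓ r : ℕ} [Fact ℓ.Prime] [NeZero r] (hℓN : ¬ ℓ ∣ N) (hrN : r ∣ N)
    (hr : 1 < r) (hS : Outer.StrongCompat (GamH.heckeSysD hℓN) K)
    (hS' : Outer.StrongCompat (uSys hrN) K) (ψ : Additive K →+ A) :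
    (Outer.restrictSys (uSys hrN) hK0 hS').op A
        ((Outer.restrictSys (GamH.heckeSysD hℓN) hK0 hS).op A ψ)
      = (Outer.restrictSys (GamH.heckeSysD hℓN) hK0 hS).op A
        ((Outer.restrictSys (uSys hrN) hK0 hS').op A ψ) :=
  restrict_op_comm_of_isA1 hK0 hK1 (heckeSys hℓN) (uSys hrN) (GamH.heckeSysD hℓN) (uSys hrN)
    (Equiv.refl _) (GamH.twG hℓN) (CommGammaH.heckeSysD_twist hℓN)
    (Equiv.refl _) (fun _ => 1) (CommGammaH.uSys_twist hrN)
    (CommGammaH.isA1_heckeSysD hℓN) (CommGammaH.isA1_uSys hrN) hS hS'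
    (CommGamma0.uSys_comp_heckeSys_distinctMod hℓN hrN hr _).distinct
    (CommGamma0.heckeSys_comp_uSys_distinctMod hℓN hrN hr _).distinct
    (fun x i => by
      obtain ⟨i', x', γ, -, h⟩ := CommGamma0.heckeSys_uSys_match hℓN hrN hr x i
      exact ⟨i', x', γ, h⟩) ψ

include hK1 in
/-- `U_r' U_r = U_r U_r'` at the stage `K` -/
theorem restrict_UU_comm {r r' : ℕ} [NeZero r] [NeZero r'] (hrN : r ∣ N) (hr'N : r' ∣ N)
    (hr : 1 < r) (hr' : 1 < r') (hcop : Nat.Coprime r r')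
    (hS : Outer.StrongCompat (uSys hrN) K) (hS' : Outer.StrongCompat (uSys hr'N) K)
    (ψ : Additive K →+ A) :
    (Outer.restrictSys (uSys hr'N) hK0 hS').op A ((Outer.restrictSys (uSys hrN) hK0 hS).op A ψ)
      = (Outer.restrictSys (uSys hrN) hK0 hS).op A
        ((Outer.restrictSys (uSys hr'N) hK0 hS').op A ψ) :=
  restrict_op_comm_of_isA1 hK0 hK1 (uSys hrN) (uSys hr'N) (uSys hrN) (uSys hr'N)
    (Equiv.refl _) (fun _ => 1) (CommGammaH.uSys_twist hrN)
    (Equiv.refl _) (fun _ => 1) (CommGammaH.uSys_twist hr'N)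
    (CommGammaH.isA1_uSys hrN) (CommGammaH.isA1_uSys hr'N) hS hS'
    (CommGamma0.uSys_comp_distinctMod hr'N hrN hr' hr hcop.symm _).distinct
    (CommGamma0.uSys_comp_distinctMod hrN hr'N hr hr' hcop _).distinct
    (fun y x => by
      obtain ⟨x', y', γ, -, h⟩ := CommGamma0.uSys_match hrN hr'N hr hr' hcop y x
      exact ⟨x', y', γ, h⟩) ψ

/-- two restricted `U`-systems at the same prime have the same operator -/
theorem restrict_uSys_congr {r r' : ℕ} [NeZero r] [NeZero r'] (h : r = r') (hrN : r ∣ N)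
    (hr'N : r' ∣ N) (hS : Outer.StrongCompat (uSys hrN) K)
    (hS' : Outer.StrongCompat (uSys hr'N) K) (ψ : Additive K →+ A) :
    (Outer.restrictSys (uSys hrN) hK0 hS).op A ψ = (Outer.restrictSys (uSys hr'N) hK0 hS').op A ψ := by
  subst h
  rfl

end Commute

/-! ### (d) the concrete family of symbols -/

section Concrete

variable (Sy : Symbols N)

/-- **the `d`-compatible systems of the symbols on `Γ₀(N)`**: `GamH.heckeSysD` at the good primes,
`uSys` at the primes dividing `N` -/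
noncomputable def sysD : Sy.ι₁ ⊕ Sy.ι₂ → CosetSys embR (Gamma0 N) (Gamma0 N)
  | Sum.inl i => haveI := Sy.factℓ i; GamH.heckeSysD (Sy.hℓN i)
  | Sum.inr j => haveI := Sy.neZeroR j; uSys (Sy.hrN j)

/-- the cocycles of the symbols preserve `d mod N` -/
theorem hd_sysD (s : Sy.ι₁ ⊕ Sy.ι₂) (g : Gamma0 N) (i : (sysD Sy s).ι) :
    dUnits N ((sysD Sy s).c g i) = dUnits N g := by
  rcases s with i₁ | j
  · haveI := Sy.factℓ i₁
    exact GamH.dUnits_cD (Sy.hℓN i₁) g i
  · haveI := Sy.neZeroR j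
    exact GamH.dUnits_cU (Sy.hrN j) g i

/-- on `Γ₀(N)` itself the systems of the symbols define `cohT`, `cohU` -/
theorem sysD_op (A : Type*) [AddCommGroup A] (s : Sy.ι₁ ⊕ Sy.ι₂)
    (φ : Additive (Gamma0 N) →+ A) : (sysD Sy s).op A φ = (sys0 Sy s).op A φ := by
  rcases s with i | j
  · haveI := Sy.factℓ i
    show (GamH.heckeSysD (Sy.hℓN i)).op A φ = (heckeSys (Sy.hℓN i)).op A φ
    rw [GamH.heckeSysD_op, heckeSys_op]
  · rfl

variable {K : Subgroup SL(2, ℤ)} (hK0 : K ≤ Gamma0 N) (hK1 : Gam1 N ≤ K)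
variable (O : Type*) [CommRing O]

/-- (d) **the operators of the symbols commute at every stage `Γ₁(N) ≤ K ≤ Γ₀(N)`** -/
theorem opK_comm_sysD (s s' : Sy.ι₁ ⊕ Sy.ι₂) :
    opK (sysD Sy) (hd_sysD Sy) hK0 hK1 O s * opK (sysD Sy) (hd_sysD Sy) hK0 hK1 O s'
      = opK (sysD Sy) (hd_sysD Sy) hK0 hK1 O s' * opK (sysD Sy) (hd_sysD Sy) hK0 hK1 O s := by
  have hK1' : Gamma1 N ≤ K := le_trans Gamma1_le_Gam1 hK1
  refine LinearMap.ext fun ψ => ?_
  rcases s with i | j <;> rcases s' with i' | j'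
  · haveI := Sy.factℓ i
    haveI := Sy.factℓ i'
    exact restrict_TT_comm hK0 hK1' O (Sy.hℓN i') (Sy.hℓN i) _ _ ψ
  · haveI := Sy.factℓ i
    haveI := Sy.neZeroR j'
    exact (restrict_UT_comm hK0 hK1' O (Sy.hℓN i) (Sy.hrN j') (Sy.hr j').one_lt _ _ ψ).symm
  · haveI := Sy.neZeroR j
    haveI := Sy.factℓ i'
    exact restrict_UT_comm hK0 hK1' O (Sy.hℓN i') (Sy.hrN j) (Sy.hr j).one_lt _ _ ψ
  · haveI := Sy.neZeroR j
    haveI := Sy.neZeroR j'
    by_cases h : Sy.r j = Sy.r j'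
    · show (Outer.restrictSys (uSys (Sy.hrN j)) hK0 _).op O
          ((Outer.restrictSys (uSys (Sy.hrN j')) hK0 _).op O ψ)
        = (Outer.restrictSys (uSys (Sy.hrN j')) hK0 _).op O
          ((Outer.restrictSys (uSys (Sy.hrN j)) hK0 _).op O ψ)
      rw [restrict_uSys_congr hK0 O h (Sy.hrN j) (Sy.hrN j')
          (strongCompat_of_dcompat (sysD Sy) (hd_sysD Sy) hK1 (Sum.inr j))
          (strongCompat_of_dcompat (sysD Sy) (hd_sysD Sy) hK1 (Sum.inr j')),
        restrict_uSys_congr hK0 O h (Sy.hrN j) (Sy.hrN j')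
          (strongCompat_of_dcompat (sysD Sy) (hd_sysD Sy) hK1 (Sum.inr j))
          (strongCompat_of_dcompat (sysD Sy) (hd_sysD Sy) hK1 (Sum.inr j'))]
    · exact restrict_UU_comm hK0 hK1' O (Sy.hrN j') (Sy.hrN j) (Sy.hr j').one_lt (Sy.hr j).one_lt
        ((Nat.coprime_primes (Sy.hr j') (Sy.hr j)).mpr (Ne.symm h)) _ _ ψ

/-- **the action of the Hecke symbols on `Hom(K, O)`** at the stage `K` -/
noncomputable def actD : Sy.𝕋 O →ₐ[O] Module.End O (Additive K →+ O) :=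
  actK (sysD Sy) (hd_sysD Sy) hK0 hK1 O (opK_comm_sysD Sy hK0 hK1 O)

theorem actD_X (s : Sy.ι₁ ⊕ Sy.ι₂) :
    actD Sy hK0 hK1 O (MvPolynomial.X s) = opK (sysD Sy) (hd_sysD Sy) hK0 hK1 O s :=
  actK_X _ _ _ _ _ s

end Concrete

/-- **all the primes**: the full family of symbols at level `N` -/
def fullSymbols (N : ℕ) : Symbols N where
  ι₁ := {ℓ : ℕ // ℓ.Prime ∧ ¬ ℓ ∣ N}
  ι₂ := {r : ℕ // r.Prime ∧ r ∣ N}
  ℓ := fun x => x.1
  hℓ := fun x => x.2.1
  hℓN := fun x => x.2.2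
  r := fun x => x.1
  hr := fun x => x.2.1
  hrN := fun x => x.2.2

end Fermat.Agent.GB.B3.HeckeAlg
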