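/-
GATE-B / B3 (helper80): the two normalisations of `T_ℓ` on `Hom(Γ_H, A)` differ by the diamond
operator `⟨σ_ℓ⟩`.

On main there are two `d`-compatible twists of the Hecke system `heckeSys hℓN` of `Γ₀(N)`:
* `GamH.heckeSysD` (helper2): representatives `σ_ℓ · diag(ℓ, 1)`, `(1, j; 0, ℓ)` — used by
  `GamH.TH` and by all of B3 (`HeckeActH.actH`, `HeckeAlg.sysD`);
* `HeckeD.heckeSysD` (helper46): representatives `e_x⁻¹ α_x` with `d(e_x) ≡ d(α_x)` — used by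
  `GB/B4/Twist/Groups.TH`.
Both define `cohT` on `Hom(Γ₀(N), A)`, but their restrictions to `Γ_H = ker χ_θ` differ:

  `TH_eq : GamH.TH θ A hℓN ψ = T'_ℓ (⟨σ_ℓ⟩ ψ) = ⟨σ_ℓ⟩ (T'_ℓ ψ)`,   `T'_ℓ := (heckeSysH' θ hℓN).op A`,

`⟨σ_ℓ⟩ = GamH.diaH θ A (GamH.sigmaL hℓN)` the diamond operator of any `σ_ℓ ∈ Γ₀(N)` with
`d(σ_ℓ) ≡ ℓ (mod N)` (helper2's convention `(⟨d⟩ψ)(k) = ψ(d k d⁻¹)`).
-/
import Mathlib
import Fermat.Agent.GB.B3.GammaH
import Fermat.Agent.GB.B3.HeckeD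
import Fermat.Agent.GB.B5.Betti.SysTools

set_option autoImplicit false

open scoped MatrixGroups
open CongruenceSubgroup Matrix Matrix.SpecialLinearGroup
open P2MW.S_ModularForm_heckeT_slash_eq_self_of_mem_Gamma0.ModularForm.HeckeSlashInvariance
open Fermat.Agent.S16_helper49 Fermat.Agent.GM.B Fermat.Agent.GM.EisClass
open Fermat.Agent.GB.B3.EisGamma0

namespace Fermat.Agent.GB.B3.HeckeDCompare

variable {N ℓ : ℕ} [Fact ℓ.Prime] {Δ : Type} [CommGroup Δ] (θ : (ZMod N)ˣ →* Δ)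

/-- the restriction to `Γ_H` of helper46's `d`-normalised Hecke system -/
noncomputable def heckeSysH' (hℓN : ¬ ℓ ∣ N) : CosetSys embR (GamH.GammaH θ) (GamH.GammaH θ) :=
  kerSys (HeckeD.heckeSysD hℓN) (chi θ) (fun g x => HeckeD.chi_c θ hℓN g x)

theorem dUnits_sigmaL (hℓN : ¬ ℓ ∣ N) : dUnits N (GamH.sigmaL hℓN) = GamH.unitL hℓN := by
  apply Units.ext
  rw [coe_dUnits, GamH.dN_sigmaL]
  unfold GamH.unitL
  rw [coe_deltaU]
  rfl

/-- the connecting elements `twG x · e_x · σ_ℓ⁻¹` lie in `Γ_H` -/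
theorem chi_connect (hℓN : ¬ ℓ ∣ N) (x : OnePoint (ZMod ℓ)) :
    chi θ (GamH.twG hℓN x * HeckeD.eRep hℓN x * (GamH.sigmaL hℓN)⁻¹) = 1 := by
  rw [chi_apply]
  have h : dUnits N (GamH.twG hℓN x * HeckeD.eRep hℓN x * (GamH.sigmaL hℓN)⁻¹) = 1 := by
    rw [map_mul, map_mul, map_inv, HeckeD.dUnits_eRep, GamH.dUnits_twG_mul_deltaU,
      dUnits_sigmaL, mul_inv_cancel]
  rw [h, map_one]

/-- the comparison at the level of kernel subsystems -/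
theorem kerSys_eq (hℓN : ¬ ℓ ∣ N) (A : Type*) [AddCommGroup A]
    (ψ : Additive (kerSub (chi θ)) →+ A) :
    (kerSys (GamH.heckeSysD hℓN) (chi θ) (GamH.compat_heckeSysD θ hℓN)).op A ψ
      = (kerSys (HeckeD.heckeSysD hℓN) (chi θ) (fun g x => HeckeD.chi_c θ hℓN g x)).op A
        ((diaK embR (chi θ) (GamH.sigmaL hℓN)).op A ψ) := by
  rw [← CosetSys.op_comp]
  refine Fermat.Agent.GB.B5.Betti.op_eq_of_reps
    ((diaK embR (chi θ) (GamH.sigmaL hℓN)).comp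
      (kerSys (HeckeD.heckeSysD hℓN) (chi θ) (fun g x => HeckeD.chi_c θ hℓN g x)))
    (kerSys (GamH.heckeSysD hℓN) (chi θ) (GamH.compat_heckeSysD θ hℓN))
    embR_injective (Equiv.punitProd (OnePoint (ZMod ℓ))) 1 (fun x => by rw [one_mul, mul_one])
    (fun p => kerMk (chi θ) (GamH.twG hℓN p.2 * HeckeD.eRep hℓN p.2 * (GamH.sigmaL hℓN)⁻¹)
      (chi_connect θ hℓN p.2)) ?_ ψ
  rintro ⟨u, (x : OnePoint (ZMod ℓ))⟩
  show (GamH.heckeSysD hℓN).a x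
    = 1 * embR (((GamH.twG hℓN x * HeckeD.eRep hℓN x * (GamH.sigmaL hℓN)⁻¹ : Gamma0 N)) : SL(2, ℤ))
      * (embR ((GamH.sigmaL hℓN : Gamma0 N) : SL(2, ℤ)) * (HeckeD.heckeSysD hℓN).a x)
  rw [GamH.heckeSysD_a, HeckeD.heckeSysD_a]
  simp only [Subgroup.coe_mul, Subgroup.coe_inv, map_mul, map_inv, one_mul]
  group

/-- **the two normalisations of `T_ℓ` on `Hom(Γ_H, A)` differ by `⟨σ_ℓ⟩`** -/
theorem TH_eq (hℓN : ¬ ℓ ∣ N) (A : Type*) [AddCommGroup A] (ψ : Additive (GamH.GammaH θ) →+ A) :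
    GamH.TH θ A hℓN ψ
      = (heckeSysH' θ hℓN).op A (GamH.diaH θ A (GamH.sigmaL hℓN) ψ) :=
  kerSys_eq θ hℓN A ψ

/-- the same with the diamond operator on the other side -/
theorem TH_eq' (hℓN : ¬ ℓ ∣ N) (A : Type*) [AddCommGroup A]
    (ψ : Additive (GamH.GammaH θ) →+ A) :
    GamH.TH θ A hℓN ψ
      = GamH.diaH θ A (GamH.sigmaL hℓN) ((heckeSysH' θ hℓN).op A ψ) := by
  rw [TH_eq]
  exact (dia_kerSys_op embR_injective (HeckeD.heckeSysD hℓN) (chi θ)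
    (fun g x => HeckeD.chi_c θ hℓN g x) (GamH.sigmaL hℓN) ψ).symm

/-- on `χ`-eigenvectors of the diamond `⟨σ_ℓ⟩` the two operators differ by the eigenvalue -/
theorem TH_eq_of_eigen (hℓN : ¬ ℓ ∣ N) (A : Type*) [AddCommGroup A]
    (ψ : Additive (GamH.GammaH θ) →+ A) (c : ℤ)
    (hψ : GamH.diaH θ A (GamH.sigmaL hℓN) ψ = c • ψ) :
    GamH.TH θ A hℓN ψ = c • (heckeSysH' θ hℓN).op A ψ := by
  rw [TH_eq, hψ, map_zsmul]

end Fermat.Agent.GB.B3.HeckeDCompare
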