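/-
GATE-B / GB-B3-LAMBDA (helper24): the GROUP-ALGEBRA form of helper95's basis-form `Δ_Q`-freeness.
Mathlib + GB/B3/{TWLevel, MonoCoinv} only.

`O` a commutative ring, `M` an `O`-module, `D i` (`i : Fin k`) commuting endomorphisms with
`D i ^ N i = 1`, `0 < N i`.  Put `G := ∀ i, Multiplicative (ZMod (N i))` (`= Δ_Q`) and
`Lam := MonoidAlgebra O G` (`= O[Δ_Q]`).

* `diaHom : G →* Module.End O M`, `g ↦ mono D (expo g)`; `lamAct : Lam →ₐ[O] Module.End O M` its
  linear extension; `sg i : Lam` the `i`-th generator, `lamAct_sg : lamAct (sg i) = D i`.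
* `lamModule : Module Lam M` (a reducible DEF, activate with `letI`), `lam_smul_def`,
  `isScalarTower_lam`.
* `lamBasis` : if `b (a, j) = mono D a (e j)` (`a i < N i`) is an `O`-basis of `M`
  (`FreeLevel.basis` / `basis_eq` VERBATIM) then the `e j` are a `Lam`-basis of `M`
  (`lamBasis_apply`); hence `Module.Free Lam M` and, for finite `ι`, `Module.Finite Lam M`.
* `toLamEnd` : an `O`-endomorphism commuting with all `D i` is `Lam`-linear
  (`commute_lamAct`), multiplicatively (`toLamEnd_mul`, `toLamEnd_one`, …).
-/
import Fermat.Agent.GB.B3.MonoCoinv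

set_option autoImplicit false
set_option linter.style.haveILetI false
set_option linter.unusedSectionVars false

namespace Fermat.Agent.GB.B3.Lambda

open Module Fermat.Agent.GB.B3.TWLevel Fermat.Agent.GB.B3.MonoCoinv

variable {O M : Type*} [CommRing O] [AddCommGroup M] [Module O M]

/-! ### more `mono` calculus -/

theorem commute_mono {k : ℕ} (D : Fin k → Module.End O M) (f : Module.End O M)
    (h : ∀ i, Commute f (D i)) (a : Fin k → ℕ) : Commute f (mono D a) := by
  induction k with
  | zero => rw [mono_fin_zero]; exact Commute.one_right f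
  | succ k ih =>
    rw [mono_succ]
    exact ((h 0).pow_right _).mul_right (ih (fun i => D i.succ) (fun i => h i.succ) _)

theorem mono_add {k : ℕ} (D : Fin k → Module.End O M) (hcomm : ∀ i j, D i * D j = D j * D i)
    (a b : Fin k → ℕ) : mono D (fun i => a i + b i) = mono D a * mono D b := by
  induction k with
  | zero => simp [mono_fin_zero]
  | succ k ih =>
    rw [mono_succ, mono_succ D a, mono_succ D b,
      ih (fun i => D i.succ) (fun i j => hcomm _ _) (fun i => a i.succ) (fun i => b i.succ),
      pow_add]
    have hc : Commute (D 0 ^ b 0) (mono (fun i => D i.succ) fun i => a i.succ) :=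
      (commute_mono (fun i => D i.succ) (D 0) (fun i => hcomm 0 i.succ) _).pow_left _
    simp only [mul_assoc]
    congr 1
    rw [← mul_assoc, ← mul_assoc, hc.eq]

theorem mono_mod {k : ℕ} (D : Fin k → Module.End O M) {N : Fin k → ℕ}
    (hpow : ∀ i, D i ^ N i = 1) (a : Fin k → ℕ) :
    mono D (fun i => a i % N i) = mono D a :=
  mono_congr D _ _ fun i => (pow_eq_pow_mod (a i) (hpow i)).symm

theorem mono_update_zero {k : ℕ} (D : Fin k → Module.End O M)
    (hcomm : ∀ i j, D i * D j = D j * D i) (i : Fin k) (n : ℕ) :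
    mono D (Function.update (fun _ => 0) i n) = D i ^ n := by
  induction n with
  | zero =>
    have : Function.update (fun _ : Fin k => 0) i 0 = fun _ => 0 := by
      funext j
      by_cases h : j = i
      · subst h; rw [Function.update_self]
      · rw [Function.update_of_ne h]
    rw [this, mono_zero, pow_zero]
  | succ n ih =>
    have := mul_mono D hcomm (Function.update (fun _ => 0) i n) i
    rw [Function.update_self, Function.update_idem] at this
    rw [← this, ih, pow_succ']

/-! ### the group and its action -/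

section Group

variable {k : ℕ} (N : Fin k → ℕ)

/-- `Δ = ∏ ℤ/N i`, multiplicatively. -/
abbrev Grp : Type := ∀ i : Fin k, Multiplicative (ZMod (N i))

/-- `O[Δ]` -/
abbrev Lam (O : Type*) [CommRing O] : Type _ := MonoidAlgebra O (Grp N)

variable {N}

/-- the exponent vector of a group element -/
def expo (g : Grp N) : Fin k → ℕ := fun i => (Multiplicative.toAdd (g i)).val

theorem expo_one : expo (1 : Grp N) = fun _ => 0 := by
  funext i
  show (Multiplicative.toAdd (1 : Multiplicative (ZMod (N i)))).val = 0
  rw [toAdd_one, ZMod.val_zero]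

theorem expo_mul [∀ i, NeZero (N i)] (g h : Grp N) :
    expo (g * h) = fun i => (expo g i + expo h i) % N i := by
  funext i
  show (Multiplicative.toAdd (g i * h i)).val = _
  rw [toAdd_mul, ZMod.val_add]
  rfl

theorem expo_lt [∀ i, NeZero (N i)] (g : Grp N) (i : Fin k) : expo g i < N i :=
  ZMod.val_lt _

/-- tuples of exponents `≃` group elements -/
def expEquiv [∀ i, NeZero (N i)] : (∀ i : Fin k, Fin (N i)) ≃ Grp N where
  toFun a := fun i => Multiplicative.ofAdd (((a i : ℕ)) : ZMod (N i))
  invFun g := fun i => ⟨expo g i, expo_lt g i⟩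
  left_inv a := by
    funext i
    refine Fin.ext ?_
    show (Multiplicative.toAdd (Multiplicative.ofAdd (((a i : ℕ)) : ZMod (N i)))).val = _
    rw [toAdd_ofAdd, ZMod.val_natCast_of_lt (a i).isLt]
  right_inv g := by
    funext i
    show Multiplicative.ofAdd (((expo g i : ℕ)) : ZMod (N i)) = g i
    rw [expo, ZMod.natCast_zmod_val]
    rfl

theorem expEquiv_symm_val [∀ i, NeZero (N i)] (g : Grp N) (i : Fin k) :
    ((expEquiv.symm g i : Fin (N i)) : ℕ) = expo g i := rfl

variable (D : Fin k → Module.End O M) (hpow : ∀ i, D i ^ N i = 1)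
  (hcomm : ∀ i j, D i * D j = D j * D i)

/-- the action of `Δ` on `M` through the diamonds -/
def diaHom [∀ i, NeZero (N i)] : Grp N →* Module.End O M where
  toFun g := mono D (expo g)
  map_one' := by rw [expo_one, mono_zero]
  map_mul' g h := by
    rw [expo_mul, mono_mod D hpow (fun i => expo g i + expo h i), mono_add D hcomm]

@[simp] theorem diaHom_apply [∀ i, NeZero (N i)] (g : Grp N) :
    diaHom D hpow hcomm g = mono D (expo g) := rfl

/-- the action of `O[Δ]` on `M` -/
noncomputable def lamAct [∀ i, NeZero (N i)] : Lam N O →ₐ[O] Module.End O M :=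
  MonoidAlgebra.lift O (Module.End O M) (Grp N) (diaHom D hpow hcomm)

theorem lamAct_of [∀ i, NeZero (N i)] (g : Grp N) :
    lamAct D hpow hcomm (MonoidAlgebra.of O (Grp N) g) = mono D (expo g) := by
  rw [lamAct, MonoidAlgebra.lift_of]; rfl

/-- the `i`-th generator of `Δ` in `O[Δ]` -/
noncomputable def sg (O : Type*) [CommRing O] (N : Fin k → ℕ) (i : Fin k) : Lam N O :=
  MonoidAlgebra.of O (Grp N) (Pi.mulSingle i (Multiplicative.ofAdd 1))

theorem lamAct_sg [∀ i, NeZero (N i)] (i : Fin k) : lamAct D hpow hcomm (sg O N i) = D i := by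
  rw [sg, lamAct_of]
  have h1 : expo (Pi.mulSingle i (Multiplicative.ofAdd (1 : ZMod (N i))) : Grp N) =
      fun j => (Function.update (fun _ => 0) i 1 : Fin k → ℕ) j % N j := by
    funext j
    by_cases h : j = i
    · subst h
      show (Multiplicative.toAdd ((Pi.mulSingle j (Multiplicative.ofAdd (1 : ZMod (N j))) :
        Grp N) j)).val = _
      rw [Pi.mulSingle_eq_same, toAdd_ofAdd, Function.update_self, ZMod.val_one_eq_one_mod]
    · show (Multiplicative.toAdd ((Pi.mulSingle i (Multiplicative.ofAdd (1 : ZMod (N i))) :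
        Grp N) j)).val = _
      rw [Pi.mulSingle_eq_of_ne h, toAdd_one, ZMod.val_zero, Function.update_of_ne h,
        Nat.zero_mod]
  rw [h1, mono_mod D hpow, mono_update_zero D hcomm, pow_one]

theorem commute_lamAct [∀ i, NeZero (N i)] (t : Module.End O M) (ht : ∀ i, t * D i = D i * t)
    (x : Lam N O) : Commute t (lamAct D hpow hcomm x) := by
  induction x using MonoidAlgebra.induction_on with
  | of g =>
    rw [lamAct_of]
    exact commute_mono D t (fun i => ht i) _
  | add x y hx hy => rw [map_add]; exact hx.add_right hy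
  | smul r x hx => rw [map_smul]; exact hx.smul_right r

/-- **the `O[Δ]`-module structure on `M`** (a def, not an instance: activate with `letI`) -/
@[reducible] noncomputable def lamModule [∀ i, NeZero (N i)] : Module (Lam N O) M :=
  Module.compHom M (lamAct D hpow hcomm : Lam N O →+* Module.End O M)

theorem lam_smul_def [∀ i, NeZero (N i)] (x : Lam N O) (m : M) :
    letI := lamModule D hpow hcomm
    x • m = lamAct D hpow hcomm x m := rfl

theorem isScalarTower_lam [∀ i, NeZero (N i)] :
    letI := lamModule D hpow hcomm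
    IsScalarTower O (Lam N O) M := by
  letI := lamModule D hpow hcomm
  refine ⟨fun r x m => ?_⟩
  show lamAct D hpow hcomm (r • x) m = r • lamAct D hpow hcomm x m
  rw [map_smul, LinearMap.smul_apply]

theorem sg_smul [∀ i, NeZero (N i)] (i : Fin k) (m : M) :
    letI := lamModule D hpow hcomm
    sg O N i • m = D i m := by
  letI := lamModule D hpow hcomm
  show lamAct D hpow hcomm (sg O N i) m = D i m
  rw [lamAct_sg]

/-- an `O`-endomorphism commuting with the diamonds is `O[Δ]`-linear -/
noncomputable def toLamEnd [∀ i, NeZero (N i)] (t : Module.End O M)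
    (ht : ∀ i, t * D i = D i * t) :
    letI := lamModule D hpow hcomm
    M →ₗ[Lam N O] M :=
  letI := lamModule D hpow hcomm
  { toFun := t
    map_add' := t.map_add
    map_smul' := fun x m => by
      show t (lamAct D hpow hcomm x m) = lamAct D hpow hcomm x (t m)
      exact LinearMap.congr_fun (commute_lamAct D hpow hcomm t ht x).eq m }

@[simp] theorem toLamEnd_apply [∀ i, NeZero (N i)] (t : Module.End O M)
    (ht : ∀ i, t * D i = D i * t) (m : M) :
    letI := lamModule D hpow hcomm
    toLamEnd D hpow hcomm t ht m = t m := rfl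

end Group

/-! ### the `O[Δ]`-basis -/

section Basis

variable {k : ℕ} {N : Fin k → ℕ} [∀ i, NeZero (N i)]
  (D : Fin k → Module.End O M) (hpow : ∀ i, D i ^ N i = 1)
  (hcomm : ∀ i j, D i * D j = D j * D i)
  {ι : Type*} (e : ι → M) (b : Basis ((∀ i : Fin k, Fin (N i)) × ι) O M)
  (hb : ∀ a j, b (a, j) = mono D (fun i => ((a i : Fin (N i)) : ℕ)) (e j))

/-- the monomial `O`-basis, indexed by the group -/
noncomputable def grpBasis : Basis (Grp N × ι) O M :=
  b.reindex (expEquiv.prodCongr (Equiv.refl ι))

include hb in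
theorem grpBasis_apply (g : Grp N) (j : ι) : grpBasis b (g, j) = mono D (expo g) (e j) := by
  rw [grpBasis, Basis.reindex_apply]
  show b (expEquiv.symm g, j) = _
  rw [hb]
  rfl

/-- `x ↦ ∑ x_j • e_j`, `O[Δ]`-linear -/
noncomputable def lamComb :
    letI := lamModule D hpow hcomm
    (ι →₀ Lam N O) →ₗ[Lam N O] M :=
  letI := lamModule D hpow hcomm
  Finsupp.linearCombination (Lam N O) e

theorem lamComb_single (j : ι) (x : Lam N O) :
    lamComb D hpow hcomm e (Finsupp.single j x) = lamAct D hpow hcomm x (e j) := by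
  letI := lamModule D hpow hcomm
  show Finsupp.linearCombination (Lam N O) e (Finsupp.single j x) = _
  rw [Finsupp.linearCombination_single]
  rfl

/-- the coordinate map `M → O[Δ]^ι`, a priori only `O`-linear -/
noncomputable def lamCoord : M →ₗ[O] (ι →₀ Lam N O) :=
  (grpBasis b).constr O fun gj => Finsupp.single gj.2 (MonoidAlgebra.of O (Grp N) gj.1)

theorem lamCoord_grpBasis (g : Grp N) (j : ι) :
    lamCoord b (grpBasis b (g, j)) = Finsupp.single j (MonoidAlgebra.of O (Grp N) g) :=
  (grpBasis b).constr_basis O _ (g, j)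

include hb in
theorem lamCoord_lamAct (j : ι) (x : Lam N O) :
    lamCoord b (lamAct D hpow hcomm x (e j)) = Finsupp.single j x := by
  induction x using MonoidAlgebra.induction_on with
  | of g => rw [lamAct_of, ← grpBasis_apply D e b hb, lamCoord_grpBasis]
  | add x y hx hy => rw [map_add, LinearMap.add_apply, map_add, hx, hy, Finsupp.single_add]
  | smul r x hx => rw [map_smul, LinearMap.smul_apply, map_smul, hx, Finsupp.smul_single]

include hb in
theorem lamCoord_lamComb (x : ι →₀ Lam N O) :
    lamCoord b (lamComb D hpow hcomm e x) = x := by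
  induction x using Finsupp.induction_linear with
  | zero => rw [map_zero, map_zero]
  | add x y hx hy => rw [map_add, map_add, hx, hy]
  | single j x => rw [lamComb_single, lamCoord_lamAct D hpow hcomm e b hb]

include hb in
theorem lamComb_lamCoord (m : M) : lamComb D hpow hcomm e (lamCoord b m) = m := by
  letI := lamModule D hpow hcomm
  haveI := isScalarTower_lam D hpow hcomm
  have h : (lamComb D hpow hcomm e).restrictScalars O ∘ₗ lamCoord b = LinearMap.id := by
    refine (grpBasis b).ext fun gj => ?_
    obtain ⟨g, j⟩ := gj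
    rw [LinearMap.comp_apply, LinearMap.restrictScalars_apply, lamCoord_grpBasis,
      lamComb_single, lamAct_of, grpBasis_apply D e b hb, LinearMap.id_apply]
  exact LinearMap.congr_fun h m

/-- **`Δ`-freeness, module form**: the `e j` are an `O[Δ]`-basis of `M`. -/
noncomputable def lamBasis :
    letI := lamModule D hpow hcomm
    Basis ι (Lam N O) M :=
  letI := lamModule D hpow hcomm
  Basis.ofRepr (LinearEquiv.ofBijective (lamComb D hpow hcomm e)
    ⟨Function.LeftInverse.injective (lamCoord_lamComb D hpow hcomm e b hb),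
      Function.RightInverse.surjective (lamComb_lamCoord D hpow hcomm e b hb)⟩).symm

theorem lamBasis_apply (j : ι) :
    letI := lamModule D hpow hcomm
    lamBasis D hpow hcomm e b hb j = e j := by
  letI := lamModule D hpow hcomm
  show lamComb D hpow hcomm e (Finsupp.single j 1) = e j
  rw [lamComb_single, map_one, Module.End.one_apply]

include e b hb in
theorem free_lam :
    letI := lamModule D hpow hcomm
    Module.Free (Lam N O) M :=
  letI := lamModule D hpow hcomm
  Module.Free.of_basis (lamBasis D hpow hcomm e b hb)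

include e b hb in
theorem finite_lam [Finite ι] :
    letI := lamModule D hpow hcomm
    Module.Finite (Lam N O) M :=
  letI := lamModule D hpow hcomm
  Module.Finite.of_basis (lamBasis D hpow hcomm e b hb)

end Basis

/-! ### the commutant of the diamonds acts `O[Δ]`-linearly: ring-hom properties, matrix form -/

section Commutant

variable {k : ℕ} {N : Fin k → ℕ} [∀ i, NeZero (N i)]
  (D : Fin k → Module.End O M) (hpow : ∀ i, D i ^ N i = 1)
  (hcomm : ∀ i j, D i * D j = D j * D i)

theorem comm_mul {t t' : Module.End O M} (ht : ∀ i, t * D i = D i * t)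
    (ht' : ∀ i, t' * D i = D i * t') (i : Fin k) : (t * t') * D i = D i * (t * t') := by
  rw [mul_assoc, ht', ← mul_assoc, ht, mul_assoc]

theorem comm_add {t t' : Module.End O M} (ht : ∀ i, t * D i = D i * t)
    (ht' : ∀ i, t' * D i = D i * t') (i : Fin k) : (t + t') * D i = D i * (t + t') := by
  rw [add_mul, mul_add, ht, ht']

theorem comm_one (i : Fin k) : (1 : Module.End O M) * D i = D i * 1 := by
  rw [one_mul, mul_one]

theorem toLamEnd_mul (t t' : Module.End O M) (ht : ∀ i, t * D i = D i * t)
    (ht' : ∀ i, t' * D i = D i * t') :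
    letI := lamModule D hpow hcomm
    toLamEnd D hpow hcomm (t * t') (comm_mul D ht ht') =
      (toLamEnd D hpow hcomm t ht) ∘ₗ (toLamEnd D hpow hcomm t' ht') := rfl

theorem toLamEnd_add (t t' : Module.End O M) (ht : ∀ i, t * D i = D i * t)
    (ht' : ∀ i, t' * D i = D i * t') :
    letI := lamModule D hpow hcomm
    toLamEnd D hpow hcomm (t + t') (comm_add D ht ht') =
      toLamEnd D hpow hcomm t ht + toLamEnd D hpow hcomm t' ht' := rfl

theorem toLamEnd_one :
    letI := lamModule D hpow hcomm
    toLamEnd D hpow hcomm 1 (comm_one D) = LinearMap.id := rfl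

/-- `∑ᵢ (D i - 1) M = I_Δ M` with `I_Δ = (sg i - 1)ᵢ` the augmentation ideal. -/
theorem mem_iSup_range_sub_one_iff (x : M) :
    letI := lamModule D hpow hcomm
    x ∈ (⨆ i, LinearMap.range (D i - 1)) ↔
      x ∈ (Ideal.span (Set.range fun i => sg O N i - 1) • ⊤ : Submodule (Lam N O) M) := by
  letI := lamModule D hpow hcomm
  constructor
  · intro hx
    refine Submodule.iSup_induction (fun i => LinearMap.range (D i - 1))
      (motive := fun x => x ∈ (Ideal.span (Set.range fun i => sg O N i - 1) • ⊤ :
        Submodule (Lam N O) M)) hx ?_ ?_ ?_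
    · rintro i _ ⟨m, rfl⟩
      have : (D i - 1) m = (sg O N i - 1) • m := by
        rw [sub_smul, sg_smul, one_smul]; rfl
      rw [this]
      exact Submodule.smul_mem_smul (Ideal.subset_span ⟨i, rfl⟩) Submodule.mem_top
    · exact Submodule.zero_mem _
    · intro x y hx hy
      exact Submodule.add_mem _ hx hy
  · intro hx
    have key : ∀ r ∈ Ideal.span (Set.range fun i => sg O N i - 1), ∀ m : M,
        r • m ∈ ⨆ i, LinearMap.range (D i - 1) := by
      intro r hr
      induction hr using Submodule.span_induction with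
      | mem r hr =>
        obtain ⟨i, rfl⟩ := hr
        intro m
        have : (sg O N i - 1) • m = (D i - 1) m := by
          rw [sub_smul, sg_smul, one_smul]; rfl
        rw [this]
        exact (le_iSup (fun i => LinearMap.range (D i - 1)) i) ⟨m, rfl⟩
      | zero => intro m; rw [zero_smul]; exact Submodule.zero_mem _
      | add r r' _ _ hr hr' => intro m; rw [add_smul]; exact Submodule.add_mem _ (hr m) (hr' m)
      | smul a r _ hr =>
        intro m
        rw [smul_eq_mul, mul_comm, mul_smul]
        exact hr (a • m)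
    refine Submodule.smul_induction_on hx (fun r hr m _ => key r hr m) ?_
    intro x y hx hy
    exact Submodule.add_mem _ hx hy

variable {ι : Type*} [Fintype ι] [DecidableEq ι] (e : ι → M)
  (b : Basis ((∀ i : Fin k, Fin (N i)) × ι) O M)
  (hb : ∀ a j, b (a, j) = mono D (fun i => ((a i : Fin (N i)) : ℕ)) (e j))

/-- the matrix over `O[Δ]` of an `O`-endomorphism commuting with the diamonds -/
noncomputable def lamMatrix (t : Module.End O M) (ht : ∀ i, t * D i = D i * t) :
    Matrix ι ι (Lam N O) :=
  letI := lamModule D hpow hcomm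
  LinearMap.toMatrix (lamBasis D hpow hcomm e b hb) (lamBasis D hpow hcomm e b hb)
    (toLamEnd D hpow hcomm t ht)

theorem lamMatrix_mul (t t' : Module.End O M) (ht : ∀ i, t * D i = D i * t)
    (ht' : ∀ i, t' * D i = D i * t') :
    lamMatrix D hpow hcomm e b hb (t * t') (comm_mul D ht ht') =
      lamMatrix D hpow hcomm e b hb t ht * lamMatrix D hpow hcomm e b hb t' ht' := by
  letI := lamModule D hpow hcomm
  rw [lamMatrix, lamMatrix, lamMatrix, toLamEnd_mul]
  exact LinearMap.toMatrix_comp _ _ _ _ _

theorem lamMatrix_add (t t' : Module.End O M) (ht : ∀ i, t * D i = D i * t)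
    (ht' : ∀ i, t' * D i = D i * t') :
    lamMatrix D hpow hcomm e b hb (t + t') (comm_add D ht ht') =
      lamMatrix D hpow hcomm e b hb t ht + lamMatrix D hpow hcomm e b hb t' ht' := by
  letI := lamModule D hpow hcomm
  rw [lamMatrix, lamMatrix, lamMatrix, toLamEnd_add, map_add]

theorem lamMatrix_one :
    lamMatrix D hpow hcomm e b hb 1 (comm_one D) = 1 := by
  letI := lamModule D hpow hcomm
  rw [lamMatrix, toLamEnd_one]
  exact LinearMap.toMatrix_id _

/-- the defining property: `t (e j) = ∑ i, (lamMatrix t) i j • e i` in `M` over `O[Δ]`. -/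
theorem lamMatrix_spec (t : Module.End O M) (ht : ∀ i, t * D i = D i * t) (j : ι) :
    t (e j) = ∑ i, lamAct D hpow hcomm (lamMatrix D hpow hcomm e b hb t ht i j) (e i) := by
  letI := lamModule D hpow hcomm
  have h := (lamBasis D hpow hcomm e b hb).sum_repr (toLamEnd D hpow hcomm t ht (e j))
  rw [toLamEnd_apply] at h
  rw [← h]
  refine Finset.sum_congr rfl fun i _ => ?_
  rw [lamMatrix, LinearMap.toMatrix_apply, lamBasis_apply, lamBasis_apply]
  rfl

end Commutant

/-! ### wrappers for `FreeLevel` -/

section Level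

variable {O : Type} [CommRing O] {𝕋 : Type} [CommRing 𝕋] [Algebra O 𝕋]
  {M0 : Type} [AddCommGroup M0] [Module O M0] {act0 : 𝕋 →ₐ[O] Module.End O M0}
  {k : ℕ} {N : Fin k → ℕ} [∀ i, NeZero (N i)]

/-- the `O[Δ_Q]`-module structure of a Taylor–Wiles level -/
@[reducible] noncomputable def levelModule (F : FreeLevel O 𝕋 M0 act0 k N) :
    Module (Lam N O) F.M :=
  lamModule F.D F.D_pow F.D_comm

/-- **`M_Q` is free over `O[Δ_Q]` on `F.e`** -/
noncomputable def levelBasis (F : FreeLevel O 𝕋 M0 act0 k N) :
    letI := levelModule F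
    Basis (Fin F.d) (Lam N O) F.M :=
  lamBasis F.D F.D_pow F.D_comm F.e F.basis F.basis_eq

theorem levelBasis_apply (F : FreeLevel O 𝕋 M0 act0 k N) (j : Fin F.d) :
    letI := levelModule F
    levelBasis F j = F.e j :=
  lamBasis_apply F.D F.D_pow F.D_comm F.e F.basis F.basis_eq j

/-- the Hecke operators are `O[Δ_Q]`-linear -/
noncomputable def levelAct (F : FreeLevel O 𝕋 M0 act0 k N) (t : 𝕋) :
    letI := levelModule F
    F.M →ₗ[Lam N O] F.M :=
  toLamEnd F.D F.D_pow F.D_comm (F.act t) (F.act_D t)

@[simp] theorem levelAct_apply (F : FreeLevel O 𝕋 M0 act0 k N) (t : 𝕋) (m : F.M) :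
    letI := levelModule F
    levelAct F t m = F.act t m := rfl

theorem level_sg_smul (F : FreeLevel O 𝕋 M0 act0 k N) (i : Fin k) (m : F.M) :
    letI := levelModule F
    sg O N i • m = F.D i m :=
  sg_smul F.D F.D_pow F.D_comm i m

/-- `ker π = I_Δ M_Q` -/
theorem level_ker_π (F : FreeLevel O 𝕋 M0 act0 k N) (x : F.M) :
    letI := levelModule F
    F.π x = 0 ↔
      x ∈ (Ideal.span (Set.range fun i => sg O N i - 1) • ⊤ : Submodule (Lam N O) F.M) := by
  letI := levelModule F
  rw [F.ker_π]
  exact mem_iSup_range_sub_one_iff F.D F.D_pow F.D_comm x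

end Level

end Fermat.Agent.GB.B3.Lambda
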