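/-
GATE-B / GB-B3-LAMBDA, bridge (helper24): the two models of `O[Δ_Q]` acting on `M_Q` that landed
in parallel — helper66's `GB/Alg/UnitGrp` (`rho`, `gam`, `sg`) and `GB/B3/Lambda`
(`diaHom`, `lamAct`, `sg`) — are EQUAL (same group, same algebra, same action), so results stated
with either can be mixed.
-/
import Fermat.Agent.GB.B3.Lambda
import Fermat.Agent.GB.Alg.UnitGrp

set_option autoImplicit false
set_option linter.unusedSectionVars false

namespace Fermat.Agent.GB.B3.Lambda

open Fermat.Agent.GB.Alg Fermat.Agent.GB.B3.TWLevel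

variable {O M : Type*} [CommRing O] [AddCommGroup M] [Module O M]
  {k : ℕ} {N : Fin k → ℕ} [∀ i, NeZero (N i)]
  (D : Fin k → Module.End O M) (hpow : ∀ i, D i ^ N i = 1)
  (hcomm : ∀ i j, D i * D j = D j * D i)

/-- the commutation hypothesis in helper66's spelling -/
theorem commute_of_mul {k : ℕ} (D : Fin k → Module.End O M)
    (hcomm : ∀ i j, D i * D j = D j * D i) (i j : Fin k) : Commute (D i) (D j) := hcomm i j

theorem diaHom_eq_rho :
    diaHom D hpow hcomm = UnitGrp.rho N D hpow (commute_of_mul D hcomm) :=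
  MonoidHom.ext fun g => (UnitGrp.rho_apply N D hpow (commute_of_mul D hcomm) g).symm

theorem lamAct_eq_gam :
    lamAct D hpow hcomm = UnitGrp.gam N D hpow (commute_of_mul D hcomm) := by
  unfold lamAct UnitGrp.gam
  rw [diaHom_eq_rho]

theorem sg_eq (i : Fin k) : sg O N i = UnitGrp.sg N O i := by
  rw [sg, UnitGrp.sg, MonoidAlgebra.of_apply]

end Fermat.Agent.GB.B3.Lambda
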