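import Mathlib
import Fermat.Agent.GB.B3.Outer
import Fermat.Agent.GB.B3.GammaH2
import Fermat.Agent.GB.B3.HomFree

/-!
# GATE-B / B3 (helper46): the groups of the Taylor–Wiles tower

Group-theoretic facts about the stages `Γ₁(N) ≤ K ≤ Γ₀(N)` of the tower
(`Gam1 N := kerSub (dUnits N)`, every `GamH.GammaH θ` is such a `K`):

* `normalIn_of_between` : `Outer.NormalIn K (Gamma0 N)` (commutators of `Γ₀(N)` lie in `Γ₁(N)`);
* `finiteIndex_of_Gam1_le`, `fg_of_Gam1_le`, `homFinite_of_Gam1_le`, `homFree_of_Gam1_le` :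
  `K` has finite index in `SL(2,ℤ)` (`Γ(N) ≤ Γ₁(N)`), is finitely generated, and `Hom(K, O)` is a
  finite free `O`-module;
* `neg_one_mem_GammaH_iff` : `-1 ∈ Γ_H ↔ θ (-1) = 1`;
* the STEP GROUP `stepSub hK0 θ' := kerSub (stepChi hK0 θ')`, `stepChi hK0 θ' := χ_θ' |_K`:
  bounds, membership, invariance of `stepChi` under conjugation by `Γ₀(N)` (the binder of
  `Outer.normal_kerSub`), values of `stepChi`;
* `stepSub_GammaH` : the step group over `GammaH θ` cut out by `θ'` is `GammaH (θ.prod θ')`;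
* `GammaH_comp_eq_stepSub`-free relative form: `GammaH_prod_le_left`.
-/

set_option autoImplicit false

open scoped MatrixGroups
open CongruenceSubgroup

namespace Fermat.Agent.GB.B3.StageGroups

open Fermat.Agent.GB.B3 Fermat.Agent.GB.B3.EisGamma0 Fermat.Agent.GB.B3.Outer
  Fermat.Agent.GB.B3.GamH Fermat.Agent.GM.EisClass

variable {N : ℕ}

/-! ### membership in kernel subgroups -/

theorem mem_kerSub_iff' {Γ : Subgroup SL(2,ℤ)} {Δ : Type} [Group Δ] (χ : Γ →* Δ) (g : SL(2,ℤ)) :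
    g ∈ kerSub χ ↔ ∃ hg : g ∈ Γ, χ ⟨g, hg⟩ = 1 := by
  constructor
  · rintro ⟨k, hk, rfl⟩
    exact ⟨k.2, hk⟩
  · rintro ⟨hg, h⟩
    exact ⟨⟨g, hg⟩, h, rfl⟩

/-! ### the bottom group `Γ₁(N)` -/

/-- the bottom group of every tower: the kernel of `d mod N` on `Γ₀(N)` (`= Γ₁(N)`) -/
noncomputable def Gam1 (N : ℕ) : Subgroup SL(2,ℤ) := kerSub (dUnits N)

theorem mem_Gam1_iff (g : SL(2,ℤ)) :
    g ∈ Gam1 N ↔ ∃ hg : g ∈ Gamma0 N, dUnits N ⟨g, hg⟩ = 1 :=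
  mem_kerSub_iff' (dUnits N) g

theorem Gam1_le_Gamma0 : Gam1 N ≤ Gamma0 N := kerSub_le (dUnits N)

theorem dUnits_eq_one_iff (g : Gamma0 N) :
    dUnits N g = 1 ↔ (((g : SL(2,ℤ)) 1 1 : ℤ) : ZMod N) = 1 := by
  rw [Units.ext_iff, coe_dUnits, Units.val_one]
  rfl

/-- the principal congruence subgroup lies in `Γ₁(N)` -/
theorem Gamma_le_Gam1 : Gamma N ≤ Gam1 N := by
  intro g hg
  rw [Gamma_mem] at hg
  rw [mem_Gam1_iff]
  refine ⟨Gamma0_mem.mpr hg.2.2.1, ?_⟩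
  rw [dUnits_eq_one_iff]
  exact hg.2.2.2

theorem Gam1_le_GammaH {Δ : Type} [CommGroup Δ] (θ : (ZMod N)ˣ →* Δ) : Gam1 N ≤ GammaH θ := by
  intro g hg
  obtain ⟨h0, h1⟩ := (mem_Gam1_iff g).mp hg
  rw [mem_GammaH_iff]
  exact ⟨h0, by rw [h1, map_one]⟩

/-! ### stages `Γ₁(N) ≤ K ≤ Γ₀(N)` -/

section Between

variable {K : Subgroup SL(2,ℤ)}

/-- **every stage is normalised by `Γ₀(N)`** -/
theorem normalIn_of_between (hK0 : K ≤ Gamma0 N) (hK1 : Gam1 N ≤ K) :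
    NormalIn K (Gamma0 N) where
  le := hK0
  conj d hd k hk := by
    -- `d k d⁻¹ = (d k d⁻¹ k⁻¹) k`, and the commutator lies in `Γ₁(N)`
    have hk0 : k ∈ Gamma0 N := hK0 hk
    have hc : d * k * d⁻¹ * k⁻¹ ∈ Gam1 N := by
      rw [mem_Gam1_iff]
      refine ⟨(Gamma0 N).mul_mem ((Gamma0 N).mul_mem ((Gamma0 N).mul_mem hd hk0)
        ((Gamma0 N).inv_mem hd)) ((Gamma0 N).inv_mem hk0), ?_⟩
      have h1 : (⟨d * k * d⁻¹ * k⁻¹, (Gamma0 N).mul_mem ((Gamma0 N).mul_mem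
          ((Gamma0 N).mul_mem hd hk0) ((Gamma0 N).inv_mem hd)) ((Gamma0 N).inv_mem hk0)⟩ : Gamma0 N)
          = (⟨d, hd⟩ : Gamma0 N) * ⟨k, hk0⟩ * (⟨d, hd⟩ : Gamma0 N)⁻¹ * (⟨k, hk0⟩ : Gamma0 N)⁻¹ := rfl
      rw [h1, map_mul, map_mul, map_mul, map_inv, map_inv]
      rw [mul_comm (dUnits N ⟨d, hd⟩), mul_assoc (dUnits N ⟨k, hk0⟩), mul_inv_cancel, mul_one,
        mul_inv_cancel]
    have h2 : d * k * d⁻¹ = (d * k * d⁻¹ * k⁻¹) * k := by group
    rw [h2]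
    exact K.mul_mem (hK1 hc) hk

/-- **every stage has finite index in `SL(2,ℤ)`** -/
theorem finiteIndex_of_Gam1_le [NeZero N] (hK1 : Gam1 N ≤ K) : K.FiniteIndex :=
  Subgroup.finiteIndex_of_le (le_trans Gamma_le_Gam1 hK1)

/-- the coset space of every stage is finite (`letI := Fintype.ofFinite _` at use sites) -/
theorem finite_quotient_of_Gam1_le [NeZero N] (hK1 : Gam1 N ≤ K) : Finite (SL(2,ℤ) ⧸ K) :=
  haveI := finiteIndex_of_Gam1_le hK1
  Subgroup.finite_quotient_of_finiteIndex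

/-- every stage is finitely generated -/
theorem fg_of_Gam1_le [NeZero N] (hK1 : Gam1 N ≤ K) : Group.FG K :=
  haveI := finiteIndex_of_Gam1_le hK1
  HomFree.fg_of_finiteIndex_SL2Z K

/-- **`Hom(K, O)` is a finite `O`-module** at every stage -/
theorem homFinite_of_Gam1_le [NeZero N] (hK1 : Gam1 N ≤ K) (O : Type*) [CommRing O]
    [IsNoetherianRing O] : Module.Finite O (Additive K →+ O) :=
  haveI := finiteIndex_of_Gam1_le hK1
  HomFree.homFinite_SL2Z K O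

/-- **`Hom(K, O)` is a free `O`-module** at every stage -/
theorem homFree_of_Gam1_le [NeZero N] (hK1 : Gam1 N ≤ K) (O : Type*) [CommRing O]
    [IsDomain O] [IsPrincipalIdealRing O] : Module.Free O (Additive K →+ O) :=
  haveI := finiteIndex_of_Gam1_le hK1
  HomFree.homFree_SL2Z K O

end Between

/-! ### the stages `Γ_H` -/

section GammaHFacts

variable {Δ : Type} [CommGroup Δ] (θ : (ZMod N)ˣ →* Δ)

theorem normalIn_GammaH : NormalIn (GammaH θ) (Gamma0 N) :=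
  normalIn_of_between (GammaH_le θ) (Gam1_le_GammaH θ)

theorem finiteIndex_GammaH [NeZero N] : (GammaH θ).FiniteIndex :=
  finiteIndex_of_Gam1_le (Gam1_le_GammaH θ)

theorem finite_quotient_GammaH [NeZero N] : Finite (SL(2,ℤ) ⧸ GammaH θ) :=
  finite_quotient_of_Gam1_le (Gam1_le_GammaH θ)

theorem fg_GammaH [NeZero N] : Group.FG (GammaH θ) := fg_of_Gam1_le (Gam1_le_GammaH θ)

theorem homFinite_GammaH [NeZero N] (O : Type*) [CommRing O] [IsNoetherianRing O] :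
    Module.Finite O (Additive (GammaH θ) →+ O) := homFinite_of_Gam1_le (Gam1_le_GammaH θ) O

theorem homFree_GammaH [NeZero N] (O : Type*) [CommRing O] [IsDomain O]
    [IsPrincipalIdealRing O] : Module.Free O (Additive (GammaH θ) →+ O) :=
  homFree_of_Gam1_le (Gam1_le_GammaH θ) O

theorem neg_one_mem_Gamma0 : (-1 : SL(2,ℤ)) ∈ Gamma0 N := by
  rw [Gamma0_mem]
  simp

theorem dUnits_neg_one : dUnits N ⟨-1, neg_one_mem_Gamma0⟩ = -1 := by
  apply Units.ext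
  rw [coe_dUnits, Units.val_neg, Units.val_one]
  show ((((-1 : SL(2,ℤ)) 1 1 : ℤ)) : ZMod N) = -1
  simp

/-- **`-1 ∈ Γ_H ↔ θ (-1) = 1`** -/
theorem neg_one_mem_GammaH_iff : (-1 : SL(2,ℤ)) ∈ GammaH θ ↔ θ (-1) = 1 := by
  rw [mem_GammaH_iff]
  constructor
  · rintro ⟨hg, h⟩
    rwa [dUnits_neg_one] at h
  · intro h
    exact ⟨neg_one_mem_Gamma0, by rw [dUnits_neg_one]; exact h⟩

end GammaHFacts

/-! ### the step group -/

section Step

variable {K : Subgroup SL(2,ℤ)} (hK0 : K ≤ Gamma0 N) {Δ' : Type} [CommGroup Δ']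
  (θ' : (ZMod N)ˣ →* Δ')

/-- the restriction of `χ_θ'` to the stage `K` -/
noncomputable def stepChi : K →* Δ' := (chi θ').comp (Subgroup.inclusion hK0)

theorem stepChi_apply (k : K) :
    stepChi hK0 θ' k = θ' (dUnits N ⟨(k : SL(2,ℤ)), hK0 k.2⟩) := rfl

/-- **the step group**: the kernel of `χ_θ'` on `K` -/
noncomputable def stepSub : Subgroup SL(2,ℤ) := kerSub (stepChi hK0 θ')

theorem mem_stepSub_iff (g : SL(2,ℤ)) :
    g ∈ stepSub hK0 θ' ↔ ∃ hg : g ∈ K, θ' (dUnits N ⟨g, hK0 hg⟩) = 1 :=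
  mem_kerSub_iff' (stepChi hK0 θ') g

theorem stepSub_le : stepSub hK0 θ' ≤ K := kerSub_le _

theorem stepSub_le_Gamma0 : stepSub hK0 θ' ≤ Gamma0 N := le_trans (stepSub_le hK0 θ') hK0

theorem Gam1_le_stepSub (hK1 : Gam1 N ≤ K) : Gam1 N ≤ stepSub hK0 θ' := by
  intro g hg
  obtain ⟨h0, h1⟩ := (mem_Gam1_iff g).mp hg
  rw [mem_stepSub_iff]
  refine ⟨hK1 hg, ?_⟩
  have : (⟨g, hK0 (hK1 hg)⟩ : Gamma0 N) = ⟨g, h0⟩ := rfl
  rw [this, h1, map_one]

/-- **`χ_θ' |_K` is invariant under conjugation by `Γ₀(N)`** (the binder `hχ` of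
`Outer.normal_kerSub`) -/
theorem stepChi_conjN (hK : NormalIn K (Gamma0 N)) (d : Gamma0 N) (k : K) :
    stepChi hK0 θ' (conjN hK d k) = stepChi hK0 θ' k := by
  rw [stepChi_apply, stepChi_apply]
  have h1 : (⟨((conjN hK d k : K) : SL(2,ℤ)), hK0 (conjN hK d k).2⟩ : Gamma0 N)
      = d * ⟨(k : SL(2,ℤ)), hK0 k.2⟩ * d⁻¹ := rfl
  have h2 : dUnits N (d * ⟨(k : SL(2,ℤ)), hK0 k.2⟩ * d⁻¹) = dUnits N ⟨(k : SL(2,ℤ)), hK0 k.2⟩ := by
    rw [map_mul, map_mul, map_inv, mul_right_comm, mul_inv_cancel, one_mul]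
  rw [h1, h2]

/-- the step group is again normalised by `Γ₀(N)` -/
theorem normalIn_stepSub (hK : NormalIn K (Gamma0 N)) : NormalIn (stepSub hK0 θ') (Gamma0 N) :=
  normal_kerSub hK (stepChi hK0 θ') (stepChi_conjN hK0 θ' hK)

/-- values of the step character: every unit in the `d`-image of `K` is hit -/
theorem exists_stepChi_eq (u : (ZMod N)ˣ) (hu : ∃ k : K, dUnits N ⟨(k : SL(2,ℤ)), hK0 k.2⟩ = u) :
    ∃ d0 : K, stepChi hK0 θ' d0 = θ' u := by
  obtain ⟨k, rfl⟩ := hu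
  exact ⟨k, rfl⟩

/-- surjectivity of the step character from a CRT-type hypothesis -/
theorem stepChi_surjective
    (hsurj : ∀ δ : Δ', ∃ k : K, θ' (dUnits N ⟨(k : SL(2,ℤ)), hK0 k.2⟩) = δ) :
    Function.Surjective (stepChi hK0 θ') := hsurj

end Step

/-! ### the step group over `Γ_H` is `Γ_{H ∩ H'}` -/

section Prod

variable {Δ Δ' : Type} [CommGroup Δ] [CommGroup Δ'] (θ : (ZMod N)ˣ →* Δ) (θ' : (ZMod N)ˣ →* Δ')

/-- **the final identification**: the step group over `GammaH θ` cut out by `θ'` is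
`GammaH (θ.prod θ')` -/
theorem stepSub_GammaH : stepSub (GammaH_le θ) θ' = GammaH (θ.prod θ') := by
  ext g
  constructor
  · intro hg
    obtain ⟨hg, h'⟩ := (mem_stepSub_iff (GammaH_le θ) θ' g).mp hg
    obtain ⟨h0, h⟩ := (mem_GammaH_iff θ g).mp hg
    refine (mem_GammaH_iff (θ.prod θ') g).mpr ⟨h0, ?_⟩
    rw [MonoidHom.prod_apply, Prod.mk_eq_one]
    exact ⟨h, h'⟩
  · intro hg
    obtain ⟨h0, h⟩ := (mem_GammaH_iff (θ.prod θ') g).mp hg
    rw [MonoidHom.prod_apply, Prod.mk_eq_one] at h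
    exact (mem_stepSub_iff (GammaH_le θ) θ' g).mpr ⟨(mem_GammaH_iff θ g).mpr ⟨h0, h.1⟩, h.2⟩

theorem GammaH_prod_le_left : GammaH (θ.prod θ') ≤ GammaH θ := by
  rw [← stepSub_GammaH]
  exact stepSub_le _ _

/-- the relative form: `GammaH θ = GammaH (π ∘ (θ.prod θ'))` for the first projection -/
theorem GammaH_fst_comp_prod : GammaH ((MonoidHom.fst Δ Δ').comp (θ.prod θ')) = GammaH θ := by
  congr 1

end Prod

end Fermat.Agent.GB.B3.StageGroups
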